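/-
S15, TOP layer (helper80, architect): the INTERFACE PROPS of the top seam.

One `Prop` per layer.  A layer PROVES its Prop; the top seam `TopSeam80.s15_of_layers`
consumes them as hypotheses and derives the frozen S15 statement.  Nothing here is a
`structure` or a `class`.

* `IsLevelPullback π d` : the three clauses of main's `ESJ.LevelPullback` for a GIVEN `π`
                          (`ESJ.LevelPullback N M d ↔ ∃ π, IsLevelPullback π d` by `Iff.rfl`: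
                          `TopSeam80.levelPullback_iff`).
* `CuspFacts c₀`        : (L12) the cuspidal class `c₀ = [(0) − (∞)]` on `J₀(p)`: Galois-fixed,
                          torsion, nonzero, Eisenstein (`T_q c₀ = (1 + q) c₀`).
* `MStar c₀`            : (M) Mazur's point: from a counterexample to S15 at `ℓ ≥ 5`, a
                          Galois-fixed class `y` that dies at 2 (level `3p`), dies at 3
                          (level `2p`), and with `y + c₀` dying at `ℓ` (level `p`).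
* `DescOut`             : (DESC) the Eisenstein descent: a Hecke polynomial `η` which kills
                          `J₀(p)(ℚ)` up to torsion and fixes the Eisenstein class `c₁`.
* `RedC c₀`             : (RED-c) multiples of `c₀` killed by `ℓ` do not die at `ℓ ≥ 5`.

(KS) and the torsion statements at 2, 3 are on main (`S15P/KS73`, `ESJ/Red/R2Good`) and are
cited by the seam directly.
-/
import Mathlib
import Fermat.Prelude.Def_EllipticCurve_ZeroComponentAt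
import Fermat.Prelude.Def_FLTPrelim_Ramification
import Fermat.Prelude.Def_ModularCurve_HeckeModule
import Fermat.Prelude.Def_ModularCurve_ReductionModL
import Fermat.Agent.ESJ.Interfaces

set_option autoImplicit false

namespace Fermat.Agent.S15P.Interfaces80

open ModularCurve WeierstrassCurve WeierstrassCurve.Affine Fermat.Agent.ESJ

local notation "Qb" => AlgebraicClosure ℚ

/-- The three clauses of `ESJ.LevelPullback N M d` for a given map `π : J₀(N) → J₀(M)`: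
Galois-equivariant, commutes with `T_q` for `q ∤ M`, kernel killed by `d`. -/
def IsLevelPullback {N M : ℕ} [NeZero N] [NeZero M] (π : JZero N →+ JZero M) (d : ℕ) : Prop :=
  (∀ (σ : GQ) (x : JZero N), π (σ • x) = σ • π x) ∧
  (∀ q : Nat.Primes, ¬ (q : ℕ) ∣ M → ∀ x : JZero N,
    π (heckeOperatorBar N q x) = heckeOperatorBar M q (π x)) ∧
  (∀ x : JZero N, π x = 0 → d • x = 0)

/-- **(L12) the cuspidal class.**  `c₀ p` is the class of `(0) − (∞)` on `J₀(p)`. -/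
def CuspFacts (c₀ : ∀ (p : ℕ) [NeZero p], JZero p) : Prop :=
  ∀ (p : ℕ) [NeZero p], p.Prime → p ∉ ({2, 3, 5, 7, 13} : Finset ℕ) →
    (∀ σ : GQ, σ • c₀ p = c₀ p) ∧
    (∃ n : ℕ, n ≠ 0 ∧ n • c₀ p = 0) ∧
    c₀ p ≠ 0 ∧
    (∀ q : Nat.Primes, (q : ℕ) ≠ p → heckeOperatorBar p q (c₀ p) = (1 + (q : ℕ)) • c₀ p)

/-- **(M\*) Mazur's point.**  The hypotheses are those of the frozen S15 statement, with
`ℓ ≥ 5` and the NEGATION of its conclusion (`hin`).  Output: valuation rings over 2 and 3,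
level pull-backs `π₃ : J₀(p) → J₀(3p)` (kernel killed by 4), `π₂ : J₀(p) → J₀(2p)` (kernel
killed by 3) and a Galois-fixed class `y = [x − (0)]` with
`red₂ (π₃ y) = 0`, `red₃ (π₂ y) = 0`, `red_ℓ (y + c₀) = 0`. -/
def MStar (c₀ : ∀ (p : ℕ) [NeZero p], JZero p) : Prop :=
  ∀ (p : ℕ) [NeZero p] (_hp : p.Prime) (_hp' : p ∉ ({2, 3, 5, 7, 13} : Finset ℕ))
    (W : WeierstrassCurve ℤ) (_hΔ : W.Δ ≠ 0)
    (Q : ((W.map (Int.castRingHom ℚ))⁄(AlgebraicClosure ℚ)).Point)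
    (_hQfix : ∀ σ : AlgebraicClosure ℚ ≃ₐ[ℚ] AlgebraicClosure ℚ, σ • Q = Q)
    (_hQord : addOrderOf Q = p)
    (_h2Δ : (2 : ℤ) ∣ W.Δ) (_h2c₄ : ¬ (2 : ℤ) ∣ W.c₄)
    (_h2 : ∀ A : ValuationSubring (AlgebraicClosure ℚ), A.LiesOverPrime 2 →
      ¬ W.InZeroComponentAt A Q)
    (_h3Δ : (3 : ℤ) ∣ W.Δ) (_h3c₄ : ¬ (3 : ℤ) ∣ W.c₄)
    (_h3 : ∀ A : ValuationSubring (AlgebraicClosure ℚ), A.LiesOverPrime 3 →
      ¬ W.InZeroComponentAt A Q)
    (ℓ : ℕ) (_hℓ : ℓ.Prime) (_h5 : 5 ≤ ℓ) (_hℓp : ℓ ≠ p) (_hℓΔ : (ℓ : ℤ) ∣ W.Δ)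
    (_hℓc₄ : ¬ (ℓ : ℤ) ∣ W.c₄)
    (A : ValuationSubring (AlgebraicClosure ℚ)) (_hA : A.LiesOverPrime ℓ)
    (_hin : W.InZeroComponentAt A Q),
    ∃ (A₂ A₃ : ValuationSubring Qb) (π₃ : JZero p →+ JZero (p * 3))
      (π₂ : JZero p →+ JZero (p * 2)) (y : JZero p),
      A₂.LiesOverPrime 2 ∧ A₃.LiesOverPrime 3 ∧
      IsLevelPullback π₃ 4 ∧ IsLevelPullback π₂ 3 ∧
      (∀ σ : GQ, σ • y = y) ∧
      reductionModL A₂ (p * 3) (π₃ y) = 0 ∧
      reductionModL A₃ (p * 2) (π₂ y) = 0 ∧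
      reductionModL A p (y + c₀ p) = 0

/-- **(DESC) the Eisenstein descent.**  For a Galois-fixed Eisenstein class `c₁` of prime
order `r` on `J₀(p)` and a prime `ℓ ≥ 5`, `ℓ ≠ p`: a polynomial `η` in the Hecke operators
`T_q`, `q ∤ 6 p ℓ`, with `η (J₀(p)(ℚ))` torsion and `η c₁ = c₁`. -/
def DescOut : Prop :=
  ∀ (p : ℕ) [NeZero p], p.Prime → p ∉ ({2, 3, 5, 7, 13} : Finset ℕ) →
  ∀ ℓ : ℕ, ℓ.Prime → 5 ≤ ℓ → ℓ ≠ p →
  ∀ r : ℕ, r.Prime →
  ∀ c₁ : JZero p, (∀ σ : GQ, σ • c₁ = c₁) → r • c₁ = 0 → c₁ ≠ 0 →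
    (∀ q : Nat.Primes, (q : ℕ) ≠ p → heckeOperatorBar p q c₁ = (1 + (q : ℕ)) • c₁) →
    ∃ η : Module.End ℤ (JZero p),
      (∃ S : Set Nat.Primes, (∀ q ∈ S, ¬ (q : ℕ) ∣ 6 * p * ℓ) ∧
        η ∈ Algebra.adjoin ℤ (heckeOperatorBar p '' S)) ∧
      (∃ n : ℕ, n ≠ 0 ∧ ∀ y : JZero p, (∀ σ : GQ, σ • y = y) → n • η y = 0) ∧
      η c₁ = c₁

/-- **(RED-c)**: a multiple of the cuspidal class killed by `ℓ ≥ 5` and dying under the
reduction at `ℓ` is zero.  (For torsion of order prime to `ℓ` this is S18, on main.) -/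
def RedC (c₀ : ∀ (p : ℕ) [NeZero p], JZero p) : Prop :=
  ∀ (p : ℕ) [NeZero p], p.Prime → p ∉ ({2, 3, 5, 7, 13} : Finset ℕ) →
  ∀ ℓ : ℕ, ℓ.Prime → 5 ≤ ℓ → ℓ ≠ p →
  ∀ A : ValuationSubring Qb, A.LiesOverPrime ℓ →
  ∀ k : ℕ, ℓ • (k • c₀ p) = 0 → reductionModL A p (k • c₀ p) = 0 → k • c₀ p = 0

/-- **(RED-c), general form** (sufficient for `RedC c₀` given `CuspFacts c₀`): a Galois-fixed
`ℓ`-torsion class of `J₀(N)`, `ℓ ≥ 5`, `ℓ ∤ N`, dying under the reduction at `ℓ` is zero. -/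
def RedFix : Prop :=
  ∀ (N : ℕ) [NeZero N] (ℓ : ℕ), ℓ.Prime → 5 ≤ ℓ → ¬ ℓ ∣ N →
  ∀ A : ValuationSubring Qb, A.LiesOverPrime ℓ →
  ∀ x : JZero N, (∀ σ : GQ, σ • x = x) → ℓ • x = 0 → reductionModL A N x = 0 → x = 0

end Fermat.Agent.S15P.Interfaces80
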