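/-
S15, TOP layer (helper80, architect): INTERFACE PROPS, version P ("order prime to `p`").

Correction of two Props of `S15P/Interfaces80` (review by helper68, helper40, helper96):
the Eisenstein descent works at a prime `r ≠ p` only, so

* `CuspFactsP c₀` : as `Interfaces80.CuspFacts`, with the torsion clause `(p - 1) • c₀ p = 0`
                    (the divisor of `Δ(z)/Δ(pz)`), so that every prime `r` dividing the order
                    of `c₀` is `≠ p`;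
* `DescOutP`      : as `Interfaces80.DescOut`, with the extra hypothesis `r ≠ p`.

`Interfaces80.MStar`, `Interfaces80.RedC`, `Interfaces80.RedFix`, `Interfaces80.IsLevelPullback`
are unchanged and are the Props of record.  The seam of record is `TopSeam80b.s15_of_layersP`.
-/
import Mathlib
import Fermat.Agent.S15P.Interfaces80

set_option autoImplicit false

namespace Fermat.Agent.S15P.Interfaces80b

open ModularCurve WeierstrassCurve WeierstrassCurve.Affine Fermat.Agent.ESJ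

/-- **(L12) the cuspidal class.**  `c₀ p` is the class of `(0) − (∞)` on `J₀(p)`:
Galois-fixed, killed by `p − 1`, nonzero, Eisenstein. -/
def CuspFactsP (c₀ : ∀ (p : ℕ) [NeZero p], JZero p) : Prop :=
  ∀ (p : ℕ) [NeZero p], p.Prime → p ∉ ({2, 3, 5, 7, 13} : Finset ℕ) →
    (∀ σ : GQ, σ • c₀ p = c₀ p) ∧
    (p - 1) • c₀ p = 0 ∧
    c₀ p ≠ 0 ∧
    (∀ q : Nat.Primes, (q : ℕ) ≠ p → heckeOperatorBar p q (c₀ p) = (1 + (q : ℕ)) • c₀ p)

/-- **(DESC) the Eisenstein descent.**  For a Galois-fixed Eisenstein class `c₁` of prime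
order `r ≠ p` on `J₀(p)` and a prime `ℓ ≥ 5`, `ℓ ≠ p`: a polynomial `η` in the Hecke operators
`T_q`, `q ∤ 6 p ℓ`, with `η (J₀(p)(ℚ))` torsion and `η c₁ = c₁`. -/
def DescOutP : Prop :=
  ∀ (p : ℕ) [NeZero p], p.Prime → p ∉ ({2, 3, 5, 7, 13} : Finset ℕ) →
  ∀ ℓ : ℕ, ℓ.Prime → 5 ≤ ℓ → ℓ ≠ p →
  ∀ r : ℕ, r.Prime → r ≠ p →
  ∀ c₁ : JZero p, (∀ σ : GQ, σ • c₁ = c₁) → r • c₁ = 0 → c₁ ≠ 0 →
    (∀ q : Nat.Primes, (q : ℕ) ≠ p → heckeOperatorBar p q c₁ = (1 + (q : ℕ)) • c₁) →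
    ∃ η : Module.End ℤ (JZero p),
      (∃ S : Set Nat.Primes, (∀ q ∈ S, ¬ (q : ℕ) ∣ 6 * p * ℓ) ∧
        η ∈ Algebra.adjoin ℤ (heckeOperatorBar p '' S)) ∧
      (∃ n : ℕ, n ≠ 0 ∧ ∀ y : JZero p, (∀ σ : GQ, σ • y = y) → n • η y = 0) ∧
      η c₁ = c₁

end Fermat.Agent.S15P.Interfaces80b
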