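/-
S15 (helper63), layer L0, abstract part (Mathlib only): **the Fitting projector of a family of
endomorphisms commuting on torsion**.

`J` an abelian group, `T : ι → End_ℤ(J)` a family of endomorphisms, `a : ι → ℤ` a system of
eigenvalues, `m : ℕ` with `J[m]` finite and the `T i` commuting on `J[m]`.

* `Hk T`                : the subalgebra of `End_ℤ(J)` generated by the `T i`;
* `genEig T a m`        : `{x ∈ J[m] | ∀ i, ∃ n, (T i - a i) ^ n x = 0}`;
* `IsHeckeProj T a m E` : `E ∈ Hk T`, `E (J[m]) ⊆ genEig T a m`, `E = id` on `genEig T a m`;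
* `exists_isHeckeProj`  : such an `E` exists (one word in the `T i`);
* `IsHeckeProj.idem`, `.unique`, `.eq_of_eigen`, `.of_mul`, `Hk_comm`, `Hk_equivariant`;
* `exists_smul_eq_of_mem_genEig`, `card_genEig_mul`, `card_genEig_pow` (for divisible `J`):
  `# genEig (r ^ j) = (# genEig r) ^ j`.
-/
import Mathlib

set_option autoImplicit false

namespace Fermat.Agent.S15P.HeckeProj63

variable {J : Type*} [AddCommGroup J] {ι : Type*}

/-- The "Hecke algebra" generated by the operators `T i`. -/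
def Hk (T : ι → Module.End ℤ J) : Subalgebra ℤ (Module.End ℤ J) :=
  Algebra.adjoin ℤ (Set.range T)

theorem T_mem_Hk (T : ι → Module.End ℤ J) (i : ι) : T i ∈ Hk T :=
  Algebra.subset_adjoin ⟨i, rfl⟩

/-- `η i = T i - a i`. -/
def eta (T : ι → Module.End ℤ J) (a : ι → ℤ) (i : ι) : Module.End ℤ J :=
  T i - algebraMap ℤ (Module.End ℤ J) (a i)

theorem eta_mem_Hk (T : ι → Module.End ℤ J) (a : ι → ℤ) (i : ι) : eta T a i ∈ Hk T :=
  sub_mem (T_mem_Hk T i) (Subalgebra.algebraMap_mem _ _)

theorem eta_apply (T : ι → Module.End ℤ J) (a : ι → ℤ) (i : ι) (x : J) :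
    eta T a i x = T i x - a i • x := by
  simp [eta]

/-- Every endomorphism preserves the `m`-torsion. -/
theorem tors_map (m : ℕ) (A : Module.End ℤ J) {x : J} (hx : m • x = 0) : m • A x = 0 := by
  rw [← map_nsmul, hx, map_zero]

/-- Elements of `Hk T` commute with the generators on the `m`-torsion. -/
theorem Hk_comm_gen (T : ι → Module.End ℤ J) (m : ℕ)
    (hcomm : ∀ (i i' : ι) (x : J), m • x = 0 → T i (T i' x) = T i' (T i x))
    {A : Module.End ℤ J} (hA : A ∈ Hk T) (i : ι) :
    ∀ x : J, m • x = 0 → A (T i x) = T i (A x) := by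
  induction hA using Algebra.adjoin_induction with
  | mem B hB =>
    obtain ⟨i', rfl⟩ := hB
    intro x hx
    exact hcomm i' i x hx
  | algebraMap z =>
    intro x hx
    simp
  | add B C _ _ hB hC =>
    intro x hx
    simp [hB x hx, hC x hx]
  | mul B C _ _ hB hC =>
    intro x hx
    rw [Module.End.mul_apply, Module.End.mul_apply, hC x hx, hB _ (tors_map m C hx)]

/-- **Commutativity on torsion**: any two elements of `Hk T` commute on the `m`-torsion. -/
theorem Hk_comm (T : ι → Module.End ℤ J) (m : ℕ)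
    (hcomm : ∀ (i i' : ι) (x : J), m • x = 0 → T i (T i' x) = T i' (T i x))
    {A B : Module.End ℤ J} (hA : A ∈ Hk T) (hB : B ∈ Hk T) :
    ∀ x : J, m • x = 0 → A (B x) = B (A x) := by
  induction hB using Algebra.adjoin_induction with
  | mem C hC =>
    obtain ⟨i, rfl⟩ := hC
    exact Hk_comm_gen T m hcomm hA i
  | algebraMap z =>
    intro x hx
    simp
  | add C D _ _ hC hD =>
    intro x hx
    simp [hC x hx, hD x hx]
  | mul C D _ _ hC hD =>
    intro x hx
    rw [Module.End.mul_apply, Module.End.mul_apply, hC _ (tors_map m D hx), hD x hx]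

/-- **Equivariance**: if the generators commute with an action, so does every element. -/
theorem Hk_equivariant {Γ : Type*} [Monoid Γ] [DistribMulAction Γ J] (T : ι → Module.End ℤ J)
    (hT : ∀ (i : ι) (γ : Γ) (x : J), T i (γ • x) = γ • T i x)
    {A : Module.End ℤ J} (hA : A ∈ Hk T) (γ : Γ) : ∀ x : J, A (γ • x) = γ • A x := by
  induction hA using Algebra.adjoin_induction with
  | mem B hB =>
    obtain ⟨i, rfl⟩ := hB
    exact hT i γ
  | algebraMap z =>
    intro x
    rw [Module.algebraMap_end_apply, Module.algebraMap_end_apply]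
    exact (map_zsmul (DistribSMul.toAddMonoidHom J γ) z x).symm
  | add B C _ _ hB hC =>
    intro x
    rw [LinearMap.add_apply, LinearMap.add_apply, hB x, hC x, smul_add]
  | mul B C _ _ hB hC =>
    intro x
    rw [Module.End.mul_apply, Module.End.mul_apply, hC x, hB]

/-- A general transfer principle: an additive subgroup stable under the generators is stable
under `Hk T`. -/
theorem Hk_map_mem (T : ι → Module.End ℤ J) (S : AddSubgroup J)
    (hS : ∀ (i : ι) (x : J), x ∈ S → T i x ∈ S)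
    {A : Module.End ℤ J} (hA : A ∈ Hk T) : ∀ x : J, x ∈ S → A x ∈ S := by
  induction hA using Algebra.adjoin_induction with
  | mem B hB =>
    obtain ⟨i, rfl⟩ := hB
    exact hS i
  | algebraMap z =>
    intro x hx
    rw [Module.algebraMap_end_apply]
    exact S.zsmul_mem hx z
  | add B C _ _ hB hC =>
    intro x hx
    rw [LinearMap.add_apply]
    exact S.add_mem (hB x hx) (hC x hx)
  | mul B C _ _ hB hC =>
    intro x hx
    rw [Module.End.mul_apply]
    exact hB _ (hC x hx)

/-- In the finite monoid of self-maps of `J[m]`, some positive power of `η` is idempotent. -/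
theorem exists_pow_idem (m : ℕ) (hfin : {x : J | m • x = 0}.Finite) (η : Module.End ℤ J) :
    ∃ K : ℕ, 0 < K ∧ ∀ x : J, m • x = 0 → (η ^ K) ((η ^ K) x) = (η ^ K) x := by
  classical
  have : Finite {x : J | m • x = 0} := hfin.to_subtype
  let f : ℕ → ({x : J | m • x = 0} → {x : J | m • x = 0}) :=
    fun n x => ⟨(η ^ n) x, tors_map m (η ^ n) x.2⟩
  obtain ⟨n₁, n₂, hne, heq⟩ := Finite.exists_ne_map_eq_of_infinite f
  have key : ∃ n d : ℕ, 0 < d ∧ ∀ x : J, m • x = 0 → (η ^ (n + d)) x = (η ^ n) x := by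
    rcases lt_or_gt_of_ne hne with h | h
    · refine ⟨n₁, n₂ - n₁, Nat.sub_pos_of_lt h, fun x hx => ?_⟩
      have h3 := congrArg (fun g => ((g ⟨x, hx⟩ : {x : J | m • x = 0}) : J)) heq
      simp only [f] at h3
      rw [Nat.add_sub_cancel' h.le]
      exact h3.symm
    · refine ⟨n₂, n₁ - n₂, Nat.sub_pos_of_lt h, fun x hx => ?_⟩
      have h3 := congrArg (fun g => ((g ⟨x, hx⟩ : {x : J | m • x = 0}) : J)) heq
      simp only [f] at h3
      rw [Nat.add_sub_cancel' h.le]
      exact h3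
  obtain ⟨n, d, hd, hnd⟩ := key
  have h1 : ∀ k, n ≤ k → ∀ x : J, m • x = 0 → (η ^ (k + d)) x = (η ^ k) x := by
    intro k hk x hx
    obtain ⟨c, rfl⟩ := Nat.exists_eq_add_of_le hk
    have e1 : η ^ (n + c + d) = η ^ c * η ^ (n + d) := by
      rw [← pow_add]
      congr 1
      omega
    have e2 : η ^ (n + c) = η ^ c * η ^ n := by
      rw [← pow_add]
      congr 1
      omega
    rw [e1, e2, Module.End.mul_apply, Module.End.mul_apply, hnd x hx]
  have h2 : ∀ t k, n ≤ k → ∀ x : J, m • x = 0 → (η ^ (k + t * d)) x = (η ^ k) x := by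
    intro t
    induction t with
    | zero =>
      intro k _ x _
      simp
    | succ t ih =>
      intro k hk x hx
      have e : k + (t + 1) * d = (k + t * d) + d := by ring
      rw [e, h1 _ (by omega) x hx, ih k hk x hx]
  have hle : n ≤ (n + 1) * d := by nlinarith
  refine ⟨(n + 1) * d, Nat.mul_pos (Nat.succ_pos n) hd, fun x hx => ?_⟩
  rw [← Module.End.mul_apply, ← pow_add]
  exact h2 (n + 1) ((n + 1) * d) hle x hx

/-- Fitting for one operator on `J[m]`: `P = 1 - η ^ K` maps `J[m]` into the generalised kernel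
of `η` and is the identity on it. -/
theorem exists_proj_one (m : ℕ) (hfin : {x : J | m • x = 0}.Finite) (η : Module.End ℤ J) :
    ∃ K : ℕ, ∀ x : J, m • x = 0 →
      (η ^ K) ((1 - η ^ K) x) = 0 ∧ ((∃ n : ℕ, (η ^ n) x = 0) → (1 - η ^ K) x = x) := by
  obtain ⟨K, hK, hidem⟩ := exists_pow_idem m hfin η
  have hpow : ∀ t : ℕ, ∀ x : J, m • x = 0 → (η ^ (K * (t + 1))) x = (η ^ K) x := by
    intro t
    induction t with
    | zero =>
      intro x _
      simp
    | succ t ih =>
      intro x hx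
      have e : K * (t + 1 + 1) = K * (t + 1) + K := by ring
      rw [e, pow_add, Module.End.mul_apply, ih _ (tors_map m _ hx), hidem x hx]
  refine ⟨K, fun x hx => ⟨?_, ?_⟩⟩
  · rw [LinearMap.sub_apply, Module.End.one_apply, map_sub, hidem x hx, sub_self]
  · rintro ⟨n, hn⟩
    have h0 : (η ^ K) x = 0 := by
      rw [← hpow n x hx]
      have hle : n ≤ K * (n + 1) := by nlinarith
      have e : K * (n + 1) = (K * (n + 1) - n) + n := by omega
      rw [e, pow_add, Module.End.mul_apply, hn, map_zero]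
    rw [LinearMap.sub_apply, Module.End.one_apply, h0, sub_zero]

/-- The generalised eigenspace of the system `a` inside the `m`-torsion. -/
def genEig (T : ι → Module.End ℤ J) (a : ι → ℤ) (m : ℕ) : AddSubgroup J where
  carrier := {x | m • x = 0 ∧ ∀ i, ∃ n : ℕ, (eta T a i ^ n) x = 0}
  zero_mem' := ⟨smul_zero _, fun _ => ⟨0, map_zero _⟩⟩
  add_mem' := by
    rintro x y ⟨hx, hx'⟩ ⟨hy, hy'⟩
    refine ⟨by rw [smul_add, hx, hy, add_zero], fun i => ?_⟩
    obtain ⟨n, hn⟩ := hx' i
    obtain ⟨k, hk⟩ := hy' i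
    refine ⟨n + k, ?_⟩
    have e1 : (eta T a i ^ (n + k)) x = 0 := by
      rw [add_comm, pow_add, Module.End.mul_apply, hn, map_zero]
    have e2 : (eta T a i ^ (n + k)) y = 0 := by
      rw [pow_add, Module.End.mul_apply, hk, map_zero]
    rw [map_add, e1, e2, add_zero]
  neg_mem' := by
    rintro x ⟨hx, hx'⟩
    exact ⟨by rw [smul_neg, hx, neg_zero],
      fun i => (hx' i).imp fun n hn => by rw [map_neg, hn, neg_zero]⟩

theorem mem_genEig {T : ι → Module.End ℤ J} {a : ι → ℤ} {m : ℕ} {x : J} :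
    x ∈ genEig T a m ↔ m • x = 0 ∧ ∀ i, ∃ n : ℕ, (eta T a i ^ n) x = 0 :=
  Iff.rfl

theorem genEig_mono (T : ι → Module.End ℤ J) (a : ι → ℤ) {m m' : ℕ} (h : m ∣ m') :
    genEig T a m ≤ genEig T a m' := by
  rintro x ⟨hx, hx'⟩
  obtain ⟨k, rfl⟩ := h
  exact ⟨by rw [mul_comm, mul_smul, hx, smul_zero], hx'⟩

/-- An eigenvector of the system `a` in `J[m]` lies in `genEig T a m`. -/
theorem mem_genEig_of_eigen (T : ι → Module.End ℤ J) (a : ι → ℤ) (m : ℕ) (c : J)
    (hc : m • c = 0) (heig : ∀ i, T i c = a i • c) : c ∈ genEig T a m :=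
  ⟨hc, fun i => ⟨1, by rw [pow_one, eta_apply, heig, sub_self]⟩⟩

/-- `genEig` is stable under `Hk T` (given commutativity on `J[m]`). -/
theorem Hk_map_genEig (T : ι → Module.End ℤ J) (a : ι → ℤ) (m : ℕ)
    (hcomm : ∀ (i i' : ι) (x : J), m • x = 0 → T i (T i' x) = T i' (T i x))
    {A : Module.End ℤ J} (hA : A ∈ Hk T) {x : J} (hx : x ∈ genEig T a m) :
    A x ∈ genEig T a m := by
  refine ⟨tors_map m A hx.1, fun i => ?_⟩
  obtain ⟨n, hn⟩ := hx.2 i
  refine ⟨n, ?_⟩
  rw [Hk_comm T m hcomm (pow_mem (eta_mem_Hk T a i) n) hA x hx.1, hn, map_zero]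

/-- `genEig` is stable under any action commuting with the `T i`. -/
theorem smul_mem_genEig {Γ : Type*} [Monoid Γ] [DistribMulAction Γ J] (T : ι → Module.End ℤ J)
    (a : ι → ℤ) (m : ℕ) (hT : ∀ (i : ι) (γ : Γ) (x : J), T i (γ • x) = γ • T i x)
    (γ : Γ) {x : J} (hx : x ∈ genEig T a m) : γ • x ∈ genEig T a m := by
  refine ⟨?_, fun i => ?_⟩
  · have := (map_nsmul (DistribSMul.toAddMonoidHom J γ) m x).symm
    simp only [DistribSMul.toAddMonoidHom_apply] at this
    rw [this, hx.1, smul_zero]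
  · obtain ⟨n, hn⟩ := hx.2 i
    refine ⟨n, ?_⟩
    rw [Hk_equivariant T hT (pow_mem (eta_mem_Hk T a i) n) γ x, hn, smul_zero]

/-- `E` is a Hecke projector onto `genEig T a m`: a word in the `T i` mapping `J[m]` into
`genEig T a m` and fixing `genEig T a m` pointwise. -/
def IsHeckeProj (T : ι → Module.End ℤ J) (a : ι → ℤ) (m : ℕ) (E : Module.End ℤ J) : Prop :=
  E ∈ Hk T ∧ (∀ x : J, m • x = 0 → E x ∈ genEig T a m) ∧ ∀ x ∈ genEig T a m, E x = x

theorem exists_proj_list (T : ι → Module.End ℤ J) (a : ι → ℤ) (m : ℕ)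
    (hfin : {x : J | m • x = 0}.Finite)
    (hcomm : ∀ (i i' : ι) (x : J), m • x = 0 → T i (T i' x) = T i' (T i x)) (l : List ι) :
    ∃ E ∈ Hk T, ∀ x : J, m • x = 0 →
      (∀ i ∈ l, ∃ n : ℕ, (eta T a i ^ n) (E x) = 0) ∧
      ((∀ i ∈ l, ∃ n : ℕ, (eta T a i ^ n) x = 0) → E x = x) := by
  induction l with
  | nil => exact ⟨1, one_mem _, fun x _ => ⟨by simp, fun _ => rfl⟩⟩
  | cons i l ih =>
    obtain ⟨E, hE, hEx⟩ := ih
    obtain ⟨K, hK⟩ := exists_proj_one m hfin (eta T a i)
    have hP : (1 - eta T a i ^ K) ∈ Hk T :=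
      sub_mem (one_mem _) (pow_mem (eta_mem_Hk T a i) K)
    refine ⟨(1 - eta T a i ^ K) * E, mul_mem hP hE, fun x hx => ⟨?_, ?_⟩⟩
    · intro i' hi'
      rw [Module.End.mul_apply]
      rcases List.mem_cons.mp hi' with rfl | hi'
      · exact ⟨K, (hK (E x) (tors_map m E hx)).1⟩
      · obtain ⟨n, hn⟩ := (hEx x hx).1 i' hi'
        refine ⟨n, ?_⟩
        rw [Hk_comm T m hcomm (pow_mem (eta_mem_Hk T a i') n) hP (E x) (tors_map m E hx), hn,
          map_zero]
    · intro h
      rw [Module.End.mul_apply,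
        (hEx x hx).2 (fun i' hi' => h i' (List.mem_cons_of_mem _ hi'))]
      exact (hK x hx).2 (h i List.mem_cons_self)

/-- **Existence of the Hecke projector** (Fitting): if `J[m]` is finite and the `T i` commute on
it, some element `E` of the algebra generated by the `T i` projects `J[m]` onto the generalised
eigenspace `genEig T a m`. -/
theorem exists_isHeckeProj (T : ι → Module.End ℤ J) (a : ι → ℤ) (m : ℕ)
    (hfin : {x : J | m • x = 0}.Finite)
    (hcomm : ∀ (i i' : ι) (x : J), m • x = 0 → T i (T i' x) = T i' (T i x)) :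
    ∃ E : Module.End ℤ J, IsHeckeProj T a m E := by
  classical
  let c : J → List ι := fun x =>
    if h : ∃ i, ∀ n : ℕ, (eta T a i ^ n) x ≠ 0 then [h.choose] else []
  let l : List ι := hfin.toFinset.toList.flatMap c
  obtain ⟨E, hE, hEx⟩ := exists_proj_list T a m hfin hcomm l
  have hl : ∀ y : J, m • y = 0 → (∀ i ∈ l, ∃ n : ℕ, (eta T a i ^ n) y = 0) →
      ∀ i, ∃ n : ℕ, (eta T a i ^ n) y = 0 := by
    intro y hy hyl
    by_contra hcon0
    obtain ⟨i₀, hi₀⟩ := not_forall.mp hcon0
    have hcon : ∃ i, ∀ n : ℕ, (eta T a i ^ n) y ≠ 0 := ⟨i₀, not_exists.mp hi₀⟩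
    have hc : c y = [hcon.choose] := dif_pos hcon
    have hmem : hcon.choose ∈ l := by
      refine List.mem_flatMap.mpr ⟨y, ?_, ?_⟩
      · rw [Finset.mem_toList, Set.Finite.mem_toFinset]
        exact hy
      · rw [hc]
        exact List.mem_singleton.mpr rfl
    obtain ⟨n, hn⟩ := hyl _ hmem
    exact hcon.choose_spec n hn
  exact ⟨E, hE, fun x hx => ⟨tors_map m E hx, hl _ (tors_map m E hx) (hEx x hx).1⟩,
    fun x hx => (hEx x hx.1).2 (fun i _ => hx.2 i)⟩

namespace IsHeckeProj

variable {T : ι → Module.End ℤ J} {a : ι → ℤ} {m : ℕ} {E E' : Module.End ℤ J}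

theorem mem_Hk (h : IsHeckeProj T a m E) : E ∈ Hk T := h.1

theorem map_mem (h : IsHeckeProj T a m E) {x : J} (hx : m • x = 0) : E x ∈ genEig T a m :=
  h.2.1 x hx

theorem map_eq (h : IsHeckeProj T a m E) {x : J} (hx : x ∈ genEig T a m) : E x = x :=
  h.2.2 x hx

/-- `E` is idempotent on `J[m]`. -/
theorem idem (h : IsHeckeProj T a m E) {x : J} (hx : m • x = 0) : E (E x) = E x :=
  h.2.2 _ (h.2.1 x hx)

/-- `E` fixes the eigenvectors of the system `a` in `J[m]`. -/
theorem eq_of_eigen (h : IsHeckeProj T a m E) (c : J) (hc : m • c = 0)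
    (heig : ∀ i, T i c = a i • c) : E c = c :=
  h.2.2 c (mem_genEig_of_eigen T a m c hc heig)

/-- `x ∈ genEig T a m ↔ x ∈ J[m] ∧ E x = x`. -/
theorem mem_iff (h : IsHeckeProj T a m E) {x : J} : x ∈ genEig T a m ↔ m • x = 0 ∧ E x = x :=
  ⟨fun hx => ⟨hx.1, h.2.2 x hx⟩, fun hx => hx.2 ▸ h.2.1 x hx.1⟩

/-- `genEig T a m = E (J[m])`. -/
theorem mem_iff_exists (h : IsHeckeProj T a m E) {g : J} :
    g ∈ genEig T a m ↔ ∃ x : J, m • x = 0 ∧ g = E x :=
  ⟨fun hg => ⟨g, hg.1, (h.2.2 g hg).symm⟩, fun ⟨x, hx, hg⟩ => hg ▸ h.2.1 x hx⟩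

/-- Two Hecke projectors agree on `J[m]`. -/
theorem unique (hcomm : ∀ (i i' : ι) (x : J), m • x = 0 → T i (T i' x) = T i' (T i x))
    (h : IsHeckeProj T a m E) (h' : IsHeckeProj T a m E') {x : J} (hx : m • x = 0) :
    E x = E' x := by
  have e1 : E' (E x) = E x := h'.2.2 _ (h.2.1 x hx)
  have e2 : E (E' x) = E' x := h.2.2 _ (h'.2.1 x hx)
  rw [← e1, Hk_comm T m hcomm h'.1 h.1 x hx, e2]

/-- A Hecke projector at level `m * k` is one at level `m`. -/
theorem of_mul {k : ℕ} (h : IsHeckeProj T a (m * k) E) : IsHeckeProj T a m E := by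
  refine ⟨h.1, fun x hx => ?_, fun x hx => h.2.2 x (genEig_mono T a (Dvd.intro k rfl) hx)⟩
  have hx' : (m * k) • x = 0 := by rw [mul_comm, mul_smul, hx, smul_zero]
  exact ⟨tors_map m E hx, (h.2.1 x hx').2⟩

/-- `E` commutes with any action commuting with the `T i`. -/
theorem equivariant {Γ : Type*} [Monoid Γ] [DistribMulAction Γ J]
    (hT : ∀ (i : ι) (γ : Γ) (x : J), T i (γ • x) = γ • T i x)
    (h : IsHeckeProj T a m E) (γ : Γ) (x : J) : E (γ • x) = γ • E x :=
  Hk_equivariant T hT h.1 γ x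

end IsHeckeProj

/-- Multiplication by `r` maps `genEig T a (r * m)` ONTO `genEig T a m` when `J` is
`r`-divisible. -/
theorem exists_smul_eq_of_mem_genEig (T : ι → Module.End ℤ J) (a : ι → ℤ) (r m : ℕ)
    (hfin : {x : J | (r * m) • x = 0}.Finite)
    (hcomm : ∀ (i i' : ι) (x : J), (r * m) • x = 0 → T i (T i' x) = T i' (T i x))
    (hdiv : ∀ x : J, ∃ y : J, r • y = x) {x : J} (hx : x ∈ genEig T a m) :
    ∃ y ∈ genEig T a (r * m), r • y = x := by
  obtain ⟨E, hE⟩ := exists_isHeckeProj T a (r * m) hfin hcomm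
  obtain ⟨y, hy⟩ := hdiv x
  have hy0 : (r * m) • y = 0 := by
    rw [mul_comm, mul_smul, hy]
    exact hx.1
  refine ⟨E y, hE.2.1 y hy0, ?_⟩
  rw [← map_nsmul, hy]
  exact hE.2.2 x (genEig_mono T a (Dvd.intro_left r rfl) hx)

theorem smul_mem_genEig_of_mul (T : ι → Module.End ℤ J) (a : ι → ℤ) (r m : ℕ) {y : J}
    (hy : y ∈ genEig T a (r * m)) : r • y ∈ genEig T a m := by
  refine ⟨?_, fun i => ?_⟩
  · rw [← mul_smul, mul_comm]
    exact hy.1
  · obtain ⟨n, hn⟩ := hy.2 i
    exact ⟨n, by rw [map_nsmul, hn, smul_zero]⟩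

/-- `# genEig (r * m) = # genEig r * # genEig m` for `r`-divisible `J`. -/
theorem card_genEig_mul (T : ι → Module.End ℤ J) (a : ι → ℤ) (r m : ℕ)
    (hfin : {x : J | (r * m) • x = 0}.Finite)
    (hcomm : ∀ (i i' : ι) (x : J), (r * m) • x = 0 → T i (T i' x) = T i' (T i x))
    (hdiv : ∀ x : J, ∃ y : J, r • y = x) :
    Nat.card (genEig T a (r * m)) = Nat.card (genEig T a r) * Nat.card (genEig T a m) := by
  let φ : genEig T a (r * m) →+ genEig T a m :=
    { toFun := fun y => ⟨r • (y : J), smul_mem_genEig_of_mul T a r m y.2⟩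
      map_zero' := by
        ext
        simp
      map_add' := by
        intro y z
        ext
        simp [smul_add] }
  have hφ : Function.Surjective φ := by
    rintro ⟨x, hx⟩
    obtain ⟨y, hy, hyx⟩ := exists_smul_eq_of_mem_genEig T a r m hfin hcomm hdiv hx
    exact ⟨⟨y, hy⟩, Subtype.ext hyx⟩
  have e1 : Nat.card (genEig T a (r * m))
      = Nat.card (genEig T a (r * m) ⧸ φ.ker) * Nat.card φ.ker :=
    AddSubgroup.card_eq_card_quotient_mul_card_addSubgroup φ.ker
  have e2 : Nat.card (genEig T a (r * m) ⧸ φ.ker) = Nat.card (genEig T a m) :=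
    Nat.card_congr (QuotientAddGroup.quotientKerEquivOfSurjective φ hφ).toEquiv
  have hker : ∀ y : genEig T a (r * m), y ∈ φ.ker ↔ r • (y : J) = 0 := by
    intro y
    rw [AddMonoidHom.mem_ker]
    constructor
    · intro h
      exact congrArg Subtype.val h
    · intro h
      exact Subtype.ext h
  have e3 : Nat.card φ.ker = Nat.card (genEig T a r) := by
    refine Nat.card_congr
      { toFun := fun y => ⟨((y : genEig T a (r * m)) : J), (hker y.1).mp y.2, y.1.2.2⟩
        invFun := fun y => ⟨⟨(y : J), genEig_mono T a (Dvd.intro m rfl) y.2⟩,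
          (hker _).mpr y.2.1⟩
        left_inv := fun y => by
          ext
          rfl
        right_inv := fun y => by
          ext
          rfl }
  rw [e1, e2, e3, mul_comm]

/-- **`# genEig (r ^ j) = (# genEig r) ^ j`** for `r`-divisible `J` with finite `r`-power torsion
on which the `T i` commute. -/
theorem card_genEig_pow (T : ι → Module.End ℤ J) (a : ι → ℤ) (r : ℕ)
    (hfin : ∀ j : ℕ, {x : J | r ^ j • x = 0}.Finite)
    (hcomm : ∀ (j : ℕ) (i i' : ι) (x : J), r ^ j • x = 0 → T i (T i' x) = T i' (T i x))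
    (hdiv : ∀ x : J, ∃ y : J, r • y = x) (j : ℕ) :
    Nat.card (genEig T a (r ^ j)) = Nat.card (genEig T a r) ^ j := by
  induction j with
  | zero =>
    rw [pow_zero, pow_zero]
    have hbot : genEig T a 1 = ⊥ := by
      ext x
      rw [AddSubgroup.mem_bot]
      constructor
      · intro hx
        simpa using hx.1
      · rintro rfl
        exact (genEig T a 1).zero_mem
    rw [hbot]
    exact AddSubgroup.card_bot
  | succ j ih =>
    have h1 := card_genEig_mul T a r (r ^ j)
      (by rw [← pow_succ']; exact hfin (j + 1))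
      (by rw [← pow_succ']; exact hcomm (j + 1)) hdiv
    rw [pow_succ', h1, ih, pow_succ']

end Fermat.Agent.S15P.HeckeProj63
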