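/-
S15 (helper63), layer L0, instance: **the Hecke projector on the `r`-power torsion of `J₀(N)`**.

`P` a predicate on primes with `P q → q ∤ N`; `heckeFam N P` the family `q ↦ T_q` (`P q`);
`a : {q // P q} → ℤ` a system of eigenvalues (Eisenstein: `a q = 1 + q`).

* `heckeFam_comm`, `heckeFam_equivariant` : commutativity on `J[r ^ j]`, `G_ℚ`-equivariance;
* `exists_heckeProj` : for every `j` there is a word `E` in the `T_q` projecting `J[r ^ j]` onto
  the generalised eigenspace `genEig (heckeFam N P) a (r ^ j)`;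
* `heckeProj_equivariant`, `smul_mem_genEig_jZero` : `E` and `genEig` are `G_ℚ`-stable;
* `card_genEig_jZero` : `# genEig (r ^ j) = (# genEig r) ^ j`;
* `exists_smul_eq_jZero` : `r • genEig (r ^ (j + 1)) = genEig (r ^ j)`.

Inputs on main: `TR.Hecke.OldRed.hecke_comm_torsion`, `ESJ.Cong.heckeGaloisCommute`,
`MW.DivA.jZero_divisible`, `MW.WMW.JZeroInst.finite_torsion`.
-/
import Mathlib
import Fermat.Agent.S15P.HeckeProjAbs63
import Fermat.Agent.TR.Hecke.OldRed
import Fermat.Agent.MW.DivA.Main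
import Fermat.Agent.MW.WMW.JZero
import Fermat.Agent.ESJ.Cong.Comm

set_option autoImplicit false

namespace Fermat.Agent.S15P.HeckeProj63

open AlgebraicCurve ModularCurve

local notation "GQ" => (AlgebraicClosure ℚ ≃ₐ[ℚ] AlgebraicClosure ℚ)

variable (N : ℕ) [NeZero N] (P : Nat.Primes → Prop)

/-- The family of Hecke operators `T_q` on `J₀(N)`, `q` running through the primes with `P q`. -/
noncomputable def heckeFam : {q : Nat.Primes // P q} → Module.End ℤ (JZero N) :=
  fun q => heckeOperatorBar N q.1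

theorem heckeFam_apply (q : {q : Nat.Primes // P q}) (x : JZero N) :
    heckeFam N P q x = heckeOperatorBar N q.1 x :=
  rfl

/-- The `T_q`, `q ∤ N`, commute on the `r`-power torsion. -/
theorem heckeFam_comm (hP : ∀ q : Nat.Primes, P q → ¬ (q : ℕ) ∣ N) {r : ℕ} (hr : r.Prime)
    (j : ℕ) (i i' : {q : Nat.Primes // P q}) (x : JZero N) (hx : r ^ j • x = 0) :
    heckeFam N P i (heckeFam N P i' x) = heckeFam N P i' (heckeFam N P i x) :=
  Fermat.Agent.TR.Hecke.OldRed.hecke_comm_torsion hr j i.1 i'.1 (hP _ i.2) (hP _ i'.2) x hx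

/-- The `T_q` commute with `G_ℚ`. -/
theorem heckeFam_equivariant (i : {q : Nat.Primes // P q}) (γ : GQ) (x : JZero N) :
    heckeFam N P i (γ • x) = γ • heckeFam N P i x :=
  Fermat.Agent.ESJ.Cong.heckeGaloisCommute N i.1 γ x

/-- Every word in the `T_q` commutes with `G_ℚ`. -/
theorem Hk_equivariant_jZero {A : Module.End ℤ (JZero N)} (hA : A ∈ Hk (heckeFam N P)) (γ : GQ)
    (x : JZero N) : A (γ • x) = γ • A x :=
  Hk_equivariant (heckeFam N P) (heckeFam_equivariant N P) hA γ x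

/-- Any two words in the `T_q` (`q ∤ N`) commute on the `r`-power torsion. -/
theorem Hk_comm_jZero (hP : ∀ q : Nat.Primes, P q → ¬ (q : ℕ) ∣ N) {r : ℕ} (hr : r.Prime)
    (j : ℕ) {A B : Module.End ℤ (JZero N)} (hA : A ∈ Hk (heckeFam N P))
    (hB : B ∈ Hk (heckeFam N P)) (x : JZero N) (hx : r ^ j • x = 0) : A (B x) = B (A x) :=
  Hk_comm (heckeFam N P) (r ^ j) (heckeFam_comm N P hP hr j) hA hB x hx

/-- **L0: the Hecke projector exists.**  For every system of eigenvalues `a` and every `j` there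
is a word `E` in the `T_q` (`P q`) which maps `J₀(N)[r ^ j]` into the generalised eigenspace
`genEig (heckeFam N P) a (r ^ j)` and is the identity on it. -/
theorem exists_heckeProj (hP : ∀ q : Nat.Primes, P q → ¬ (q : ℕ) ∣ N) {r : ℕ} (hr : r.Prime)
    (a : {q : Nat.Primes // P q} → ℤ) (j : ℕ) :
    ∃ E : Module.End ℤ (JZero N), IsHeckeProj (heckeFam N P) a (r ^ j) E :=
  exists_isHeckeProj (heckeFam N P) a (r ^ j)
    (Fermat.Agent.MW.WMW.JZeroInst.finite_torsion N (r ^ j) (pow_pos hr.pos j))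
    (heckeFam_comm N P hP hr j)

/-- The Hecke projector commutes with `G_ℚ`. -/
theorem heckeProj_equivariant {a : {q : Nat.Primes // P q} → ℤ} {m : ℕ}
    {E : Module.End ℤ (JZero N)} (hE : IsHeckeProj (heckeFam N P) a m E) (γ : GQ)
    (x : JZero N) : E (γ • x) = γ • E x :=
  hE.equivariant (heckeFam_equivariant N P) γ x

/-- The generalised eigenspace is `G_ℚ`-stable. -/
theorem smul_mem_genEig_jZero (a : {q : Nat.Primes // P q} → ℤ) (m : ℕ) (γ : GQ)
    {x : JZero N} (hx : x ∈ genEig (heckeFam N P) a m) : γ • x ∈ genEig (heckeFam N P) a m :=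
  smul_mem_genEig (heckeFam N P) a m (heckeFam_equivariant N P) γ hx

/-- `r • genEig (r ^ (j + 1)) = genEig (r ^ j)`. -/
theorem exists_smul_eq_jZero (hP : ∀ q : Nat.Primes, P q → ¬ (q : ℕ) ∣ N) {r : ℕ}
    (hr : r.Prime) (a : {q : Nat.Primes // P q} → ℤ) (j : ℕ) {x : JZero N}
    (hx : x ∈ genEig (heckeFam N P) a (r ^ j)) :
    ∃ y ∈ genEig (heckeFam N P) a (r ^ (j + 1)), r • y = x := by
  have h := exists_smul_eq_of_mem_genEig (heckeFam N P) a r (r ^ j)
    (by
      rw [← pow_succ']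
      exact Fermat.Agent.MW.WMW.JZeroInst.finite_torsion N (r ^ (j + 1)) (pow_pos hr.pos _))
    (by
      rw [← pow_succ']
      exact heckeFam_comm N P hP hr (j + 1))
    (fun x => Fermat.Agent.MW.DivA.jZero_divisible N hr.pos x) hx
  rwa [← pow_succ'] at h

/-- **`# genEig (r ^ j) = (# genEig r) ^ j`.** -/
theorem card_genEig_jZero (hP : ∀ q : Nat.Primes, P q → ¬ (q : ℕ) ∣ N) {r : ℕ} (hr : r.Prime)
    (a : {q : Nat.Primes // P q} → ℤ) (j : ℕ) :
    Nat.card (genEig (heckeFam N P) a (r ^ j)) = Nat.card (genEig (heckeFam N P) a r) ^ j :=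
  card_genEig_pow (heckeFam N P) a r
    (fun j => Fermat.Agent.MW.WMW.JZeroInst.finite_torsion N (r ^ j) (pow_pos hr.pos j))
    (fun j => heckeFam_comm N P hP hr j)
    (fun x => Fermat.Agent.MW.DivA.jZero_divisible N hr.pos x) j

/-- The generalised eigenspace is finite. -/
theorem finite_genEig_jZero {r : ℕ} (hr : r.Prime) (a : {q : Nat.Primes // P q} → ℤ) (j : ℕ) :
    Finite (genEig (heckeFam N P) a (r ^ j)) :=
  ((Fermat.Agent.MW.WMW.JZeroInst.finite_torsion N (r ^ j) (pow_pos hr.pos j)).subset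
    (fun _ hx => hx.1)).to_subtype

/-- **L0 packaged for the consumers** (`L9Seam64.exists_poly_of_index` shape): one word `E` in
the `T_q`, `G_ℚ`-equivariant, idempotent on `J[r ^ j]`, with image `genEig … (r ^ j)` there,
fixing every eigenvector of the system `a` in `J[r ^ j]`. -/
theorem exists_heckeProj_packaged (hP : ∀ q : Nat.Primes, P q → ¬ (q : ℕ) ∣ N) {r : ℕ}
    (hr : r.Prime) (a : {q : Nat.Primes // P q} → ℤ) (j : ℕ) :
    ∃ E : Module.End ℤ (JZero N), E ∈ Hk (heckeFam N P) ∧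
      (∀ (γ : GQ) (x : JZero N), E (γ • x) = γ • E x) ∧
      (∀ x : JZero N, r ^ j • x = 0 → E (E x) = E x) ∧
      (∀ g : JZero N, g ∈ genEig (heckeFam N P) a (r ^ j) ↔
        ∃ x : JZero N, r ^ j • x = 0 ∧ g = E x) ∧
      (∀ c : JZero N, r ^ j • c = 0 →
        (∀ q : {q : Nat.Primes // P q}, heckeOperatorBar N q.1 c = a q • c) → E c = c) ∧
      ∀ (i : ℕ) (x : JZero N), i ≤ j → r ^ i • x = 0 →
        (E x ∈ genEig (heckeFam N P) a (r ^ i) ∧
          (x ∈ genEig (heckeFam N P) a (r ^ i) → E x = x)) := by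
  obtain ⟨E, hE⟩ := exists_heckeProj N P hP hr a j
  refine ⟨E, hE.1, heckeProj_equivariant N P hE, fun x hx => hE.idem hx,
    fun g => hE.mem_iff_exists, fun c hc heig => hE.eq_of_eigen c hc heig, ?_⟩
  intro i x hij hx
  obtain ⟨k, rfl⟩ := Nat.exists_eq_add_of_le hij
  have hE' : IsHeckeProj (heckeFam N P) a (r ^ i) E := by
    rw [pow_add] at hE
    exact hE.of_mul
  exact ⟨hE'.map_mem hx, fun hx' => hE'.map_eq hx'⟩

end Fermat.Agent.S15P.HeckeProj63
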