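/-
S15 (helper63), layer L0, word format (helper15's literal (L0-c)): **the Hecke projector as a word
in the free algebra on the primes of a set `S`, with a uniform nilpotency exponent**.

* `pow_card_apply_eq_zero` : an orbit `x, η x, η² x, …` in a finite stable set that reaches `0`
  reaches it within `#S` steps;
* `exists_uniform_pow`     : one exponent `K` with `(T i - a i) ^ K = 0` on `genEig T a m`;
* `Hk_heckeFam_eq`         : `Hk (heckeFam N (· ∈ S)) = Algebra.adjoin ℤ (heckeOperatorBar N '' S)`;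
* `exists_word_of_mem_Hk`  : an element of `Hk (heckeFam N (· ∈ S))` is the value of a word of
  `Algebra.adjoin ℤ (FreeAlgebra.ι ℤ '' S)` under `FreeAlgebra.lift ℤ (heckeOperatorBar N)`;
* `exists_hecke_word`      : (L0-c) for an arbitrary eigen-system `a : Nat.Primes → ℤ`;
* `exists_eisenstein_word` : (L0-c) for `a q = 1 + q`.
-/
import Mathlib
import Fermat.Agent.S15P.HeckeProj63

set_option autoImplicit false

namespace Fermat.Agent.S15P.HeckeProj63

section Abstract

variable {J : Type*} [AddCommGroup J] {ι : Type*}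

/-- An orbit `x, η x, η² x, …` inside a finite `η`-stable set `S` which reaches `0` reaches it
within `#S` steps. -/
theorem pow_card_apply_eq_zero (S : Set J) (hS : S.Finite) (η : Module.End ℤ J)
    (hη : ∀ x ∈ S, η x ∈ S) {x : J} (hx : x ∈ S) (hnil : ∃ n : ℕ, (η ^ n) x = 0) :
    (η ^ hS.toFinset.card) x = 0 := by
  classical
  have hpowS : ∀ k : ℕ, (η ^ k) x ∈ S := by
    intro k
    induction k with
    | zero => simpa using hx
    | succ k ih =>
      rw [pow_succ', Module.End.mul_apply]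
      exact hη _ ih
  have hn0 : (η ^ Nat.find hnil) x = 0 := Nat.find_spec hnil
  have hmin : ∀ k < Nat.find hnil, (η ^ k) x ≠ 0 := fun k hk => Nat.find_min hnil hk
  generalize Nat.find hnil = n at hn0 hmin
  have key : ∀ a b : ℕ, a < b → b < n → (η ^ a) x ≠ (η ^ b) x := by
    intro a b hab hbn heq
    have e2 : (η ^ (b - a)) ((η ^ a) x) = (η ^ b) x := by
      rw [← Module.End.mul_apply, ← pow_add, Nat.sub_add_cancel hab.le]
    have hper : ∀ k : ℕ, (η ^ (k * (b - a))) ((η ^ a) x) = (η ^ a) x := by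
      intro k
      induction k with
      | zero => simp
      | succ k ih =>
        have e : (k + 1) * (b - a) = k * (b - a) + (b - a) := by ring
        rw [e, pow_add, Module.End.mul_apply, e2, ← heq, ih]
    have h0 : (η ^ (n * (b - a))) ((η ^ a) x) = 0 := by
      have hle : n ≤ n * (b - a) := Nat.le_mul_of_pos_right n (Nat.sub_pos_of_lt hab)
      rw [← Module.End.mul_apply, ← pow_add]
      have e : n * (b - a) + a = (n * (b - a) + a - n) + n := by omega
      rw [e, pow_add, Module.End.mul_apply, hn0, map_zero]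
    exact hmin a (hab.trans hbn) ((hper n).symm.trans h0)
  have hinj : Set.InjOn (fun k : ℕ => (η ^ k) x) (Finset.range n : Set ℕ) := by
    intro a ha b hb hab
    simp only [Finset.coe_range, Set.mem_Iio] at ha hb
    by_contra hne
    rcases lt_or_gt_of_ne hne with h | h
    · exact key a b h hb hab
    · exact key b a h ha hab.symm
  have hcard : n ≤ hS.toFinset.card := by
    have h := Finset.card_le_card_of_injOn (s := Finset.range n) (t := hS.toFinset)
      (fun k : ℕ => (η ^ k) x) (fun k _ => by simpa using hpowS k) hinj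
    simpa using h
  obtain ⟨c, hc⟩ := Nat.exists_eq_add_of_le hcard
  rw [hc, add_comm, pow_add, Module.End.mul_apply, hn0, map_zero]

/-- **Uniform exponent**: one `K` with `(T i - a i) ^ K = 0` on `genEig T a m`, for all `i`. -/
theorem exists_uniform_pow (T : ι → Module.End ℤ J) (a : ι → ℤ) (m : ℕ)
    (hfin : {x : J | m • x = 0}.Finite) :
    ∃ K : ℕ, ∀ x ∈ genEig T a m, ∀ i, (eta T a i ^ K) x = 0 :=
  ⟨hfin.toFinset.card, fun _ hx i =>
    pow_card_apply_eq_zero _ hfin (eta T a i) (fun _ hy => tors_map m _ hy) hx.1 (hx.2 i)⟩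

theorem eta_eq_sub_intCast (T : ι → Module.End ℤ J) (a : ι → ℤ) (i : ι) :
    eta T a i = T i - ((a i : ℤ) : Module.End ℤ J) := by
  rw [eta, eq_intCast]

/-- Elements of `Hk T` are the values of the words of the free algebra. -/
theorem mem_Hk_iff_exists_word (T : ι → Module.End ℤ J) (E : Module.End ℤ J) :
    E ∈ Hk T ↔ ∃ w : FreeAlgebra ℤ ι, FreeAlgebra.lift ℤ T w = E := by
  unfold Hk
  rw [Algebra.adjoin_range_eq_range_freeAlgebra_lift]
  exact Iff.rfl

end Abstract

section Instance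

open AlgebraicCurve ModularCurve

local notation "GQ" => (AlgebraicClosure ℚ ≃ₐ[ℚ] AlgebraicClosure ℚ)

variable (N : ℕ) [NeZero N]

/-- `Hk (heckeFam N (· ∈ S))` is the algebra generated by the `T_q`, `q ∈ S`
(the format of `EndGame15.endgame_jzero_adjoin`). -/
theorem Hk_heckeFam_eq (S : Set Nat.Primes) :
    (Hk (heckeFam N (· ∈ S)) : Subalgebra ℤ (Module.End ℤ (JZero N)))
      = Algebra.adjoin ℤ (heckeOperatorBar N '' S) := by
  have h1 : Set.range (heckeFam N (· ∈ S)) = heckeOperatorBar N '' S := by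
    ext A
    constructor
    · rintro ⟨q, rfl⟩
      exact ⟨q.1, q.2, rfl⟩
    · rintro ⟨q, hq, rfl⟩
      exact ⟨⟨q, hq⟩, rfl⟩
  unfold Hk
  rw [h1]

/-- An element of the algebra generated by the `T_q`, `q ∈ S`, is the value of a word in the
letters of `S`. -/
theorem exists_word_of_mem_Hk (S : Set Nat.Primes) {E : Module.End ℤ (JZero N)}
    (hE : E ∈ Hk (heckeFam N (· ∈ S))) :
    ∃ w ∈ Algebra.adjoin ℤ (FreeAlgebra.ι ℤ '' S),
      FreeAlgebra.lift ℤ (heckeOperatorBar N) w = E := by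
  have h1 : Set.range (heckeFam N (· ∈ S))
      = (FreeAlgebra.lift ℤ (heckeOperatorBar N)) '' (FreeAlgebra.ι ℤ '' S) := by
    ext A
    constructor
    · rintro ⟨q, rfl⟩
      exact ⟨FreeAlgebra.ι ℤ q.1, ⟨q.1, q.2, rfl⟩, by simp [heckeFam]⟩
    · rintro ⟨_, ⟨q, hq, rfl⟩, rfl⟩
      exact ⟨⟨q, hq⟩, by simp [heckeFam]⟩
  unfold Hk at hE
  rw [h1, ← AlgHom.map_adjoin] at hE
  obtain ⟨w, hw, rfl⟩ := hE
  exact ⟨w, hw, rfl⟩

/-- The value of a word in the letters of `S` lies in `Hk (heckeFam N (· ∈ S))`. -/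
theorem word_mem_Hk (S : Set Nat.Primes) {w : FreeAlgebra ℤ Nat.Primes}
    (hw : w ∈ Algebra.adjoin ℤ (FreeAlgebra.ι ℤ '' S)) :
    FreeAlgebra.lift ℤ (heckeOperatorBar N) w ∈ Hk (heckeFam N (· ∈ S)) := by
  have h1 : Set.range (heckeFam N (· ∈ S))
      = (FreeAlgebra.lift ℤ (heckeOperatorBar N)) '' (FreeAlgebra.ι ℤ '' S) := by
    ext A
    constructor
    · rintro ⟨q, rfl⟩
      exact ⟨FreeAlgebra.ι ℤ q.1, ⟨q.1, q.2, rfl⟩, by simp [heckeFam]⟩
    · rintro ⟨_, ⟨q, hq, rfl⟩, rfl⟩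
      exact ⟨⟨q, hq⟩, by simp [heckeFam]⟩
  unfold Hk
  rw [h1, ← AlgHom.map_adjoin]
  exact ⟨w, hw, rfl⟩

/-- **(L0-c), general eigen-system.**  `S` a set of primes not dividing `N`, `r` prime, `j : ℕ`,
`a : Nat.Primes → ℤ`.  There is a word `w` in the letters of `S` whose value `E` on `J₀(N)`
is `G_ℚ`-equivariant, idempotent on `J[r ^ j]`, fixes every eigenvector of the system `a` in
`J[r ^ j]`, and such that `(T_q - a q) ^ K` kills `E (J[r ^ j])` for all `q ∈ S`, with one `K`;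
conversely `E` fixes every element of `J[r ^ j]` killed by powers of all `T_q - a q`. -/
theorem exists_hecke_word (S : Set Nat.Primes) (hS : ∀ q ∈ S, ¬ (q : ℕ) ∣ N) {r : ℕ}
    (hr : r.Prime) (a : Nat.Primes → ℤ) (j : ℕ) :
    ∃ w ∈ Algebra.adjoin ℤ (FreeAlgebra.ι ℤ '' S),
      (∀ (γ : GQ) (x : JZero N), FreeAlgebra.lift ℤ (heckeOperatorBar N) w (γ • x)
        = γ • FreeAlgebra.lift ℤ (heckeOperatorBar N) w x) ∧
      (∀ x : JZero N, r ^ j • x = 0 → FreeAlgebra.lift ℤ (heckeOperatorBar N) w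
        (FreeAlgebra.lift ℤ (heckeOperatorBar N) w x) = FreeAlgebra.lift ℤ (heckeOperatorBar N) w x) ∧
      (∀ c : JZero N, r ^ j • c = 0 → (∀ q ∈ S, heckeOperatorBar N q c = a q • c) →
        FreeAlgebra.lift ℤ (heckeOperatorBar N) w c = c) ∧
      (∀ x : JZero N, r ^ j • x = 0 →
        (∀ q ∈ S, ∃ n : ℕ, ((heckeOperatorBar N q - ((a q : ℤ) : Module.End ℤ (JZero N))) ^ n) x = 0) →
        FreeAlgebra.lift ℤ (heckeOperatorBar N) w x = x) ∧
      ∃ K : ℕ, ∀ q ∈ S, ∀ x : JZero N, r ^ j • x = 0 →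
        ((heckeOperatorBar N q - ((a q : ℤ) : Module.End ℤ (JZero N))) ^ K)
          (FreeAlgebra.lift ℤ (heckeOperatorBar N) w x) = 0 := by
  refine Exists.elim (exists_heckeProj N (· ∈ S) hS hr (fun q => a q.1) j) (fun E hE => ?_)
  refine Exists.elim (exists_word_of_mem_Hk N S hE.1) (fun w hw' => ?_)
  refine Exists.elim (exists_uniform_pow (heckeFam N (· ∈ S)) (fun q => a q.1) (r ^ j)
    (Fermat.Agent.MW.WMW.JZeroInst.finite_torsion N (r ^ j) (pow_pos hr.pos j))) (fun K hK => ?_)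
  have hw := hw'.1
  have hwE := hw'.2
  refine ⟨w, hw, ?_⟩
  rw [hwE]
  refine ⟨heckeProj_equivariant N _ hE, fun x hx => hE.idem hx, ?_, ?_, K, ?_⟩
  · intro c hc heig
    exact hE.eq_of_eigen c hc (fun q => heig q.1 q.2)
  · intro x hx hnil
    refine hE.map_eq ⟨hx, fun q => ?_⟩
    obtain ⟨n, hn⟩ := hnil q.1 q.2
    refine ⟨n, ?_⟩
    rw [eta_eq_sub_intCast]
    exact hn
  · intro q hq x hx
    have h := hK _ (hE.map_mem hx) ⟨q, hq⟩
    rw [eta_eq_sub_intCast] at h
    exact h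

/-- **(L0-c), Eisenstein system `a q = 1 + q`** (helper15's literal). -/
theorem exists_eisenstein_word (S : Set Nat.Primes) (hS : ∀ q ∈ S, ¬ (q : ℕ) ∣ N) {r : ℕ}
    (hr : r.Prime) (j : ℕ) :
    ∃ w ∈ Algebra.adjoin ℤ (FreeAlgebra.ι ℤ '' S),
      (∀ (γ : GQ) (x : JZero N), FreeAlgebra.lift ℤ (heckeOperatorBar N) w (γ • x)
        = γ • FreeAlgebra.lift ℤ (heckeOperatorBar N) w x) ∧
      (∀ x : JZero N, r ^ j • x = 0 → FreeAlgebra.lift ℤ (heckeOperatorBar N) w
        (FreeAlgebra.lift ℤ (heckeOperatorBar N) w x) = FreeAlgebra.lift ℤ (heckeOperatorBar N) w x) ∧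
      (∀ c : JZero N, r ^ j • c = 0 →
        (∀ q ∈ S, heckeOperatorBar N q c = (1 + (q : ℕ) : ℤ) • c) →
        FreeAlgebra.lift ℤ (heckeOperatorBar N) w c = c) ∧
      ∃ K : ℕ, ∀ q ∈ S, ∀ x : JZero N, r ^ j • x = 0 →
        FreeAlgebra.lift ℤ (heckeOperatorBar N) w x = x →
        ((heckeOperatorBar N q - ((1 + (q : ℕ) : ℤ) : Module.End ℤ (JZero N))) ^ K) x = 0 := by
  refine Exists.elim (exists_hecke_word N S hS hr (fun q => (1 + (q : ℕ) : ℤ)) j) (fun w hw' => ?_)
  have hw := hw'.1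
  have h1 := hw'.2.1
  have h2 := hw'.2.2.1
  have h3 := hw'.2.2.2.1
  refine Exists.elim hw'.2.2.2.2.2 (fun K h5 => ?_)
  refine ⟨w, hw, h1, h2, h3, K, fun q hq x hx hfix => ?_⟩
  have h := h5 q hq x hx
  rw [hfix] at h
  exact h

end Instance

end Fermat.Agent.S15P.HeckeProj63
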