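/-
S15P, layer (JH) (deputy helper13): INTERFACE — the Jordan–Hölder steps of an Eisenstein piece
`X ⊆ J₀(N)[r^n]` are trivial or cyclotomic.

Everything here is a `Prop` (definitions only, no proof), stated on the Prelude's objects
`ModularCurve.JZero N`, `ModularCurve.heckeOperatorBar N ℓ`, the coefficientwise action of
`Gal(ℚ̄/ℚ)` and the Prelude's `complexConjugation`, in AMBIENT form (subgroups of `JZero N`),
so that the conclusions are the hypotheses `U` of `MainCount40.main_count_two` /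
`main_count_odd` verbatim (with `Γ := GQ`, `J := JZero N`, `G := X`).

* `IsEisPiece N r n B X` — what the producer of `X` (layer L0: `X = E·J[r^n]`, `E` a word in
  the `T_q`, `q ∤ N r`, `q ∉ B`) must supply;
* `FlagTwo N`   — (JH-U2)  `r = 2`: every proper stable `S < X` has a step vector fixed mod `S`;
* `FlagOdd N`   — (JH-Uodd) `r` odd: a step vector, trivial or scalar with `c y = -y` mod `S`;
* `LineChar N`  — (JH-χ)   a line on which `GQ` acts by scalars mod `S` is trivial or cyclotomic.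
-/
import Mathlib
import Fermat.Prelude.Def_ModularCurve_HeckeModule
import Fermat.Prelude.Def_GaloisRep_ComplexConjugation

set_option autoImplicit false

namespace Fermat.Agent.S15P.JH

open ModularCurve

/-- `ℚ̄`. -/
abbrev Qb : Type := AlgebraicClosure ℚ

/-- `Gal(ℚ̄/ℚ)`. -/
abbrev GQ : Type := Qb ≃ₐ[ℚ] Qb

/-- An **Eisenstein piece** of level `r^n` away from a finite set `B` of bad primes: a subgroup
`X` of `J₀(N)(ℚ̄)` killed by `r^n`, stable under Galois and under the `T_ℓ` (`ℓ ∤ N r`,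
`ℓ ∉ B`), on whose `r`-torsion every such `T_ℓ - (1 + ℓ)` is nilpotent of a uniform
exponent `K`. -/
def IsEisPiece (N r n : ℕ) [NeZero N] (B : Finset ℕ) (X : AddSubgroup (JZero N)) : Prop :=
  (∀ x ∈ X, r ^ n • x = 0) ∧
  (∀ (γ : GQ) (x : JZero N), x ∈ X → γ • x ∈ X) ∧
  (∀ ℓ : Nat.Primes, ¬ (ℓ : ℕ) ∣ N * r → (ℓ : ℕ) ∉ B → ∀ x ∈ X, heckeOperatorBar N ℓ x ∈ X) ∧
  ∃ K : ℕ, ∀ ℓ : Nat.Primes, ¬ (ℓ : ℕ) ∣ N * r → (ℓ : ℕ) ∉ B → ∀ x ∈ X, r • x = 0 →
    ((heckeOperatorBar N ℓ - (1 + ((ℓ : ℕ) : Module.End ℤ (JZero N)))) ^ K) x = 0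

/-- **(JH-U2)** `r = 2`: every proper Galois-stable `S < X` has a step vector `y ∈ X ∖ S`,
`2 y ∈ S`, fixed by Galois modulo `S`. -/
def FlagTwo (N : ℕ) [NeZero N] : Prop :=
  ∀ (B : Finset ℕ) (X : AddSubgroup (JZero N)) (n : ℕ), IsEisPiece N 2 n B X →
    ∀ S : AddSubgroup (JZero N), S ≤ X → (∀ (γ : GQ) (x : JZero N), x ∈ S → γ • x ∈ S) → S ≠ X →
      ∃ y ∈ X, y ∉ S ∧ 2 • y ∈ S ∧ ∀ γ : GQ, γ • y - y ∈ S

/-- **(JH-Uodd)** `r` an odd prime: every proper Galois-stable `S < X` has a step vector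
`y ∈ X ∖ S`, `r y ∈ S`, which modulo `S` is either Galois-fixed, or an eigenvector of every
`γ` with `c y = -y` (`c` = the Prelude's complex conjugation). -/
def FlagOdd (N : ℕ) [NeZero N] : Prop :=
  ∀ r : ℕ, r.Prime → r ≠ 2 → ∀ (B : Finset ℕ) (X : AddSubgroup (JZero N)) (n : ℕ),
    IsEisPiece N r n B X →
    ∀ S : AddSubgroup (JZero N), S ≤ X → (∀ (γ : GQ) (x : JZero N), x ∈ S → γ • x ∈ S) → S ≠ X →
      ∃ y ∈ X, y ∉ S ∧ r • y ∈ S ∧
        ((∀ γ : GQ, γ • y - y ∈ S) ∨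
          ((∀ γ : GQ, ∃ m : ℤ, γ • y - m • y ∈ S) ∧ complexConjugation • y + y ∈ S))

/-- **(JH-χ)** a vector `y ∈ X` with `r y ∈ S` on which Galois acts by scalars modulo `S` is
Galois-fixed modulo `S`, or Galois acts on it as on `μ_r`: `γ y ≡ m y` whenever `γ ζ = ζ ^ m`
for a primitive `r`-th root of unity `ζ`. -/
def LineChar (N : ℕ) [NeZero N] : Prop :=
  ∀ r : ℕ, r.Prime → ∀ (B : Finset ℕ) (X : AddSubgroup (JZero N)) (n : ℕ),
    IsEisPiece N r n B X →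
    ∀ S : AddSubgroup (JZero N), S ≤ X → (∀ (γ : GQ) (x : JZero N), x ∈ S → γ • x ∈ S) →
      ∀ y ∈ X, r • y ∈ S → (∀ γ : GQ, ∃ m : ℤ, γ • y - m • y ∈ S) →
        (∀ γ : GQ, γ • y - y ∈ S) ∨
          (∀ (γ : GQ) (ζ : Qb) (m : ℕ), ζ ^ r = 1 → ζ ≠ 1 → γ ζ = ζ ^ m → γ • y - m • y ∈ S)

end Fermat.Agent.S15P.JH
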