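/-
S15 (helper63), seam L0 ⟶ (JH): **the generalised Eisenstein eigenspace is an Eisenstein piece.**

`isEisPiece_genEig` : for a family `P` of primes not dividing `N` which contains every prime
`ℓ ∤ N r`, `ℓ ∉ B`, the subgroup `genEig (heckeFam N P) (1 + ·) (r ^ n)` of `J₀(N)[r ^ n]`
satisfies `JH.IsEisPiece N r n B` (helper13's interface): killed by `r ^ n`, Galois-stable,
stable under those `T_ℓ`, and `T_ℓ - (1 + ℓ)` is nilpotent on it with a uniform exponent.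

`isEisPiece_genEig_six` : the instance `P q := ¬ q ∣ 6 * p * ℓ₀ * r`, `B = {2, 3, ℓ₀}`, `N = p`.
`IsHeckeProj.eq_of_eisenstein`, `aeval_mem_Hk`, `mem_adjoin_of_mem_Hk_sixFam` : adapters to the
formats of `CuspFacts` / `DescOut` / `EndGame15`.
-/
import Mathlib
import Fermat.Agent.S15P.HeckeWord63
import Fermat.Agent.S15P.InterfacesJH

set_option autoImplicit false

namespace Fermat.Agent.S15P.HeckeProj63

open AlgebraicCurve ModularCurve

/-- The Eisenstein eigen-system `q ↦ 1 + q` on a family of primes. -/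
def eisSys (P : Nat.Primes → Prop) : {q : Nat.Primes // P q} → ℤ := fun q => 1 + ((q.1 : ℕ) : ℤ)

theorem eta_eisSys (N : ℕ) [NeZero N] (P : Nat.Primes → Prop) (q : {q : Nat.Primes // P q}) :
    eta (heckeFam N P) (eisSys P) q
      = heckeOperatorBar N q.1 - (1 + (((q.1 : ℕ) : ℕ) : Module.End ℤ (JZero N))) := by
  rw [eta_eq_sub_intCast]
  simp [heckeFam, eisSys]

/-- An Eisenstein eigenvector (`T_q c = (1 + q) • c`, in the `ℕ`-scalar form of `CuspFacts` /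
`DescOut`) of `J[m]` lies in the generalised Eisenstein eigenspace. -/
theorem mem_genEig_of_eisenstein (N : ℕ) [NeZero N] (P : Nat.Primes → Prop) (m : ℕ) (c : JZero N)
    (hc : m • c = 0)
    (heig : ∀ q : Nat.Primes, P q → heckeOperatorBar N q c = (1 + (q : ℕ)) • c) :
    c ∈ genEig (heckeFam N P) (eisSys P) m := by
  refine mem_genEig_of_eigen (heckeFam N P) (eisSys P) m c hc (fun q => ?_)
  rw [heckeFam_apply, heig q.1 q.2, eisSys, ← natCast_zsmul]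
  push_cast
  rfl

/-- A Hecke projector for the Eisenstein system fixes every Eisenstein eigenvector of `J[m]`. -/
theorem IsHeckeProj.eq_of_eisenstein {N : ℕ} [NeZero N] {P : Nat.Primes → Prop} {m : ℕ}
    {E : Module.End ℤ (JZero N)} (hE : IsHeckeProj (heckeFam N P) (eisSys P) m E) (c : JZero N)
    (hc : m • c = 0)
    (heig : ∀ q : Nat.Primes, P q → heckeOperatorBar N q c = (1 + (q : ℕ)) • c) : E c = c :=
  hE.map_eq (mem_genEig_of_eisenstein N P m c hc heig)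

/-- **L0 ⟶ (JH)**: the generalised Eisenstein eigenspace at level `r ^ n` is an Eisenstein
piece away from `B`, as soon as the family `P` contains every prime `ℓ ∤ N r`, `ℓ ∉ B`. -/
theorem isEisPiece_genEig (N r n : ℕ) [NeZero N] (hr : r.Prime) (B : Finset ℕ)
    (P : Nat.Primes → Prop) (hP : ∀ q : Nat.Primes, P q → ¬ (q : ℕ) ∣ N)
    (hPB : ∀ ℓ : Nat.Primes, ¬ (ℓ : ℕ) ∣ N * r → (ℓ : ℕ) ∉ B → P ℓ) :
    JH.IsEisPiece N r n B (genEig (heckeFam N P) (eisSys P) (r ^ n)) := by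
  refine ⟨fun x hx => hx.1, fun γ x hx => smul_mem_genEig_jZero N P (eisSys P) (r ^ n) γ hx,
    fun ℓ hℓ hℓB x hx => ?_, ?_⟩
  · exact Hk_map_genEig (heckeFam N P) (eisSys P) (r ^ n) (heckeFam_comm N P hP hr n)
      (T_mem_Hk (heckeFam N P) ⟨ℓ, hPB ℓ hℓ hℓB⟩) hx
  · obtain ⟨K, hK⟩ := exists_uniform_pow (heckeFam N P) (eisSys P) (r ^ n)
      (Fermat.Agent.MW.WMW.JZeroInst.finite_torsion N (r ^ n) (pow_pos hr.pos n))
    refine ⟨K, fun ℓ hℓ hℓB x hx _ => ?_⟩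
    have h := hK x hx ⟨ℓ, hPB ℓ hℓ hℓB⟩
    rw [eta_eisSys] at h
    exact h

/-- The family of primes not dividing `6 * p * ℓ₀ * r`. -/
def sixFam (p ℓ₀ r : ℕ) : Nat.Primes → Prop := fun q => ¬ (q : ℕ) ∣ 6 * p * ℓ₀ * r

theorem sixFam_not_dvd {p ℓ₀ r : ℕ} (q : Nat.Primes) (hq : sixFam p ℓ₀ r q) : ¬ (q : ℕ) ∣ p :=
  fun h => hq (Dvd.dvd.mul_right (Dvd.dvd.mul_right (Dvd.dvd.mul_left h 6) ℓ₀) r)

theorem sixFam_not_dvd_six {p ℓ₀ r : ℕ} (q : Nat.Primes) (hq : sixFam p ℓ₀ r q) :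
    ¬ (q : ℕ) ∣ 6 * p * ℓ₀ :=
  fun h => hq (Dvd.dvd.mul_right h r)

/-- A prime `ℓ ∤ p r`, `ℓ ∉ {2, 3, ℓ₀}` belongs to `sixFam p ℓ₀ r`. -/
theorem sixFam_of_not_mem {p ℓ₀ r : ℕ} (hℓ₀ : ℓ₀.Prime) (ℓ : Nat.Primes)
    (h : ¬ (ℓ : ℕ) ∣ p * r) (hB : (ℓ : ℕ) ∉ ({2, 3, ℓ₀} : Finset ℕ)) : sixFam p ℓ₀ r ℓ := by
  intro hdvd
  have hℓ : (ℓ : ℕ).Prime := ℓ.2
  simp only [Finset.mem_insert, Finset.mem_singleton, not_or] at hB
  obtain ⟨h2, h3, h0⟩ := hB
  rcases (Nat.Prime.dvd_mul hℓ).mp hdvd with h1 | h1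
  · rcases (Nat.Prime.dvd_mul hℓ).mp h1 with h1 | h1
    · rcases (Nat.Prime.dvd_mul hℓ).mp h1 with h1 | h1
      · have h6 : (6 : ℕ) = 2 * 3 := by norm_num
        rw [h6] at h1
        rcases (Nat.Prime.dvd_mul hℓ).mp h1 with h1 | h1
        · exact h2 ((Nat.prime_dvd_prime_iff_eq hℓ Nat.prime_two).mp h1)
        · exact h3 ((Nat.prime_dvd_prime_iff_eq hℓ Nat.prime_three).mp h1)
      · exact h (Dvd.dvd.mul_right h1 r)
    · exact h0 ((Nat.prime_dvd_prime_iff_eq hℓ hℓ₀).mp h1)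
  · exact h (Dvd.dvd.mul_left h1 p)

/-- **The instance used by S15**: level `p`, Hecke words over the primes `q ∤ 6 p ℓ₀ r`, bad set
`B = {2, 3, ℓ₀}`. -/
theorem isEisPiece_genEig_six (p r n : ℕ) [NeZero p] (hr : r.Prime) {ℓ₀ : ℕ} (hℓ₀ : ℓ₀.Prime) :
    JH.IsEisPiece p r n ({2, 3, ℓ₀} : Finset ℕ)
      (genEig (heckeFam p (sixFam p ℓ₀ r)) (eisSys (sixFam p ℓ₀ r)) (r ^ n)) :=
  isEisPiece_genEig p r n hr _ (sixFam p ℓ₀ r) (fun q hq => sixFam_not_dvd q hq)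
    (fun ℓ h hB => sixFam_of_not_mem hℓ₀ ℓ h hB)

/-- Polynomials in an element of `Hk T` stay in `Hk T` (the `η = P(E)` of the descent). -/
theorem aeval_mem_Hk {J ι : Type*} [AddCommGroup J] (T : ι → Module.End ℤ J)
    {E : Module.End ℤ J} (hE : E ∈ Hk T) (Q : Polynomial ℤ) : Polynomial.aeval E Q ∈ Hk T := by
  have h1 := Polynomial.aeval_mem_adjoin_singleton (R := ℤ) (p := Q) E
  exact Algebra.adjoin_le (Set.singleton_subset_iff.mpr hE) h1

/-- An element of `Hk (heckeFam p (sixFam p ℓ₀ r))` is in the format of `DescOut` /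
`EndGame15.endgame_jzero_adjoin`: a word in the `T_q`, `q ∈ S`, for a set `S` of primes not
dividing `6 * p * ℓ₀`. -/
theorem mem_adjoin_of_mem_Hk_sixFam {p ℓ₀ r : ℕ} [NeZero p] {η : Module.End ℤ (JZero p)}
    (hη : η ∈ Hk (heckeFam p (sixFam p ℓ₀ r))) :
    ∃ S : Set Nat.Primes, (∀ q ∈ S, ¬ (q : ℕ) ∣ 6 * p * ℓ₀) ∧
      η ∈ Algebra.adjoin ℤ (heckeOperatorBar p '' S) := by
  refine ⟨{q | sixFam p ℓ₀ r q}, fun q hq => sixFam_not_dvd_six q hq, ?_⟩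
  rw [← Hk_heckeFam_eq]
  exact hη

end Fermat.Agent.S15P.HeckeProj63
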