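/-
S15 design cell, layer L9 (cell lead helper80, report #4830; seat helper64).  Mathlib only.

The finitely-generated-module algebra that turns the main count into a Hecke polynomial.

`J` an abelian group (the Jacobian), `M ≤ J` a finitely generated subgroup (the rational points),
`E : Module.End ℤ J` preserving `M` (a Hecke word), `r ≠ 0`.  Assume THE COUNT: the number of
classes of `E y` (`y ∈ M`) modulo `r M` is at most the number of elements of a set `S₀ ⊆ M[r]` of
vectors fixed by `E`  (hypotheses `hκ`, `hS₀`, `hcard`).  Then there is an integer polynomial `P`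
with

* `P(E)` maps `M` into its torsion (uniformly: `n • P(E) y = 0` for a fixed `n ≠ 0`);
* `P(1) ≡ 1 (mod r)`, hence `P(E) c₁ = c₁` for every `c₁` with `E c₁ = c₁`, `r c₁ = 0`.

No idempotency of `E` is assumed.  Proof: `T` = torsion of `M` (finite); a power `F = E ^ N`,
`N ≥ 1`, is idempotent on `T`; `A = F T`; `S₀ ⊆ A[r]`, `#A[r] = [A : r A]`, `A ∩ r M ⊆ r A`, so the
classes of the elements of `A` exhaust the classes of `E M` modulo `r M`: `E M ⊆ T + r M`.  Then
`E (n₀ M) ⊆ r (n₀ M)` for `n₀ = #T`, and the determinant trick gives `P`.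
-/
import Mathlib

set_option autoImplicit false

namespace Fermat.Agent.S15P.L9Alg64

open Polynomial

section Alg

variable {J : Type*} [AddCommGroup J]

theorem pow_apply_of_fixed (E : Module.End ℤ J) {c : J} (hc : E c = c) (n : ℕ) :
    (E ^ n) c = c := by
  induction n with
  | zero => simp
  | succ n ih => rw [pow_succ, Module.End.mul_apply, hc, ih]

/-- On a fixed vector, a polynomial in `E` acts through its value at `1`. -/
theorem aeval_apply_of_fixed (E : Module.End ℤ J) (P : ℤ[X]) {c : J} (hc : E c = c) :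
    (aeval E P) c = (P.eval 1) • c := by
  induction P using Polynomial.induction_on' with
  | add p q hp hq => rw [map_add, LinearMap.add_apply, hp, hq, eval_add, add_smul]
  | monomial n a =>
    rw [aeval_monomial, eval_monomial, one_pow, mul_one, Module.End.mul_apply,
      pow_apply_of_fixed E hc]
    simp

/-- A polynomial in the restriction is the restriction of the polynomial. -/
theorem aeval_restrict_apply (E : Module.End ℤ J) (N : Submodule ℤ J) (hN : ∀ x ∈ N, E x ∈ N)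
    (P : ℤ[X]) (x : N) : ((aeval (E.restrict hN) P) x : J) = (aeval E P) x := by
  have hpow : ∀ n : ℕ, ∀ x : N, (((E.restrict hN) ^ n) x : J) = (E ^ n) x := by
    intro n
    induction n with
    | zero => intro x; simp
    | succ n ih =>
      intro x
      rw [pow_succ, pow_succ, Module.End.mul_apply, Module.End.mul_apply, ih]
      rfl
  induction P using Polynomial.induction_on' with
  | add p q hp hq =>
    rw [map_add, map_add, LinearMap.add_apply, LinearMap.add_apply, Submodule.coe_add, hp, hq]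
  | monomial n a =>
    rw [aeval_monomial, aeval_monomial, Module.End.mul_apply, Module.End.mul_apply]
    simp [hpow]

/-- On a finite stable submodule, some positive power of `E` is idempotent. -/
theorem exists_idem_pow (E : Module.End ℤ J) (T : Submodule ℤ J) [Finite T]
    (hT : ∀ t ∈ T, E t ∈ T) :
    ∃ N : ℕ, 0 < N ∧ ∀ t ∈ T, (E ^ N) ((E ^ N) t) = (E ^ N) t := by
  have hTpow : ∀ k : ℕ, ∀ t ∈ T, (E ^ k) t ∈ T := fun k t ht =>
    Module.End.pow_apply_mem_of_forall_mem k hT t ht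
  obtain ⟨i, j, hij, hφ⟩ := Finite.exists_ne_map_eq_of_infinite
    (fun (k : ℕ) (t : T) => (⟨(E ^ k) t, hTpow k t t.2⟩ : T))
  have key : ∃ m p : ℕ, 0 < p ∧ ∀ t ∈ T, (E ^ (m + p)) t = (E ^ m) t := by
    rcases lt_or_gt_of_ne hij with h | h
    · refine ⟨i, j - i, by omega, fun t ht => ?_⟩
      have h1 := congrArg (fun f : T → T => (f ⟨t, ht⟩ : J)) hφ
      have e : i + (j - i) = j := by omega
      rw [e]
      exact h1.symm
    · refine ⟨j, i - j, by omega, fun t ht => ?_⟩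
      have h1 := congrArg (fun f : T → T => (f ⟨t, ht⟩ : J)) hφ
      have e : j + (i - j) = i := by omega
      rw [e]
      exact h1
  obtain ⟨m, p, hp, hmp⟩ := key
  have h1 : ∀ a : ℕ, m ≤ a → ∀ t ∈ T, (E ^ (a + p)) t = (E ^ a) t := by
    intro a ha t ht
    obtain ⟨b, rfl⟩ := Nat.exists_eq_add_of_le ha
    have e1 : m + b + p = b + (m + p) := by omega
    have e2 : m + b = b + m := by omega
    rw [e1, e2, pow_add E b (m + p), pow_add E b m, Module.End.mul_apply, Module.End.mul_apply,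
      hmp t ht]
  have h2 : ∀ k a : ℕ, m ≤ a → ∀ t ∈ T, (E ^ (a + k * p)) t = (E ^ a) t := by
    intro k
    induction k with
    | zero => intro a _ t _; simp
    | succ k ih =>
      intro a ha t ht
      have e : a + (k + 1) * p = (a + k * p) + p := by ring
      rw [e, h1 _ (by omega) t ht, ih a ha t ht]
  refine ⟨(m + 1) * p, Nat.mul_pos (by omega) hp, fun t ht => ?_⟩
  have hm : m ≤ (m + 1) * p := by nlinarith
  have h3 := h2 (m + 1) ((m + 1) * p) hm t ht
  rw [← Module.End.mul_apply, ← pow_add]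
  exact h3

/-- **L9**: the count gives a polynomial in `E` killing `M` modulo torsion and fixing the fixed
`r`-torsion vectors of `E`. -/
theorem exists_poly (M : AddSubgroup J) (hFG : AddGroup.FG M) (r : ℕ) (hr : r ≠ 0)
    (E : Module.End ℤ J) (hEM : ∀ y ∈ M, E y ∈ M) {C : Type*} [Finite C] (κ : J → C)
    (hκ : ∀ y ∈ M, ∀ y' ∈ M, κ y = κ y' → ∃ m ∈ M, E y - E y' = r • m)
    (S₀ : Set J) (hS₀ : ∀ s ∈ S₀, s ∈ M ∧ r • s = 0 ∧ E s = s)
    (hcard : Nat.card C ≤ S₀.ncard) :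
    ∃ P : ℤ[X], (∃ n : ℕ, n ≠ 0 ∧ ∀ y ∈ M, n • (aeval E P) y = 0) ∧
      (P.eval 1 ≡ 1 [ZMOD r]) ∧
      ∀ c₁ : J, E c₁ = c₁ → r • c₁ = 0 → (aeval E P) c₁ = c₁ := by
  classical
  -- the torsion of `M`
  let T : Submodule ℤ J :=
    { carrier := {t | t ∈ M ∧ ∃ n : ℕ, n ≠ 0 ∧ n • t = 0}
      zero_mem' := ⟨M.zero_mem, 1, one_ne_zero, by simp⟩
      add_mem' := by
        rintro a b ⟨ha, n, hn, hna⟩ ⟨hb, m, hm, hmb⟩
        refine ⟨M.add_mem ha hb, n * m, mul_ne_zero hn hm, ?_⟩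
        have e1 : (n * m) • a = 0 := by rw [mul_comm, mul_nsmul', hna, smul_zero]
        have e2 : (n * m) • b = 0 := by rw [mul_nsmul', hmb, smul_zero]
        rw [smul_add, e1, e2, add_zero]
      smul_mem' := by
        rintro z a ⟨ha, n, hn, hna⟩
        exact ⟨M.zsmul_mem ha z, n, hn, by rw [smul_comm, hna, smul_zero]⟩ }
  have hTmem : ∀ t : J, t ∈ T ↔ t ∈ M ∧ ∃ n : ℕ, n ≠ 0 ∧ n • t = 0 := fun t => Iff.rfl
  have hMfg : (AddSubgroup.toIntSubmodule M).FG := by
    rw [Submodule.fg_iff_addSubgroup_fg]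
    exact (AddGroup.fg_iff_addSubgroup_fg M).mp hFG
  have hTfin : Finite T := by
    have i1 : Module.Finite ℤ (AddSubgroup.toIntSubmodule M) := Module.Finite.iff_fg.mpr hMfg
    have i2 : IsNoetherian ℤ (AddSubgroup.toIntSubmodule M) :=
      isNoetherian_of_isNoetherianRing_of_finite ℤ _
    have hle : T ≤ AddSubgroup.toIntSubmodule M := fun t ht => ht.1
    have i3 : IsNoetherian ℤ T := isNoetherian_of_le hle
    have i4 : Module.Finite ℤ T := Module.IsNoetherian.finite ℤ T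
    apply Module.finite_of_fg_torsion
    rintro ⟨t, ht⟩
    obtain ⟨-, n, hn, hnt⟩ := ht
    refine ⟨⟨(n : ℤ), mem_nonZeroDivisors_of_ne_zero (by exact_mod_cast hn)⟩, ?_⟩
    apply Subtype.ext
    show ((n : ℤ) • t : J) = 0
    rw [natCast_zsmul, hnt]
  have hET : ∀ t ∈ T, E t ∈ T := by
    rintro t ⟨ht, n, hn, hnt⟩
    exact ⟨hEM t ht, n, hn, by rw [← map_nsmul, hnt, map_zero]⟩
  have hMpow : ∀ k : ℕ, ∀ y ∈ M, (E ^ k) y ∈ M := fun k y hy =>
    Module.End.pow_apply_mem_of_forall_mem (p := AddSubgroup.toIntSubmodule M) k hEM y hy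
  -- the exponent of the torsion
  have hn₀ : ∀ t ∈ T, Nat.card T • t = 0 := by
    intro t ht
    have h1 := card_nsmul_eq_zero' (G := T) (x := ⟨t, ht⟩)
    exact congrArg Subtype.val h1
  have hn₀ne : Nat.card T ≠ 0 := Nat.card_pos.ne'
  -- the idempotent power
  obtain ⟨N, hN, hF⟩ := exists_idem_pow E T hET
  obtain ⟨N', rfl⟩ : ∃ N', N = N' + 1 := Nat.exists_eq_succ_of_ne_zero hN.ne'
  have hEN : ∀ x : J, E ((E ^ N') x) = (E ^ (N' + 1)) x := by
    intro x
    rw [pow_succ', Module.End.mul_apply]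
  have hA_T : ∀ a ∈ T.map (E ^ (N' + 1)), a ∈ T := by
    rintro a ⟨t, ht, rfl⟩
    exact Module.End.pow_apply_mem_of_forall_mem _ hET t ht
  have hFA : ∀ a ∈ T.map (E ^ (N' + 1)), (E ^ (N' + 1)) a = a := by
    rintro a ⟨t, ht, rfl⟩
    exact hF t ht
  have hAfin : Finite (T.map (E ^ (N' + 1)) : Submodule ℤ J) :=
    Finite.of_injective (fun a : (T.map (E ^ (N' + 1)) : Submodule ℤ J) => (⟨a, hA_T a a.2⟩ : T))
      (fun a b hab => Subtype.ext (congrArg (fun t : T => (t : J)) hab))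
  -- `S₀ ⊆ A[r]`
  have hS₀A : ∀ s ∈ S₀, s ∈ T.map (E ^ (N' + 1)) ∧ r • s = 0 := by
    intro s hs
    obtain ⟨hsM, hrs, hEs⟩ := hS₀ s hs
    exact ⟨⟨s, ⟨hsM, r, hr, hrs⟩, pow_apply_of_fixed E hEs _⟩, hrs⟩
  -- multiplication by `r` on `A`
  obtain ⟨f, hf⟩ : ∃ f : (T.map (E ^ (N' + 1)) : Submodule ℤ J) →+
      (T.map (E ^ (N' + 1)) : Submodule ℤ J), f = nsmulAddMonoidHom r := ⟨_, rfl⟩
  have hfapp : ∀ a, f a = r • a := fun a => by rw [hf]; rfl
  have hidx : Nat.card f.ker = f.range.index := by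
    have h1 := AddSubgroup.card_mul_index f.ker
    rw [AddSubgroup.index_ker] at h1
    have h2 := AddSubgroup.card_mul_index f.range
    have hpos : 0 < Nat.card f.range := Nat.card_pos
    have h3 : Nat.card f.range * Nat.card f.ker = Nat.card f.range * f.range.index := by
      rw [h2, mul_comm, h1]
    exact Nat.eq_of_mul_eq_mul_left hpos h3
  have hS₀card : S₀.ncard ≤ Nat.card f.ker := by
    have hinj : Function.Injective (fun s : S₀ =>
        (⟨⟨(s : J), (hS₀A s s.2).1⟩, by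
          rw [AddMonoidHom.mem_ker, hfapp]
          exact Subtype.ext (hS₀A s s.2).2⟩ : f.ker)) := by
      intro a b hab
      apply Subtype.ext
      exact congrArg (fun t : f.ker => ((t : (T.map (E ^ (N' + 1)) : Submodule ℤ J)) : J)) hab
    have := Nat.card_le_card_of_injective _ hinj
    rwa [Nat.card_coe_set_eq] at this
  -- `A ∩ r M ⊆ r A`
  have hArM : ∀ a : (T.map (E ^ (N' + 1)) : Submodule ℤ J), ∀ m ∈ M, (a : J) = r • m →
      a ∈ f.range := by
    intro a m hm ham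
    obtain ⟨-, n, hn, hna⟩ := hA_T a a.2
    have hmT : m ∈ T := ⟨hm, n * r, mul_ne_zero hn hr, by rw [mul_nsmul', ← ham, hna]⟩
    refine ⟨⟨(E ^ (N' + 1)) m, ⟨m, hmT, rfl⟩⟩, ?_⟩
    apply Subtype.ext
    rw [hfapp]
    show r • (E ^ (N' + 1)) m = (a : J)
    rw [← map_nsmul, ← ham, hFA a a.2]
  -- the injection `A / r A → C`
  have hAM : ∀ a : (T.map (E ^ (N' + 1)) : Submodule ℤ J), (E ^ N') (a : J) ∈ M := fun a =>
    hMpow N' _ (hA_T a a.2).1
  have hEa : ∀ a : (T.map (E ^ (N' + 1)) : Submodule ℤ J), E ((E ^ N') (a : J)) = a := fun a => by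
    rw [hEN, hFA a a.2]
  have hginj : Function.Injective
      (fun q : (T.map (E ^ (N' + 1)) : Submodule ℤ J) ⧸ f.range => κ ((E ^ N') (q.out : J))) := by
    intro q q' hqq
    obtain ⟨m, hm, hdiff⟩ := hκ _ (hAM q'.out) _ (hAM q.out) hqq.symm
    rw [hEa, hEa] at hdiff
    have hmem : -q.out + q'.out ∈ f.range := by
      apply hArM _ m hm
      rw [← hdiff]
      push_cast
      abel
    have := QuotientAddGroup.eq.mpr hmem
    rwa [QuotientAddGroup.out_eq', QuotientAddGroup.out_eq'] at this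
  have hbij := hginj.bijective_of_nat_card_le (by
    rw [← AddSubgroup.index_eq_card, ← hidx]
    exact hcard.trans hS₀card)
  -- `E M ⊆ T + r M`
  have hkey : ∀ y ∈ M, ∃ a ∈ T, ∃ m ∈ M, E y = a + r • m := by
    intro y hy
    obtain ⟨q, hq⟩ := hbij.2 (κ y)
    obtain ⟨m, hm, hdiff⟩ := hκ y hy _ (hAM q.out) hq.symm
    rw [hEa] at hdiff
    exact ⟨(q.out : J), hA_T _ q.out.2, m, hm, by rw [← hdiff]; abel⟩
  -- the determinant trick on `n₀ M`
  have hM'fg : ((AddSubgroup.toIntSubmodule M).map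
      (LinearMap.lsmul ℤ J (Nat.card T : ℤ))).FG := hMfg.map _
  have i5 : Module.Finite ℤ ((AddSubgroup.toIntSubmodule M).map
      (LinearMap.lsmul ℤ J (Nat.card T : ℤ))) := Module.Finite.iff_fg.mpr hM'fg
  have hEM' : ∀ x ∈ (AddSubgroup.toIntSubmodule M).map (LinearMap.lsmul ℤ J (Nat.card T : ℤ)),
      E x ∈ (AddSubgroup.toIntSubmodule M).map (LinearMap.lsmul ℤ J (Nat.card T : ℤ)) := by
    rintro x ⟨y, hy, rfl⟩
    exact ⟨E y, hEM y hy, by simp⟩
  have hrange : LinearMap.range (E.restrict hEM')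
      ≤ (Ideal.span {(r : ℤ)}) • (⊤ : Submodule ℤ ((AddSubgroup.toIntSubmodule M).map
        (LinearMap.lsmul ℤ J (Nat.card T : ℤ)))) := by
    rintro _ ⟨⟨x, hx⟩, rfl⟩
    have hx2 := hx
    obtain ⟨y, hy, rfl⟩ := hx2
    obtain ⟨a, ha, m, hm, hEy⟩ := hkey y hy
    have e : E.restrict hEM' ⟨(LinearMap.lsmul ℤ J (Nat.card T : ℤ)) y, hx⟩
        = (r : ℤ) • (⟨(LinearMap.lsmul ℤ J (Nat.card T : ℤ)) m, ⟨m, hm, rfl⟩⟩ :
          ((AddSubgroup.toIntSubmodule M).map (LinearMap.lsmul ℤ J (Nat.card T : ℤ)))) := by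
      apply Subtype.ext
      show E ((Nat.card T : ℤ) • y) = (r : ℤ) • ((Nat.card T : ℤ) • m)
      rw [map_smul, hEy, smul_add, natCast_zsmul, hn₀ a ha, zero_add, natCast_zsmul,
        natCast_zsmul, natCast_zsmul, smul_comm]
    rw [e]
    exact Submodule.smul_mem_smul (Ideal.mem_span_singleton_self _) Submodule.mem_top
  obtain ⟨p, hpm, -, hcoef, hp0⟩ :=
    LinearMap.exists_monic_and_natDegree_eq_and_coeff_mem_pow_and_aeval_eq_zero ℤ
      (E.restrict hEM') (Ideal.span {(r : ℤ)}) hrange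
  -- `p(1) ≡ 1`
  have hdvd : (r : ℤ) ∣ 1 - p.eval 1 := by
    rw [eval_eq_sum_range, Finset.sum_range_succ, hpm.coeff_natDegree, one_pow, mul_one,
      sub_add_cancel_right]
    apply Dvd.dvd.neg_right
    apply Finset.dvd_sum
    intro i hi
    have hi' : i < p.natDegree := Finset.mem_range.mp hi
    have h1 : p.coeff i ∈ Ideal.span {(r : ℤ)} :=
      Ideal.pow_le_self (by omega) (hcoef i)
    rw [one_pow, mul_one]
    exact Ideal.mem_span_singleton.mp h1
  refine ⟨p, ⟨Nat.card T, hn₀ne, fun y hy => ?_⟩, (Int.modEq_iff_dvd).mpr hdvd, ?_⟩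
  · have h1 := aeval_restrict_apply E _ hEM' p
      ⟨(LinearMap.lsmul ℤ J (Nat.card T : ℤ)) y, ⟨y, hy, rfl⟩⟩
    rw [hp0] at h1
    have h2 : (aeval E p) ((Nat.card T : ℤ) • y) = 0 := h1.symm
    rw [map_smul, natCast_zsmul] at h2
    exact h2
  · intro c₁ hE hrc
    obtain ⟨z, hz⟩ := hdvd
    have e : p.eval 1 = 1 - (r : ℤ) * z := by linarith
    rw [aeval_apply_of_fixed E p hE, e, sub_smul, one_smul, mul_comm, mul_smul, natCast_zsmul,
      hrc, smul_zero, sub_zero]

/-- **L9, index form**: the count stated as `[M : K ∩ M] ≤ #S₀` for a subgroup `K` with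
`E (K ∩ M) ⊆ r M`. -/
theorem exists_poly_of_relIndex (M : AddSubgroup J) (hFG : AddGroup.FG M) (r : ℕ) (hr : r ≠ 0)
    (E : Module.End ℤ J) (hEM : ∀ y ∈ M, E y ∈ M) (K : AddSubgroup J)
    (hK : ∀ y ∈ M, y ∈ K → ∃ m ∈ M, E y = r • m) (hK0 : K.relIndex M ≠ 0)
    (S₀ : Set J) (hS₀ : ∀ s ∈ S₀, s ∈ M ∧ r • s = 0 ∧ E s = s)
    (hcard : K.relIndex M ≤ S₀.ncard) :
    ∃ P : ℤ[X], (∃ n : ℕ, n ≠ 0 ∧ ∀ y ∈ M, n • (aeval E P) y = 0) ∧
      (P.eval 1 ≡ 1 [ZMOD r]) ∧
      ∀ c₁ : J, E c₁ = c₁ → r • c₁ = 0 → (aeval E P) c₁ = c₁ := by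
  classical
  have hfin : Finite (M ⧸ K.addSubgroupOf M) := by
    apply Nat.finite_of_card_ne_zero
    rw [← AddSubgroup.index_eq_card]
    exact hK0
  refine exists_poly M hFG r hr E hEM (C := M ⧸ K.addSubgroupOf M)
    (fun y => if h : y ∈ M then QuotientAddGroup.mk ⟨y, h⟩ else 0) ?_ S₀ hS₀ ?_
  · intro y hy y' hy' hyy
    rw [dif_pos hy, dif_pos hy'] at hyy
    have h1 : -(⟨y, hy⟩ : M) + ⟨y', hy'⟩ ∈ K.addSubgroupOf M := QuotientAddGroup.eq.mp hyy
    have h2 : -y + y' ∈ K := AddSubgroup.mem_addSubgroupOf.mp h1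
    obtain ⟨m, hm, hEm⟩ := hK (-y + y') (M.add_mem (M.neg_mem hy) hy') h2
    refine ⟨-m, M.neg_mem hm, ?_⟩
    rw [smul_neg, ← hEm, map_add, map_neg]
    abel
  · rw [← AddSubgroup.index_eq_card]
    exact hcard

end Alg

end Fermat.Agent.S15P.L9Alg64
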