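/-
S15 design cell, the seam L8 → L9 (cell lead helper80, report #4830; seat helper64).
Mathlib + `S15P/L9Alg64` only.

`Γ` acts on the abelian group `J`; `M = J^Γ` is finitely generated; `E : Module.End ℤ J` is
`Γ`-equivariant and idempotent on `J[r]`; `G = E J[r]` is finite;
`Z = {z : r z ∈ M, ∀ γ, γ z - z ∈ G}`; every element of `M` is divisible by `r` in `J`.

If `[Z : M] ≤ #G` (THE MAIN COUNT, layer L8), then there is an integer polynomial `P` with
`P(E) M` torsion and `P(E) c₁ = c₁` for every `c₁` with `E c₁ = c₁`, `r c₁ = 0`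
(`exists_poly_of_index`).

Proof: `κ y := class of E z in Z / (G + M)` for `r z = y`; `#(Z / (G + M)) ≤ #G^Γ` because
`[G + M : M] = [G : G^Γ]`; the elements of `G^Γ` are fixed by `E`; apply `L9Alg64.exists_poly`.
-/
import Mathlib
import Fermat.Agent.S15P.L9Alg64

set_option autoImplicit false

namespace Fermat.Agent.S15P.L9Seam64

open Polynomial

theorem exists_poly_of_index {Γ J : Type*} [Group Γ] [AddCommGroup J] [DistribMulAction Γ J]
    (M : AddSubgroup J) (hM : ∀ x : J, x ∈ M ↔ ∀ γ : Γ, γ • x = x) (hFG : AddGroup.FG M)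
    (r : ℕ) (hr : r ≠ 0) (E : Module.End ℤ J) (hEΓ : ∀ (γ : Γ) (x : J), E (γ • x) = γ • E x)
    (hidem : ∀ x : J, r • x = 0 → E (E x) = E x)
    (hdiv : ∀ y ∈ M, ∃ z : J, r • z = y)
    (G Z : AddSubgroup J) (hG : ∀ g : J, g ∈ G ↔ ∃ x : J, r • x = 0 ∧ g = E x) [Finite G]
    (hZ : ∀ z : J, z ∈ Z ↔ r • z ∈ M ∧ ∀ γ : Γ, γ • z - z ∈ G)
    (hidx0 : M.relIndex Z ≠ 0) (hidx : M.relIndex Z ≤ Nat.card G) :
    ∃ P : ℤ[X], (∃ n : ℕ, n ≠ 0 ∧ ∀ y ∈ M, n • (aeval E P) y = 0) ∧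
      (P.eval 1 ≡ 1 [ZMOD r]) ∧
      ∀ c₁ : J, E c₁ = c₁ → r • c₁ = 0 → (aeval E P) c₁ = c₁ := by
  classical
  -- basic facts
  have hEM : ∀ y ∈ M, E y ∈ M := by
    intro y hy
    rw [hM] at hy ⊢
    intro γ
    rw [← hEΓ, hy γ]
  have hGr : ∀ g ∈ G, r • g = 0 := by
    intro g hg
    obtain ⟨x, hx, rfl⟩ := (hG g).mp hg
    rw [← map_nsmul, hx, map_zero]
  have hGE : ∀ g ∈ G, E g = g := by
    intro g hg
    obtain ⟨x, hx, rfl⟩ := (hG g).mp hg
    exact hidem x hx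
  have hMZ : M ≤ Z := by
    intro m hm
    rw [hZ]
    refine ⟨M.nsmul_mem hm r, fun γ => ?_⟩
    rw [(hM m).mp hm γ, sub_self]
    exact G.zero_mem
  have hGZ : G ≤ Z := by
    intro g hg
    rw [hZ]
    refine ⟨by rw [hGr g hg]; exact M.zero_mem, fun γ => ?_⟩
    obtain ⟨x, hx, rfl⟩ := (hG g).mp hg
    rw [← hEΓ, ← map_sub, hG]
    exact ⟨γ • x - x, by rw [smul_sub, smul_comm, hx, smul_zero, sub_zero], rfl⟩
  have hsupZ : G ⊔ M ≤ Z := sup_le hGZ hMZ
  -- `E z ∈ Z` for a division point `z` of an element of `M`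
  have hEz : ∀ z : J, r • z ∈ M → E z ∈ Z := by
    intro z hz
    rw [hZ]
    refine ⟨by rw [← map_nsmul]; exact hEM _ hz, fun γ => ?_⟩
    rw [← hEΓ, ← map_sub, hG]
    refine ⟨γ • z - z, ?_, rfl⟩
    rw [smul_sub, smul_comm, (hM _).mp hz γ, sub_self]
  -- the index computation
  have h1 : M.relIndex (G ⊔ M) * (G ⊔ M).relIndex Z = M.relIndex Z :=
    AddSubgroup.relIndex_mul_relIndex M (G ⊔ M) Z le_sup_right hsupZ
  have h2 : M.relIndex (G ⊔ M) = M.relIndex G := AddSubgroup.relIndex_sup_right G M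
  have h3 : Nat.card (M.addSubgroupOf G) * M.relIndex G = Nat.card G :=
    AddSubgroup.card_mul_index (M.addSubgroupOf G)
  have hsup0 : (G ⊔ M).relIndex Z ≠ 0 := by
    intro h0
    rw [h0, mul_zero] at h1
    exact hidx0 h1.symm
  have hMG0 : 0 < M.relIndex G := by
    rw [Nat.pos_iff_ne_zero]
    intro h0
    rw [h2, h0, zero_mul] at h1
    exact hidx0 h1.symm
  have hcardC : (G ⊔ M).relIndex Z ≤ Nat.card (M.addSubgroupOf G) := by
    have h4 : M.relIndex G * (G ⊔ M).relIndex Z ≤ M.relIndex G * Nat.card (M.addSubgroupOf G) := by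
      rw [← h2, h1, h2, mul_comm, h3]
      exact hidx
    exact Nat.le_of_mul_le_mul_left h4 hMG0
  have hfin : Finite (Z ⧸ (G ⊔ M).addSubgroupOf Z) := by
    apply Nat.finite_of_card_ne_zero
    rw [← AddSubgroup.index_eq_card]
    exact hsup0
  -- the fixed points of `G`
  have hS₀card : Nat.card (M.addSubgroupOf G) ≤ ({g : J | g ∈ G ∧ g ∈ M} : Set J).ncard := by
    have hinj : Function.Injective (fun g : M.addSubgroupOf G =>
        (⟨((g : G) : J), ⟨(g : G).2, AddSubgroup.mem_addSubgroupOf.mp g.2⟩⟩ :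
          ({g : J | g ∈ G ∧ g ∈ M} : Set J))) := by
      intro a b hab
      apply Subtype.ext
      apply Subtype.ext
      exact congrArg (fun t : ({g : J | g ∈ G ∧ g ∈ M} : Set J) => (t : J)) hab
    have hfinS : Finite ({g : J | g ∈ G ∧ g ∈ M} : Set J) :=
      Finite.of_injective (fun g : ({g : J | g ∈ G ∧ g ∈ M} : Set J) => (⟨g, g.2.1⟩ : G))
        (fun a b hab => Subtype.ext (congrArg (fun t : G => (t : J)) hab))
    have := Nat.card_le_card_of_injective _ hinj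
    rwa [Nat.card_coe_set_eq] at this
  -- apply L9
  refine L9Alg64.exists_poly M hFG r hr E hEM (C := Z ⧸ (G ⊔ M).addSubgroupOf Z)
    (fun y => if h : y ∈ M then
      QuotientAddGroup.mk ⟨E (hdiv y h).choose, hEz _ (by rw [(hdiv y h).choose_spec]; exact h)⟩
      else 0) ?_ {g : J | g ∈ G ∧ g ∈ M} ?_ ?_
  · intro y hy y' hy' hyy
    rw [dif_pos hy, dif_pos hy'] at hyy
    have hmem := AddSubgroup.mem_addSubgroupOf.mp (QuotientAddGroup.eq.mp hyy)
    obtain ⟨g, hg, m, hm, hgm⟩ := AddSubgroup.mem_sup.mp hmem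
    refine ⟨-m, M.neg_mem hm, ?_⟩
    have e1 : r • E (hdiv y hy).choose = E y := by
      rw [← map_nsmul, (hdiv y hy).choose_spec]
    have e2 : r • E (hdiv y' hy').choose = E y' := by
      rw [← map_nsmul, (hdiv y' hy').choose_spec]
    have e3 : r • (g + m) = E y' - E y := by
      rw [hgm, ← e1, ← e2]
      push_cast
      rw [smul_add, smul_neg]
      abel
    rw [smul_add, hGr g hg, zero_add] at e3
    rw [smul_neg, e3]
    abel
  · rintro s ⟨hsG, hsM⟩
    exact ⟨hsM, hGr s hsG, hGE s hsG⟩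
  · rw [← AddSubgroup.index_eq_card]
    exact hcardC.trans hS₀card

end Fermat.Agent.S15P.L9Seam64
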