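/-
S15 design cell — layers L5 + L8: the Frattini step and the main count, ambient form (helper40).

`Γ` acts on an abelian group `J`; `M = J^Γ`; `G ≤ J` a finite `Γ`-stable subgroup killed by `r`;
`Zdiv Γ r M G = {z | r z ∈ M, γ z - z ∈ G for all γ}` (division points);
`E : J →+ J` equivariant with `E (J[r]) ⊆ G`; `Ndiv r E M = {y ∈ M | E y ∈ r M}`.

* `fixed_of_two`, `fixed_of_odd` (L5): under the flag hypotheses, a division point fixed by `σ`
  and `c` is fixed by `Γ`;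
* `relIndex_le` : then `[Z : M] ≤ #W · #V` for `W ∋ σ z - z`, `V ∋ c z - z`;
* `main_count_of_index` (L8): `[Z : M] ≤ #G` implies `[M : Ndiv] ≤ #(G ⊓ M)`, i.e.
  `#E(M / r M) ≤ #G^Γ`;
* `main_count_two`, `main_count_odd` : the two combined.
-/
import Mathlib

set_option autoImplicit false
set_option linter.unusedSectionVars false
set_option linter.style.haveILetI false

namespace Fermat.Agent.S15P.MainCount40

universe u v

variable {Γ : Type u} {J : Type v} [Group Γ] [AddCommGroup J] [DistribMulAction Γ J]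

/-- Division points: `r z ∈ M` and `γ z - z ∈ G` for all `γ`. -/
def Zdiv (Γ : Type u) {J : Type v} [Group Γ] [AddCommGroup J] [DistribMulAction Γ J] (r : ℕ)
    (M G : AddSubgroup J) : AddSubgroup J where
  carrier := {z | r • z ∈ M ∧ ∀ γ : Γ, γ • z - z ∈ G}
  zero_mem' := ⟨by simp, fun γ => by simp⟩
  add_mem' := fun {a b} ha hb => ⟨by rw [smul_add]; exact M.add_mem ha.1 hb.1, fun γ => by
    have e : γ • (a + b) - (a + b) = (γ • a - a) + (γ • b - b) := by rw [smul_add]; abel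
    rw [e]; exact G.add_mem (ha.2 γ) (hb.2 γ)⟩
  neg_mem' := fun {a} ha => ⟨by rw [smul_neg]; exact M.neg_mem ha.1, fun γ => by
    have e : γ • (-a) - (-a) = -(γ • a - a) := by rw [smul_neg]; abel
    rw [e]; exact G.neg_mem (ha.2 γ)⟩

theorem mem_Zdiv {r : ℕ} {M G : AddSubgroup J} {z : J} :
    z ∈ Zdiv Γ r M G ↔ r • z ∈ M ∧ ∀ γ : Γ, γ • z - z ∈ G := Iff.rfl

/-- `{y ∈ M | E y ∈ r M}`. -/
def Ndiv (r : ℕ) (E : J →+ J) (M : AddSubgroup J) : AddSubgroup J where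
  carrier := {y | y ∈ M ∧ ∃ m ∈ M, E y = r • m}
  zero_mem' := ⟨M.zero_mem, 0, M.zero_mem, by simp⟩
  add_mem' := fun {a b} ha hb => by
    obtain ⟨ha1, m, hm, hma⟩ := ha
    obtain ⟨hb1, n, hn, hnb⟩ := hb
    exact ⟨M.add_mem ha1 hb1, m + n, M.add_mem hm hn, by rw [map_add, hma, hnb, smul_add]⟩
  neg_mem' := fun {a} ha => by
    obtain ⟨ha1, m, hm, hma⟩ := ha
    exact ⟨M.neg_mem ha1, -m, M.neg_mem hm, by rw [map_neg, hma, smul_neg]⟩

theorem mem_Ndiv {r : ℕ} {E : J →+ J} {M : AddSubgroup J} {y : J} :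
    y ∈ Ndiv r E M ↔ y ∈ M ∧ ∃ m ∈ M, E y = r • m := Iff.rfl

/-! ### The flag -/

theorem stable_sup {S : AddSubgroup J} (hS : ∀ (γ : Γ) (x : J), x ∈ S → γ • x ∈ S) {y : J}
    (hy : ∀ γ : Γ, ∃ m : ℤ, γ • y - m • y ∈ S) :
    ∀ (γ : Γ) (x : J), x ∈ S ⊔ AddSubgroup.zmultiples y → γ • x ∈ S ⊔ AddSubgroup.zmultiples y := by
  intro γ x hx
  obtain ⟨s, hs, t, ht, rfl⟩ := AddSubgroup.mem_sup.1 hx
  obtain ⟨j, rfl⟩ := AddSubgroup.mem_zmultiples_iff.1 ht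
  obtain ⟨m, hm⟩ := hy γ
  refine AddSubgroup.mem_sup.2 ⟨γ • s + j • (γ • y - m • y), S.add_mem (hS γ s hs)
    (S.zsmul_mem hm j), (j * m) • y, AddSubgroup.mem_zmultiples_iff.2 ⟨j * m, rfl⟩, ?_⟩
  rw [smul_add, smul_comm γ j y, smul_sub, mul_smul]
  abel

theorem sup_le_of_mem {S G : AddSubgroup J} (hSG : S ≤ G) {y : J} (hy : y ∈ G) :
    S ⊔ AddSubgroup.zmultiples y ≤ G :=
  sup_le hSG (AddSubgroup.zmultiples_le.2 hy)

theorem exists_of_mem_sup {S : AddSubgroup J} {y x : J}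
    (hx : x ∈ S ⊔ AddSubgroup.zmultiples y) : ∃ j : ℤ, x - j • y ∈ S := by
  obtain ⟨s, hs, t, ht, rfl⟩ := AddSubgroup.mem_sup.1 hx
  obtain ⟨j, rfl⟩ := AddSubgroup.mem_zmultiples_iff.1 ht
  exact ⟨j, by simpa using hs⟩

theorem mem_or_sub_mem {S : AddSubgroup J} {y x : J} (h2 : 2 • y ∈ S)
    (hx : x ∈ S ⊔ AddSubgroup.zmultiples y) : x ∈ S ∨ x - y ∈ S := by
  have h2' : (2 : ℤ) • y ∈ S := by rw [two_smul, ← two_nsmul]; exact h2
  obtain ⟨j, hj⟩ := exists_of_mem_sup hx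
  rcases Int.even_or_odd' j with ⟨m, rfl | rfl⟩
  · left
    have e : x = (x - (2 * m) • y) + m • ((2 : ℤ) • y) := by module
    rw [e]
    exact S.add_mem hj (S.zsmul_mem h2' m)
  · right
    have e : x - y = (x - (2 * m + 1) • y) + m • ((2 : ℤ) • y) := by module
    rw [e]
    exact S.add_mem hj (S.zsmul_mem h2' m)

/-- A strictly larger subgroup of the finite group `G` has more elements. -/
theorem card_lt_card_sup {S G : AddSubgroup J} [Finite G] (hSG : S ≤ G) {y : J} (hyG : y ∈ G)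
    (hyS : y ∉ S) : Nat.card S < Nat.card (S ⊔ AddSubgroup.zmultiples y : AddSubgroup J) := by
  have hfin : ((S ⊔ AddSubgroup.zmultiples y : AddSubgroup J) : Set J).Finite :=
    Set.Finite.subset (Set.toFinite (G : Set J)) (sup_le_of_mem hSG hyG)
  have hss : (S : Set J) ⊂ ((S ⊔ AddSubgroup.zmultiples y : AddSubgroup J) : Set J) := by
    refine ⟨fun x hx => (le_sup_left : S ≤ S ⊔ AddSubgroup.zmultiples y) hx, fun h => hyS ?_⟩
    exact h ((le_sup_right : AddSubgroup.zmultiples y ≤ S ⊔ AddSubgroup.zmultiples y)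
      (AddSubgroup.mem_zmultiples y))
  have := Set.ncard_lt_ncard hss hfin
  rwa [← Nat.card_coe_set_eq, ← Nat.card_coe_set_eq] at this

theorem card_le_card_of_le {S G : AddSubgroup J} [Finite G] (hSG : S ≤ G) :
    Nat.card S ≤ Nat.card G :=
  Nat.card_le_card_of_injective (fun s : S => (⟨s, hSG s.2⟩ : G))
    (fun a b h => Subtype.ext (by simpa using congrArg Subtype.val h))

/-! ### L5: the Frattini step -/

/-- **L5, `r = 2`.** A point of `Z` fixed by `σ` and by `c` is fixed by `Γ`. -/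
theorem fixed_of_two (G : AddSubgroup J) [Finite G] (Z : AddSubgroup J)
    (hZG : ∀ z ∈ Z, ∀ γ : Γ, γ • z - z ∈ G) (σ c : Γ)
    (U : ∀ S : AddSubgroup J, S ≤ G → (∀ (γ : Γ) (x : J), x ∈ S → γ • x ∈ S) → S ≠ G →
      ∃ y ∈ G, y ∉ S ∧ 2 • y ∈ S ∧ ∀ γ : Γ, γ • y - y ∈ S)
    (H : ∀ S : AddSubgroup J, S ≤ G → (∀ (γ : Γ) (x : J), x ∈ S → γ • x ∈ S) → ∀ y ∈ G,
      y ∉ S → 2 • y ∈ S → (∀ γ : Γ, γ • y - y ∈ S) →
      ∀ z ∈ Z, (∀ γ : Γ, γ • z - z ∈ S ∨ γ • z - z - y ∈ S) → σ • z - z ∈ S → c • z - z ∈ S →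
        ∀ γ : Γ, γ • z - z ∈ S)
    {z : J} (hz : z ∈ Z) (hσ : σ • z = z) (hc : c • z = z) : ∀ γ : Γ, γ • z = z := by
  have key : ∀ n : ℕ, ∀ S : AddSubgroup J, S ≤ G → (∀ (γ : Γ) (x : J), x ∈ S → γ • x ∈ S) →
      Nat.card G - Nat.card S = n → ∀ γ : Γ, γ • z - z ∈ S := by
    intro n
    induction n using Nat.strong_induction_on with
    | _ n ih =>
      intro S hSG hS hn
      by_cases hST : S = G
      · intro γ; rw [hST]; exact hZG z hz γ
      obtain ⟨y, hyG, hyS, h2y, hy⟩ := U S hSG hS hST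
      have hy' : ∀ γ : Γ, ∃ m : ℤ, γ • y - m • y ∈ S := fun γ => ⟨1, by simpa using hy γ⟩
      have hlt := card_lt_card_sup hSG hyG hyS
      have hle := card_le_card_of_le (sup_le_of_mem hSG hyG)
      have h' := ih (Nat.card G - Nat.card (S ⊔ AddSubgroup.zmultiples y : AddSubgroup J))
        (by omega) _ (sup_le_of_mem hSG hyG) (stable_sup hS hy') rfl
      exact H S hSG hS y hyG hyS h2y hy z hz (fun γ => mem_or_sub_mem h2y (h' γ))
        (by rw [hσ, sub_self]; exact S.zero_mem) (by rw [hc, sub_self]; exact S.zero_mem)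
  intro γ
  have := key _ ⊥ bot_le (fun γ x hx => by
    rw [AddSubgroup.mem_bot] at hx ⊢; rw [hx, smul_zero]) rfl γ
  rw [AddSubgroup.mem_bot] at this
  exact sub_eq_zero.mp this

/-- **L5, `r` odd** (steps of trivial type or of `μ` type). -/
theorem fixed_of_odd (r : ℕ) (hr : Odd r) (G : AddSubgroup J) [Finite G] (Z : AddSubgroup J)
    (hZG : ∀ z ∈ Z, ∀ γ : Γ, γ • z - z ∈ G) (σ c : Γ)
    (U : ∀ S : AddSubgroup J, S ≤ G → (∀ (γ : Γ) (x : J), x ∈ S → γ • x ∈ S) → S ≠ G →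
      ∃ y ∈ G, y ∉ S ∧ r • y ∈ S ∧
        ((∀ γ : Γ, γ • y - y ∈ S) ∨ ((∀ γ : Γ, ∃ m : ℤ, γ • y - m • y ∈ S) ∧ c • y + y ∈ S)))
    (Htriv : ∀ S : AddSubgroup J, S ≤ G → (∀ (γ : Γ) (x : J), x ∈ S → γ • x ∈ S) → ∀ y ∈ G,
      y ∉ S → r • y ∈ S → (∀ γ : Γ, γ • y - y ∈ S) →
      ∀ z ∈ Z, (∀ γ : Γ, ∃ j : ℤ, γ • z - z - j • y ∈ S) → σ • z - z ∈ S →
        ∀ γ : Γ, γ • z - z ∈ S)
    (Hmu : ∀ S : AddSubgroup J, S ≤ G → (∀ (γ : Γ) (x : J), x ∈ S → γ • x ∈ S) → ∀ y ∈ G,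
      y ∉ S → r • y ∈ S → (∀ γ : Γ, ∃ m : ℤ, γ • y - m • y ∈ S) → c • y + y ∈ S →
      ∀ z ∈ Z, (∀ γ : Γ, ∃ j : ℤ, γ • z - z - j • y ∈ S) → σ • z - z ∈ S →
        ∃ j : ℤ, ∀ γ : Γ, γ • z - z - j • (γ • y - y) ∈ S)
    {z : J} (hz : z ∈ Z) (hσ : σ • z = z) (hc : c • z = z) : ∀ γ : Γ, γ • z = z := by
  have key : ∀ n : ℕ, ∀ S : AddSubgroup J, S ≤ G → (∀ (γ : Γ) (x : J), x ∈ S → γ • x ∈ S) →
      Nat.card G - Nat.card S = n → ∀ γ : Γ, γ • z - z ∈ S := by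
    intro n
    induction n using Nat.strong_induction_on with
    | _ n ih =>
      intro S hSG hS hn
      by_cases hST : S = G
      · intro γ; rw [hST]; exact hZG z hz γ
      obtain ⟨y, hyG, hyS, hry, hy | ⟨hy, hcy⟩⟩ := U S hSG hS hST
      · have hy' : ∀ γ : Γ, ∃ m : ℤ, γ • y - m • y ∈ S := fun γ => ⟨1, by simpa using hy γ⟩
        have hlt := card_lt_card_sup hSG hyG hyS
        have hle := card_le_card_of_le (sup_le_of_mem hSG hyG)
        have h' := ih (Nat.card G - Nat.card (S ⊔ AddSubgroup.zmultiples y : AddSubgroup J))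
          (by omega) _ (sup_le_of_mem hSG hyG) (stable_sup hS hy') rfl
        exact Htriv S hSG hS y hyG hyS hry hy z hz (fun γ => exists_of_mem_sup (h' γ))
          (by rw [hσ, sub_self]; exact S.zero_mem)
      · have hlt := card_lt_card_sup hSG hyG hyS
        have hle := card_le_card_of_le (sup_le_of_mem hSG hyG)
        have h' := ih (Nat.card G - Nat.card (S ⊔ AddSubgroup.zmultiples y : AddSubgroup J))
          (by omega) _ (sup_le_of_mem hSG hyG) (stable_sup hS hy) rfl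
        obtain ⟨j, hj⟩ := Hmu S hSG hS y hyG hyS hry hy hcy z hz
          (fun γ => exists_of_mem_sup (h' γ)) (by rw [hσ, sub_self]; exact S.zero_mem)
        have h1 : j • (c • y - y) ∈ S := by
          have := hj c
          rw [hc, sub_self, zero_sub] at this
          simpa using S.neg_mem this
        have h2 : (2 * j) • y ∈ S := by
          have e : (2 * j) • y = j • (c • y + y) - j • (c • y - y) := by
            generalize c • y = w
            module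
          rw [e]
          exact S.sub_mem (S.zsmul_mem hcy j) h1
        intro γ
        have hx2 : (2 : ℤ) • (j • (γ • y - y)) ∈ S := by
          have e : (2 : ℤ) • (j • (γ • y - y)) = γ • ((2 * j) • y) - (2 * j) • y := by
            rw [smul_comm γ (2 * j) y, ← smul_sub, mul_smul]
          rw [e]
          exact S.sub_mem (hS γ _ h2) h2
        have hxr : (r : ℤ) • (j • (γ • y - y)) ∈ S := by
          have e : (r : ℤ) • (j • (γ • y - y)) = j • (γ • (r • y) - r • y) := by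
            rw [smul_comm γ r y, ← smul_sub, smul_comm (r : ℤ) j, natCast_zsmul]
          rw [e]
          exact S.zsmul_mem (S.sub_mem (hS γ _ hry) hry) j
        obtain ⟨m, hm⟩ := hr
        have hx : j • (γ • y - y) ∈ S := by
          have e : j • (γ • y - y) = (r : ℤ) • (j • (γ • y - y)) -
              (m : ℤ) • ((2 : ℤ) • (j • (γ • y - y))) := by
            rw [hm]
            push_cast
            generalize j • (γ • y - y) = w
            module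
          rw [e]
          exact S.sub_mem hxr (S.zsmul_mem hx2 _)
        have e : γ • z - z = (γ • z - z - j • (γ • y - y)) + j • (γ • y - y) := by abel
        rw [e]
        exact S.add_mem (hj γ) hx
  intro γ
  have := key _ ⊥ bot_le (fun γ x hx => by
    rw [AddSubgroup.mem_bot] at hx ⊢; rw [hx, smul_zero]) rfl γ
  rw [AddSubgroup.mem_bot] at this
  exact sub_eq_zero.mp this

/-! ### The count `[Z : M] ≤ #W · #V` -/

theorem relIndex_le (Z M W V : AddSubgroup J) (σ c : Γ) [Finite W] [Finite V]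
    (hfix : ∀ z ∈ Z, σ • z = z → c • z = z → z ∈ M)
    (hW : ∀ z ∈ Z, σ • z - z ∈ W) (hV : ∀ z ∈ Z, c • z - z ∈ V) :
    M.relIndex Z ≤ Nat.card W * Nat.card V ∧ M.relIndex Z ≠ 0 := by
  let f : Z →+ W × V :=
    { toFun := fun z => (⟨σ • (z : J) - z, hW z z.2⟩, ⟨c • (z : J) - z, hV z z.2⟩)
      map_zero' := by ext <;> simp
      map_add' := by
        intro a b
        ext
        · simp [smul_add]; abel
        · simp [smul_add]; abel }
  have hker : f.ker ≤ M.addSubgroupOf Z := by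
    intro z hz
    rw [AddMonoidHom.mem_ker] at hz
    have h1 : σ • (z : J) - z = 0 := by
      have := congrArg (fun q : W × V => (q.1 : J)) hz
      simpa [f] using this
    have h2 : c • (z : J) - z = 0 := by
      have := congrArg (fun q : W × V => (q.2 : J)) hz
      simpa [f] using this
    exact hfix z z.2 (sub_eq_zero.mp h1) (sub_eq_zero.mp h2)
  have hfin : f.ker.index ≠ 0 := by
    rw [AddSubgroup.index_ker]
    exact Nat.card_pos.ne'
  have hle : f.ker.index ≤ Nat.card W * Nat.card V := by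
    rw [AddSubgroup.index_ker, ← Nat.card_prod]
    exact Nat.card_le_card_of_injective _ Subtype.val_injective
  have hdvd : (M.addSubgroupOf Z).index ∣ f.ker.index := AddSubgroup.index_dvd_of_le hker
  have hne : (M.addSubgroupOf Z).index ≠ 0 := fun h0 => hfin (by
    rw [h0] at hdvd; exact Nat.eq_zero_of_zero_dvd hdvd)
  exact ⟨(Nat.le_of_dvd (Nat.pos_of_ne_zero hfin) hdvd).trans hle, hne⟩

/-! ### L8: from `[Z : M] ≤ #G` to `#E(M / r M) ≤ #G^Γ` -/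

/-- **L8.** If `[Z : M] ≤ #G` then `[M : {y ∈ M | E y ∈ r M}] ≤ #(G ⊓ M)`. -/
theorem main_count_of_index (r : ℕ) (E : J →+ J) (M : AddSubgroup J)
    (hM : ∀ x : J, x ∈ M ↔ ∀ γ : Γ, γ • x = x)
    (hE : ∀ (γ : Γ) (x : J), E (γ • x) = γ • E x)
    (hdiv : ∀ y ∈ M, ∃ z : J, r • z = y)
    (G : AddSubgroup J) [Finite G] (hGst : ∀ (γ : Γ) (g : J), g ∈ G → γ • g ∈ G)
    (hGE : ∀ x : J, r • x = 0 → E x ∈ G) (hGr : ∀ g ∈ G, r • g = 0)
    (hidx : M.relIndex (Zdiv Γ r M G) ≤ Nat.card G)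
    (hidx0 : M.relIndex (Zdiv Γ r M G) ≠ 0) :
    (Ndiv r E M).relIndex M ≤ Nat.card (G ⊓ M : AddSubgroup J) ∧
      (Ndiv r E M).relIndex M ≠ 0 := by
  classical
  have hEM : ∀ x ∈ M, E x ∈ M := fun x hx => (hM _).2 (fun γ => by rw [← hE, (hM x).1 hx γ])
  have hMZ : M ≤ Zdiv Γ r M G := fun m hm =>
    ⟨M.nsmul_mem hm r, fun γ => by rw [(hM m).1 hm γ, sub_self]; exact G.zero_mem⟩
  have hGZ : G ≤ Zdiv Γ r M G := fun g hg =>
    ⟨by rw [hGr g hg]; exact M.zero_mem, fun γ => G.sub_mem (hGst γ g hg) hg⟩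
  have hGMZ : G ⊔ M ≤ Zdiv Γ r M G := sup_le hGZ hMZ
  -- index bookkeeping
  have h1 : M.relIndex (G ⊔ M) * (G ⊔ M).relIndex (Zdiv Γ r M G) =
      M.relIndex (Zdiv Γ r M G) :=
    AddSubgroup.relIndex_mul_relIndex M (G ⊔ M) (Zdiv Γ r M G) le_sup_right hGMZ
  have h2 : M.relIndex (G ⊔ M) = (G ⊓ M).relIndex G := by
    rw [AddSubgroup.relIndex_sup_right, ← AddSubgroup.inf_relIndex_right, inf_comm]
  have h3 : Nat.card (G ⊓ M : AddSubgroup J) * (G ⊓ M).relIndex G = Nat.card G := by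
    have := AddSubgroup.relIndex_mul_relIndex (⊥ : AddSubgroup J) (G ⊓ M) G bot_le inf_le_left
    rwa [AddSubgroup.relIndex_bot_left, AddSubgroup.relIndex_bot_left] at this
  have ha0 : (G ⊓ M).relIndex G ≠ 0 := by
    intro h
    rw [h, mul_zero] at h3
    exact Nat.card_pos.ne' h3.symm
  have hb : (G ⊔ M).relIndex (Zdiv Γ r M G) ≤ Nat.card (G ⊓ M : AddSubgroup J) ∧
      (G ⊔ M).relIndex (Zdiv Γ r M G) ≠ 0 := by
    constructor
    · have hab : (G ⊓ M).relIndex G * (G ⊔ M).relIndex (Zdiv Γ r M G) ≤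
          (G ⊓ M).relIndex G * Nat.card (G ⊓ M : AddSubgroup J) := by
        rw [← h2, h1, h2, mul_comm, h3]
        exact hidx
      exact Nat.le_of_mul_le_mul_left hab (Nat.pos_of_ne_zero ha0)
    · intro h0
      rw [h0, mul_zero] at h1
      exact hidx0 h1.symm
  -- the two maps out of all division points
  let Z' : AddSubgroup J := M.comap (nsmulAddMonoidHom r : J →+ J)
  have hZ' : ∀ z : Z', r • (z : J) ∈ M := fun z => z.2
  have hψ : ∀ z : Z', E (z : J) ∈ Zdiv Γ r M G := by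
    intro z
    refine ⟨by rw [← map_nsmul]; exact hEM _ (hZ' z), fun γ => ?_⟩
    have e : γ • E (z : J) - E (z : J) = E (γ • (z : J) - z) := by rw [map_sub, hE]
    rw [e]
    apply hGE
    rw [smul_sub, smul_comm r γ, (hM _).1 (hZ' z) γ, sub_self]
  let ψ : Z' →+ Zdiv Γ r M G := (E.comp Z'.subtype).codRestrict (Zdiv Γ r M G) hψ
  let ρ : Z' →+ M := ((nsmulAddMonoidHom r : J →+ J).comp Z'.subtype).codRestrict M hZ'
  have hρ : Function.Surjective ρ := by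
    rintro ⟨y, hy⟩
    obtain ⟨z, hz⟩ := hdiv y hy
    exact ⟨⟨z, by show r • z ∈ M; rw [hz]; exact hy⟩, Subtype.ext hz⟩
  let K' : AddSubgroup Z' := ((G ⊔ M).addSubgroupOf (Zdiv Γ r M G)).comap ψ
  let N' : AddSubgroup Z' := ((Ndiv r E M).addSubgroupOf M).comap ρ
  have hKN : K' ≤ N' := by
    intro z hz
    have hz' : E (z : J) ∈ G ⊔ M := hz
    obtain ⟨g, hg, m, hm, hgm⟩ := AddSubgroup.mem_sup.1 hz'
    show r • (z : J) ∈ Ndiv r E M
    refine ⟨hZ' z, m, hm, ?_⟩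
    rw [map_nsmul, ← hgm, smul_add, hGr g hg, zero_add]
  have e1 : N'.index = (Ndiv r E M).relIndex M :=
    AddSubgroup.index_comap_of_surjective _ hρ
  have e2 : K'.index = ((G ⊔ M).addSubgroupOf (Zdiv Γ r M G)).relIndex ψ.range :=
    AddSubgroup.index_comap _ ψ
  have e3 : ((G ⊔ M).addSubgroupOf (Zdiv Γ r M G)).relIndex ψ.range ∣
      (G ⊔ M).relIndex (Zdiv Γ r M G) :=
    AddSubgroup.relIndex_dvd_index_of_normal _ _
  have hK0 : K'.index ≠ 0 := by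
    rw [e2]
    intro h0
    rw [h0] at e3
    exact hb.2 (Nat.eq_zero_of_zero_dvd e3)
  have hKle : K'.index ≤ (G ⊔ M).relIndex (Zdiv Γ r M G) := by
    rw [e2]
    exact Nat.le_of_dvd (Nat.pos_of_ne_zero hb.2) e3
  have hdvd : N'.index ∣ K'.index := AddSubgroup.index_dvd_of_le hKN
  have hN0 : N'.index ≠ 0 := fun h0 => hK0 (by
    rw [h0] at hdvd; exact Nat.eq_zero_of_zero_dvd hdvd)
  rw [← e1]
  exact ⟨((Nat.le_of_dvd (Nat.pos_of_ne_zero hK0) hdvd).trans hKle).trans hb.1, hN0⟩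

/-- **L5 + L8, `r = 2`.** -/
theorem main_count_two (E : J →+ J) (M : AddSubgroup J)
    (hM : ∀ x : J, x ∈ M ↔ ∀ γ : Γ, γ • x = x)
    (hE : ∀ (γ : Γ) (x : J), E (γ • x) = γ • E x)
    (hdiv : ∀ y ∈ M, ∃ z : J, 2 • z = y)
    (G : AddSubgroup J) [Finite G] (hGst : ∀ (γ : Γ) (g : J), g ∈ G → γ • g ∈ G)
    (hGE : ∀ x : J, 2 • x = 0 → E x ∈ G) (hGr : ∀ g ∈ G, 2 • g = 0) (σ c : Γ)
    (U : ∀ S : AddSubgroup J, S ≤ G → (∀ (γ : Γ) (x : J), x ∈ S → γ • x ∈ S) → S ≠ G →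
      ∃ y ∈ G, y ∉ S ∧ 2 • y ∈ S ∧ ∀ γ : Γ, γ • y - y ∈ S)
    (H : ∀ S : AddSubgroup J, S ≤ G → (∀ (γ : Γ) (x : J), x ∈ S → γ • x ∈ S) → ∀ y ∈ G,
      y ∉ S → 2 • y ∈ S → (∀ γ : Γ, γ • y - y ∈ S) →
      ∀ z ∈ Zdiv Γ 2 M G, (∀ γ : Γ, γ • z - z ∈ S ∨ γ • z - z - y ∈ S) → σ • z - z ∈ S →
        c • z - z ∈ S → ∀ γ : Γ, γ • z - z ∈ S)
    (W V : AddSubgroup J) [Finite W] [Finite V]
    (hW : ∀ z ∈ Zdiv Γ 2 M G, σ • z - z ∈ W) (hV : ∀ z ∈ Zdiv Γ 2 M G, c • z - z ∈ V)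
    (hWV : Nat.card W * Nat.card V ≤ Nat.card G) :
    (Ndiv 2 E M).relIndex M ≤ Nat.card (G ⊓ M : AddSubgroup J) ∧
      (Ndiv 2 E M).relIndex M ≠ 0 := by
  have hfix : ∀ z ∈ Zdiv Γ 2 M G, σ • z = z → c • z = z → z ∈ M := fun z hz hσ hc =>
    (hM z).2 (fixed_of_two G (Zdiv Γ 2 M G) (fun z hz => hz.2) σ c U H hz hσ hc)
  obtain ⟨h1, h2⟩ := relIndex_le (Zdiv Γ 2 M G) M W V σ c hfix hW hV
  exact main_count_of_index 2 E M hM hE hdiv G hGst hGE hGr (h1.trans hWV) h2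

/-- **L5 + L8, `r` odd.** -/
theorem main_count_odd (r : ℕ) (hr : Odd r) (E : J →+ J) (M : AddSubgroup J)
    (hM : ∀ x : J, x ∈ M ↔ ∀ γ : Γ, γ • x = x)
    (hE : ∀ (γ : Γ) (x : J), E (γ • x) = γ • E x)
    (hdiv : ∀ y ∈ M, ∃ z : J, r • z = y)
    (G : AddSubgroup J) [Finite G] (hGst : ∀ (γ : Γ) (g : J), g ∈ G → γ • g ∈ G)
    (hGE : ∀ x : J, r • x = 0 → E x ∈ G) (hGr : ∀ g ∈ G, r • g = 0) (σ c : Γ)
    (U : ∀ S : AddSubgroup J, S ≤ G → (∀ (γ : Γ) (x : J), x ∈ S → γ • x ∈ S) → S ≠ G →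
      ∃ y ∈ G, y ∉ S ∧ r • y ∈ S ∧
        ((∀ γ : Γ, γ • y - y ∈ S) ∨ ((∀ γ : Γ, ∃ m : ℤ, γ • y - m • y ∈ S) ∧ c • y + y ∈ S)))
    (Htriv : ∀ S : AddSubgroup J, S ≤ G → (∀ (γ : Γ) (x : J), x ∈ S → γ • x ∈ S) → ∀ y ∈ G,
      y ∉ S → r • y ∈ S → (∀ γ : Γ, γ • y - y ∈ S) →
      ∀ z ∈ Zdiv Γ r M G, (∀ γ : Γ, ∃ j : ℤ, γ • z - z - j • y ∈ S) → σ • z - z ∈ S →
        ∀ γ : Γ, γ • z - z ∈ S)
    (Hmu : ∀ S : AddSubgroup J, S ≤ G → (∀ (γ : Γ) (x : J), x ∈ S → γ • x ∈ S) → ∀ y ∈ G,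
      y ∉ S → r • y ∈ S → (∀ γ : Γ, ∃ m : ℤ, γ • y - m • y ∈ S) → c • y + y ∈ S →
      ∀ z ∈ Zdiv Γ r M G, (∀ γ : Γ, ∃ j : ℤ, γ • z - z - j • y ∈ S) → σ • z - z ∈ S →
        ∃ j : ℤ, ∀ γ : Γ, γ • z - z - j • (γ • y - y) ∈ S)
    (W V : AddSubgroup J) [Finite W] [Finite V]
    (hW : ∀ z ∈ Zdiv Γ r M G, σ • z - z ∈ W) (hV : ∀ z ∈ Zdiv Γ r M G, c • z - z ∈ V)
    (hWV : Nat.card W * Nat.card V ≤ Nat.card G) :
    (Ndiv r E M).relIndex M ≤ Nat.card (G ⊓ M : AddSubgroup J) ∧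
      (Ndiv r E M).relIndex M ≠ 0 := by
  have hfix : ∀ z ∈ Zdiv Γ r M G, σ • z = z → c • z = z → z ∈ M := fun z hz hσ hc =>
    (hM z).2 (fixed_of_odd r hr G (Zdiv Γ r M G) (fun z hz => hz.2) σ c U Htriv Hmu hz hσ hc)
  obtain ⟨h1, h2⟩ := relIndex_le (Zdiv Γ r M G) M W V σ c hfix hW hV
  exact main_count_of_index r E M hM hE hdiv G hGst hGE hGr (h1.trans hWV) h2

/-! ### Seams -/

/-- **Seam L8 → L9** (the shape of `L9Alg64.exists_poly`): the index bound as a finite-valued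
class map `κ` with `κ y = κ y' → E y - E y' ∈ r M`, and `#C ≤ #(G ⊓ M)`. -/
theorem exists_kappa_of_index (r : ℕ) (E : J →+ J) (M G : AddSubgroup J)
    (hidx : (Ndiv r E M).relIndex M ≤ Nat.card (G ⊓ M : AddSubgroup J))
    (hidx0 : (Ndiv r E M).relIndex M ≠ 0) :
    ∃ (C : Type v) (_ : Finite C) (κ : J → C),
      (∀ y ∈ M, ∀ y' ∈ M, κ y = κ y' → ∃ m ∈ M, E y - E y' = r • m) ∧
      Nat.card C ≤ ((G ⊓ M : AddSubgroup J) : Set J).ncard := by
  classical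
  let Q := M ⧸ (Ndiv r E M).addSubgroupOf M
  haveI : Finite Q := by
    apply Nat.finite_of_card_ne_zero
    exact hidx0
  refine ⟨Q, inferInstance, fun y => if hy : y ∈ M then QuotientAddGroup.mk ⟨y, hy⟩ else 0,
    ?_, ?_⟩
  · intro y hy y' hy' h
    simp only [dif_pos hy, dif_pos hy'] at h
    rw [QuotientAddGroup.eq] at h
    have h' : -y + y' ∈ Ndiv r E M := h
    obtain ⟨-, m, hm, hmE⟩ := h'
    refine ⟨-m, M.neg_mem hm, ?_⟩
    rw [smul_neg, ← hmE, map_add, map_neg]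
    abel
  · rw [← Nat.card_coe_set_eq]
    exact hidx

/-- The restricted action on a stable subgroup. -/
@[reducible] def restrictAction (G : AddSubgroup J) (hG : ∀ (γ : Γ) (g : J), g ∈ G → γ • g ∈ G) :
    DistribMulAction Γ G where
  smul γ g := ⟨γ • (g : J), hG γ g g.2⟩
  one_smul g := Subtype.ext (one_smul Γ (g : J))
  mul_smul a b g := Subtype.ext (mul_smul a b (g : J))
  smul_zero a := Subtype.ext (smul_zero a)
  smul_add a x y := Subtype.ext (smul_add a (x : J) (y : J))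

/-- **Seam L1 → L5, `r = 2`**: the flag hypothesis stated on the subtype `↥G` with the restricted
action (the shape of `ACL40`'s `U`, as produced by an abstract flag lemma) gives the ambient
hypothesis `U` of `fixed_of_two` / `main_count_two`. -/
theorem U_two_of_subtype (G : AddSubgroup J) (hG : ∀ (γ : Γ) (g : J), g ∈ G → γ • g ∈ G)
    (U : letI := restrictAction G hG
      ∀ S : AddSubgroup G, (∀ (γ : Γ) (x : G), x ∈ S → γ • x ∈ S) → S ≠ ⊤ →
        ∃ y : G, y ∉ S ∧ 2 • y ∈ S ∧ ∀ γ : Γ, γ • y - y ∈ S) :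
    ∀ S : AddSubgroup J, S ≤ G → (∀ (γ : Γ) (x : J), x ∈ S → γ • x ∈ S) → S ≠ G →
      ∃ y ∈ G, y ∉ S ∧ 2 • y ∈ S ∧ ∀ γ : Γ, γ • y - y ∈ S := by
  letI := restrictAction G hG
  intro S hSG hS hne
  have hne' : S.addSubgroupOf G ≠ ⊤ := by
    intro h
    apply hne
    exact le_antisymm hSG ((AddSubgroup.addSubgroupOf_eq_top (H := S) (K := G)).1 h)
  obtain ⟨y, hy1, hy2, hy3⟩ := U (S.addSubgroupOf G)
    (fun γ x hx => by
      rw [AddSubgroup.mem_addSubgroupOf] at hx ⊢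
      exact hS γ _ hx) hne'
  refine ⟨y, y.2, ?_, ?_, ?_⟩
  · exact fun h => hy1 (AddSubgroup.mem_addSubgroupOf.2 h)
  · have := AddSubgroup.mem_addSubgroupOf.1 hy2
    simpa using this
  · intro γ
    exact AddSubgroup.mem_addSubgroupOf.1 (hy3 γ)

/-- **Seam L1 → L5, `r` odd.** -/
theorem U_odd_of_subtype (r : ℕ) (c : Γ) (G : AddSubgroup J)
    (hG : ∀ (γ : Γ) (g : J), g ∈ G → γ • g ∈ G)
    (U : letI := restrictAction G hG
      ∀ S : AddSubgroup G, (∀ (γ : Γ) (x : G), x ∈ S → γ • x ∈ S) → S ≠ ⊤ →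
        ∃ y : G, y ∉ S ∧ r • y ∈ S ∧
          ((∀ γ : Γ, γ • y - y ∈ S) ∨ ((∀ γ : Γ, ∃ m : ℤ, γ • y - m • y ∈ S) ∧ c • y + y ∈ S))) :
    ∀ S : AddSubgroup J, S ≤ G → (∀ (γ : Γ) (x : J), x ∈ S → γ • x ∈ S) → S ≠ G →
      ∃ y ∈ G, y ∉ S ∧ r • y ∈ S ∧
        ((∀ γ : Γ, γ • y - y ∈ S) ∨ ((∀ γ : Γ, ∃ m : ℤ, γ • y - m • y ∈ S) ∧ c • y + y ∈ S)) := by
  letI := restrictAction G hG
  intro S hSG hS hne
  have hne' : S.addSubgroupOf G ≠ ⊤ := by
    intro h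
    apply hne
    exact le_antisymm hSG ((AddSubgroup.addSubgroupOf_eq_top (H := S) (K := G)).1 h)
  obtain ⟨y, hy1, hy2, hy3⟩ := U (S.addSubgroupOf G)
    (fun γ x hx => by
      rw [AddSubgroup.mem_addSubgroupOf] at hx ⊢
      exact hS γ _ hx) hne'
  refine ⟨y, y.2, ?_, ?_, ?_⟩
  · exact fun h => hy1 (AddSubgroup.mem_addSubgroupOf.2 h)
  · have := AddSubgroup.mem_addSubgroupOf.1 hy2
    simpa using this
  · rcases hy3 with h | ⟨h1, h2⟩
    · left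
      intro γ
      exact AddSubgroup.mem_addSubgroupOf.1 (h γ)
    · right
      refine ⟨fun γ => ?_, ?_⟩
      · obtain ⟨m, hm⟩ := h1 γ
        exact ⟨m, AddSubgroup.mem_addSubgroupOf.1 hm⟩
      · exact AddSubgroup.mem_addSubgroupOf.1 h2

end Fermat.Agent.S15P.MainCount40
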