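/-
S15 design cell (cell lead helper80, reports #4830/#4869; seat helper40).
The composite (DESC) seam, abstract side: L5 (Frattini step, `MainCount40.fixed_of_two` /
`fixed_of_odd`) + the count `[Z : M] ≤ #W · #V` (`MainCount40.relIndex_le`) + helper64's
seam L8 → L9 (`L9Seam64.exists_poly_of_index`).

Input: the flag data `U`, the step hypotheses `H` (resp. `Htriv`, `Hmu`), the two local
bounds `W`, `V` with `#W · #V ≤ #G`, Mordell–Weil for `M = J^Γ`, and the Hecke word `E`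
(`Γ`-equivariant, idempotent on `J[r]`, `G = E J[r]` finite).
Output: an integer polynomial `P` with `P(E) M` torsion and `P(E) c₁ = c₁` on `(J[r])^{E = 1}`.

Mathlib + `S15P/MainCount40` + `S15P/L9Alg64` + `S15P/L9Seam64` only.
-/
import Mathlib
import Fermat.Agent.S15P.MainCount40
import Fermat.Agent.S15P.L9Seam64

set_option autoImplicit false

namespace Fermat.Agent.S15P.Desc40

open Polynomial
open Fermat.Agent.S15P.MainCount40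

universe u v

variable {Γ : Type u} {J : Type v} [Group Γ] [AddCommGroup J] [DistribMulAction Γ J]

/-- **(DESC), abstract, `r = 2`.** -/
theorem exists_poly_two (M : AddSubgroup J) (hM : ∀ x : J, x ∈ M ↔ ∀ γ : Γ, γ • x = x)
    (hFG : AddGroup.FG M) (E : Module.End ℤ J)
    (hEΓ : ∀ (γ : Γ) (x : J), E (γ • x) = γ • E x)
    (hidem : ∀ x : J, 2 • x = 0 → E (E x) = E x)
    (hdiv : ∀ y ∈ M, ∃ z : J, 2 • z = y)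
    (G : AddSubgroup J) (hG : ∀ g : J, g ∈ G ↔ ∃ x : J, 2 • x = 0 ∧ g = E x) [Finite G]
    (σ c : Γ)
    (U : ∀ S : AddSubgroup J, S ≤ G → (∀ (γ : Γ) (x : J), x ∈ S → γ • x ∈ S) → S ≠ G →
      ∃ y ∈ G, y ∉ S ∧ 2 • y ∈ S ∧ ∀ γ : Γ, γ • y - y ∈ S)
    (H : ∀ S : AddSubgroup J, S ≤ G → (∀ (γ : Γ) (x : J), x ∈ S → γ • x ∈ S) → ∀ y ∈ G,
      y ∉ S → 2 • y ∈ S → (∀ γ : Γ, γ • y - y ∈ S) →
      ∀ z ∈ Zdiv Γ 2 M G, (∀ γ : Γ, γ • z - z ∈ S ∨ γ • z - z - y ∈ S) → σ • z - z ∈ S →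
        c • z - z ∈ S → ∀ γ : Γ, γ • z - z ∈ S)
    (W V : AddSubgroup J) [Finite W] [Finite V]
    (hW : ∀ z ∈ Zdiv Γ 2 M G, σ • z - z ∈ W) (hV : ∀ z ∈ Zdiv Γ 2 M G, c • z - z ∈ V)
    (hWV : Nat.card W * Nat.card V ≤ Nat.card G) :
    ∃ P : ℤ[X], (∃ n : ℕ, n ≠ 0 ∧ ∀ y ∈ M, n • (aeval E P) y = 0) ∧
      (P.eval 1 ≡ 1 [ZMOD (2 : ℕ)]) ∧
      ∀ c₁ : J, E c₁ = c₁ → 2 • c₁ = 0 → (aeval E P) c₁ = c₁ := by
  have hfix : ∀ z ∈ Zdiv Γ 2 M G, σ • z = z → c • z = z → z ∈ M := fun z hz hσ hc =>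
    (hM z).2 (fixed_of_two G (Zdiv Γ 2 M G) (fun z hz => hz.2) σ c U H hz hσ hc)
  obtain ⟨h1, h2⟩ := relIndex_le (Zdiv Γ 2 M G) M W V σ c hfix hW hV
  exact Fermat.Agent.S15P.L9Seam64.exists_poly_of_index M hM hFG 2 two_ne_zero E hEΓ hidem hdiv
    G (Zdiv Γ 2 M G) hG (fun _ => mem_Zdiv) h2 (h1.trans hWV)

/-- **(DESC), abstract, `r` odd.** -/
theorem exists_poly_odd (r : ℕ) (hr : Odd r) (M : AddSubgroup J)
    (hM : ∀ x : J, x ∈ M ↔ ∀ γ : Γ, γ • x = x)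
    (hFG : AddGroup.FG M) (E : Module.End ℤ J)
    (hEΓ : ∀ (γ : Γ) (x : J), E (γ • x) = γ • E x)
    (hidem : ∀ x : J, r • x = 0 → E (E x) = E x)
    (hdiv : ∀ y ∈ M, ∃ z : J, r • z = y)
    (G : AddSubgroup J) (hG : ∀ g : J, g ∈ G ↔ ∃ x : J, r • x = 0 ∧ g = E x) [Finite G]
    (σ c : Γ)
    (U : ∀ S : AddSubgroup J, S ≤ G → (∀ (γ : Γ) (x : J), x ∈ S → γ • x ∈ S) → S ≠ G →
      ∃ y ∈ G, y ∉ S ∧ r • y ∈ S ∧
        ((∀ γ : Γ, γ • y - y ∈ S) ∨ ((∀ γ : Γ, ∃ m : ℤ, γ • y - m • y ∈ S) ∧ c • y + y ∈ S)))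
    (Htriv : ∀ S : AddSubgroup J, S ≤ G → (∀ (γ : Γ) (x : J), x ∈ S → γ • x ∈ S) → ∀ y ∈ G,
      y ∉ S → r • y ∈ S → (∀ γ : Γ, γ • y - y ∈ S) →
      ∀ z ∈ Zdiv Γ r M G, (∀ γ : Γ, ∃ j : ℤ, γ • z - z - j • y ∈ S) → σ • z - z ∈ S →
        ∀ γ : Γ, γ • z - z ∈ S)
    (Hmu : ∀ S : AddSubgroup J, S ≤ G → (∀ (γ : Γ) (x : J), x ∈ S → γ • x ∈ S) → ∀ y ∈ G,
      y ∉ S → r • y ∈ S → (∀ γ : Γ, ∃ m : ℤ, γ • y - m • y ∈ S) → c • y + y ∈ S →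
      ∀ z ∈ Zdiv Γ r M G, (∀ γ : Γ, ∃ j : ℤ, γ • z - z - j • y ∈ S) → σ • z - z ∈ S →
        ∃ j : ℤ, ∀ γ : Γ, γ • z - z - j • (γ • y - y) ∈ S)
    (W V : AddSubgroup J) [Finite W] [Finite V]
    (hW : ∀ z ∈ Zdiv Γ r M G, σ • z - z ∈ W) (hV : ∀ z ∈ Zdiv Γ r M G, c • z - z ∈ V)
    (hWV : Nat.card W * Nat.card V ≤ Nat.card G) :
    ∃ P : ℤ[X], (∃ n : ℕ, n ≠ 0 ∧ ∀ y ∈ M, n • (aeval E P) y = 0) ∧
      (P.eval 1 ≡ 1 [ZMOD r]) ∧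
      ∀ c₁ : J, E c₁ = c₁ → r • c₁ = 0 → (aeval E P) c₁ = c₁ := by
  have hfix : ∀ z ∈ Zdiv Γ r M G, σ • z = z → c • z = z → z ∈ M := fun z hz hσ hc =>
    (hM z).2 (fixed_of_odd r hr G (Zdiv Γ r M G) (fun z hz => hz.2) σ c U Htriv Hmu hz hσ hc)
  obtain ⟨h1, h2⟩ := relIndex_le (Zdiv Γ r M G) M W V σ c hfix hW hV
  have hr0 : r ≠ 0 := fun h => by rw [h] at hr; exact (by decide : ¬ Odd 0) hr
  exact Fermat.Agent.S15P.L9Seam64.exists_poly_of_index M hM hFG r hr0 E hEΓ hidem hdiv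
    G (Zdiv Γ r M G) hG (fun _ => mem_Zdiv) h2 (h1.trans hWV)

end Fermat.Agent.S15P.Desc40
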