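/-
S15, (DESC) layer (helper80, architect): the INTERFACE of the concrete Eisenstein descent.

`DescData` is the verbatim concretisation, at `J = JZero p`, `Γ = GQ`, `M = J₀(p)(ℚ)`, of the
hypotheses of the abstract (DESC) theorems `Desc40.exists_poly_two` / `exists_poly_odd`
(on main).  The concrete layers prove the five clauses:

* `IsEisProj p ℓ r E`      : (L0-E)  `E` is a polynomial in the `T_q`, `q ∤ 6 p ℓ`, idempotent on
                             `J[r]`, fixing every Eisenstein vector of `J[r]`;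
* `Finite (eisG p r E)`    : (L0)    `G = E J[r]` is finite;
* `FlagU p r E c`          : (JH)    the flag of `G` (the hypothesis `U` of `Desc40`);
* `StepH p r E σ c`        : (LOC)   the local step (`H`, resp. `Htriv`, `Hmu`);
* `LocalCount p r E σ c`   : (L6+L7) the two local groups `W ∋ σ z − z`, `V ∋ c z − z`,
                             `#W · #V ≤ #G`.

`descOut_of_descData` : `DescData` + S17 (`J₀(p)(ℚ)` f.g.) + divisibility of `J₀(p)` +
Hecke–Galois commutation (all three on main) give the top interface Prop `Interfaces80.DescOut`.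
-/
import Mathlib
import Fermat.Agent.S15P.Interfaces80
import Fermat.Agent.S15P.Desc40

set_option autoImplicit false

namespace Fermat.Agent.S15P.InterfacesDesc80

open ModularCurve Fermat.Agent.ESJ Polynomial
open Fermat.Agent.S15P.Interfaces80 Fermat.Agent.S15P.MainCount40

/-- `J₀(p)(ℚ)`: the Galois-fixed classes (the subgroup of the frozen S17 statement). -/
noncomputable abbrev Mfix (p : ℕ) [NeZero p] : AddSubgroup (JZero p) :=
  FixedPoints.addSubgroup GQ (JZero p)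

/-- **(L0-E)** `E` is a polynomial in the Hecke operators `T_q`, `q ∤ 6 p ℓ`, idempotent on
`J[r]`, and fixes every Eisenstein vector of `J[r]`. -/
def IsEisProj (p ℓ r : ℕ) [NeZero p] (E : Module.End ℤ (JZero p)) : Prop :=
  (∃ S : Set Nat.Primes, (∀ q ∈ S, ¬ (q : ℕ) ∣ 6 * p * ℓ) ∧
    E ∈ Algebra.adjoin ℤ (heckeOperatorBar p '' S)) ∧
  (∀ x : JZero p, r • x = 0 → E (E x) = E x) ∧
  (∀ c₁ : JZero p, r • c₁ = 0 →
    (∀ q : Nat.Primes, (q : ℕ) ≠ p → heckeOperatorBar p q c₁ = (1 + (q : ℕ)) • c₁) → E c₁ = c₁)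

/-- `G = E J[r]`. -/
def eisG (p r : ℕ) [NeZero p] (E : Module.End ℤ (JZero p)) : AddSubgroup (JZero p) where
  carrier := {g | ∃ x : JZero p, r • x = 0 ∧ g = E x}
  zero_mem' := ⟨0, smul_zero r, (map_zero E).symm⟩
  add_mem' := by
    rintro _ _ ⟨x, hx, rfl⟩ ⟨y, hy, rfl⟩
    exact ⟨x + y, by rw [nsmul_add, hx, hy, add_zero], (map_add E x y).symm⟩
  neg_mem' := by
    rintro _ ⟨x, hx, rfl⟩
    exact ⟨-x, by rw [neg_nsmul, hx, neg_zero], (map_neg E x).symm⟩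

theorem mem_eisG {p r : ℕ} [NeZero p] {E : Module.End ℤ (JZero p)} {g : JZero p} :
    g ∈ eisG p r E ↔ ∃ x : JZero p, r • x = 0 ∧ g = E x :=
  Iff.rfl

/-- **(JH)** the flag of `G = E J[r]`: the hypothesis `U` of `Desc40.exists_poly_two`
(`r = 2`) resp. `Desc40.exists_poly_odd` (`r ≠ 2`), verbatim. -/
def FlagU (p r : ℕ) [NeZero p] (E : Module.End ℤ (JZero p)) (c : GQ) : Prop :=
  (r = 2 → ∀ S : AddSubgroup (JZero p), S ≤ eisG p r E →
      (∀ (γ : GQ) (x : JZero p), x ∈ S → γ • x ∈ S) → S ≠ eisG p r E →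
      ∃ y ∈ eisG p r E, y ∉ S ∧ 2 • y ∈ S ∧ ∀ γ : GQ, γ • y - y ∈ S) ∧
  (r ≠ 2 → ∀ S : AddSubgroup (JZero p), S ≤ eisG p r E →
      (∀ (γ : GQ) (x : JZero p), x ∈ S → γ • x ∈ S) → S ≠ eisG p r E →
      ∃ y ∈ eisG p r E, y ∉ S ∧ r • y ∈ S ∧
        ((∀ γ : GQ, γ • y - y ∈ S) ∨
          ((∀ γ : GQ, ∃ m : ℤ, γ • y - m • y ∈ S) ∧ c • y + y ∈ S)))

/-- **(LOC)** the local step: the hypothesis `H` of `Desc40.exists_poly_two` (`r = 2`) resp.
`Htriv`, `Hmu` of `Desc40.exists_poly_odd` (`r ≠ 2`), verbatim. -/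
def StepH (p r : ℕ) [NeZero p] (E : Module.End ℤ (JZero p)) (σ c : GQ) : Prop :=
  (r = 2 → ∀ S : AddSubgroup (JZero p), S ≤ eisG p r E →
      (∀ (γ : GQ) (x : JZero p), x ∈ S → γ • x ∈ S) → ∀ y ∈ eisG p r E,
      y ∉ S → 2 • y ∈ S → (∀ γ : GQ, γ • y - y ∈ S) →
      ∀ z ∈ Zdiv GQ 2 (Mfix p) (eisG p r E),
        (∀ γ : GQ, γ • z - z ∈ S ∨ γ • z - z - y ∈ S) → σ • z - z ∈ S →
        c • z - z ∈ S → ∀ γ : GQ, γ • z - z ∈ S) ∧
  (r ≠ 2 →
    (∀ S : AddSubgroup (JZero p), S ≤ eisG p r E →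
      (∀ (γ : GQ) (x : JZero p), x ∈ S → γ • x ∈ S) → ∀ y ∈ eisG p r E,
      y ∉ S → r • y ∈ S → (∀ γ : GQ, γ • y - y ∈ S) →
      ∀ z ∈ Zdiv GQ r (Mfix p) (eisG p r E),
        (∀ γ : GQ, ∃ j : ℤ, γ • z - z - j • y ∈ S) → σ • z - z ∈ S →
        ∀ γ : GQ, γ • z - z ∈ S) ∧
    (∀ S : AddSubgroup (JZero p), S ≤ eisG p r E →
      (∀ (γ : GQ) (x : JZero p), x ∈ S → γ • x ∈ S) → ∀ y ∈ eisG p r E,
      y ∉ S → r • y ∈ S → (∀ γ : GQ, ∃ m : ℤ, γ • y - m • y ∈ S) → c • y + y ∈ S →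
      ∀ z ∈ Zdiv GQ r (Mfix p) (eisG p r E),
        (∀ γ : GQ, ∃ j : ℤ, γ • z - z - j • y ∈ S) → σ • z - z ∈ S →
        ∃ j : ℤ, ∀ γ : GQ, γ • z - z - j • (γ • y - y) ∈ S))

/-- **(L6 + L7)** the two local groups: `W ∋ σ z − z`, `V ∋ c z − z` for every
`z ∈ Zdiv` (`r z ∈ J₀(p)(ℚ)`, Kummer cocycle in `G`), with `#W · #V ≤ #G`. -/
def LocalCount (p r : ℕ) [NeZero p] (E : Module.End ℤ (JZero p)) (σ c : GQ) : Prop :=
  ∃ W V : AddSubgroup (JZero p), Finite W ∧ Finite V ∧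
    (∀ z ∈ Zdiv GQ r (Mfix p) (eisG p r E), σ • z - z ∈ W) ∧
    (∀ z ∈ Zdiv GQ r (Mfix p) (eisG p r E), c • z - z ∈ V) ∧
    Nat.card W * Nat.card V ≤ Nat.card (eisG p r E)

/-- **(DESC), concrete data**: for every Eisenstein class `c₁` of prime order `r` on `J₀(p)`
and every auxiliary prime `ℓ ≥ 5`: a projector `E` and two Galois elements `σ` (in an inertia
group at `p`), `c` (complex conjugation) with the five clauses. -/
def DescData : Prop :=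
  ∀ (p : ℕ) [NeZero p], p.Prime → p ∉ ({2, 3, 5, 7, 13} : Finset ℕ) →
  ∀ ℓ : ℕ, ℓ.Prime → 5 ≤ ℓ → ℓ ≠ p →
  ∀ r : ℕ, r.Prime →
  ∀ c₁ : JZero p, (∀ σ : GQ, σ • c₁ = c₁) → r • c₁ = 0 → c₁ ≠ 0 →
    (∀ q : Nat.Primes, (q : ℕ) ≠ p → heckeOperatorBar p q c₁ = (1 + (q : ℕ)) • c₁) →
    ∃ (E : Module.End ℤ (JZero p)) (σ c : GQ),
      IsEisProj p ℓ r E ∧ Finite (eisG p r E) ∧ FlagU p r E c ∧ StepH p r E σ c ∧
        LocalCount p r E σ c

/-- An endomorphism in the algebra generated by Galois-equivariant endomorphisms is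
Galois-equivariant. -/
theorem equivariant_of_mem_adjoin {Γ J : Type*} [Group Γ] [AddCommGroup J]
    [DistribMulAction Γ J] (T : Set (Module.End ℤ J))
    (hT : ∀ t ∈ T, ∀ (γ : Γ) (x : J), t (γ • x) = γ • t x) (η : Module.End ℤ J)
    (hη : η ∈ Algebra.adjoin ℤ T) : ∀ (γ : Γ) (x : J), η (γ • x) = γ • η x := by
  induction hη using Algebra.adjoin_induction with
  | mem t ht => exact hT t ht
  | algebraMap z =>
    intro γ x
    rw [Module.algebraMap_end_apply, Module.algebraMap_end_apply]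
    exact (map_zsmul (DistribSMul.toAddMonoidHom J γ) z x).symm
  | add a b _ _ ha hb =>
    intro γ x
    rw [LinearMap.add_apply, LinearMap.add_apply, ha, hb, smul_add]
  | mul a b _ _ ha hb =>
    intro γ x
    rw [Module.End.mul_apply, Module.End.mul_apply, hb, ha]

/-- **(DESC) seam**: the concrete data give the top interface Prop `DescOut`. -/
theorem descOut_of_descData
    (hFG : ∀ (p : ℕ) [NeZero p], p.Prime → 5 ≤ p → AddGroup.FG ↥(Mfix p))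
    (hdiv : ∀ (p : ℕ) [NeZero p] (n : ℕ), 0 < n → ∀ x : JZero p, ∃ y : JZero p, n • y = x)
    (hGal : ∀ (p : ℕ) [NeZero p], HeckeGaloisCommute p)
    (h : DescData) : DescOut := by
  intro p _ hp hp' ℓ hℓ h5 hℓp r hr c₁ hc₁fix hc₁r hc₁ne hc₁T
  obtain ⟨E, σ, c, ⟨⟨S, hS, hES⟩, hidem, hEc⟩, hfin, hU, hH, W, V, hWfin, hVfin, hW, hV, hWV⟩ :=
    h p hp hp' ℓ hℓ h5 hℓp r hr c₁ hc₁fix hc₁r hc₁ne hc₁T
  have := hfin
  have := hWfin
  have := hVfin
  have hp5 : 5 ≤ p := by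
    have h2 := hp.two_le
    by_contra hlt
    have hcases : p = 2 ∨ p = 3 ∨ p = 4 := by omega
    rcases hcases with h | h | h
    · exact hp' (by rw [h]; decide)
    · exact hp' (by rw [h]; decide)
    · rw [h] at hp; exact absurd hp (by norm_num)
  have hM : ∀ x : JZero p, x ∈ Mfix p ↔ ∀ γ : GQ, γ • x = x := fun x => Iff.rfl
  have hEΓ : ∀ (γ : GQ) (x : JZero p), E (γ • x) = γ • E x :=
    equivariant_of_mem_adjoin (heckeOperatorBar p '' S)
      (by rintro t ⟨q, _, rfl⟩ γ x; exact hGal p q γ x) E hES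
  have hdiv' : ∀ y ∈ Mfix p, ∃ z : JZero p, r • z = y := fun y _ => hdiv p r hr.pos y
  have key : ∃ P : ℤ[X], (∃ n : ℕ, n ≠ 0 ∧ ∀ y ∈ Mfix p, n • (aeval E P) y = 0) ∧
      ∀ c₁ : JZero p, E c₁ = c₁ → r • c₁ = 0 → (aeval E P) c₁ = c₁ := by
    by_cases hr2 : r = 2
    · subst hr2
      obtain ⟨P, h1, _, h3⟩ := Desc40.exists_poly_two (Γ := GQ) (Mfix p) hM (hFG p hp hp5) E hEΓ
        hidem hdiv' (eisG p 2 E) (fun _ => mem_eisG) σ c (hU.1 rfl) (hH.1 rfl) W V hW hV hWV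
      exact ⟨P, h1, h3⟩
    · have hodd : Odd r := hr.odd_of_ne_two hr2
      obtain ⟨P, h1, _, h3⟩ := Desc40.exists_poly_odd (Γ := GQ) r hodd (Mfix p) hM
        (hFG p hp hp5) E hEΓ hidem hdiv' (eisG p r E) (fun _ => mem_eisG) σ c (hU.2 hr2)
        (hH.2 hr2).1 (hH.2 hr2).2 W V hW hV hWV
      exact ⟨P, h1, h3⟩
  obtain ⟨P, ⟨n, hn, hP1⟩, hP2⟩ := key
  refine ⟨aeval E P, ⟨S, hS, ?_⟩, ⟨n, hn, fun y hy => hP1 y ((hM y).2 hy)⟩,
    hP2 c₁ (hEc c₁ hc₁r hc₁T) hc₁r⟩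
  exact Algebra.adjoin_le (Set.singleton_subset_iff.mpr hES) (aeval_mem_adjoin_singleton ℤ E)

end Fermat.Agent.S15P.InterfacesDesc80
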