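/-
S15 design cell — layer L1, the (E)-flag, ABSTRACT core (helper26).  Mathlib only.

`Γ` acts on a finite abelian `r`-group `G`.  Assume that every `γ ∈ Γ` acts on `G` like a power
`σ ^ k` of an element `σ` ("a Frobenius at `q`") which satisfies a power of the Eichler–Shimura
quadratic with Eisenstein eigenvalue: `((σ - 1)(σ - q)) ^ m = 0` on `G` (`esQuad σ q ^ m = 0`;
`esQuad_pow_eq_zero` produces it from `σ² - (1 + q + ν) σ + q = 0` with `ν` nilpotent commuting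
with `σ`).  Then every proper `Γ`-stable subgroup `S` of `G` has a step vector `y ∉ S`,
`r • y ∈ S`:

* `exists_step_two` (`r = 2`, `q` odd): `γ • y - y ∈ S` for all `γ`
  (hypothesis `U` of `ACL40.index_le_two`, verbatim);
* `exists_step_odd` (`r` odd, `χ : Γ →* (ZMod r)ˣ` the mod `r` cyclotomic character, `χ σ = q`,
  `χ γ = χ σ ^ k`, `χ c = -1`): either `γ • y - y ∈ S` for all `γ`, or `γ • y ≡ m • y` for all `γ`
  and `c • y + y ∈ S` (hypothesis `U` of `ACL40.index_le_odd`, verbatim).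

Proof: on `V = (G/S)[r]`, `r = 2`: `X^(2^a) - 1 ≡ (X-1)^(2^a-2m) ((X-1)(X-q))^m` mod `2`, so the
image of `Γ` in `Perm V` is a `2`-group and has a nonzero fixed point.  `r` odd: `ker χ` acts
through an `r`-group (`X^(k r^a) - 1 ∈ (((X-1)(X-q))^m, r)` when `q^k ≡ 1`), its fixed vectors
`V₁ ≠ 0` are permuted by `Γ` through the cyclic group `χ(Γ) = ⟨χ γ₀⟩`, and the Frobenius `σ` of
`γ₀` has eigenvalue `1` or `q` on `V₁`.
-/
import Mathlib

set_option autoImplicit false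

namespace Fermat.Agent.S15P.FlagStep26

open Polynomial

section basic

variable {Γ G : Type*} [Group Γ] [AddCommGroup G] [DistribMulAction Γ G]

def esQuad (σ : Γ) (q : ℕ) : AddMonoid.End G :=
  (DistribMulAction.toAddMonoidEnd Γ G σ - 1) *
    (DistribMulAction.toAddMonoidEnd Γ G σ - (q : AddMonoid.End G))

theorem esQuad_apply (σ : Γ) (q : ℕ) (x : G) :
    esQuad σ q x = σ • σ • x - (1 + q) • σ • x + q • x := by
  show (σ • (σ • x - q • x)) - (σ • x - q • x) = _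
  rw [smul_sub, smul_comm σ q x, add_smul, one_smul]
  abel

/-- `esQuad σ q` is `aeval` of `(X - 1)(X - q)` at the endomorphism `σ`. -/
theorem esQuad_eq_aeval (σ : Γ) (q : ℕ) :
    (esQuad σ q : AddMonoid.End G) =
      aeval (DistribMulAction.toAddMonoidEnd Γ G σ) ((X - 1) * (X - (q : ℤ[X]))) := by
  simp [esQuad]

theorem toEnd_pow_apply (σ : Γ) (j : ℕ) (x : G) :
    (DistribMulAction.toAddMonoidEnd Γ G σ ^ j) x = σ ^ j • x := by
  rw [← map_pow]; rfl

theorem pow_smul_eq_of_forall {γ τ : Γ} (h : ∀ x : G, γ • x = τ • x) (j : ℕ) (x : G) :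
    γ ^ j • x = τ ^ j • x := by
  induction j generalizing x with
  | zero => simp
  | succ j ih => rw [pow_succ, mul_smul, pow_succ, mul_smul, h, ih]

theorem pow_smul_eq_self {τ : Γ} {x : G} (h : τ • x = x) (j : ℕ) : τ ^ j • x = x := by
  induction j with
  | zero => simp
  | succ j ih => rw [pow_succ, mul_smul, h, ih]

/-- From the Eichler–Shimura relation with a nilpotent correction `ν` commuting with `σ`
(`σ² - (1 + q + ν) σ + q = 0`, `ν ^ m = 0`): `((σ - 1)(σ - q)) ^ m = 0`. -/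
theorem esQuad_pow_eq_zero (σ : Γ) (q m : ℕ) (ν : AddMonoid.End G)
    (hνσ : ∀ x : G, ν (σ • x) = σ • ν x) (hν : ν ^ m = 0)
    (hES : ∀ x : G, σ • σ • x - (1 + q) • σ • x + q • x = ν (σ • x)) :
    esQuad σ q ^ m = (0 : AddMonoid.End G) := by
  have h1 : (esQuad σ q : AddMonoid.End G) = ν * DistribMulAction.toAddMonoidEnd Γ G σ := by
    ext x
    rw [esQuad_apply, hES]
    rfl
  have h2 : Commute ν (DistribMulAction.toAddMonoidEnd Γ G σ) := by
    ext x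
    exact hνσ x
  rw [h1, h2.mul_pow, hν, zero_mul]

end basic

/-! ### Polynomials -/

/-- A polynomial over `ℤ` whose reduction mod `r` vanishes is divisible by `r`. -/
theorem exists_eq_mul_of_map_eq_zero (r : ℕ) (f : ℤ[X])
    (h : f.map (Int.castRingHom (ZMod r)) = 0) : ∃ C : ℤ[X], f = (r : ℤ[X]) * C := by
  have h1 : (Polynomial.C (r : ℤ)) ∣ f := by
    rw [Polynomial.C_dvd_iff_dvd_coeff]
    intro i
    have h2 := congrArg (fun g => g.coeff i) h
    simp only [coeff_map, coeff_zero, eq_intCast] at h2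
    exact (ZMod.intCast_zmod_eq_zero_iff_dvd _ _).1 h2
  obtain ⟨C, hC⟩ := h1
  exact ⟨C, by rw [hC]; simp⟩

theorem poly_two (q m : ℕ) (hq : Odd q) :
    ∃ (a : ℕ) (C D : ℤ[X]),
      (X : ℤ[X]) ^ 2 ^ a - 1 = D * ((X - 1) * (X - (q : ℤ[X]))) ^ m + 2 * C := by
  have hle : 2 * m ≤ 2 ^ (2 * m) := Nat.lt_two_pow_self.le
  obtain ⟨C, hC⟩ := exists_eq_mul_of_map_eq_zero 2
    ((X : ℤ[X]) ^ 2 ^ (2 * m) - 1 -
      (X - 1) ^ (2 ^ (2 * m) - 2 * m) * ((X - 1) * (X - (q : ℤ[X]))) ^ m) (by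
    have hq1 : ((q : ℕ) : (ZMod 2)[X]) = 1 := by
      have : ((q : ℕ) : ZMod 2) = 1 := by
        obtain ⟨t, rfl⟩ := hq
        push_cast
        have : (2 : ZMod 2) = 0 := by decide
        rw [this, zero_mul, zero_add]
      rw [← Polynomial.C_eq_natCast, this, Polynomial.C_1]
    simp only [Polynomial.map_sub, Polynomial.map_mul, Polynomial.map_pow, Polynomial.map_X,
      Polynomial.map_one, Polynomial.map_natCast]
    rw [hq1, ← pow_two, ← pow_mul, ← pow_add, Nat.sub_add_cancel hle, sub_pow_char_pow, one_pow,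
      sub_self])
  refine ⟨2 * m, C, (X - 1) ^ (2 ^ (2 * m) - 2 * m), ?_⟩
  have h2 : ((2 : ℕ) : ℤ[X]) = 2 := by norm_num
  rw [h2] at hC
  rw [← hC]
  ring

section endo

variable {Γ V : Type*} [Group Γ] [AddCommGroup V] [DistribMulAction Γ V]

/-- On a module killed by `2`, an element satisfying a power of `(σ - 1)(σ - q)`, `q` odd, has
`2`-power order. -/
theorem exists_pow_smul_eq_of_two (σ : Γ) (q m : ℕ) (hq : Odd q)
    (h : esQuad σ q ^ m = (0 : AddMonoid.End V)) :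
    ∃ a : ℕ, ∀ v : V, 2 • v = 0 → σ ^ 2 ^ a • v = v := by
  obtain ⟨a, C, D, hCD⟩ := poly_two q m hq
  refine ⟨a, fun v hv => ?_⟩
  have h1 := congrArg (aeval (DistribMulAction.toAddMonoidEnd Γ V σ)) hCD
  rw [map_add, map_mul, map_pow, ← esQuad_eq_aeval, h, mul_zero, zero_add, map_sub, map_pow,
    aeval_X, map_one, map_mul] at h1
  have h3 : (aeval (DistribMulAction.toAddMonoidEnd Γ V σ) (2 : ℤ[X])) = (2 : AddMonoid.End V) :=
    map_ofNat _ 2
  rw [h3] at h1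
  have h2 := congrArg (fun e : AddMonoid.End V => e v) h1
  have e1 : ((DistribMulAction.toAddMonoidEnd Γ V σ ^ 2 ^ a - 1 : AddMonoid.End V)) v
      = σ ^ 2 ^ a • v - v := by
    show ((DistribMulAction.toAddMonoidEnd Γ V σ ^ 2 ^ a : AddMonoid.End V)) v - v = _
    rw [toEnd_pow_apply]
  have h4 : ((2 : AddMonoid.End V) * aeval (DistribMulAction.toAddMonoidEnd Γ V σ) C) v = 0 := by
    show (2 : AddMonoid.End V) (aeval (DistribMulAction.toAddMonoidEnd Γ V σ) C v) = 0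
    have : ∀ w : V, (2 : AddMonoid.End V) w = 2 • w := fun w => rfl
    rw [this, ← map_nsmul, hv, map_zero]
  have h5 : σ ^ 2 ^ a • v - v = 0 := by
    rw [← e1]
    exact h2.trans h4
  exact sub_eq_zero.1 h5

/-- A nontrivial finite module killed by `2` on which every element acts like a power of an
Eisenstein–Frobenius element has a nonzero fixed vector. -/
theorem exists_fixed_two [Finite V] [Nontrivial V] (hV : ∀ v : V, 2 • v = 0)
    (hF : ∀ γ : Γ, ∃ (σ : Γ) (k q m : ℕ), Odd q ∧ (∀ x : V, γ • x = σ ^ k • x) ∧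
      esQuad σ q ^ m = (0 : AddMonoid.End V)) :
    ∃ v : V, v ≠ 0 ∧ ∀ γ : Γ, γ • v = v := by
  classical
  let ρ : Γ →* Equiv.Perm V := MulAction.toPermHom Γ V
  have hP : IsPGroup 2 ρ.range := by
    rintro ⟨g, γ, rfl⟩
    obtain ⟨σ, k, q, m, hq, hγ, hm⟩ := hF γ
    obtain ⟨a, ha⟩ := exists_pow_smul_eq_of_two σ q m hq hm
    refine ⟨a, Subtype.ext (Equiv.ext fun v => ?_)⟩
    show ((ρ γ) ^ 2 ^ a) v = v
    rw [← map_pow]
    show γ ^ 2 ^ a • v = v
    rw [pow_smul_eq_of_forall hγ, ← pow_mul, mul_comm, pow_mul]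
    exact pow_smul_eq_self (ha v (hV v)) k
  have h2 : 2 ∣ Nat.card V := by
    obtain ⟨v, hv⟩ := exists_ne (0 : V)
    have h1 : addOrderOf v = 2 := by
      have hd : addOrderOf v ∣ 2 := addOrderOf_dvd_of_nsmul_eq_zero (hV v)
      rcases (Nat.dvd_prime Nat.prime_two).1 hd with h | h
      · exact absurd (AddMonoid.addOrderOf_eq_one_iff.1 h) hv
      · exact h
    rw [← h1]
    exact addOrderOf_dvd_natCard v
  have : Fact (Nat.Prime 2) := ⟨Nat.prime_two⟩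
  have h0 : (0 : V) ∈ MulAction.fixedPoints ρ.range V := by
    rintro ⟨g, γ, rfl⟩
    show γ • (0 : V) = 0
    exact smul_zero γ
  obtain ⟨b, hb, hb0⟩ := hP.exists_fixed_point_of_prime_dvd_card_of_fixed_point V h2 h0
  exact ⟨b, fun h => hb0 h.symm, fun γ => hb ⟨ρ γ, γ, rfl⟩⟩

end endo


/-! ### `r` odd -/

theorem poly_odd (r : ℕ) [Fact r.Prime] (q k m : ℕ) (hqk : (r : ℤ) ∣ (q : ℤ) ^ k - 1) :
    ∃ (a : ℕ) (C D : ℤ[X]),
      (X : ℤ[X]) ^ (k * r ^ a) - 1 = D * ((X - 1) * (X - (q : ℤ[X]))) ^ m + (r : ℤ[X]) * C := by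
  have hr : r.Prime := Fact.out
  obtain ⟨A, hA⟩ : (X - 1 : ℤ[X]) ∣ X ^ k - 1 := by
    have := sub_dvd_pow_sub_pow (X : ℤ[X]) 1 k
    rwa [one_pow] at this
  obtain ⟨B, hB⟩ : (X - (q : ℤ[X])) ∣ X ^ k - (q : ℤ[X]) ^ k := sub_dvd_pow_sub_pow _ _ k
  obtain ⟨t, ht⟩ := hqk
  have hT : (q : ℤ[X]) ^ k - 1 = (r : ℤ[X]) * Polynomial.C t := by
    have h1 : ((q : ℤ[X]) ^ k - 1) = Polynomial.C ((q : ℤ) ^ k - 1) := by
      simp
    rw [h1, ht]
    simp
  have e : (X : ℤ[X]) ^ k - 1 = (X - (q : ℤ[X])) * B + (r : ℤ[X]) * Polynomial.C t := by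
    rw [← hB, ← hT]; ring
  have h2 : ((X : ℤ[X]) ^ k - 1) ^ 2 =
      ((X - 1) * (X - (q : ℤ[X]))) * (A * B) + (r : ℤ[X]) * ((X - 1) * A * Polynomial.C t) := by
    calc ((X : ℤ[X]) ^ k - 1) ^ 2 = ((X : ℤ[X]) ^ k - 1) * ((X : ℤ[X]) ^ k - 1) := sq _
      _ = ((X - 1) * A) * ((X - (q : ℤ[X])) * B + (r : ℤ[X]) * Polynomial.C t) := by
          rw [← hA, ← e]
      _ = _ := by ring
  obtain ⟨C1, hC1⟩ : (r : ℤ[X]) ∣ (((X : ℤ[X]) ^ k - 1) ^ 2) ^ m -
      (((X - 1) * (X - (q : ℤ[X]))) * (A * B)) ^ m := by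
    refine Dvd.dvd.trans ?_ (sub_dvd_pow_sub_pow _ _ m)
    rw [h2]
    exact ⟨(X - 1) * A * Polynomial.C t, by ring⟩
  have hle : 2 * m ≤ r ^ (2 * m) :=
    (Nat.lt_pow_self hr.one_lt).le
  obtain ⟨C2, hC2⟩ := exists_eq_mul_of_map_eq_zero r
    ((X : ℤ[X]) ^ (k * r ^ (2 * m)) - 1 - ((X : ℤ[X]) ^ k - 1) ^ r ^ (2 * m)) (by
    simp only [Polynomial.map_sub, Polynomial.map_pow, Polynomial.map_X, Polynomial.map_one]
    rw [pow_mul, sub_pow_char_pow, one_pow, sub_self])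
  refine ⟨2 * m, ((X : ℤ[X]) ^ k - 1) ^ (r ^ (2 * m) - 2 * m) * C1 + C2,
    ((X : ℤ[X]) ^ k - 1) ^ (r ^ (2 * m) - 2 * m) * (A * B) ^ m, ?_⟩
  have h3 : ((X : ℤ[X]) ^ k - 1) ^ r ^ (2 * m) =
      ((X : ℤ[X]) ^ k - 1) ^ (r ^ (2 * m) - 2 * m) * (((X : ℤ[X]) ^ k - 1) ^ 2) ^ m := by
    rw [← pow_mul, ← pow_add, Nat.sub_add_cancel hle]
  have h4 : (X : ℤ[X]) ^ (k * r ^ (2 * m)) - 1 =
      ((X : ℤ[X]) ^ k - 1) ^ r ^ (2 * m) + (r : ℤ[X]) * C2 := by
    rw [← hC2]; ring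
  have h5 : (((X : ℤ[X]) ^ k - 1) ^ 2) ^ m =
      (((X - 1) * (X - (q : ℤ[X]))) * (A * B)) ^ m + (r : ℤ[X]) * C1 := by
    rw [← hC1]; ring
  have h6 : (((X - 1) * (X - (q : ℤ[X]))) * (A * B)) ^ m =
      (A * B) ^ m * ((X - 1) * (X - (q : ℤ[X]))) ^ m := by rw [mul_pow, mul_comm]
  rw [h4, h3, h5, h6]
  generalize ((X : ℤ[X]) ^ k - 1) ^ (r ^ (2 * m) - 2 * m) = E
  generalize (((X : ℤ[X]) - 1) * (X - (q : ℤ[X]))) ^ m = Pm
  generalize (A * B) ^ m = ABm
  ring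

section endoOdd

variable {Γ V : Type*} [Group Γ] [AddCommGroup V] [DistribMulAction Γ V]

/-- On a module killed by `r`: if `σ` satisfies a power of `(σ - 1)(σ - q)` and `q ^ k ≡ 1`
mod `r`, then `σ ^ k` has `r`-power order. -/
theorem exists_pow_smul_eq_of_odd (r : ℕ) [Fact r.Prime] (σ : Γ) (q k m : ℕ)
    (hqk : ((q : ZMod r)) ^ k = 1)
    (h : esQuad σ q ^ m = (0 : AddMonoid.End V)) :
    ∃ a : ℕ, ∀ v : V, r • v = 0 → σ ^ (k * r ^ a) • v = v := by
  have hdvd : (r : ℤ) ∣ (q : ℤ) ^ k - 1 := by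
    rw [← ZMod.intCast_zmod_eq_zero_iff_dvd]
    push_cast
    rw [hqk, sub_self]
  obtain ⟨a, C, D, hCD⟩ := poly_odd r q k m hdvd
  refine ⟨a, fun v hv => ?_⟩
  have h1 := congrArg (aeval (DistribMulAction.toAddMonoidEnd Γ V σ)) hCD
  rw [map_add, map_mul, map_pow, ← esQuad_eq_aeval, h, mul_zero, zero_add, map_sub, map_pow,
    aeval_X, map_one, map_mul] at h1
  have h3 : (aeval (DistribMulAction.toAddMonoidEnd Γ V σ) (r : ℤ[X])) = (r : AddMonoid.End V) :=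
    map_natCast _ r
  rw [h3] at h1
  have h2 := congrArg (fun e : AddMonoid.End V => e v) h1
  have e1 : ((DistribMulAction.toAddMonoidEnd Γ V σ ^ (k * r ^ a) - 1 : AddMonoid.End V)) v
      = σ ^ (k * r ^ a) • v - v := by
    show ((DistribMulAction.toAddMonoidEnd Γ V σ ^ (k * r ^ a) : AddMonoid.End V)) v - v = _
    rw [toEnd_pow_apply]
  have h4 : ((r : AddMonoid.End V) * aeval (DistribMulAction.toAddMonoidEnd Γ V σ) C) v = 0 := by
    show (r : AddMonoid.End V) (aeval (DistribMulAction.toAddMonoidEnd Γ V σ) C v) = 0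
    rw [AddMonoid.End.natCast_apply, ← map_nsmul, hv, map_zero]
  have h5 : σ ^ (k * r ^ a) • v - v = 0 := by
    rw [← e1]
    exact h2.trans h4
  exact sub_eq_zero.1 h5

end endoOdd


section fixedOdd

variable {Γ V : Type*} [Group Γ] [AddCommGroup V] [DistribMulAction Γ V]

/-- The last nonzero iterate of a nilpotent-at-`v` endomorphism. -/
theorem exists_pow_apply_ne_zero (A : AddMonoid.End V) (m : ℕ) (v : V) (hv : v ≠ 0)
    (hA : (A ^ m) v = 0) : ∃ t : ℕ, (A ^ t) v ≠ 0 ∧ A ((A ^ t) v) = 0 := by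
  classical
  have hex : ∃ t : ℕ, (A ^ t) v = 0 := ⟨m, hA⟩
  have h0 : Nat.find hex ≠ 0 := by
    intro h0
    have := Nat.find_spec hex
    rw [h0, pow_zero] at this
    exact hv this
  obtain ⟨t, ht⟩ := Nat.exists_eq_succ_of_ne_zero h0
  refine ⟨t, Nat.find_min hex (by rw [ht]; exact Nat.lt_succ_self t), ?_⟩
  have := Nat.find_spec hex
  rw [ht, Nat.succ_eq_add_one, pow_succ'] at this
  exact this

/-- A nontrivial finite module killed by `r` on which every element acts like a power of an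
Eisenstein–Frobenius element has a nonzero vector on which `Γ` acts trivially, or through the
character `χ`. -/
theorem exists_eigen_odd [Finite V] [Nontrivial V] (r : ℕ) [Fact r.Prime]
    (hV : ∀ v : V, r • v = 0) (χ : Γ →* (ZMod r)ˣ)
    (hF : ∀ γ : Γ, ∃ (σ : Γ) (k q m : ℕ), (∀ x : V, γ • x = σ ^ k • x) ∧ χ γ = χ σ ^ k ∧
      ((χ σ : (ZMod r)ˣ) : ZMod r) = (q : ZMod r) ∧ esQuad σ q ^ m = (0 : AddMonoid.End V)) :
    ∃ v : V, v ≠ 0 ∧ ((∀ γ : Γ, γ • v = v) ∨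
      (∀ γ : Γ, ∃ N : ℕ, (N : ZMod r) = ((χ γ : (ZMod r)ˣ) : ZMod r) ∧ γ • v = N • v)) := by
  classical
  have hr : r.Prime := Fact.out
  -- Step 1: `ker χ` acts through an `r`-group; a nonzero vector fixed by `ker χ`
  let ρ₁ : χ.ker →* Equiv.Perm V := (MulAction.toPermHom Γ V).comp χ.ker.subtype
  have hP : IsPGroup r ρ₁.range := by
    rintro ⟨g, ⟨δ, hδ⟩, rfl⟩
    obtain ⟨σ, k, q, m, hγ, hχ, hq, hm⟩ := hF δ
    have hqk : ((q : ZMod r)) ^ k = 1 := by
      rw [← hq, ← Units.val_pow_eq_pow_val, ← hχ, MonoidHom.mem_ker.1 hδ, Units.val_one]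
    obtain ⟨a, ha⟩ := exists_pow_smul_eq_of_odd r σ q k m hqk hm
    refine ⟨a, Subtype.ext (Equiv.ext fun v => ?_)⟩
    show ((ρ₁ ⟨δ, hδ⟩) ^ r ^ a) v = v
    rw [← map_pow]
    show δ ^ r ^ a • v = v
    rw [pow_smul_eq_of_forall hγ, ← pow_mul]
    exact ha v (hV v)
  have hdvd : r ∣ Nat.card V := by
    obtain ⟨v, hv⟩ := exists_ne (0 : V)
    have h1 : addOrderOf v = r := by
      have hd : addOrderOf v ∣ r := addOrderOf_dvd_of_nsmul_eq_zero (hV v)
      rcases (Nat.dvd_prime hr).1 hd with h | h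
      · exact absurd (AddMonoid.addOrderOf_eq_one_iff.1 h) hv
      · exact h
    rw [← h1]
    exact addOrderOf_dvd_natCard v
  have h0 : (0 : V) ∈ MulAction.fixedPoints ρ₁.range V := by
    rintro ⟨g, δ, rfl⟩
    show (δ : Γ) • (0 : V) = 0
    exact smul_zero _
  obtain ⟨b, hb, hb0⟩ := hP.exists_fixed_point_of_prime_dvd_card_of_fixed_point V hdvd h0
  have hb0' : b ≠ 0 := fun h => hb0 h.symm
  let Fix : V → Prop := fun v => ∀ δ : Γ, χ δ = 1 → δ • v = v
  have hbFix : Fix b := fun δ hδ => hb ⟨ρ₁ ⟨δ, MonoidHom.mem_ker.2 hδ⟩, ⟨δ, MonoidHom.mem_ker.2 hδ⟩, rfl⟩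
  have hFixsmul : ∀ (γ : Γ) (v : V), Fix v → Fix (γ • v) := by
    intro γ v hv δ hδ
    have e : δ • γ • v = γ • ((γ⁻¹ * δ * γ) • v) := by
      rw [← mul_smul, ← mul_smul]
      congr 1
      group
    have h1 : χ (γ⁻¹ * δ * γ) = 1 := by
      rw [map_mul, map_mul, hδ, map_inv, mul_one, inv_mul_cancel]
    rw [e, hv _ h1]
  have hFixsub : ∀ v w : V, Fix v → Fix w → Fix (v - w) := by
    intro v w hv hw δ hδ
    rw [smul_sub, hv δ hδ, hw δ hδ]
  have hFixnsmul : ∀ (n : ℕ) (v : V), Fix v → Fix (n • v) := by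
    intro n v hv δ hδ
    rw [smul_comm, hv δ hδ]
  -- Step 2: a generator of the image of `χ`
  obtain ⟨γ₀, hγ₀⟩ : ∃ γ₀ : Γ, ∀ γ : Γ, ∃ i : ℕ, χ γ = χ γ₀ ^ i := by
    obtain ⟨⟨g, γ₀, rfl⟩, hg⟩ := IsCyclic.exists_generator (α := χ.range)
    refine ⟨γ₀, fun γ => ?_⟩
    have h1 := hg ⟨χ γ, γ, rfl⟩
    rw [← mem_powers_iff_mem_zpowers] at h1
    obtain ⟨i, hi⟩ := h1
    exact ⟨i, by simpa using (congrArg Subtype.val hi).symm⟩
  have hdecomp : ∀ (γ : Γ) (i : ℕ), χ γ = χ γ₀ ^ i → ∀ w : V, Fix w →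
      γ • w = (γ * (γ₀ ^ i)⁻¹) • (γ₀ ^ i • w) ∧ χ (γ * (γ₀ ^ i)⁻¹) = 1 := by
    intro γ i hi w _
    refine ⟨by rw [← mul_smul, inv_mul_cancel_right], ?_⟩
    rw [map_mul, map_inv, map_pow, hi, mul_inv_cancel]
  obtain ⟨σ, k, q, m, hγσ, hχσ, hq, hm⟩ := hF γ₀
  by_cases hcase : ∃ w : V, w ≠ 0 ∧ Fix w ∧ σ • w = w
  · -- a trivial step
    obtain ⟨w, hw0, hwF, hσw⟩ := hcase
    refine ⟨w, hw0, Or.inl fun γ => ?_⟩
    obtain ⟨i, hi⟩ := hγ₀ γ
    have hγ₀w : γ₀ • w = w := by rw [hγσ]; exact pow_smul_eq_self hσw k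
    obtain ⟨e1, e2⟩ := hdecomp γ i hi w hwF
    rw [e1, pow_smul_eq_self hγ₀w, hwF _ e2]
  · -- a `μ`-step
    have hcase' : ∀ w : V, Fix w → σ • w = w → w = 0 := fun w h1 h2 =>
      by_contra fun h0 => hcase ⟨w, h0, h1, h2⟩
    let s : AddMonoid.End V := DistribMulAction.toAddMonoidEnd Γ V σ
    let A₁ : AddMonoid.End V := s - 1
    let Aq : AddMonoid.End V := s - (q : AddMonoid.End V)
    have hA₁ : ∀ v : V, A₁ v = σ • v - v := fun v => rfl
    have hAq : ∀ v : V, Aq v = σ • v - q • v := fun v => rfl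
    have hA₁F : ∀ v, Fix v → Fix (A₁ v) := fun v hv => by
      rw [hA₁]; exact hFixsub _ _ (hFixsmul σ v hv) hv
    have hAqF : ∀ v, Fix v → Fix (Aq v) := fun v hv => by
      rw [hAq]; exact hFixsub _ _ (hFixsmul σ v hv) (hFixnsmul q v hv)
    have hpowF : ∀ (A : AddMonoid.End V), (∀ v, Fix v → Fix (A v)) →
        ∀ (t : ℕ) (v : V), Fix v → Fix ((A ^ t) v) := by
      intro A hA t
      induction t with
      | zero => intro v hv; simpa using hv
      | succ t ih =>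
        intro v hv
        have e : (A ^ (t + 1)) v = A ((A ^ t) v) := by rw [pow_succ']; rfl
        rw [e]
        exact hA _ (ih v hv)
    have hcomm : Commute A₁ Aq := by
      have h1 : Commute s s := Commute.refl s
      exact ((h1.sub_right (Nat.commute_cast s q)).sub_left
        ((Commute.one_left s).sub_right (Commute.one_left _)))
    have hmul : A₁ ^ m * Aq ^ m = 0 := by
      rw [← hcomm.mul_pow]
      exact hm
    have hAqb : (Aq ^ m) b = 0 := by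
      by_contra hne
      have h1 : (A₁ ^ m) ((Aq ^ m) b) = 0 := congrArg (fun e : AddMonoid.End V => e b) hmul
      obtain ⟨t, ht1, ht2⟩ := exists_pow_apply_ne_zero A₁ m _ hne h1
      rw [hA₁] at ht2
      exact ht1 (hcase' _ (hpowF A₁ hA₁F t _ (hpowF Aq hAqF m b hbFix)) (sub_eq_zero.1 ht2))
    obtain ⟨j, hj1, hj2⟩ := exists_pow_apply_ne_zero Aq m b hb0' hAqb
    have hwF : Fix ((Aq ^ j) b) := hpowF Aq hAqF j b hbFix
    rw [hAq] at hj2
    have hσw : σ • (Aq ^ j) b = q • (Aq ^ j) b := sub_eq_zero.1 hj2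
    generalize (Aq ^ j) b = w at hj1 hwF hσw
    have hσpow : ∀ n : ℕ, σ ^ n • w = q ^ n • w := by
      intro n
      induction n with
      | zero => simp
      | succ n ih => rw [pow_succ, mul_smul, hσw, smul_comm, ih, ← mul_smul, pow_succ, mul_comm]
    have hγ₀w : γ₀ • w = q ^ k • w := by rw [hγσ, hσpow]
    have hγ₀pow : ∀ n : ℕ, γ₀ ^ n • w = (q ^ k) ^ n • w := by
      intro n
      induction n with
      | zero => simp
      | succ n ih =>
        rw [pow_succ, mul_smul, hγ₀w, smul_comm, ih, ← mul_smul, pow_succ, mul_comm]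
    refine ⟨w, hj1, Or.inr fun γ => ?_⟩
    obtain ⟨i, hi⟩ := hγ₀ γ
    obtain ⟨e1, e2⟩ := hdecomp γ i hi w hwF
    refine ⟨(q ^ k) ^ i, ?_, ?_⟩
    · rw [hi, hχσ]
      push_cast
      rw [← hq]
    · rw [e1, hγ₀pow, smul_comm, hwF _ e2]

end fixedOdd

/-! ### Quotients and stable subgroups as modules -/

section plumbing

variable {Γ G G' : Type*} [Group Γ] [AddCommGroup G] [DistribMulAction Γ G] [AddCommGroup G']
  [DistribMulAction Γ G']

/-- The action on the quotient by a stable subgroup. -/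
@[reducible] def quotAction (S : AddSubgroup G) (hS : ∀ (γ : Γ) (x : G), x ∈ S → γ • x ∈ S) :
    DistribMulAction Γ (G ⧸ S) where
  smul γ := QuotientAddGroup.map S S (DistribSMul.toAddMonoidHom G γ) (fun x hx => hS γ x hx)
  one_smul b := by
    induction b using QuotientAddGroup.induction_on with
    | H x => exact congrArg _ (one_smul Γ x)
  mul_smul a b c := by
    induction c using QuotientAddGroup.induction_on with
    | H x => exact congrArg _ (mul_smul a b x)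
  smul_zero a := map_zero _
  smul_add a x y := map_add _ x y

/-- The action on a stable subgroup. -/
@[reducible] def subAction (V : AddSubgroup G) (hV : ∀ (γ : Γ) (x : G), x ∈ V → γ • x ∈ V) :
    DistribMulAction Γ V where
  smul γ v := ⟨γ • (v : G), hV γ v v.2⟩
  one_smul v := Subtype.ext (one_smul Γ (v : G))
  mul_smul a b v := Subtype.ext (mul_smul a b (v : G))
  smul_zero a := Subtype.ext (smul_zero a)
  smul_add a v w := Subtype.ext (smul_add a (v : G) (w : G))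

theorem map_esQuad_pow (f : G →+ G') (hf : ∀ (γ : Γ) (x : G), f (γ • x) = γ • f x) (σ : Γ)
    (q m : ℕ) (x : G) : f ((esQuad σ q ^ m) x) = (esQuad σ q ^ m) (f x) := by
  induction m generalizing x with
  | zero => simp
  | succ m ih =>
    have e1 : ∀ y : G, (esQuad σ q ^ (m + 1)) y = (esQuad σ q ^ m) (esQuad σ q y) := fun y => by
      rw [pow_succ]; rfl
    have e2 : ∀ y : G', (esQuad σ q ^ (m + 1)) y = (esQuad σ q ^ m) (esQuad σ q y) := fun y => by
      rw [pow_succ]; rfl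
    rw [e1, e2, ih, esQuad_apply, esQuad_apply, map_add, map_sub, map_nsmul, map_nsmul, hf, hf]

theorem esQuad_pow_eq_zero_of_surjective (f : G →+ G')
    (hf : ∀ (γ : Γ) (x : G), f (γ • x) = γ • f x) (hsurj : Function.Surjective f) {σ : Γ}
    {q m : ℕ} (h : esQuad σ q ^ m = (0 : AddMonoid.End G)) :
    esQuad σ q ^ m = (0 : AddMonoid.End G') := by
  ext y
  obtain ⟨x, rfl⟩ := hsurj y
  rw [← map_esQuad_pow f hf, h]
  simp

theorem esQuad_pow_eq_zero_of_injective (f : G' →+ G)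
    (hf : ∀ (γ : Γ) (x : G'), f (γ • x) = γ • f x) (hinj : Function.Injective f) {σ : Γ}
    {q m : ℕ} (h : esQuad σ q ^ m = (0 : AddMonoid.End G)) :
    esQuad σ q ^ m = (0 : AddMonoid.End G') := by
  ext y
  apply hinj
  rw [map_esQuad_pow f hf, h]
  simp

theorem smul_eq_of_surjective (f : G →+ G') (hf : ∀ (γ : Γ) (x : G), f (γ • x) = γ • f x)
    (hsurj : Function.Surjective f) {γ τ : Γ} (h : ∀ x : G, γ • x = τ • x) (y : G') :
    γ • y = τ • y := by
  obtain ⟨x, rfl⟩ := hsurj y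
  rw [← hf, ← hf, h]

theorem smul_eq_of_injective (f : G' →+ G) (hf : ∀ (γ : Γ) (x : G'), f (γ • x) = γ • f x)
    (hinj : Function.Injective f) {γ τ : Γ} (h : ∀ x : G, γ • x = τ • x) (y : G') :
    γ • y = τ • y := by
  apply hinj
  rw [hf, hf, h]

end plumbing

section main

variable {Γ G : Type*} [Group Γ] [AddCommGroup G] [DistribMulAction Γ G]

/-- In an `r`-power torsion group, a proper subgroup `S` has an element `y ∉ S` with
`r • y ∈ S`. -/
theorem exists_not_mem_smul_mem (r n : ℕ) (hG : ∀ x : G, r ^ n • x = 0) (S : AddSubgroup G)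
    (hST : S ≠ ⊤) : ∃ y : G, y ∉ S ∧ r • y ∈ S := by
  classical
  obtain ⟨x, hx⟩ : ∃ x : G, x ∉ S := by
    by_contra hcon
    exact hST (eq_top_iff.2 fun x _ => by_contra fun hx => hcon ⟨x, hx⟩)
  have hex : ∃ i : ℕ, r ^ i • x ∈ S := ⟨n, by rw [hG]; exact S.zero_mem⟩
  have hi0 : Nat.find hex ≠ 0 := by
    intro h0
    have := Nat.find_spec hex
    rw [h0, pow_zero, one_smul] at this
    exact hx this
  obtain ⟨i, hi⟩ := Nat.exists_eq_succ_of_ne_zero hi0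
  refine ⟨r ^ i • x, ?_, ?_⟩
  · exact Nat.find_min hex (by rw [hi]; exact Nat.lt_succ_self i)
  · rw [← mul_smul, ← pow_succ', ← Nat.succ_eq_add_one, ← hi]
    exact Nat.find_spec hex

/-- **(E)-flag, `r = 2`.** -/
theorem exists_step_two [Finite G] (n : ℕ) (hG : ∀ x : G, 2 ^ n • x = 0)
    (hF : ∀ γ : Γ, ∃ (σ : Γ) (k q m : ℕ), Odd q ∧ (∀ x : G, γ • x = σ ^ k • x) ∧
      esQuad σ q ^ m = (0 : AddMonoid.End G)) :
    ∀ S : AddSubgroup G, (∀ (γ : Γ) (x : G), x ∈ S → γ • x ∈ S) → S ≠ ⊤ →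
      ∃ y : G, y ∉ S ∧ 2 • y ∈ S ∧ ∀ γ : Γ, γ • y - y ∈ S := by
  intro S hS hST
  let _iQ : DistribMulAction Γ (G ⧸ S) := quotAction S hS
  have hmk : ∀ (γ : Γ) (x : G), (QuotientAddGroup.mk' S) (γ • x) = γ • (QuotientAddGroup.mk' S) x :=
    fun γ x => rfl
  let V : AddSubgroup (G ⧸ S) := (nsmulAddMonoidHom 2 : G ⧸ S →+ G ⧸ S).ker
  have hVmem : ∀ x : G ⧸ S, x ∈ V ↔ 2 • x = 0 := fun x => Iff.rfl
  have hVst : ∀ (γ : Γ) (x : G ⧸ S), x ∈ V → γ • x ∈ V := by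
    intro γ x hx
    rw [hVmem] at hx ⊢
    rw [← smul_comm, hx, smul_zero]
  let _iV : DistribMulAction Γ V := subAction V hVst
  have hsub : ∀ (γ : Γ) (v : V), V.subtype (γ • v) = γ • V.subtype v := fun γ v => rfl
  have hVkill : ∀ v : V, 2 • v = 0 := fun v => Subtype.ext ((hVmem v).1 v.2)
  obtain ⟨y₀, hy₀S, hy₀2⟩ := exists_not_mem_smul_mem 2 n hG S hST
  have hnt : Nontrivial V := by
    refine ⟨⟨⟨QuotientAddGroup.mk' S y₀, ?_⟩, 0, ?_⟩⟩
    · rw [hVmem, ← map_nsmul]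
      exact (QuotientAddGroup.eq_zero_iff _).2 hy₀2
    · intro h
      have := congrArg Subtype.val h
      exact hy₀S ((QuotientAddGroup.eq_zero_iff _).1 this)
  have hFV : ∀ γ : Γ, ∃ (σ : Γ) (k q m : ℕ), Odd q ∧ (∀ x : V, γ • x = σ ^ k • x) ∧
      esQuad σ q ^ m = (0 : AddMonoid.End V) := by
    intro γ
    obtain ⟨σ, k, q, m, hq, hγ, hm⟩ := hF γ
    have hγQ : ∀ x : G ⧸ S, γ • x = σ ^ k • x :=
      smul_eq_of_surjective (QuotientAddGroup.mk' S) hmk (QuotientAddGroup.mk'_surjective S) hγ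
    have hmQ : esQuad σ q ^ m = (0 : AddMonoid.End (G ⧸ S)) :=
      esQuad_pow_eq_zero_of_surjective (QuotientAddGroup.mk' S) hmk
        (QuotientAddGroup.mk'_surjective S) hm
    exact ⟨σ, k, q, m, hq, smul_eq_of_injective V.subtype hsub V.subtype_injective hγQ,
      esQuad_pow_eq_zero_of_injective V.subtype hsub V.subtype_injective hmQ⟩
  obtain ⟨v, hv0, hv⟩ := exists_fixed_two hVkill hFV
  obtain ⟨y, hy⟩ := QuotientAddGroup.mk'_surjective S (v : G ⧸ S)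
  refine ⟨y, ?_, ?_, ?_⟩
  · intro hyS
    apply hv0
    apply Subtype.ext
    rw [← hy]
    exact (QuotientAddGroup.eq_zero_iff _).2 hyS
  · apply (QuotientAddGroup.eq_zero_iff _).1
    show (QuotientAddGroup.mk' S) (2 • y) = 0
    rw [map_nsmul, hy]
    exact (hVmem v).1 v.2
  · intro γ
    apply (QuotientAddGroup.eq_zero_iff _).1
    show (QuotientAddGroup.mk' S) (γ • y - y) = 0
    rw [map_sub, hmk, hy]
    have := congrArg Subtype.val (hv γ)
    exact sub_eq_zero.2 this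

/-- **(E)-flag, `r` odd.** -/
theorem exists_step_odd [Finite G] (r : ℕ) [Fact r.Prime] (n : ℕ) (hG : ∀ x : G, r ^ n • x = 0)
    (χ : Γ →* (ZMod r)ˣ) (c : Γ) (hc : χ c = -1)
    (hF : ∀ γ : Γ, ∃ (σ : Γ) (k q m : ℕ), (∀ x : G, γ • x = σ ^ k • x) ∧ χ γ = χ σ ^ k ∧
      ((χ σ : (ZMod r)ˣ) : ZMod r) = (q : ZMod r) ∧ esQuad σ q ^ m = (0 : AddMonoid.End G)) :
    ∀ S : AddSubgroup G, (∀ (γ : Γ) (x : G), x ∈ S → γ • x ∈ S) → S ≠ ⊤ →
      ∃ y : G, y ∉ S ∧ r • y ∈ S ∧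
        ((∀ γ : Γ, γ • y - y ∈ S) ∨ ((∀ γ : Γ, ∃ m : ℤ, γ • y - m • y ∈ S) ∧ c • y + y ∈ S)) := by
  intro S hS hST
  let _iQ : DistribMulAction Γ (G ⧸ S) := quotAction S hS
  have hmk : ∀ (γ : Γ) (x : G), (QuotientAddGroup.mk' S) (γ • x) = γ • (QuotientAddGroup.mk' S) x :=
    fun γ x => rfl
  let V : AddSubgroup (G ⧸ S) := (nsmulAddMonoidHom r : G ⧸ S →+ G ⧸ S).ker
  have hVmem : ∀ x : G ⧸ S, x ∈ V ↔ r • x = 0 := fun x => Iff.rfl
  have hVst : ∀ (γ : Γ) (x : G ⧸ S), x ∈ V → γ • x ∈ V := by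
    intro γ x hx
    rw [hVmem] at hx ⊢
    rw [← smul_comm, hx, smul_zero]
  let _iV : DistribMulAction Γ V := subAction V hVst
  have hsub : ∀ (γ : Γ) (v : V), V.subtype (γ • v) = γ • V.subtype v := fun γ v => rfl
  have hVkill : ∀ v : V, r • v = 0 := fun v => Subtype.ext ((hVmem v).1 v.2)
  obtain ⟨y₀, hy₀S, hy₀2⟩ := exists_not_mem_smul_mem r n hG S hST
  have hnt : Nontrivial V := by
    refine ⟨⟨⟨QuotientAddGroup.mk' S y₀, ?_⟩, 0, ?_⟩⟩
    · rw [hVmem, ← map_nsmul]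
      exact (QuotientAddGroup.eq_zero_iff _).2 hy₀2
    · intro h
      have := congrArg Subtype.val h
      exact hy₀S ((QuotientAddGroup.eq_zero_iff _).1 this)
  have hFV : ∀ γ : Γ, ∃ (σ : Γ) (k q m : ℕ), (∀ x : V, γ • x = σ ^ k • x) ∧ χ γ = χ σ ^ k ∧
      ((χ σ : (ZMod r)ˣ) : ZMod r) = (q : ZMod r) ∧ esQuad σ q ^ m = (0 : AddMonoid.End V) := by
    intro γ
    obtain ⟨σ, k, q, m, hγ, hχ, hq, hm⟩ := hF γ
    have hγQ : ∀ x : G ⧸ S, γ • x = σ ^ k • x :=
      smul_eq_of_surjective (QuotientAddGroup.mk' S) hmk (QuotientAddGroup.mk'_surjective S) hγ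
    have hmQ : esQuad σ q ^ m = (0 : AddMonoid.End (G ⧸ S)) :=
      esQuad_pow_eq_zero_of_surjective (QuotientAddGroup.mk' S) hmk
        (QuotientAddGroup.mk'_surjective S) hm
    exact ⟨σ, k, q, m, smul_eq_of_injective V.subtype hsub V.subtype_injective hγQ, hχ, hq,
      esQuad_pow_eq_zero_of_injective V.subtype hsub V.subtype_injective hmQ⟩
  obtain ⟨v, hv0, hv⟩ := exists_eigen_odd r hVkill χ hFV
  obtain ⟨y, hy⟩ := QuotientAddGroup.mk'_surjective S (v : G ⧸ S)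
  have hyS : y ∉ S := by
    intro hyS
    apply hv0
    apply Subtype.ext
    rw [← hy]
    exact (QuotientAddGroup.eq_zero_iff _).2 hyS
  have hry : r • y ∈ S := by
    apply (QuotientAddGroup.eq_zero_iff _).1
    show (QuotientAddGroup.mk' S) (r • y) = 0
    rw [map_nsmul, hy]
    exact (hVmem v).1 v.2
  refine ⟨y, hyS, hry, ?_⟩
  rcases hv with hv | hv
  · left
    intro γ
    apply (QuotientAddGroup.eq_zero_iff _).1
    show (QuotientAddGroup.mk' S) (γ • y - y) = 0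
    rw [map_sub, hmk, hy]
    have := congrArg Subtype.val (hv γ)
    exact sub_eq_zero.2 this
  · right
    have key : ∀ γ : Γ, ∃ N : ℕ, (N : ZMod r) = ((χ γ : (ZMod r)ˣ) : ZMod r) ∧
        γ • y - N • y ∈ S := by
      intro γ
      obtain ⟨N, hN, hγv⟩ := hv γ
      refine ⟨N, hN, ?_⟩
      apply (QuotientAddGroup.eq_zero_iff _).1
      show (QuotientAddGroup.mk' S) (γ • y - N • y) = 0
      rw [map_sub, hmk, map_nsmul, hy]
      have := congrArg Subtype.val hγv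
      exact sub_eq_zero.2 this
    refine ⟨fun γ => ?_, ?_⟩
    · obtain ⟨N, -, hN⟩ := key γ
      exact ⟨(N : ℤ), by rwa [natCast_zsmul]⟩
    · obtain ⟨N, hN1, hN2⟩ := key c
      have hdvd : r ∣ N + 1 := by
        rw [← ZMod.natCast_eq_zero_iff]
        push_cast
        rw [hN1, hc]
        simp
      obtain ⟨t, ht⟩ := hdvd
      have e : c • y + y = (c • y - N • y) + t • (r • y) := by
        rw [← mul_smul, mul_comm, ← ht, add_smul, one_smul]
        abel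
      rw [e]
      exact S.add_mem hN2 (S.nsmul_mem hry t)

end main

end Fermat.Agent.S15P.FlagStep26
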