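/-
S15, layer (JH), row JH-Codd (helper73): the (E)-flag at an ODD prime `r` on an Eisenstein
piece `X ⊆ J₀(N)[r^n]`:

  `flagOdd_of (hB : FrobQuad N) : JH.FlagOdd N`.

Assembly of
* JH-Aodd = `FlagStep26.exists_step_odd` (helper26; abstract step vector, Mathlib only);
* JH-B    = `FrobQuad N` below, the literal of helper13's `JHFrob13.exists_frob_quad`
  (every `γ` is a power of a Frobenius `σ` at some `ℓ ∤ N r` on `X` and on a given finite
  extension `K₀`, with `((σ - 1)(σ - ℓ))^m = 0` on `X`), taken as a hypothesis;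
* the mod `r` cyclotomic character `ESJ.Rep.cycloMod r` of main: value `ℓ` on Frobenius lifts
  (`cycloMod_frobenius`), read off on `ℚ(ζ_r)` (`cycloMod_eq_natCast`), value `-1` on complex
  conjugation (`cycloMod_complexConjugation` below, from `S58.OddInvolution`).
-/
import Mathlib
import Fermat.Agent.S15P.InterfacesJH
import Fermat.Agent.S15P.FlagStep26
import Fermat.Agent.ESJ.Rep.CycloMod
import Fermat.Agent.ESJ.Jac.Main
import Fermat.Agent.S58.DetCyclo

set_option autoImplicit false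

namespace Fermat.Agent.S15P.JHFlagOdd73

open ModularCurve AlgebraicCurve Fermat.Agent.S15P.JH
open Fermat.Agent.ESJ.Rep (cycloMod cycloMod_spec cycloMod_eq_natCast cycloMod_frobenius)

/-- The literal of JH-B (helper13, `JHFrob13.exists_frob_quad`). -/
def FrobQuad (N : ℕ) [NeZero N] : Prop :=
  ∀ (r n : ℕ) (_hr : r.Prime) (B : Finset ℕ) (X : AddSubgroup (JZero N))
    (_hX : IsEisPiece N r n B X)
    (K₀ : IntermediateField ℚ Qb) [FiniteDimensional ℚ K₀] (γ : GQ),
    ∃ (ℓ : ℕ) (A : ValuationSubring Qb) (σ : GQ) (k m : ℕ), ℓ.Prime ∧ ¬ ℓ ∣ N * r ∧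
      A.LiesOverPrime ℓ ∧ A.IsFrobeniusAt σ ℓ ∧
      (∀ a ∈ K₀, γ a = (σ ^ k) a) ∧ (∀ x ∈ X, γ • x = σ ^ k • x) ∧
      ∀ x ∈ X, ((fun z : JZero N => σ • σ • z - (1 + ℓ) • σ • z + ℓ • z)^[m]) x = 0

/-- The mod `r` cyclotomic character (`r` odd) takes the value `-1` on complex conjugation. -/
theorem cycloMod_complexConjugation (r : ℕ) [Fact r.Prime] [NeZero r] (hr2 : r ≠ 2) :
    cycloMod r complexConjugation = -1 := by
  have hr : r.Prime := Fact.out
  obtain ⟨ζ, hζ⟩ := Fermat.Agent.ESJ.Rep.CycloMod.exists_primitiveRoot r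
  have hodd : Odd r := hr.odd_of_ne_two hr2
  have h1 : complexConjugation ζ = ζ ^ (r - 1) := by
    rw [Fermat.Agent.S58.OddInvolution.map_eq_inv_of_involution complexConjugation
      complexConjugation_mul_self Fermat.Agent.S58.DetCyclo.complexConjugation_ne_one hodd
      hζ.pow_eq_one]
    apply inv_eq_of_mul_eq_one_right
    rw [← pow_succ', Nat.sub_add_cancel hr.pos, hζ.pow_eq_one]
  apply Units.ext
  rw [cycloMod_eq_natCast r complexConjugation (r - 1) hζ h1, Units.val_neg, Units.val_one,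
    Nat.cast_sub hr.pos, Nat.cast_one, ZMod.natCast_self, zero_sub]

/-- Two automorphisms which agree on a primitive `r`-th root of unity have the same mod `r`
cyclotomic character. -/
theorem cycloMod_eq_of_apply_eq (r : ℕ) [NeZero r] {ζ : Qb} (hζ : IsPrimitiveRoot ζ r)
    (γ τ : GQ) (h : γ ζ = τ ζ) : cycloMod r γ = cycloMod r τ := by
  apply Units.ext
  have h1 : γ ζ = ζ ^ ((cycloMod r τ : (ZMod r)ˣ) : ZMod r).val := by
    rw [h]
    exact cycloMod_spec r τ ζ hζ.pow_eq_one
  rw [cycloMod_eq_natCast r γ _ hζ h1, ZMod.natCast_zmod_val]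

section Main

variable {N : ℕ} [NeZero N]

omit [NeZero N] in
/-- The quadratic Eichler–Shimura operator on the subtype `↥X` and on the ambient group. -/
theorem coe_esQuad_pow (X : AddSubgroup (JZero N))
    (hXst : ∀ (γ : GQ) (x : JZero N), x ∈ X → γ • x ∈ X) (σ : GQ) (q m : ℕ) :
    letI : DistribMulAction GQ X := FlagStep26.subAction X hXst
    ∀ x : X, (((FlagStep26.esQuad σ q ^ m : AddMonoid.End X) x : X) : JZero N)
      = ((fun z : JZero N => σ • σ • z - (1 + q) • σ • z + q • z)^[m]) (x : JZero N) := by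
  let iX : DistribMulAction GQ X := FlagStep26.subAction X hXst
  induction m with
  | zero => intro x; simp
  | succ m ih =>
    intro x
    have e1 : (FlagStep26.esQuad σ q ^ (m + 1) : AddMonoid.End X) x
        = (FlagStep26.esQuad σ q ^ m : AddMonoid.End X) (FlagStep26.esQuad σ q x) := by
      rw [pow_succ]; rfl
    rw [e1, ih, Function.iterate_succ_apply, FlagStep26.esQuad_apply]
    rfl

/-- **(JH-Codd)** from JH-B. -/
theorem flagOdd_of (hB : FrobQuad N) : FlagOdd N := by
  intro r hr hr2 B X n hX S hSX hSst hSne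
  have hrF : Fact r.Prime := ⟨hr⟩
  have hr0 : NeZero r := ⟨hr.ne_zero⟩
  have hXtors := hX.1
  have hXst := hX.2.1
  let iX : DistribMulAction GQ X := FlagStep26.subAction X hXst
  -- finiteness of `X`
  have hXfin : Finite X := by
    have hfin := Fermat.Agent.ESJ.torsionFinite N (r ^ n) (pow_pos hr.pos n)
    refine Set.Finite.subset hfin ?_ |>.to_subtype
    intro x hx
    have : x ∈ Pic0.torsion (AlgebraicClosure ℚ) (modularFunctionFieldBar N) (r ^ n) := by
      rw [Pic0.mem_torsion, natCast_zsmul]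
      exact hXtors x hx
    exact this
  -- the subgroup `S` inside `X`
  let S' : AddSubgroup X := S.comap X.subtype
  have hS'st : ∀ (γ : GQ) (x : X), x ∈ S' → γ • x ∈ S' := fun γ x hx => hSst γ x hx
  have hS'ne : S' ≠ ⊤ := by
    intro h
    apply hSne
    refine le_antisymm hSX fun x hx => ?_
    have : (⟨x, hx⟩ : X) ∈ S' := by rw [h]; trivial
    exact this
  -- the cyclotomic input
  obtain ⟨ζ, hζ⟩ := Fermat.Agent.ESJ.Rep.CycloMod.exists_primitiveRoot r
  have hζint : IsIntegral ℤ ζ := hζ.isIntegral hr.pos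
  have hK₀fin : FiniteDimensional ℚ (IntermediateField.adjoin ℚ {ζ}) :=
    IntermediateField.adjoin.finiteDimensional hζint.tower_top
  have hF : ∀ γ : GQ, ∃ (σ : GQ) (k q m : ℕ), (∀ x : X, γ • x = σ ^ k • x) ∧
      cycloMod r γ = cycloMod r σ ^ k ∧
      ((cycloMod r σ : (ZMod r)ˣ) : ZMod r) = (q : ZMod r) ∧
      FlagStep26.esQuad σ q ^ m = (0 : AddMonoid.End X) := by
    intro γ
    obtain ⟨ℓ, A, σ, k, m, hℓ, hℓNr, hA, hσ, hK, hXσ, hQ⟩ :=
      hB r n hr B X hX (IntermediateField.adjoin ℚ {ζ}) γ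
    have hℓr : ¬ ℓ ∣ r := fun h => hℓNr (Dvd.dvd.mul_left h N)
    refine ⟨σ, k, ℓ, m, ?_, ?_, ?_, ?_⟩
    · intro x
      exact Subtype.ext (hXσ x x.2)
    · rw [← map_pow]
      exact cycloMod_eq_of_apply_eq r hζ γ (σ ^ k)
        (hK ζ (IntermediateField.mem_adjoin_simple_self ℚ ζ))
    · exact cycloMod_frobenius r hℓ hℓr A hA σ hσ
    · ext x
      rw [coe_esQuad_pow X hXst σ ℓ m x, hQ x x.2]
      rfl
  obtain ⟨y, hyS, hry, halt⟩ := FlagStep26.exists_step_odd r n
    (fun x => Subtype.ext (by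
      rw [AddSubgroup.coe_nsmul]
      exact hXtors x x.2))
    (cycloMod r) complexConjugation (cycloMod_complexConjugation r hr2) hF S' hS'st hS'ne
  refine ⟨(y : JZero N), y.2, hyS, ?_, ?_⟩
  · have : ((r • y : X) : JZero N) ∈ S := hry
    rwa [AddSubgroup.coe_nsmul] at this
  · rcases halt with h | ⟨h1, h2⟩
    · left
      intro γ
      exact h γ
    · right
      refine ⟨fun γ => ?_, h2⟩
      obtain ⟨m, hm⟩ := h1 γ
      exact ⟨m, hm⟩

end Main

end Fermat.Agent.S15P.JHFlagOdd73
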