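/-
S15P, layer (JH), brick JH-B (helper13): the concrete Frobenius feed.

For an Eisenstein piece `X ⊆ J₀(N)[r^n]` away from `B` (`JH.IsEisPiece`), every
`γ ∈ Gal(ℚ̄/ℚ)` agrees on `X` (and on any prescribed finite extension `K₀` of `ℚ`) with a power
`σ ^ k` of a Frobenius element `σ` at a prime `ℓ ∤ N r`, `ℓ ∉ B`, and the quadratic operator `(σ - 1)(σ - ℓ)` is nilpotent on
`X`, of an exponent `m` depending only on `X`.

Inputs from main: the torsion Eichler–Shimura relation (`ESJ.RedK.torsionESRelation`), the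
commutation of Hecke and Galois (`ESJ.Cong.heckeGaloisCommute`), the finite level of the
torsion (`ESJ.torsionFiniteLevel`) and the Frobenius density theorem in existence form
(`Frob.exists_frobenius_generating`).
-/
import Mathlib
import Fermat.Agent.ESJ.RedK.GoodRed
import Fermat.Agent.ESJ.Jac.Main
import Fermat.Agent.ESJ.Cong.Comm
import Fermat.Agent.Frob.Main
import Fermat.Agent.S15P.InterfacesJH

set_option autoImplicit false

namespace Fermat.Agent.S15P.JHFrob13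

open ModularCurve AlgebraicCurve Fermat.Agent.S15P.JH

variable {N : ℕ} [NeZero N]

/-- `ν_ℓ = T_ℓ - (1 + ℓ)` on `J₀(N)(ℚ̄)`. -/
noncomputable def nu (N : ℕ) [NeZero N] (ℓ : Nat.Primes) : Module.End ℤ (JZero N) :=
  heckeOperatorBar N ℓ - (1 + ((ℓ : ℕ) : Module.End ℤ (JZero N)))

theorem nu_apply (ℓ : Nat.Primes) (x : JZero N) :
    nu N ℓ x = heckeOperatorBar N ℓ x - (1 + (ℓ : ℕ)) • x := by
  simp only [nu, LinearMap.sub_apply, LinearMap.add_apply, Module.End.one_apply,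
    Module.End.natCast_apply, add_smul, one_smul]

omit [NeZero N] in
theorem gal_nsmul (σ : GQ) (k : ℕ) (x : JZero N) : σ • (k • x) = k • (σ • x) := by
  induction k with
  | zero => simp
  | succ k ih => rw [succ_nsmul, smul_add, ih, succ_nsmul]

theorem nu_smul (ℓ : Nat.Primes) (σ : GQ) (x : JZero N) :
    nu N ℓ (σ • x) = σ • nu N ℓ x := by
  rw [nu_apply, nu_apply, Fermat.Agent.ESJ.Cong.heckeGaloisCommute N ℓ σ x, smul_sub,
    gal_nsmul]

theorem nu_pow_smul (ℓ : Nat.Primes) (σ : GQ) (i : ℕ) (x : JZero N) :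
    (nu N ℓ ^ i) (σ • x) = σ • (nu N ℓ ^ i) x := by
  induction i with
  | zero => simp
  | succ i ih => rw [pow_succ', Module.End.mul_apply, ih, nu_smul, ← Module.End.mul_apply]

theorem nu_mem {r n : ℕ} {B : Finset ℕ} {X : AddSubgroup (JZero N)}
    (hX : IsEisPiece N r n B X)
    (ℓ : Nat.Primes) (hℓ : ¬ (ℓ : ℕ) ∣ N * r) (hℓB : (ℓ : ℕ) ∉ B) {x : JZero N} (hx : x ∈ X) :
    nu N ℓ x ∈ X := by
  rw [nu_apply]
  exact X.sub_mem (hX.2.2.1 ℓ hℓ hℓB x hx) (X.nsmul_mem hx _)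

theorem nu_pow_mem {r n : ℕ} {B : Finset ℕ} {X : AddSubgroup (JZero N)}
    (hX : IsEisPiece N r n B X)
    (ℓ : Nat.Primes) (hℓ : ¬ (ℓ : ℕ) ∣ N * r) (hℓB : (ℓ : ℕ) ∉ B) {x : JZero N} (hx : x ∈ X)
    (i : ℕ) : (nu N ℓ ^ i) x ∈ X := by
  induction i with
  | zero => simpa using hx
  | succ i ih =>
    rw [pow_succ', Module.End.mul_apply]
    exact nu_mem hX ℓ hℓ hℓB ih

/-- `ν_ℓ` is nilpotent on `X`, with an exponent independent of `ℓ`. -/
theorem nu_pow_eq_zero {r n : ℕ} {B : Finset ℕ} {X : AddSubgroup (JZero N)}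
    (hX : IsEisPiece N r n B X) :
    ∃ m : ℕ, ∀ ℓ : Nat.Primes, ¬ (ℓ : ℕ) ∣ N * r → (ℓ : ℕ) ∉ B → ∀ x ∈ X,
      (nu N ℓ ^ m) x = 0 := by
  obtain ⟨K, hK⟩ := hX.2.2.2
  refine ⟨K * n, fun ℓ hℓ hℓB => ?_⟩
  have key : ∀ i : ℕ, ∀ x ∈ X, r ^ i • x = 0 → (nu N ℓ ^ (K * i)) x = 0 := by
    intro i
    induction i with
    | zero =>
      intro x _ h
      rw [pow_zero, one_smul] at h
      rw [h, map_zero]
    | succ i ih =>
      intro x hx h
      have h1 : (nu N ℓ ^ K) (r ^ i • x) = 0 := by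
        refine hK ℓ hℓ hℓB _ (X.nsmul_mem hx _) ?_
        rw [← mul_smul, ← pow_succ']
        exact h
      have h2 : r ^ i • (nu N ℓ ^ K) x = 0 := by
        rw [← map_nsmul]
        exact h1
      have h3 := ih _ (nu_pow_mem hX ℓ hℓ hℓB hx K) h2
      rw [Nat.mul_succ, pow_add, Module.End.mul_apply]
      exact h3
  intro x hx
  exact key n x hx (hX.1 x hx)

/-- The quadratic operator `(σ - 1)(σ - q)`: `z ↦ σ²z - (1 + q) σz + q z`. -/
noncomputable def quad (σ : GQ) (q : ℕ) (z : JZero N) : JZero N :=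
  σ • σ • z - (1 + q) • σ • z + q • z

/-- Eichler–Shimura on torsion: `(σ - 1)(σ - ℓ) = σ ∘ ν_ℓ` for a Frobenius `σ` at `ℓ ∤ N r`. -/
theorem quad_eq_of_frob {r : ℕ} (p : Nat.Primes) (hℓN : ¬ (p : ℕ) ∣ N * r)
    (A : ValuationSubring Qb) (hA : A.LiesOverPrime (p : ℕ)) (σ : GQ)
    (hσ : A.IsFrobeniusAt σ (p : ℕ)) (x : JZero N) (hx : ∃ n : ℕ, r ^ n • x = 0) :
    quad σ (p : ℕ) x = σ • nu N p x := by
  have h : σ • σ • x - heckeOperatorBar N p (σ • x) + (p : ℕ) • x = 0 :=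
    (Fermat.Agent.ESJ.RedK.torsionESRelation N r (p : ℕ) p.2 hℓN A hA).2 σ hσ x hx
  have h' : σ • σ • x + (p : ℕ) • x = heckeOperatorBar N p (σ • x) := by
    rw [← sub_eq_zero, ← h]
    abel
  rw [← nu_smul, nu_apply, quad, ← h']
  abel

theorem quad_iterate {r n : ℕ} {B : Finset ℕ} {X : AddSubgroup (JZero N)}
    (hX : IsEisPiece N r n B X)
    (p : Nat.Primes) (hℓN : ¬ (p : ℕ) ∣ N * r) (hℓB : (p : ℕ) ∉ B)
    (A : ValuationSubring Qb) (hA : A.LiesOverPrime (p : ℕ)) (σ : GQ)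
    (hσ : A.IsFrobeniusAt σ (p : ℕ)) :
    ∀ (i : ℕ) (x : JZero N), x ∈ X →
      (quad σ (p : ℕ))^[i] x = σ ^ i • (nu N p ^ i) x := by
  intro i
  induction i with
  | zero => intro x _; simp
  | succ i ih =>
    intro x hx
    have hxt : ∃ n : ℕ, r ^ n • x = 0 := ⟨n, hX.1 x hx⟩
    have hmem : σ • nu N p x ∈ X := hX.2.1 σ _ (nu_mem hX p hℓN hℓB hx)
    rw [Function.iterate_succ_apply, quad_eq_of_frob p hℓN A hA σ hσ x hxt, ih _ hmem,
      nu_pow_smul, ← mul_smul, ← pow_succ, pow_succ (nu N p) i, Module.End.mul_apply]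

/-- **JH-B.** There is an exponent `m` such that every `γ` agrees on `X`, and on any given
finite extension `K₀` of `ℚ`, with a power `σ ^ k` of a Frobenius element `σ` at a prime
`ℓ ∤ N r` with `((σ - 1)(σ - ℓ))^m = 0` on `X`. -/
theorem exists_frob_quad (N r n : ℕ) [NeZero N] (hr : r.Prime) (B : Finset ℕ)
    (X : AddSubgroup (JZero N)) (hX : IsEisPiece N r n B X) :
    ∃ m : ℕ, ∀ (K₀ : IntermediateField ℚ Qb) [FiniteDimensional ℚ K₀] (γ : GQ),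
      ∃ (ℓ : ℕ) (A : ValuationSubring Qb) (σ : GQ) (k : ℕ), ℓ.Prime ∧ ¬ ℓ ∣ N * r ∧ ℓ ∉ B ∧
        A.LiesOverPrime ℓ ∧ A.IsFrobeniusAt σ ℓ ∧ (∀ a ∈ K₀, γ a = (σ ^ k) a) ∧
        (∀ x ∈ X, γ • x = σ ^ k • x) ∧ ∀ x ∈ X, (quad σ ℓ)^[m] x = 0 := by
  obtain ⟨m, hm⟩ := nu_pow_eq_zero hX
  refine ⟨m, fun K₀ _ γ => ?_⟩
  have hpos : 0 < r ^ n := pow_pos hr.pos n
  obtain ⟨L, hLfin, hL⟩ := Fermat.Agent.ESJ.torsionFiniteLevel N (r ^ n) hpos
  have := hLfin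
  obtain ⟨ℓ, hℓ, hℓS, A, σ, k, j, hA, hσ, h1, -⟩ :=
    Fermat.Agent.Frob.exists_frobenius_generating (L ⊔ K₀) ((N * r).primeFactors ∪ B) γ
  have hℓN : ¬ ℓ ∣ N * r := fun h =>
    hℓS (Finset.mem_union_left _
      (Nat.mem_primeFactors.mpr ⟨hℓ, h, mul_ne_zero (NeZero.ne N) hr.ne_zero⟩))
  have hℓB : ℓ ∉ B := fun h => hℓS (Finset.mem_union_right _ h)
  refine ⟨ℓ, A, σ, k, hℓ, hℓN, hℓB, hA, hσ,
    fun a ha => h1 a ((le_sup_right : K₀ ≤ L ⊔ K₀) ha), ?_, ?_⟩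
  · intro x hx
    have hτ : ∀ a ∈ L, ((σ ^ k)⁻¹ * γ) a = a := by
      intro a ha
      have h2 := h1 a ((le_sup_left : L ≤ L ⊔ K₀) ha)
      show (σ ^ k)⁻¹ (γ a) = a
      rw [h2]
      exact (σ ^ k).symm_apply_apply a
    have hz : x ∈ Pic0.torsion Qb (modularFunctionFieldBar N) (r ^ n) := by
      rw [Pic0.mem_torsion, natCast_zsmul]
      exact hX.1 x hx
    have h3 := hL _ hτ x hz
    calc γ • x = (σ ^ k * ((σ ^ k)⁻¹ * γ)) • x := by rw [mul_inv_cancel_left]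
      _ = σ ^ k • x := by rw [mul_smul, h3]
  · intro x hx
    have h4 := quad_iterate hX (⟨ℓ, hℓ⟩ : Nat.Primes) hℓN hℓB A hA σ hσ m x hx
    have h5 := hm (⟨ℓ, hℓ⟩ : Nat.Primes) hℓN hℓB x hx
    rw [h5] at h4
    exact h4.trans (smul_zero (A := JZero N) (σ ^ m))

end Fermat.Agent.S15P.JHFrob13
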