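/-
S15, layer (JH), row JH-Codd (helper73): `flagOdd (N) [NeZero N] : JH.FlagOdd N`, with no
hypothesis left — `JHFlagOdd73.flagOdd_of` fed with helper13's `JHFrob13.exists_frob_quad`.
-/
import Mathlib
import Fermat.Agent.S15P.JHFlagOdd73
import Fermat.Agent.S15P.JHFrob13

set_option autoImplicit false

namespace Fermat.Agent.S15P.JHFlagOddInst73

open ModularCurve Fermat.Agent.S15P.JH

/-- helper13's JH-B in the shape consumed by `flagOdd_of`. -/
theorem frobQuad (N : ℕ) [NeZero N] : JHFlagOdd73.FrobQuad N := by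
  intro r n hr B X hX K₀ _ γ
  obtain ⟨m, hm⟩ := JHFrob13.exists_frob_quad N r n hr B X hX
  obtain ⟨ℓ, A, σ, k, h1, h2, -, h3, h4, h5, h6, h7⟩ := hm K₀ γ
  exact ⟨ℓ, A, σ, k, m, h1, h2, h3, h4, h5, h6, h7⟩

/-- **(JH-Codd)**: the (E)-flag at odd `r`. -/
theorem flagOdd (N : ℕ) [NeZero N] : FlagOdd N :=
  JHFlagOdd73.flagOdd_of (frobQuad N)

end Fermat.Agent.S15P.JHFlagOddInst73
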