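/-
S15P, layer (JH) (helper13): glue between the AMBIENT form (subgroups of `JZero N`) and the
ABSTRACT form (`FlagStep26`: a `Γ`-module `G`) — the restricted Galois action on a
Galois-stable subgroup `X`, finiteness of an Eisenstein piece, and the comparison of
`FlagStep26.esQuad` on `↥X` with `JHFrob13.quad` on `JZero N`.
-/
import Mathlib
import Fermat.Agent.S15P.FlagStep26
import Fermat.Agent.S15P.JHFrob13

set_option autoImplicit false

namespace Fermat.Agent.S15P.JHSub13

open ModularCurve AlgebraicCurve Fermat.Agent.S15P.JH Fermat.Agent.S15P.JHFrob13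
open Fermat.Agent.S15P.FlagStep26

variable {N : ℕ} [NeZero N]

/-- The restricted Galois action on a Galois-stable subgroup of `J₀(N)(ℚ̄)`. -/
@[reducible] noncomputable def subAction (X : AddSubgroup (JZero N))
    (hX : ∀ (γ : GQ) (x : JZero N), x ∈ X → γ • x ∈ X) : DistribMulAction GQ X where
  smul γ x := ⟨γ • (x : JZero N), hX γ x x.2⟩
  one_smul x := Subtype.ext (one_smul GQ (x : JZero N))
  mul_smul a b x := Subtype.ext (mul_smul a b (x : JZero N))
  smul_zero a := Subtype.ext (smul_zero (A := JZero N) a)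
  smul_add a x y := Subtype.ext (smul_add a (x : JZero N) (y : JZero N))

omit [NeZero N] in
theorem coe_subAction_smul (X : AddSubgroup (JZero N))
    (hX : ∀ (γ : GQ) (x : JZero N), x ∈ X → γ • x ∈ X) (γ : GQ) (x : X) :
    letI := subAction X hX
    ((γ • x : X) : JZero N) = γ • (x : JZero N) := rfl

/-- An Eisenstein piece is finite (main: `ESJ.torsionFinite`). -/
theorem finite_of_isEisPiece {r n : ℕ} (hr : 0 < r) {B : Finset ℕ} {X : AddSubgroup (JZero N)}
    (hX : IsEisPiece N r n B X) : Finite X := by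
  have hfin := Fermat.Agent.ESJ.torsionFinite N (r ^ n) (pow_pos hr n)
  have hsub : (X : Set (JZero N)) ⊆
      (Pic0.torsion Qb (modularFunctionFieldBar N) (r ^ n) : Set (JZero N)) := by
    intro x hx
    show x ∈ Pic0.torsion Qb (modularFunctionFieldBar N) (r ^ n)
    rw [Pic0.mem_torsion, natCast_zsmul]
    exact hX.1 x hx
  exact (hfin.subset hsub).to_subtype

omit [NeZero N] in
/-- `FlagStep26.esQuad` on `↥X` is the restriction of `JHFrob13.quad`. -/
theorem coe_esQuad_pow (X : AddSubgroup (JZero N))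
    (hX : ∀ (γ : GQ) (x : JZero N), x ∈ X → γ • x ∈ X) (σ : GQ) (q : ℕ) (i : ℕ) (x : X) :
    letI := subAction X hX
    (((esQuad σ q ^ i : AddMonoid.End X) x : X) : JZero N) = (quad σ q)^[i] (x : JZero N) := by
  let _ := subAction X hX
  induction i generalizing x with
  | zero => simp
  | succ i ih =>
    have h1 : (esQuad σ q ^ (i + 1) : AddMonoid.End X) x =
        (esQuad σ q ^ i : AddMonoid.End X) ((esQuad σ q : AddMonoid.End X) x) := by
      rw [pow_succ]
      rfl
    rw [h1, ih, Function.iterate_succ_apply, esQuad_apply]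
    rfl

omit [NeZero N] in
/-- If `quad σ q` is nilpotent on `X`, then `FlagStep26.esQuad σ q` is nilpotent on `↥X`. -/
theorem esQuad_pow_eq_zero_of_quad (X : AddSubgroup (JZero N))
    (hX : ∀ (γ : GQ) (x : JZero N), x ∈ X → γ • x ∈ X) (σ : GQ) (q m : ℕ)
    (h : ∀ x ∈ X, (quad σ q)^[m] x = 0) :
    letI := subAction X hX
    esQuad σ q ^ m = (0 : AddMonoid.End X) := by
  let _ := subAction X hX
  ext x
  rw [coe_esQuad_pow X hX σ q m x]
  exact h x x.2

end Fermat.Agent.S15P.JHSub13
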