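/-
S15P, layer (JH), brick JH-C2 (helper13): `flagTwo : JH.FlagTwo N`.

For `r = 2`: every proper Galois-stable subgroup `S` of an Eisenstein piece `X ⊆ J₀(N)[2^n]`
has a step vector `y ∈ X ∖ S`, `2 y ∈ S`, fixed by Galois modulo `S`.

Assembly of the abstract core `FlagStep26.exists_step_two` (helper26) with the concrete
Frobenius feed `JHFrob13.exists_frob_quad`, through the glue of `JHSub13`.
-/
import Mathlib
import Fermat.Agent.S15P.JHSub13

set_option autoImplicit false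

namespace Fermat.Agent.S15P.JHFlagTwo13

open ModularCurve AlgebraicCurve Fermat.Agent.S15P.JH Fermat.Agent.S15P.JHFrob13
open Fermat.Agent.S15P.FlagStep26 Fermat.Agent.S15P.JHSub13

/-- **(JH-U2).** -/
theorem flagTwo (N : ℕ) [NeZero N] : FlagTwo N := by
  intro B X n hX S hSX hSst hne
  let _ : DistribMulAction GQ X := JHSub13.subAction X hX.2.1
  have : Finite X := finite_of_isEisPiece (by norm_num) hX
  obtain ⟨m, hm⟩ := exists_frob_quad N 2 n Nat.prime_two B X hX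
  have hF : ∀ γ : GQ, ∃ (σ : GQ) (k q m : ℕ), Odd q ∧ (∀ x : X, γ • x = σ ^ k • x) ∧
      esQuad σ q ^ m = (0 : AddMonoid.End X) := by
    intro γ
    obtain ⟨ℓ, A, σ, k, hℓ, hℓN, -, hA, hσ, -, hγ, hq⟩ := hm ⊥ γ
    refine ⟨σ, k, ℓ, m, ?_, ?_, ?_⟩
    · rcases hℓ.eq_two_or_odd' with h2 | hodd
      · exact absurd (h2 ▸ Dvd.intro_left N rfl) hℓN
      · exact hodd
    · intro x
      exact Subtype.ext (hγ x x.2)
    · exact esQuad_pow_eq_zero_of_quad X hX.2.1 σ ℓ m hq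
  have hG : ∀ x : X, 2 ^ n • x = 0 := fun x => Subtype.ext (hX.1 x x.2)
  have hst : ∀ (γ : GQ) (x : X), x ∈ S.addSubgroupOf X → γ • x ∈ S.addSubgroupOf X := by
    intro γ x hx
    exact AddSubgroup.mem_addSubgroupOf.mpr (hSst γ x (AddSubgroup.mem_addSubgroupOf.mp hx))
  have htop : S.addSubgroupOf X ≠ ⊤ := by
    intro h
    exact hne (le_antisymm hSX (AddSubgroup.addSubgroupOf_eq_top.mp h))
  obtain ⟨y, hy1, hy2, hy3⟩ := exists_step_two n hG hF (S.addSubgroupOf X) hst htop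
  refine ⟨y, y.2, fun h => hy1 (AddSubgroup.mem_addSubgroupOf.mpr h), ?_, ?_⟩
  · exact AddSubgroup.mem_addSubgroupOf.mp hy2
  · intro γ
    exact AddSubgroup.mem_addSubgroupOf.mp (hy3 γ)

end Fermat.Agent.S15P.JHFlagTwo13
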