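/-
S15, (DESC) layer (helper80, architect): the concrete-descent interface, version P (`r ≠ p`).

`DescDataP` = `InterfacesDesc80.DescData` with the extra hypothesis `r ≠ p` (the descent prime
is a good prime of the level).  The clause Props `IsEisProj`, `eisG`, `FlagU`, `StepH`,
`LocalCount`, `Mfix` of `S15P/InterfacesDesc80` are unchanged and are the Props of record.

`descOutP_of_descDataP` : `DescDataP` + S17 + divisibility + Hecke–Galois commutation
(all three on main) give `Interfaces80b.DescOutP`.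
-/
import Mathlib
import Fermat.Agent.S15P.Interfaces80b
import Fermat.Agent.S15P.InterfacesDesc80

set_option autoImplicit false

namespace Fermat.Agent.S15P.InterfacesDesc80b

open ModularCurve Fermat.Agent.ESJ Polynomial
open Fermat.Agent.S15P.Interfaces80b Fermat.Agent.S15P.MainCount40
open Fermat.Agent.S15P.InterfacesDesc80

/-- **(DESC), concrete data**: for every Eisenstein class `c₁` of prime order `r ≠ p` on
`J₀(p)` and every auxiliary prime `ℓ ≥ 5`: a projector `E` and two Galois elements `σ` (in an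
inertia group at `p`), `c` (complex conjugation) with the five clauses of
`S15P/InterfacesDesc80`. -/
def DescDataP : Prop :=
  ∀ (p : ℕ) [NeZero p], p.Prime → p ∉ ({2, 3, 5, 7, 13} : Finset ℕ) →
  ∀ ℓ : ℕ, ℓ.Prime → 5 ≤ ℓ → ℓ ≠ p →
  ∀ r : ℕ, r.Prime → r ≠ p →
  ∀ c₁ : JZero p, (∀ σ : GQ, σ • c₁ = c₁) → r • c₁ = 0 → c₁ ≠ 0 →
    (∀ q : Nat.Primes, (q : ℕ) ≠ p → heckeOperatorBar p q c₁ = (1 + (q : ℕ)) • c₁) →
    ∃ (E : Module.End ℤ (JZero p)) (σ c : GQ),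
      IsEisProj p ℓ r E ∧ Finite (eisG p r E) ∧ FlagU p r E c ∧ StepH p r E σ c ∧
        LocalCount p r E σ c

/-- **(DESC) seam**: the concrete data give the top interface Prop `DescOutP`. -/
theorem descOutP_of_descDataP
    (hFG : ∀ (p : ℕ) [NeZero p], p.Prime → 5 ≤ p → AddGroup.FG ↥(Mfix p))
    (hdiv : ∀ (p : ℕ) [NeZero p] (n : ℕ), 0 < n → ∀ x : JZero p, ∃ y : JZero p, n • y = x)
    (hGal : ∀ (p : ℕ) [NeZero p], HeckeGaloisCommute p)
    (h : DescDataP) : DescOutP := by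
  intro p _ hp hp' ℓ hℓ h5 hℓp r hr hrp c₁ hc₁fix hc₁r hc₁ne hc₁T
  obtain ⟨E, σ, c, ⟨⟨S, hS, hES⟩, hidem, hEc⟩, hfin, hU, hH, W, V, hWfin, hVfin, hW, hV, hWV⟩ :=
    h p hp hp' ℓ hℓ h5 hℓp r hr hrp c₁ hc₁fix hc₁r hc₁ne hc₁T
  have := hfin
  have := hWfin
  have := hVfin
  have hp5 : 5 ≤ p := by
    have h2 := hp.two_le
    by_contra hlt
    have hcases : p = 2 ∨ p = 3 ∨ p = 4 := by omega
    rcases hcases with h | h | h
    · exact hp' (by rw [h]; decide)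
    · exact hp' (by rw [h]; decide)
    · rw [h] at hp; exact absurd hp (by norm_num)
  have hM : ∀ x : JZero p, x ∈ Mfix p ↔ ∀ γ : GQ, γ • x = x := fun x => Iff.rfl
  have hEΓ : ∀ (γ : GQ) (x : JZero p), E (γ • x) = γ • E x :=
    equivariant_of_mem_adjoin (heckeOperatorBar p '' S)
      (by rintro t ⟨q, _, rfl⟩ γ x; exact hGal p q γ x) E hES
  have hdiv' : ∀ y ∈ Mfix p, ∃ z : JZero p, r • z = y := fun y _ => hdiv p r hr.pos y
  have key : ∃ P : ℤ[X], (∃ n : ℕ, n ≠ 0 ∧ ∀ y ∈ Mfix p, n • (aeval E P) y = 0) ∧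
      ∀ c₁ : JZero p, E c₁ = c₁ → r • c₁ = 0 → (aeval E P) c₁ = c₁ := by
    by_cases hr2 : r = 2
    · subst hr2
      obtain ⟨P, h1, _, h3⟩ := Desc40.exists_poly_two (Γ := GQ) (Mfix p) hM (hFG p hp hp5) E hEΓ
        hidem hdiv' (eisG p 2 E) (fun _ => mem_eisG) σ c (hU.1 rfl) (hH.1 rfl) W V hW hV hWV
      exact ⟨P, h1, h3⟩
    · have hodd : Odd r := hr.odd_of_ne_two hr2
      obtain ⟨P, h1, _, h3⟩ := Desc40.exists_poly_odd (Γ := GQ) r hodd (Mfix p) hM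
        (hFG p hp hp5) E hEΓ hidem hdiv' (eisG p r E) (fun _ => mem_eisG) σ c (hU.2 hr2)
        (hH.2 hr2).1 (hH.2 hr2).2 W V hW hV hWV
      exact ⟨P, h1, h3⟩
  obtain ⟨P, ⟨n, hn, hP1⟩, hP2⟩ := key
  refine ⟨aeval E P, ⟨S, hS, ?_⟩, ⟨n, hn, fun y hy => hP1 y ((hM y).2 hy)⟩,
    hP2 c₁ (hEc c₁ hc₁r hc₁T) hc₁r⟩
  exact Algebra.adjoin_le (Set.singleton_subset_iff.mpr hES) (aeval_mem_adjoin_singleton ℤ E)

end Fermat.Agent.S15P.InterfacesDesc80b
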