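/-
S15, row 624 (CONCRETE-DESC), the real place on `J₀(p)` (helper68): the group `V` of
`InterfacesDesc80.LocalCount` and the evenness `#G = r ^ (2 d)`, from the three export
statements of L6 (helper29 / helper47), which are HYPOTHESES here in their literal shape:

* `L6Even N r`  : `∃ d, #(E J[r]) = r ^ (2 d)` for a Hecke polynomial `E` idempotent on `J[r]`;
* `L6Lev N r n` : `#(c - 1) F J[r ^ n] ≤ r ^ (d n)`;
* `L6Two N`     : `#((c - 1) F J[4] ∩ J[2]) ≤ 2 ^ d`.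

Output (`E := F` in `Desc40`; at `r = 2` the projector `F` is idempotent on `J[4]`):

* `localV_two`, `localV_odd`         : `∃ d, #G = r ^ (2 d) ∧ ∃ V, Finite V ∧ (c z - z ∈ V) ∧ #V ≤ r ^ d`;
* `localCount_two`, `localCount_odd` : `InterfacesDesc80.LocalCount p r F σ complexConjugation`
                                       from the `W`-side at `p` with the same `d`.
-/
import Mathlib
import Fermat.Agent.S15P.InterfacesDesc80
import Fermat.Agent.S15P.VSeam68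
import Fermat.Prelude.Def_GaloisRep_ComplexConjugation

set_option autoImplicit false
set_option linter.unusedSectionVars false

namespace Fermat.Agent.S15P.HVInst68

open ModularCurve AlgebraicCurve Fermat.Agent.ESJ
open Fermat.Agent.S15P.Interfaces80 Fermat.Agent.S15P.InterfacesDesc80
open Fermat.Agent.S15P.MainCount40

/-- (L6-even), helper29's export literal: `#(E J[r]) = r ^ (2 d)`. -/
def L6Even (N r : ℕ) [NeZero N] : Prop :=
  ∀ (S : Set Nat.Primes), (∀ q ∈ S, ¬ (q : ℕ) ∣ N) →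
  ∀ E : Module.End ℤ (JZero N), E ∈ Algebra.adjoin ℤ (heckeOperatorBar N '' S) →
    (∀ x : JZero N, r • x = 0 → E (E x) = E x) →
    ∃ d : ℕ, Nat.card {g : JZero N // ∃ x : JZero N, r • x = 0 ∧ g = E x} = r ^ (2 * d)

/-- (L6-lev), helper29's export literal: `#(c - 1) F J[r ^ n] ≤ r ^ (d n)`. -/
def L6Lev (N r n : ℕ) [NeZero N] : Prop :=
  ∀ (S : Set Nat.Primes), (∀ q ∈ S, ¬ (q : ℕ) ∣ N) →
  ∀ F : Module.End ℤ (JZero N), F ∈ Algebra.adjoin ℤ (heckeOperatorBar N '' S) →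
    (∀ x : JZero N, r ^ n • x = 0 → F (F x) = F x) →
    ∀ d : ℕ, Nat.card {g : JZero N // ∃ x : JZero N, r • x = 0 ∧ g = F x} = r ^ (2 * d) →
    Nat.card {u : JZero N // ∃ t : JZero N, r ^ n • t = 0 ∧
      u = complexConjugation • F t - F t} ≤ r ^ (d * n)

/-- (L6-two), helper29's export literal: `#((c - 1) F J[4] ∩ J[2]) ≤ 2 ^ d`. -/
def L6Two (N : ℕ) [NeZero N] : Prop :=
  ∀ (S : Set Nat.Primes), (∀ q ∈ S, ¬ (q : ℕ) ∣ N) →
  ∀ F : Module.End ℤ (JZero N), F ∈ Algebra.adjoin ℤ (heckeOperatorBar N '' S) →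
    (∀ x : JZero N, 4 • x = 0 → F (F x) = F x) →
    ∀ d : ℕ, Nat.card {g : JZero N // ∃ x : JZero N, 2 • x = 0 ∧ g = F x} = 2 ^ (2 * d) →
    Nat.card {u : JZero N // 2 • u = 0 ∧ ∃ t : JZero N, 4 • t = 0 ∧
      u = complexConjugation • F t - F t} ≤ 2 ^ d

variable {p : ℕ} [NeZero p]

/-- `J[n]` as a set is finite. -/
theorem finite_nsmul_eq_zero (n : ℕ) (hfin : TorsionFinite p n) :
    {t : JZero p | n • t = 0}.Finite := by
  refine hfin.subset fun t ht => ?_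
  have ht' : n • t = 0 := ht
  show t ∈ Pic0.torsion (AlgebraicClosure ℚ) (modularFunctionFieldBar p) n
  rw [Pic0.mem_torsion, natCast_zsmul]
  exact ht'

theorem card_eisG (r : ℕ) (F : Module.End ℤ (JZero p)) :
    Nat.card (eisG p r F)
      = Nat.card {g : JZero p // ∃ x : JZero p, r • x = 0 ∧ g = F x} := rfl

/-- **The real place, `r = 2`.**  `F` a Hecke polynomial idempotent on `J[4]`, `G = F J[2]`. -/
theorem localV_two (hGal : HeckeGaloisCommute p)
    (hdiv : ∀ x : JZero p, ∃ y : JZero p, 2 • y = x) (hfin : TorsionFinite p 4)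
    (hEven : L6Even p 2) (hTwo : L6Two p)
    (S : Set Nat.Primes) (hS : ∀ q ∈ S, ¬ (q : ℕ) ∣ p)
    (F : Module.End ℤ (JZero p)) (hF : F ∈ Algebra.adjoin ℤ (heckeOperatorBar p '' S))
    (hidem : ∀ x : JZero p, 4 • x = 0 → F (F x) = F x) :
    ∃ d : ℕ, Nat.card (eisG p 2 F) = 2 ^ (2 * d) ∧
      ∃ V : AddSubgroup (JZero p), Finite V ∧
        (∀ z ∈ Zdiv GQ 2 (Mfix p) (eisG p 2 F), complexConjugation • z - z ∈ V) ∧
        Nat.card V ≤ 2 ^ d := by
  have hidem2 : ∀ x : JZero p, 2 • x = 0 → F (F x) = F x := fun x hx =>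
    hidem x (by
      have e : (4 : ℕ) • x = 2 • (2 • x) := by rw [← mul_nsmul]
      rw [e, hx, smul_zero])
  obtain ⟨d, hd⟩ := hEven S hS F hF hidem2
  refine ⟨d, hd, ?_⟩
  have hFΓ : ∀ (γ : GQ) (x : JZero p), F (γ • x) = γ • F x :=
    equivariant_of_mem_adjoin (heckeOperatorBar p '' S)
      (by rintro t ⟨q, _, rfl⟩ γ x; exact hGal q γ x) F hF
  exact VSeam68.exists_V_two (Γ := GQ) complexConjugation complexConjugation_mul_self F hFΓ
    (Mfix p) (fun x => Iff.rfl) (eisG p 2 F)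
    (VSeam68.eq_self_of_mem 2 F hidem2 (eisG p 2 F) (fun _ => mem_eisG))
    (fun z _ => hdiv z) (finite_nsmul_eq_zero 4 hfin) d (hTwo S hS F hF hidem d hd)

/-- **The real place, `r` odd.**  `F` a Hecke polynomial idempotent on `J[r]`, `G = F J[r]`. -/
theorem localV_odd (r : ℕ) (hr : r.Prime) (hr2 : r ≠ 2) (hGal : HeckeGaloisCommute p)
    (hfin : TorsionFinite p r) (hEven : L6Even p r) (hLev : L6Lev p r 1)
    (S : Set Nat.Primes) (hS : ∀ q ∈ S, ¬ (q : ℕ) ∣ p)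
    (F : Module.End ℤ (JZero p)) (hF : F ∈ Algebra.adjoin ℤ (heckeOperatorBar p '' S))
    (hidem : ∀ x : JZero p, r • x = 0 → F (F x) = F x) :
    ∃ d : ℕ, Nat.card (eisG p r F) = r ^ (2 * d) ∧
      ∃ V : AddSubgroup (JZero p), Finite V ∧
        (∀ z ∈ Zdiv GQ r (Mfix p) (eisG p r F), complexConjugation • z - z ∈ V) ∧
        Nat.card V ≤ r ^ d := by
  obtain ⟨d, hd⟩ := hEven S hS F hF hidem
  refine ⟨d, hd, ?_⟩
  have hFΓ : ∀ (γ : GQ) (x : JZero p), F (γ • x) = γ • F x :=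
    equivariant_of_mem_adjoin (heckeOperatorBar p '' S)
      (by rintro t ⟨q, _, rfl⟩ γ x; exact hGal q γ x) F hF
  have h1 := hLev S hS F hF (by simpa using hidem) d hd
  have hL6 : Nat.card {u : JZero p // ∃ t : JZero p, r • t = 0 ∧
      u = complexConjugation • F t - F t} ≤ r ^ d := by
    simpa using h1
  exact VSeam68.exists_V_odd (Γ := GQ) r (hr.odd_of_ne_two hr2) complexConjugation
    complexConjugation_mul_self F hFΓ (Mfix p) (fun x => Iff.rfl) (eisG p r F)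
    (VSeam68.eq_self_of_mem r F hidem (eisG p r F) (fun _ => mem_eisG))
    (finite_nsmul_eq_zero r hfin) d hL6

/-- **`LocalCount`, `r = 2`**: the `W`-side at `p` (L7) for the `d` of L6 gives the fifth clause
of `InterfacesDesc80.DescData`. -/
theorem localCount_two (hGal : HeckeGaloisCommute p)
    (hdiv : ∀ x : JZero p, ∃ y : JZero p, 2 • y = x) (hfin : TorsionFinite p 4)
    (hEven : L6Even p 2) (hTwo : L6Two p)
    (S : Set Nat.Primes) (hS : ∀ q ∈ S, ¬ (q : ℕ) ∣ p)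
    (F : Module.End ℤ (JZero p)) (hF : F ∈ Algebra.adjoin ℤ (heckeOperatorBar p '' S))
    (hidem : ∀ x : JZero p, 4 • x = 0 → F (F x) = F x) (σ : GQ)
    (hW : ∀ d : ℕ, Nat.card (eisG p 2 F) = 2 ^ (2 * d) →
      ∃ W : AddSubgroup (JZero p), Finite W ∧
        (∀ z ∈ Zdiv GQ 2 (Mfix p) (eisG p 2 F), σ • z - z ∈ W) ∧ Nat.card W ≤ 2 ^ d) :
    LocalCount p 2 F σ complexConjugation := by
  obtain ⟨d, hd, V, hVfin, hV, hVd⟩ := localV_two hGal hdiv hfin hEven hTwo S hS F hF hidem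
  obtain ⟨W, hWfin, hWz, hWd⟩ := hW d hd
  refine ⟨W, V, hWfin, hVfin, hWz, hV, ?_⟩
  calc Nat.card W * Nat.card V ≤ 2 ^ d * 2 ^ d := Nat.mul_le_mul hWd hVd
    _ = 2 ^ (2 * d) := by rw [← pow_add, two_mul]
    _ = Nat.card (eisG p 2 F) := hd.symm

/-- **`LocalCount`, `r` odd.** -/
theorem localCount_odd (r : ℕ) (hr : r.Prime) (hr2 : r ≠ 2) (hGal : HeckeGaloisCommute p)
    (hfin : TorsionFinite p r) (hEven : L6Even p r) (hLev : L6Lev p r 1)
    (S : Set Nat.Primes) (hS : ∀ q ∈ S, ¬ (q : ℕ) ∣ p)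
    (F : Module.End ℤ (JZero p)) (hF : F ∈ Algebra.adjoin ℤ (heckeOperatorBar p '' S))
    (hidem : ∀ x : JZero p, r • x = 0 → F (F x) = F x) (σ : GQ)
    (hW : ∀ d : ℕ, Nat.card (eisG p r F) = r ^ (2 * d) →
      ∃ W : AddSubgroup (JZero p), Finite W ∧
        (∀ z ∈ Zdiv GQ r (Mfix p) (eisG p r F), σ • z - z ∈ W) ∧ Nat.card W ≤ r ^ d) :
    LocalCount p r F σ complexConjugation := by
  obtain ⟨d, hd, V, hVfin, hV, hVd⟩ :=
    localV_odd r hr hr2 hGal hfin hEven hLev S hS F hF hidem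
  obtain ⟨W, hWfin, hWz, hWd⟩ := hW d hd
  refine ⟨W, V, hWfin, hVfin, hWz, hV, ?_⟩
  calc Nat.card W * Nat.card V ≤ r ^ d * r ^ d := Nat.mul_le_mul hWd hVd
    _ = r ^ (2 * d) := by rw [← pow_add, two_mul]
    _ = Nat.card (eisG p r F) := hd.symm

end Fermat.Agent.S15P.HVInst68
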