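import Mathlib
import Fermat.Agent.BAD.NodalGood
import Fermat.Agent.Lib.FF.PlaceInf

/-!
# (MONO-DIV): the monodromy relation `(τ - 1)(σ - 1) = 0` for DIVISION points

`BAD.TorsionMonodromy` says `(τ - 1)(σ - 1) x = 0` for `σ, τ` in the inertia group at a prime
`q ∥ N` and `x ∈ J₀(N)` of order prime to `q`.  Here the same relation is proved for every
`x ∈ J₀(N)(ℚ̄)` such that `m • x` is fixed by `σ` for some `m` prime to `q` (for instance a
division point of a rational point), at the good pairs (`5 ≤ q`, or `q = 3 ∧ 2 ∣ N`, or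
`q = 2 ∧ 3 ∣ N`), in particular for prime level `p ≥ 5` at `p`.

* `exists_fixed_divisor` : a class of `Pic⁰` fixed by a semilinear automorphism `g` that fixes
  one place is represented by a `g`-fixed divisor (minimal pole order at that place);
* `monodromy_pic0_div`, `monodromy_of_nodal_fibre_div`, `monodromy_core_div` : the chain
  `BAD.NodalDiv.monodromy_pic0` / `BAD.NodalAsm.monodromy_of_nodal_fibre` /
  `BAD.BadU.monodromy_core` with "`m • x = 0`" replaced by "`m • x` is the class of a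
  `g`-fixed divisor";
* `monodromy_div` : the closed statement at a good pair;
* `monodromy_div_prime` : prime level `p ≥ 5`.
-/

set_option autoImplicit false

namespace Fermat.Agent.S15P.DivMono85

open AlgebraicCurve ModularCurve WithZero Fermat.Agent.Lib.FF Fermat.Agent.Lib.Red.Deform
  Fermat.Agent.Lib.Red.CoordLat Fermat.Agent.BAD.Nodal Fermat.Agent.BAD.NodalBridge
  Fermat.Agent.BAD.NodalDiv Fermat.Agent.BAD.NodalRiemann Fermat.Agent.Lib.Red.OneStep

local notation "Qb" => AlgebraicClosure ℚ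

/-! ### Fixed classes are represented by fixed divisors -/

section fixed

variable {K F : Type*} [Field K] [Field F] [Algebra K F] {x : F}

theorem ord_algebraMap85 (P : Place K F) {a : K} (ha : a ≠ 0) :
    P.ord (algebraMap K F a) = 0 := by
  have hu : IsUnit (algebraMap K P.toValuationSubring a) := (Ne.isUnit ha).map _
  have h := P.ord_coe_unit hu.unit
  rwa [IsUnit.unit_spec, Place.coe_algebraMap] at h

theorem mk_eq_mk_of_ord {D D' : Divisor.degZero (K := K) (F := F)} (f : F) (hf : f ≠ 0)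
    (h : ∀ v : Place K F, (D' : Divisor K F) v - (D : Divisor K F) v = v.ord f) :
    Pic0.mk D' = Pic0.mk D := by
  refine (QuotientAddGroup.eq).2 ?_
  rw [AddSubgroup.mem_addSubgroupOf]
  refine ⟨f⁻¹, inv_ne_zero hf, fun v => ?_⟩
  rw [v.ord_inv, ← h v]
  simp only [AddSubgroup.coe_add, NegMemClass.coe_neg, Finsupp.add_apply, Finsupp.neg_apply]
  ring

theorem exists_ord_of_mk_eq {D D' : Divisor.degZero (K := K) (F := F)}
    (h : Pic0.mk D' = Pic0.mk D) :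
    ∃ f : F, f ≠ 0 ∧ ∀ v : Place K F, (D' : Divisor K F) v - (D : Divisor K F) v = v.ord f := by
  have h1 := (QuotientAddGroup.eq).1 h
  rw [AddSubgroup.mem_addSubgroupOf] at h1
  obtain ⟨f, hf, hfv⟩ := h1
  refine ⟨f⁻¹, inv_ne_zero hf, fun v => ?_⟩
  rw [v.ord_inv, ← hfv v]
  simp only [AddSubgroup.coe_add, NegMemClass.coe_neg, Finsupp.add_apply, Finsupp.neg_apply]
  ring

/-- A class of `Pic⁰` fixed by a semilinear automorphism `g` fixing a place `P₀` is the class of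
a `g`-fixed divisor of degree zero. -/
theorem exists_fixed_divisor (h : IsFF1 K F x) (g : SemilinearAut K F) (P₀ : Place K F)
    (hP₀ : g • P₀ = P₀) (y : Pic0 K F) (hy : g • y = y) :
    ∃ E : Divisor.degZero (K := K) (F := F),
      g • (E : Divisor K F) = (E : Divisor K F) ∧ Pic0.mk E = y := by
  classical
  have hpd := h.hasPrincipalDivisors
  have hex : ∃ j : ℕ, ∃ D : Divisor.degZero (K := K) (F := F), Pic0.mk D = y ∧
      ∀ v : Place K F, 0 ≤ ((D : Divisor K F) + Finsupp.single P₀ (j : ℤ)) v := by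
    obtain ⟨D, rfl⟩ := Pic0.mk_surjective y
    have hD0 : Divisor.degree (D : Divisor K F) = 0 := D.2
    have hdeg : (genusFF K F : ℤ) ≤
        Divisor.degree ((D : Divisor K F) + Finsupp.single P₀ ((genusFF K F : ℕ) : ℤ)) := by
      rw [map_add, Divisor.degree_single, h.deg_eq_one, Nat.cast_one, mul_one, hD0, zero_add]
    obtain ⟨f, hf, hfD⟩ := h.exists_ne_zero_of_degree_ge _ hdeg
    obtain ⟨Df, hDf, hDfdeg⟩ := HasPrincipalDivisors.exists_divisor (K := K) f hf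
    refine ⟨genusFF K F, ⟨(D : Divisor K F) + Df, ?_⟩, ?_, ?_⟩
    · rw [Divisor.mem_degZero, map_add, hDfdeg, add_zero]; exact hD0
    · exact mk_eq_mk_of_ord f hf (fun v => by
        show ((D : Divisor K F) + Df) v - (D : Divisor K F) v = v.ord f
        rw [Finsupp.add_apply, hDf v]; ring)
    · intro v
      have h1 := hfD v
      show 0 ≤ ((D : Divisor K F) + Df + Finsupp.single P₀ ((genusFF K F : ℕ) : ℤ)) v
      simp only [Finsupp.add_apply] at h1 ⊢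
      rw [hDf v]; linarith
  obtain ⟨D, hDy, hDnn⟩ := Nat.find_spec hex
  refine ⟨D, ?_, hDy⟩
  have hD0 : Divisor.degree (D : Divisor K F) = 0 := D.2
  have hgy : Pic0.mk (SemilinearAut.degZeroSMulHom g D) = Pic0.mk D := by
    rw [← SemilinearAut.pic0_smul_mk, hDy, hy]
  obtain ⟨u, hu, hudiv⟩ := exists_ord_of_mk_eq hgy
  have hudiv' : ∀ v : Place K F,
      (g • (D : Divisor K F)) v - (D : Divisor K F) v = v.ord u := hudiv
  rcases Nat.eq_zero_or_pos (Nat.find hex) with hj0 | hjpos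
  · -- `D ≥ 0` of degree `0`, hence `D = 0`
    have hDnn' : ∀ v, 0 ≤ (D : Divisor K F) v := by
      intro v
      have h1 := hDnn v
      rw [hj0] at h1
      simpa using h1
    have hdeg := hD0
    rw [h.degree_eq_sum] at hdeg
    have hzero : ∀ v, (D : Divisor K F) v = 0 := by
      intro v
      by_cases hv : v ∈ (D : Divisor K F).support
      · exact (Finset.sum_eq_zero_iff_of_nonneg (fun w _ => hDnn' w)).1 hdeg v hv
      · exact Finsupp.notMem_support_iff.1 hv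
    have hDz : (D : Divisor K F) = 0 := Finsupp.ext hzero
    rw [hDz, smul_zero]
  · obtain ⟨j', hj'⟩ : ∃ j', Nat.find hex = j' + 1 := ⟨Nat.find hex - 1, by omega⟩
    set B : Divisor K F := (D : Divisor K F) + Finsupp.single P₀ (j' : ℤ) with hB
    have hBadd : RR.addPl B P₀
        = (D : Divisor K F) + Finsupp.single P₀ ((Nat.find hex : ℕ) : ℤ) := by
      rw [hj', hB]
      show (D : Divisor K F) + Finsupp.single P₀ (j' : ℤ) + Finsupp.single P₀ (1 : ℤ) = _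
      rw [add_assoc, ← Finsupp.single_add]
      push_cast
      rfl
    have hLB : riemannRochSpace B = ⊥ := by
      rw [eq_bot_iff]
      intro f hf
      rw [Submodule.mem_bot]
      by_contra hf0
      obtain ⟨Df, hDf, hDfdeg⟩ := HasPrincipalDivisors.exists_divisor (K := K) f hf0
      refine Nat.find_min hex (m := j') (by omega) ⟨⟨(D : Divisor K F) + Df, ?_⟩, ?_, ?_⟩
      · rw [Divisor.mem_degZero, map_add, hDfdeg, add_zero]; exact hD0
      · rw [← hDy]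
        exact mk_eq_mk_of_ord f hf0 (fun v => by
          show ((D : Divisor K F) + Df) v - (D : Divisor K F) v = v.ord f
          rw [Finsupp.add_apply, hDf v]; ring)
      · intro v
        have h1 := (mem_riemannRochSpace_iff.1 hf v).resolve_left hf0
        rw [hB] at h1
        show 0 ≤ ((D : Divisor K F) + Df + Finsupp.single P₀ (j' : ℤ)) v
        simp only [Finsupp.add_apply] at h1 ⊢
        rw [hDf v]; linarith
    have h1mem : (1 : F) ∈ riemannRochSpace (RR.addPl B P₀) := by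
      rw [hBadd, mem_riemannRochSpace_iff]
      intro v
      right
      have h1 := hDnn v
      rw [v.ord_one]
      linarith
    have h1not : (1 : F) ∉ riemannRochSpace B := by
      rw [hLB, Submodule.mem_bot]; exact one_ne_zero
    have humem : u ∈ riemannRochSpace (RR.addPl B P₀) := by
      rw [hBadd, mem_riemannRochSpace_iff]
      intro v
      right
      have h2 := hDnn (g⁻¹ • v)
      have h3 := hudiv' v
      have e1 : (g • ((D : Divisor K F) + Finsupp.single P₀ ((Nat.find hex : ℕ) : ℤ))) v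
          = ((D : Divisor K F) + Finsupp.single P₀ ((Nat.find hex : ℕ) : ℤ)) (g⁻¹ • v) :=
        SemilinearAut.divisor_smul_apply g _ v
      rw [smul_add, SemilinearAut.smul_single, hP₀] at e1
      rw [← e1] at h2
      simp only [Finsupp.add_apply] at h2 ⊢
      linarith
    obtain ⟨c, hc⟩ := RR.exists_sub_smul_mem_L (h.resK P₀) B h1mem h1not humem
    rw [hLB, Submodule.mem_bot] at hc
    have huc : u = algebraMap K F c := by
      rw [sub_eq_zero.1 hc, Algebra.smul_def, mul_one]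
    have hc0 : c ≠ 0 := by
      rintro rfl
      exact hu (by rw [huc, map_zero])
    refine Finsupp.ext fun v => ?_
    have h4 := hudiv' v
    rw [huc, ord_algebraMap85 v hc0] at h4
    exact sub_eq_zero.1 h4

end fixed

/-! ### `Pic⁰`: the divisor-level statement for classes `x` with `m • x` fixed -/

section pic

variable {L F : Type*} [Field L] [Field F] [Algebra L F]
variable {A : ValuationSubring L} {O : Subring F}
variable {k Ft : Type*} [Field k] [CommRing Ft] [Algebra k Ft]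

/-- `BAD.NodalDiv.monodromy_pic0` for classes `x` such that `m • x` is the class of a `g`-fixed
divisor `E` (instead of `m • x = 0`). -/
theorem monodromy_pic0_div (red : O →+* Ft) (m : ℕ) (g g' : SemilinearAut L F)
    (hprin : ∀ D : Divisor L F, Divisor.degree D = 0 → ∀ f2 : F, f2 ≠ 0 →
      (∀ P : Place L F, (m : ℤ) * D P = P.ord f2) → Normalized red m f2 →
      ∃ φ : F, φ ≠ 0 ∧ ∀ P : Place L F, (g' • D - D) P = P.ord φ)
    (hnorm : ∀ f₀ : F, f₀ ≠ 0 → ∃ c : L, c ≠ 0 ∧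
      Normalized red m (algebraMap L F c * (g • f₀) * f₀⁻¹))
    (x : Pic0 L F) (E : Divisor.degZero (K := L) (F := F))
    (hE : g • (E : Divisor L F) = (E : Divisor L F)) (hx : (m : ℤ) • x = Pic0.mk E) :
    g' • g • x - g' • x - g • x + x = 0 := by
  obtain ⟨D₀, rfl⟩ := Pic0.mk_surjective x
  -- `m D₀ - E` is principal
  have hmD : Pic0.mk ((m : ℤ) • D₀) = Pic0.mk E := hx
  obtain ⟨f₀, hf₀, hdiv₀⟩ := exists_ord_of_mk_eq hmD
  have hdiv₀' : ∀ P : Place L F,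
      (m : ℤ) * (D₀ : Divisor L F) P - (E : Divisor L F) P = P.ord f₀ := by
    intro P
    have := hdiv₀ P
    simpa using this
  obtain ⟨c, hc, hn⟩ := hnorm f₀ hf₀
  have hgf₀ : g • f₀ ≠ 0 := by
    intro h0
    apply hf₀
    have := congrArg (fun z => g⁻¹ • z) h0
    simpa using this
  set D : Divisor L F := g • (D₀ : Divisor L F) - (D₀ : Divisor L F) with hD
  have hDdeg : Divisor.degree D = 0 := by
    rw [hD, map_sub, SemilinearAut.degree_smul, sub_self]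
  have hf2 : algebraMap L F c * (g • f₀) * f₀⁻¹ ≠ 0 :=
    mul_ne_zero (mul_ne_zero ((map_ne_zero _).2 hc) hgf₀) (inv_ne_zero hf₀)
  have hdiv : ∀ P : Place L F, (m : ℤ) * D P = P.ord (algebraMap L F c * (g • f₀) * f₀⁻¹) := by
    intro P
    have e1 : P.ord (g • f₀) = (g⁻¹ • P).ord f₀ := by
      have := SemilinearAut.ord_smul g (g⁻¹ • P) f₀
      rwa [smul_inv_smul] at this
    have e2 : (E : Divisor L F) (g⁻¹ • P) = (E : Divisor L F) P := by
      conv_rhs => rw [← hE]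
      exact (SemilinearAut.divisor_smul_apply g _ P).symm
    have e3 := hdiv₀' P
    have e4 := hdiv₀' (g⁻¹ • P)
    rw [P.ord_mul (mul_ne_zero ((map_ne_zero _).2 hc) hgf₀) (inv_ne_zero hf₀), P.ord_inv,
      ord_const_mul P hc, e1, ← e3, ← e4, e2, hD, Finsupp.sub_apply,
      SemilinearAut.divisor_smul_apply]
    ring
  obtain ⟨φ, hφ, hφD⟩ := hprin D hDdeg _ hf2 hdiv hn
  -- conclude in `Pic⁰`
  have key : g' • g • Pic0.mk D₀ - g' • Pic0.mk D₀ - g • Pic0.mk D₀ + Pic0.mk D₀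
      = Pic0.mk (SemilinearAut.degZeroSMulHom g' (SemilinearAut.degZeroSMulHom g D₀)
          - SemilinearAut.degZeroSMulHom g' D₀ - SemilinearAut.degZeroSMulHom g D₀ + D₀) := by
    rw [SemilinearAut.pic0_smul_mk, SemilinearAut.pic0_smul_mk, SemilinearAut.pic0_smul_mk]
    rfl
  rw [key]
  apply (QuotientAddGroup.eq_zero_iff _).2
  refine ⟨φ, hφ, fun P => ?_⟩
  rw [← hφD P]
  show (g' • g • (D₀ : Divisor L F) - g' • (D₀ : Divisor L F) - g • (D₀ : Divisor L F)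
    + (D₀ : Divisor L F)) P = (g' • D - D) P
  rw [hD, smul_sub]
  congr 1
  abel

end pic

/-! ### The nodal special fibre with two components (assembly) -/

section asm

variable {L F : Type*} [Field L] [Field F] [Algebra L F]
variable {A : ValuationSubring L} {O : Subring F}
variable {k F₁ F₂ : Type*} [Field k] [Field F₁] [Field F₂] [Algebra k F₁] [Algebra k F₂]

/-- `BAD.NodalAsm.monodromy_of_nodal_fibre` for classes `y` such that `m • y` is the class of a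
`g`-fixed divisor. -/
theorem monodromy_of_nodal_fibre_div
    (hOA : ∀ x : L, algebraMap L F x ∈ O ↔ x ∈ A)
    (hval : ∀ y : F, y ≠ 0 → ∃ c : L, c ≠ 0 ∧ algebraMap L F c * y ∈ O ∧
      ¬ Small A O (algebraMap L F c * y))
    (harch : ∀ a Δ : L, A.valuation a < 1 → Δ ≠ 0 →
      ∃ n : ℕ, A.valuation (a ^ n) < A.valuation Δ)
    (red : O →+* F₁ × F₂) (π : A →+* k) (hπ : Function.Surjective π)
    (hπker : ∀ a : A, π a = 0 ↔ A.valuation (a : L) < 1)
    (hconst : ∀ a : A, red ⟨algebraMap L F (a : L), (hOA _).2 a.2⟩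
      = algebraMap k (F₁ × F₂) (π a))
    (hker : ∀ y : O, red y = 0 ↔ Small A O (y : F))
    (m : ℕ) (hm : A.valuation (m : L) = 1)
    {x : F} (hF : IsFF1 L F x) {x₁ : F₁} (h₁ : IsFF1 k F₁ x₁) {x₂ : F₂} (h₂ : IsFF1 k F₂ x₂)
    {ι : Type*} [Fintype ι] [Nonempty ι] (e₁ : ι → Place k F₁) (e₂ : ι → Place k F₂)
    (hinj₁ : Function.Injective e₁) (hinj₂ : Function.Injective e₂)
    (P₁ Z₁ : Divisor k F₁) (P₂ Z₂ : Divisor k F₂)
    (hP₁ : ∀ i, P₁ (e₁ i) = 0) (hZ₁ : ∀ i, Z₁ (e₁ i) = 0)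
    (hP₂ : ∀ i, P₂ (e₂ i) = 0) (hZ₂ : ∀ i, Z₂ (e₂ i) = 0)
    (hd₁ : ∀ v, P₁ v = 0 ∨ Z₁ v = 0) (hd₂ : ∀ v, P₂ v = 0 ∨ Z₂ v = 0)
    (hdegP₁ : 0 < Divisor.degree P₁) (hdegP₂ : 0 < Divisor.degree P₂)
    (E1 E2 : Divisor L F) (hE1 : ∀ v, 0 ≤ E1 v) (hE2 : ∀ v, 0 ≤ E2 v)
    (hdisj : ∀ v, E1 v = 0 ∨ E2 v = 0)
    (hdegE1 : 0 < Divisor.degree E1) (hdegE2 : 0 < Divisor.degree E2)
    (hlat : ∀ B : Divisor L F, HasOrtho A O (riemannRochSpace B))
    (hS2 : ∃ N₀ : ℕ, ∀ n₁ n₂, N₀ ≤ n₁ + n₂ →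
      redSub hOA red π hπ hconst (VB 0 E1 E2 n₁ n₂)
        = gluedSpace e₁ e₂ (fun _ => (1 : k)) (n₁ • P₁ + n₂ • Z₁) (n₁ • P₂ + n₂ • Z₂))
    (g g' : SemilinearAut L F) (hgO : ∀ y ∈ O, g' • y ∈ O) (hgO' : ∀ y ∈ O, g'⁻¹ • y ∈ O)
    (hgred : ∀ (y : O) (h : g' • (y : F) ∈ O), red ⟨g' • (y : F), h⟩ = red y)
    (hgE1 : g' • E1 = E1) (hgE2 : g' • E2 = E2)
    (hnorm : ∀ f₀ : F, f₀ ≠ 0 → ∃ c : L, c ≠ 0 ∧
      Normalized red m (algebraMap L F c * (g • f₀) * f₀⁻¹))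
    (y : Pic0 L F) (E : Divisor.degZero (K := L) (F := F))
    (hE : g • (E : Divisor L F) = (E : Divisor L F)) (hy : (m : ℤ) • y = Pic0.mk E) :
    g' • g • y - g' • y - g • y + y = 0 := by
  classical
  have hm0 : m ≠ 0 := by
    rintro rfl
    simp at hm
  obtain ⟨N₀, hN₀⟩ := hS2
  obtain ⟨c, hc⟩ := exists_finrank_eq hF
  obtain ⟨c₁, hc₁⟩ := h₁.exists_degree_bound
  obtain ⟨c₂, hc₂⟩ := h₂.exists_degree_bound
  set n₀ : ℕ := max N₀ (max c.toNat (max (c₁ + Fintype.card ι).toNat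
    (c₂ + Fintype.card ι).toNat)) with hn₀
  have hn₀N : N₀ ≤ n₀ := le_max_left _ _
  have hn₀c : c ≤ (n₀ : ℤ) := by
    have h1 : c.toNat ≤ n₀ := (le_max_left _ _).trans (le_max_right _ _)
    have h2 : c ≤ (c.toNat : ℤ) := Int.self_le_toNat c
    exact h2.trans (by exact_mod_cast h1)
  have hn₀c₁ : c₁ + Fintype.card ι ≤ (n₀ : ℤ) := by
    have h1 : (c₁ + Fintype.card ι).toNat ≤ n₀ :=
      ((le_max_left _ _).trans (le_max_right _ _)).trans (le_max_right _ _)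
    have h2 := Int.self_le_toNat (c₁ + Fintype.card ι)
    exact h2.trans (by exact_mod_cast h1)
  have hn₀c₂ : c₂ + Fintype.card ι ≤ (n₀ : ℤ) := by
    have h1 : (c₂ + Fintype.card ι).toNat ≤ n₀ :=
      ((le_max_right _ _).trans (le_max_right _ _)).trans (le_max_right _ _)
    have h2 := Int.self_le_toNat (c₂ + Fintype.card ι)
    exact h2.trans (by exact_mod_cast h1)
  have hsumdeg₁ : Divisor.degree (∑ i, Finsupp.single (e₁ i) (1 : ℤ) : Divisor k F₁)
      = Fintype.card ι := by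
    rw [map_sum, Finset.sum_congr rfl (fun i _ => by
      rw [Divisor.degree_single, h₁.deg_eq_one, Nat.cast_one, mul_one])]
    simp
  have hsumdeg₂ : Divisor.degree (∑ i, Finsupp.single (e₂ i) (1 : ℤ) : Divisor k F₂)
      = Fintype.card ι := by
    rw [map_sum, Finset.sum_congr rfl (fun i _ => by
      rw [Divisor.degree_single, h₂.deg_eq_one, Nat.cast_one, mul_one])]
    simp
  have hMD₁ : RR.MD (n₀ • P₁ - ∑ i, Finsupp.single (e₁ i) (1 : ℤ)) = ⊤ := by
    refine (hc₁ _ ?_).1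
    rw [map_sub, hsumdeg₁, map_nsmul, nsmul_eq_mul]
    nlinarith
  have hMD₂ : RR.MD (n₀ • P₂ - ∑ i, Finsupp.single (e₂ i) (1 : ℤ)) = ⊤ := by
    refine (hc₂ _ ?_).1
    rw [map_sub, hsumdeg₂, map_nsmul, nsmul_eq_mul]
    nlinarith
  have hRR : ∀ n₁ n₂, n₀ ≤ n₁ + n₂ → ∀ D : Divisor L F, Divisor.degree D = 0 →
      Module.finrank L (VB D E1 E2 n₁ n₂) = Module.finrank L (VB 0 E1 E2 n₁ n₂) := by
    intro n₁ n₂ hl D hD
    have hdeg : c ≤ Divisor.degree (n₁ • E1 + n₂ • E2) := by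
      rw [map_add, map_nsmul, map_nsmul, nsmul_eq_mul, nsmul_eq_mul]
      have h1 : (n₀ : ℤ) ≤ (n₁ : ℤ) + n₂ := by exact_mod_cast hl
      nlinarith [Int.natCast_nonneg n₁, Int.natCast_nonneg n₂]
    have := hc D (n₁ • E1 + n₂ • E2) hD hdeg
    unfold VB
    rw [add_assoc, this, zero_add]
  have hle := Tn_le_regSub e₁ e₂ P₁ Z₁ P₂ Z₂ hP₁ hZ₁ hP₂ hZ₂
  refine monodromy_pic0_div red m g g' (fun D hD f2 hf2 hdiv hn => ?_) hnorm y E hE hy
  refine principal_smul_sub hOA hval harch red π hπ hπker hconst hker m hm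
    (regSub e₁ e₂) (ev₁ e₁ e₂ (fun _ => h₁.resK _)) (ev₂ e₁ e₂ (fun _ => h₂.resK _))
    (Tn P₁ Z₁ P₂ Z₂) (finite_Tn h₁ h₂ P₁ Z₁ P₂ Z₂) hle
    (fun n₁ n₂ t ht => Tn_root P₁ Z₁ P₂ Z₂ hm0 n₁ n₂ t ht) n₀ ?_ ?_ ?_ ?_
    hF E1 E2 hE1 hE2 hdisj hlat ?_ hRR g' hgO hgO' hgred hgE1 hgE2 D hD f2 hf2 hdiv hn
  · intro a b
    obtain ⟨t, ht, h⟩ := Tn_surj (Z₁ := Z₁) (Z₂ := Z₂) (fun _ => h₁.resK _) (fun _ => h₂.resK _)
      hinj₁ hinj₂ hP₁ hP₂ n₀ hMD₁ hMD₂ a b
    exact ⟨t, ht, fun e => h _ e⟩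
  · intro K _
    exact glued_inf_le _ _ _ _ (Tn_inf_le P₁ Z₁ P₂ Z₂ hd₁ hd₂ n₀ K)
  · intro K _
    exact glued_inf_le _ _ _ _ (Tn_inf_le' P₁ Z₁ P₂ Z₂ hd₁ hd₂ n₀ K)
  · intro n
    exact glued_zero_le_span h₁ h₂ hd₁ hd₂ n
  · intro n₁ n₂ hl
    rw [hN₀ n₁ n₂ (hn₀N.trans hl)]
    exact (glued_eq_gluedSpace e₁ e₂ (fun _ => h₁.resK _) (fun _ => h₂.resK _) 1
      (n₁ • P₁ + n₂ • Z₁) (n₁ • P₂ + n₂ • Z₂)
      (fun i => by simp [Finsupp.add_apply, Finsupp.smul_apply, hP₁ i, hZ₁ i])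
      (fun i => by simp [Finsupp.add_apply, Finsupp.smul_apply, hP₂ i, hZ₂ i])).symm

end asm

/-! ### The modular instance -/

section modular

open Fermat.Agent.BAD.TwoVal Fermat.Agent.BAD.NodalAsm Fermat.Agent.BAD.BadU
  Fermat.Agent.Lib.FF.PlaceInf

variable {A : ValuationSubring Qb} {k : Type} [Field k] {π : A →+* k} {M q : ℕ} [NeZero M]
  [NeZero q]

set_option maxHeartbeats 1000000 in
/-- `BAD.BadU.monodromy_core` for division points: `(τ - 1)(σ - 1) x = 0` for every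
`x ∈ J₀(Mq)` such that `m • x` is fixed by `σ`, `m` prime to `q`. -/
theorem monodromy_core_div [IsAlgClosed k] (hπ : Function.Surjective π) (h : BadSetup A π M q)
    (W : laurentBaseChange Qb (modularFunctionFieldFull (M * q)) ≃ₐ[Qb]
      laurentBaseChange Qb (modularFunctionFieldFull (M * q)))
    (hLat : ∀ B : Divisor Qb (laurentBaseChange Qb (modularFunctionFieldFull (M * q))),
      HasOrtho A (OPair h W) (riemannRochSpace B))
    (hgal : ∀ σ ∈ A.inertiaSubgroupIn ℚ,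
      ∀ y : laurentBaseChange Qb (modularFunctionFieldFull (M * q)),
      (∀ hy : y ∈ OInf h, ∃ hy' : arithmeticGalois (modularFunctionFieldFull (M * q)) σ • y ∈
          OInf h, redInf h ⟨_, hy'⟩ = redInf h ⟨y, hy⟩) ∧
      (∀ hy : y ∈ OZero h W, ∃ hy' : arithmeticGalois (modularFunctionFieldFull (M * q)) σ • y ∈
          OZero h W, redZero h W ⟨_, hy'⟩ = redZero h W ⟨y, hy⟩))
    (hNod : NodalFibreAt h W)
    (m : ℕ) (hmq : ¬ q ∣ m)
    (σ τ : Qb ≃ₐ[ℚ] Qb) (hσ : σ ∈ A.inertiaSubgroupIn ℚ) (hτ : τ ∈ A.inertiaSubgroupIn ℚ)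
    (x : JZero (M * q)) (hx : σ • (m • x) = m • x) :
    τ • σ • x - τ • x - σ • x + x = 0 := by
  have hq : q.Prime := h.hℓ
  obtain ⟨ι, _, _, e₁, e₂, P₁, Z₁, P₂, Z₂, E1, E2, hinj₁, hinj₂, hP₁, hZ₁, hP₂, hZ₂, hd₁, hd₂,
    hdegP₁, hdegP₂, hE1, hE2, hdisj, hdegE1, hdegE2, hgalE, N₀, hS2⟩ := hNod
  -- `m` is a unit
  have hm : A.valuation ((m : ℕ) : Qb) = 1 := by
    refine h.valuation_natCast_eq_one m ?_
    have := h.charP
    intro h0
    exact hmq ((CharP.cast_eq_zero_iff k q m).1 h0)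
  have hm0 : m ≠ 0 := by
    rintro rfl
    exact hmq (dvd_zero q)
  -- the `σ`-fixed divisor representing `m • x`
  have hfix : arithmeticGalois (modularFunctionFieldFull (M * q)) σ • ((m : ℤ) • x)
      = (m : ℤ) • x := by
    rw [natCast_zsmul]; exact hx
  obtain ⟨E, hE, hEx⟩ := exists_fixed_divisor (isFF1_xL Qb (M * q))
    (arithmeticGalois (modularFunctionFieldFull (M * q)) σ) (placeInfL Qb (M * q))
    (arithmeticGalois_smul_placeInfL Qb (M * q) σ) ((m : ℤ) • x) hfix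
  -- Galois
  have hτ' : τ⁻¹ ∈ A.inertiaSubgroupIn ℚ := Subgroup.inv_mem _ hτ
  have halg : Algebra.IsAlgebraic ℚ Qb := AlgebraicClosure.isAlgebraic ℚ
  have hbase : ∀ a : Qb, a ≠ 0 →
      a / SemilinearAut.baseAut (arithmeticGalois (modularFunctionFieldFull (M * q)) σ) a ∈ A ∧
      SemilinearAut.baseAut (arithmeticGalois (modularFunctionFieldFull (M * q)) σ) a / a ∈ A := by
    intro a ha
    have := div_mem_of_map_mem A σ
      (Fermat.Agent.S05.Inertia.mem_and_sub_mem_nonunits A σ hσ).1 a ha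
    exact ⟨this.2, this.1⟩
  have hconst : ∀ a : A, redPair h W ⟨algebraMap Qb
        ↥(laurentBaseChange Qb (modularFunctionFieldFull (M * q))) (a : Qb),
        (OPair_hOA h _).2 a.2⟩ = algebraMap k (↥(modularFunctionFieldFullC k M) ×
        ↥(modularFunctionFieldFullC k M)) (π a) := fun a => (redPair_algebraMap h a _).trans rfl
  have key := monodromy_of_nodal_fibre_div (A := A) (O := OPair h W) (fun x => OPair_hOA h x)
    (OPair_hval h) h.harch (redPair h W) π hπ h.pi_eq_zero_iff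
    hconst (redPair_eq_zero_iff h) m hm
    (isFF1_xL Qb (M * q)) (isFF1_xk k M) (isFF1_xk k M) e₁ e₂ hinj₁ hinj₂ P₁ Z₁ P₂ Z₂
    hP₁ hZ₁ hP₂ hZ₂ hd₁ hd₂ hdegP₁ hdegP₂ E1 E2 hE1 hE2 hdisj hdegE1 hdegE2
    hLat
    ⟨N₀, fun n₁ n₂ hl => Submodule.ext fun t => by
      have e : VB 0 E1 E2 n₁ n₂ = riemannRochSpace (n₁ • E1 + n₂ • E2) := by
        unfold VB
        rw [zero_add]
      rw [e]
      exact hS2 n₁ n₂ hl t⟩
    (arithmeticGalois (modularFunctionFieldFull (M * q)) σ)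
    (arithmeticGalois (modularFunctionFieldFull (M * q)) τ)
    (fun y hy => by
      obtain ⟨h1, h2⟩ := (mem_OPair_iff h y).1 hy
      obtain ⟨h1', -⟩ := (hgal τ hτ y).1 h1
      obtain ⟨h2', -⟩ := (hgal τ hτ y).2 h2
      exact (mem_OPair_iff h _).2 ⟨h1', h2'⟩)
    (fun y hy => by
      obtain ⟨h1, h2⟩ := (mem_OPair_iff h y).1 hy
      obtain ⟨h1', -⟩ := (hgal τ⁻¹ hτ' y).1 h1
      obtain ⟨h2', -⟩ := (hgal τ⁻¹ hτ' y).2 h2
      rw [← map_inv]
      exact (mem_OPair_iff h _).2 ⟨h1', h2'⟩)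
    (fun y hy' => by
      obtain ⟨y, hy⟩ := y
      obtain ⟨h1, h2⟩ := (mem_OPair_iff h y).1 hy
      obtain ⟨h1', r1⟩ := (hgal τ hτ y).1 h1
      obtain ⟨h2', r2⟩ := (hgal τ hτ y).2 h2
      rw [redPair_mk, redPair_mk]
      exact Prod.ext r1 r2)
    (hgalE τ hτ).1 (hgalE τ hτ).2
    (fun f₀ hf₀ => normalized_of_galois h m hm0
      (fun c => IsAlgClosed.exists_pow_nat_eq c (Nat.pos_of_ne_zero hm0)) _
      (fun y hy => (hgal σ hσ y).1 hy) (fun y hy => (hgal σ hσ y).2 hy) hbase f₀ hf₀)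
    x E hE hEx.symm
  exact key

/-- **(MONO-DIV) at a good pair**, level `M * q`. -/
theorem monodromy_div_mul (A : ValuationSubring Qb) (M q : ℕ) [NeZero M] [NeZero q]
    (hq : q.Prime) (hqM : ¬ q ∣ M) (hgood : 5 ≤ q ∨ (q = 3 ∧ 2 ∣ M) ∨ (q = 2 ∧ 3 ∣ M))
    (hA : A.LiesOverPrime q) (m : ℕ) (hmq : ¬ q ∣ m)
    (σ τ : Qb ≃ₐ[ℚ] Qb) (hσ : σ ∈ A.inertiaSubgroupIn ℚ) (hτ : τ ∈ A.inertiaSubgroupIn ℚ)
    (x : JZero (M * q)) (hx : σ • (m • x) = m • x) :
    τ • σ • x - τ • x - σ • x + x = 0 := by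
  have : IsAlgClosed (IsLocalRing.ResidueField A) := CharP.isAlgClosed_residueField A
  have hπ0 : ∀ a : A, ¬ IsUnit a → IsLocalRing.residue A a = 0 := fun a ha =>
    (IsLocalRing.residue_eq_zero_iff a).mpr ((IsLocalRing.mem_maximalIdeal a).mpr ha)
  have h : BadSetup A (IsLocalRing.residue A) M q :=
    badSetup_of_liesOver A _ hπ0 M q hq hA hqM
  obtain ⟨W, hW⟩ := exists_isAL_Qb h
  exact monodromy_core_div IsLocalRing.residue_surjective h W
    (latBad A _ _ IsLocalRing.residue_surjective M q h W hW)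
    (galoisBad A _ _ IsLocalRing.residue_surjective M q h W hW hA)
    (Fermat.Agent.BAD.NodalGood.nodalFibreAt_of_good A M q h hA hgood W hW)
    m hmq σ τ hσ hτ x hx

end modular

/-- **(MONO-DIV)**: for a prime `q ∥ N` at a good pair (`5 ≤ q`, or `q = 3 ∧ 2 ∣ N`, or
`q = 2 ∧ 3 ∣ N`), `σ, τ` in an inertia group at `q` and `x ∈ J₀(N)(ℚ̄)` such that `m • x` is
fixed by `σ` for some `m` prime to `q`:  `(τ - 1)(σ - 1) x = 0`. -/
theorem monodromy_div (N q : ℕ) [NeZero N] (hq : q.Prime) (hqN : q ∣ N) (hq2 : ¬ q ^ 2 ∣ N)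
    (hgood : 5 ≤ q ∨ (q = 3 ∧ 2 ∣ N) ∨ (q = 2 ∧ 3 ∣ N))
    (A : ValuationSubring Qb) (hA : A.LiesOverPrime q) (m : ℕ) (hmq : ¬ q ∣ m)
    (σ τ : Qb ≃ₐ[ℚ] Qb) (hσ : σ ∈ A.inertiaSubgroupIn ℚ) (hτ : τ ∈ A.inertiaSubgroupIn ℚ)
    (x : JZero N) (hx : σ • (m • x) = m • x) :
    τ • σ • x - τ • x - σ • x + x = 0 := by
  obtain ⟨M, hM⟩ := hqN
  have hN : N = M * q := by rw [hM, mul_comm]
  subst hN
  have : NeZero q := ⟨hq.ne_zero⟩
  have : NeZero M := ⟨by
    rintro rfl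
    exact (NeZero.ne (0 * q)) (zero_mul q)⟩
  have hqM : ¬ q ∣ M := by
    rintro ⟨t, rfl⟩
    exact hq2 ⟨t, by ring⟩
  have hgood' : 5 ≤ q ∨ (q = 3 ∧ 2 ∣ M) ∨ (q = 2 ∧ 3 ∣ M) := by
    rcases hgood with h5 | ⟨rfl, h2⟩ | ⟨rfl, h3⟩
    · exact Or.inl h5
    · exact Or.inr (Or.inl ⟨rfl, (Nat.Coprime.dvd_of_dvd_mul_right (by norm_num) h2)⟩)
    · exact Or.inr (Or.inr ⟨rfl, (Nat.Coprime.dvd_of_dvd_mul_right (by norm_num) h3)⟩)
  exact monodromy_div_mul A M q hq hqM hgood' hA m hmq σ τ hσ hτ x hx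

/-- **(MONO-DIV) at prime level `p ≥ 5`** (the case of `J₀(p)` in Mazur's descent): for
`σ, τ` in an inertia group at `p` and `x ∈ J₀(p)(ℚ̄)` with `m • x` fixed by `σ`, `p ∤ m`:
`(τ - 1)(σ - 1) x = 0`. -/
theorem monodromy_div_prime (p : ℕ) [NeZero p] (hp : p.Prime) (hp5 : 5 ≤ p)
    (A : ValuationSubring Qb) (hA : A.LiesOverPrime p) (m : ℕ) (hmp : ¬ p ∣ m)
    (σ τ : Qb ≃ₐ[ℚ] Qb) (hσ : σ ∈ A.inertiaSubgroupIn ℚ) (hτ : τ ∈ A.inertiaSubgroupIn ℚ)
    (x : JZero p) (hx : σ • (m • x) = m • x) :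
    τ • σ • x - τ • x - σ • x + x = 0 := by
  refine monodromy_div p p hp dvd_rfl ?_ (Or.inl hp5) A hA m hmp σ τ hσ hτ x hx
  intro h2
  have h3 : p ^ 2 ≤ p := Nat.le_of_dvd hp.pos h2
  nlinarith [hp.two_le]

/-- The form (U12): `m • x` fixed by the whole Galois group, `m` a power of a prime `r ≠ p`. -/
theorem monodromy_div_prime_pow (p : ℕ) [NeZero p] (hp : p.Prime) (hp5 : 5 ≤ p)
    (A : ValuationSubring Qb) (hA : A.LiesOverPrime p) (r : ℕ) (hr : r.Prime) (hrp : r ≠ p)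
    (σ τ : Qb ≃ₐ[ℚ] Qb) (hσ : σ ∈ A.inertiaSubgroupIn ℚ) (hτ : τ ∈ A.inertiaSubgroupIn ℚ)
    (x : JZero p) (n : ℕ) (hx : ∀ g : Qb ≃ₐ[ℚ] Qb, g • (r ^ n • x) = r ^ n • x) :
    τ • σ • x - τ • x - σ • x + x = 0 := by
  refine monodromy_div_prime p hp hp5 A hA (r ^ n) ?_ σ τ hσ hτ x (hx σ)
  intro hdvd
  exact hrp ((Nat.prime_dvd_prime_iff_eq hp hr).1 (hp.dvd_of_dvd_pow hdvd)).symm

end Fermat.Agent.S15P.DivMono85
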