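import Mathlib
import Fermat.Agent.S15P.DivMono85

/-!
# S15 cell, layer L7: the count at `p` — `#W ≤ r ^ d` (finite level, uniform in `r`)

`W := {E (σ z − z) : r z rational}`.  Route: for every level `n ≥ 1`, with `X_n := E_n · J[r^n]`,

* `W ⊆ r^(n-1) · X_n^σ`                      ((U12) = `DivMono85.monodromy_div_prime`),
* `X_n^σ ∩ X_n^c ⊆ Y`, `#Y ≤ C`               (L5 + S17, hypotheses),
* `#X_n^σ ≤ C · #(c-1)X_n ≤ C · r^(d n)`      (`card_inf_ker_le` + L6, hypothesis),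
* `#(r^(n-1) A)^n ≤ #A` if `r^n A = 0`        (`card_map_pow_le`),

hence `#W ^ n ≤ C · r^(d n)` for all `n`, i.e. `#W ≤ r^d` (`le_of_forall_pow_le`).
-/

namespace Fermat.Agent.S15P.PSide92

section abstract

variable {H : Type*} [AddCommGroup H]

theorem finite_map (X : AddSubgroup H) [Finite X] (f : H →+ H) : Finite (X.map f) := by
  have h := (Set.toFinite (X : Set H)).image f
  rw [← AddSubgroup.coe_map] at h
  exact h.to_subtype

theorem finite_of_le {K X : AddSubgroup H} [Finite X] (h : K ≤ X) : Finite K :=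
  Finite.of_injective (AddSubgroup.inclusion h) (AddSubgroup.inclusion_injective h)

/-- COUNT (relative form): `#(X ∩ ker N) ≤ C · #D(X)` when `X ∩ ker N ∩ ker D ⊆ Y`, `#Y ≤ C`. -/
theorem card_inf_ker_le (X : AddSubgroup H) [Finite X] (N D : H →+ H)
    (Y : AddSubgroup H) [Finite Y] (C : ℕ)
    (hY : ∀ x ∈ X, N x = 0 → D x = 0 → x ∈ Y) (hC : Nat.card Y ≤ C) :
    Nat.card (X ⊓ N.ker : AddSubgroup H) ≤ C * Nat.card (X.map D) := by
  have h1 : Nat.card (D.ker ⊓ (X ⊓ N.ker) : AddSubgroup H)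
      * Nat.card ((X ⊓ N.ker).map D) = Nat.card (X ⊓ N.ker : AddSubgroup H) := by
    have := AddSubgroup.relIndex_mul_relIndex (H := (⊥ : AddSubgroup H))
      (K := D.ker ⊓ (X ⊓ N.ker)) (L := X ⊓ N.ker) bot_le inf_le_right
    rw [AddSubgroup.inf_relIndex_right, AddSubgroup.relIndex_ker] at this
    simp only [AddSubgroup.relIndex_bot_left] at this
    exact this
  rw [← h1]
  have : Finite (X.map D) := finite_map X D
  refine Nat.mul_le_mul ?_ ?_
  · refine le_trans (AddSubgroup.card_le_of_le ?_) hC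
    intro x hx
    exact hY x hx.2.1 (AddMonoidHom.mem_ker.mp hx.2.2) (AddMonoidHom.mem_ker.mp hx.1)
  · exact AddSubgroup.card_le_of_le (AddSubgroup.map_mono inf_le_left)

/-- ELEMENTARY DIVISORS (relative form, any `r`): `#(r^j A)^(j+1) ≤ #A` if `r^(j+1) A = 0`. -/
theorem card_map_pow_le (r : ℕ) :
    ∀ (j : ℕ) (A : AddSubgroup H), Finite A → (∀ a ∈ A, r ^ (j + 1) • a = 0) →
      Nat.card (A.map (nsmulAddMonoidHom (r ^ j) : H →+ H)) ^ (j + 1) ≤ Nat.card A := by
  intro j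
  induction j with
  | zero =>
    intro A _ _
    have : (nsmulAddMonoidHom (r ^ 0) : H →+ H) = AddMonoidHom.id H := by
      ext x; simp
    rw [this, AddSubgroup.map_id, zero_add, pow_one]
  | succ j ih =>
    intro A hAfin hA
    set f : H →+ H := nsmulAddMonoidHom r with hf
    set B : AddSubgroup H := A.map f with hB
    have : Finite B := finite_map A f
    have : Finite (f.ker ⊓ A : AddSubgroup H) := finite_of_le (X := A) inf_le_right
    have hBk : ∀ b ∈ B, r ^ (j + 1) • b = 0 := by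
      rintro _ ⟨a, ha, rfl⟩
      have := hA a ha
      simp only [hf, nsmulAddMonoidHom_apply]
      rw [← mul_nsmul, ← pow_succ']
      exact this
    have hmap : B.map (nsmulAddMonoidHom (r ^ j) : H →+ H)
        = A.map (nsmulAddMonoidHom (r ^ (j + 1)) : H →+ H) := by
      rw [hB, AddSubgroup.map_map]
      congr 1
      ext x
      simp only [hf, AddMonoidHom.comp_apply, nsmulAddMonoidHom_apply]
      rw [← mul_nsmul, ← pow_succ']
    have h1 := ih B inferInstance hBk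
    rw [hmap] at h1
    have h2 : Nat.card (f.ker ⊓ A : AddSubgroup H) * Nat.card B = Nat.card A := by
      have := AddSubgroup.relIndex_mul_relIndex (H := (⊥ : AddSubgroup H)) (K := f.ker ⊓ A)
        (L := A) bot_le inf_le_right
      rw [AddSubgroup.inf_relIndex_right, AddSubgroup.relIndex_ker] at this
      simp only [AddSubgroup.relIndex_bot_left] at this
      exact this
    have h3 : Nat.card (A.map (nsmulAddMonoidHom (r ^ (j + 1)) : H →+ H))
        ≤ Nat.card (f.ker ⊓ A : AddSubgroup H) := by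
      refine AddSubgroup.card_le_of_le ?_
      rintro _ ⟨a, ha, rfl⟩
      refine ⟨?_, ?_⟩
      · refine AddMonoidHom.mem_ker.mpr ?_
        simp only [hf, nsmulAddMonoidHom_apply]
        rw [← mul_nsmul, ← pow_succ]
        exact hA a ha
      · exact A.nsmul_mem ha _
    calc Nat.card (A.map (nsmulAddMonoidHom (r ^ (j + 1)) : H →+ H)) ^ (j + 1 + 1)
        = Nat.card (A.map (nsmulAddMonoidHom (r ^ (j + 1)) : H →+ H))
            * Nat.card (A.map (nsmulAddMonoidHom (r ^ (j + 1)) : H →+ H)) ^ (j + 1) := by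
          rw [pow_succ']
      _ ≤ Nat.card (f.ker ⊓ A : AddSubgroup H) * Nat.card B := Nat.mul_le_mul h3 h1
      _ = Nat.card A := h2

/-- `n ^ m ≤ C · A ^ m` for all `m ≥ 1` forces `n ≤ A`. -/
theorem le_of_forall_pow_le (n A C : ℕ) (hA : 0 < A)
    (h : ∀ m : ℕ, 0 < m → n ^ m ≤ C * A ^ m) : n ≤ A := by
  by_contra hlt
  rw [not_le] at hlt
  have key : ∀ m : ℕ, A ^ m * (A + m) ≤ (A + 1) ^ m * A := by
    intro m
    induction m with
    | zero => simp
    | succ m ih =>
      calc A ^ (m + 1) * (A + (m + 1)) ≤ (A + 1) * (A ^ m * (A + m)) := by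
            have : A ^ (m + 1) * (A + (m + 1)) + A ^ m * m = (A + 1) * (A ^ m * (A + m)) := by
              ring
            omega
        _ ≤ (A + 1) * ((A + 1) ^ m * A) := Nat.mul_le_mul_left _ ih
        _ = (A + 1) ^ (m + 1) * A := by ring
  have h1 := h (C * A + 1) (Nat.succ_pos _)
  have h2 := key (C * A + 1)
  have h3 : (A + 1) ^ (C * A + 1) ≤ n ^ (C * A + 1) := Nat.pow_le_pow_left hlt _
  have h4 : (A + 1) ^ (C * A + 1) * A ≤ C * A ^ (C * A + 1) * A :=
    Nat.mul_le_mul_right _ (h3.trans h1)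
  have h5 : C * A ^ (C * A + 1) * A < A ^ (C * A + 1) * (A + (C * A + 1)) := by
    have hpos : 0 < A ^ (C * A + 1) := pow_pos hA _
    have : A ^ (C * A + 1) * (A + (C * A + 1)) = C * A ^ (C * A + 1) * A
        + A ^ (C * A + 1) * (A + 1) := by ring
    rw [this]
    have : 0 < A ^ (C * A + 1) * (A + 1) := Nat.mul_pos hpos (Nat.succ_pos _)
    omega
  omega

variable {Γ : Type*} [Group Γ] [DistribMulAction Γ H]

/-- **L7 at one level `n + 1`, abstract form.** -/
theorem card_pow_le_level (r n : ℕ) (σ c : Γ)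
    (hmono : ∀ x : H, σ • (r ^ (n + 1) • x) = r ^ (n + 1) • x → σ • (σ • x - x) = σ • x - x)
    (hdiv : ∀ z : H, ∃ z' : H, r ^ n • z' = z)
    (hfin : {x : H | r ^ (n + 1) • x = 0}.Finite)
    (E En : H →+ H) (hEn : ∀ x : H, En (σ • x) = σ • En x)
    (hEE : ∀ x, r • x = 0 → En x = E x)
    (Y : AddSubgroup H) [Finite Y] (C d : ℕ) (hC : Nat.card Y ≤ C)
    (hY : ∀ x, r ^ (n + 1) • x = 0 → σ • En x = En x → c • En x = En x → En x ∈ Y)
    (hD : Nat.card {u : H // ∃ x, r ^ (n + 1) • x = 0 ∧ u = c • En x - En x} ≤ r ^ (d * (n + 1)))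
    (W : Set H) (hW : ∀ w ∈ W, ∃ z : H, σ • (r • z) = r • z ∧ w = E (σ • z - z)) :
    Nat.card W ^ (n + 1) ≤ C * r ^ (d * (n + 1)) := by
  classical
  -- the torsion subgroup and its `En`-image
  set T : AddSubgroup H := (nsmulAddMonoidHom (r ^ (n + 1)) : H →+ H).ker with hT
  have hTmem : ∀ x, x ∈ T ↔ r ^ (n + 1) • x = 0 := fun x => by
    rw [hT, AddMonoidHom.mem_ker, nsmulAddMonoidHom_apply]
  have : Finite T := by
    have : (T : Set H) = {x : H | r ^ (n + 1) • x = 0} := by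
      ext x; exact hTmem x
    exact (this ▸ hfin).to_subtype
  set X : AddSubgroup H := T.map En with hX
  have : Finite X := finite_map T En
  set Nσ : H →+ H := DistribSMul.toAddMonoidHom H σ - AddMonoidHom.id H with hNσ
  set Dc : H →+ H := DistribSMul.toAddMonoidHom H c - AddMonoidHom.id H with hDc
  have hNσ_apply : ∀ x, Nσ x = σ • x - x := fun x => rfl
  have hDc_apply : ∀ x, Dc x = c • x - x := fun x => rfl
  set A : AddSubgroup H := X ⊓ Nσ.ker with hA
  have : Finite A := finite_of_le (X := X) inf_le_left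
  -- (1) count
  have h1 : Nat.card A ≤ C * Nat.card (X.map Dc) := by
    refine card_inf_ker_le X Nσ Dc Y C ?_ hC
    rintro _ ⟨t, ht, rfl⟩ hN hD'
    refine hY t ((hTmem t).mp ht) ?_ ?_
    · exact sub_eq_zero.mp ((hNσ_apply _).symm.trans hN)
    · exact sub_eq_zero.mp ((hDc_apply _).symm.trans hD')
  have h2 : Nat.card (X.map Dc) ≤ r ^ (d * (n + 1)) := by
    refine le_trans ?_ hD
    have : Finite {u : H // ∃ x, r ^ (n + 1) • x = 0 ∧ u = c • En x - En x} := by
      refine Finite.of_surjective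
        (fun t : T => (⟨c • En t.1 - En t.1, t.1, (hTmem _).mp t.2, rfl⟩ :
          {u : H // ∃ x, r ^ (n + 1) • x = 0 ∧ u = c • En x - En x})) ?_
      rintro ⟨u, x, hx, rfl⟩
      exact ⟨⟨x, (hTmem x).mpr hx⟩, rfl⟩
    refine Nat.card_le_card_of_injective
      (fun u : X.map Dc => (⟨u.1, by
        obtain ⟨x, ⟨t, ht, rfl⟩, hu⟩ := u.2
        exact ⟨t, (hTmem t).mp ht, by rw [← hu, hDc_apply]⟩⟩ :
          {u : H // ∃ x, r ^ (n + 1) • x = 0 ∧ u = c • En x - En x})) ?_
    intro u v huv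
    exact Subtype.ext (Subtype.mk.inj huv)
  -- (2) elementary divisors
  have hAk : ∀ a ∈ A, r ^ (n + 1) • a = 0 := by
    rintro _ ⟨⟨t, ht, rfl⟩, -⟩
    rw [← map_nsmul, (hTmem t).mp ht, map_zero]
  have h3 := card_map_pow_le r n A inferInstance hAk
  -- (3) `W ⊆ r^n • A`
  have : Finite (A.map (nsmulAddMonoidHom (r ^ n) : H →+ H)) := finite_map A _
  have h4 : Nat.card W ≤ Nat.card (A.map (nsmulAddMonoidHom (r ^ n) : H →+ H)) := by
    have hsub : W ⊆ ((A.map (nsmulAddMonoidHom (r ^ n) : H →+ H) : AddSubgroup H) : Set H) := by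
      intro w hw
      obtain ⟨z, hz, rfl⟩ := hW w hw
      obtain ⟨z', rfl⟩ := hdiv z
      have hz' : σ • (r ^ (n + 1) • z') = r ^ (n + 1) • z' := by
        rw [pow_succ, mul_nsmul]; exact hz
      have hσn : ∀ (m : ℕ) (x : H), σ • (m • x) = m • (σ • x) := fun m x =>
        map_nsmul (DistribSMul.toAddMonoidHom H σ) m x
      set u : H := σ • z' - z' with hu
      have hu0 : r ^ (n + 1) • u = 0 := by
        rw [hu, nsmul_sub, ← hσn, hz', sub_self]
      have huσ : σ • u = u := hmono z' hz'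
      refine ⟨En u, ⟨⟨u, (hTmem u).mpr hu0, rfl⟩, ?_⟩, ?_⟩
      · refine AddMonoidHom.mem_ker.mpr ?_
        rw [hNσ_apply, ← hEn, huσ, sub_self]
      · rw [nsmulAddMonoidHom_apply, ← map_nsmul]
        have e1 : r ^ n • u = σ • (r ^ n • z') - r ^ n • z' := by
          rw [hu, nsmul_sub, ← hσn]
        rw [e1]
        refine hEE _ ?_
        rw [nsmul_sub, ← hσn, hz, sub_self]
    exact Nat.card_mono (Set.toFinite _) hsub
  calc Nat.card W ^ (n + 1)
      ≤ Nat.card (A.map (nsmulAddMonoidHom (r ^ n) : H →+ H)) ^ (n + 1) :=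
        Nat.pow_le_pow_left h4 _
    _ ≤ Nat.card A := h3
    _ ≤ C * Nat.card (X.map Dc) := h1
    _ ≤ C * r ^ (d * (n + 1)) := Nat.mul_le_mul_left _ h2

end abstract

local notation "Qb" => AlgebraicClosure ℚ
local notation "GQ" => (AlgebraicClosure ℚ ≃ₐ[ℚ] AlgebraicClosure ℚ)

open ModularCurve AlgebraicCurve

/-- **L7: the count at `p` on `J₀(p)`, `#W ≤ r ^ d`** (uniform in the prime `r ≠ p`).

`W = {E (σ z − z) : r z rational}`, `σ` in an inertia group at `p`.  Hypotheses, per level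
`n ≥ 1`: a Galois-equivariant `En` agreeing with `E` on `J[r]` (L0), whose points
`En x`, `x ∈ J[r^n]`, fixed by `σ` and `c` are rational (L5), with `#(c-1)En J[r^n] ≤ r^(d n)`
(L6); `Y` = the rational `r`-power torsion, finite (S17). -/
theorem card_kum_sigma_le (p : ℕ) [NeZero p] (hp : p.Prime) (hp5 : 5 ≤ p)
    (r : ℕ) (hr : r.Prime) (hrp : r ≠ p)
    (A : ValuationSubring Qb) (hA : A.LiesOverPrime p)
    (σ c : GQ) (hσ : σ ∈ A.inertiaSubgroupIn ℚ)
    (hdiv : ∀ z : JZero p, ∃ z' : JZero p, r • z' = z)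
    (hfin : ∀ n : ℕ, {x : JZero p | r ^ n • x = 0}.Finite)
    (Y : AddSubgroup (JZero p)) [Finite Y]
    (hY : ∀ x : JZero p, (∃ n : ℕ, r ^ n • x = 0) → (∀ g : GQ, g • x = x) → x ∈ Y)
    (E : JZero p →+ JZero p) (d : ℕ)
    (Hlev : ∀ n : ℕ, 0 < n → ∃ En : JZero p →+ JZero p,
      (∀ (γ : GQ) (x : JZero p), En (γ • x) = γ • En x) ∧
      (∀ x : JZero p, r • x = 0 → En x = E x) ∧
      (∀ x : JZero p, r ^ n • x = 0 → σ • En x = En x → c • En x = En x →
        ∀ g : GQ, g • En x = En x) ∧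
      Nat.card {u : JZero p // ∃ x, r ^ n • x = 0 ∧ u = c • En x - En x} ≤ r ^ (d * n)) :
    Nat.card {w : JZero p // ∃ z : JZero p, (∀ g : GQ, g • (r • z) = r • z) ∧
      w = E (σ • z - z)} ≤ r ^ d := by
  have hdivn : ∀ (n : ℕ) (z : JZero p), ∃ z' : JZero p, r ^ n • z' = z := by
    intro n
    induction n with
    | zero => intro z; exact ⟨z, by simp⟩
    | succ k ih =>
      intro z
      obtain ⟨z1, hz1⟩ := hdiv z
      obtain ⟨z2, hz2⟩ := ih z1
      exact ⟨z2, by rw [pow_succ, mul_nsmul, hz2, hz1]⟩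
  refine le_of_forall_pow_le _ (r ^ d) (Nat.card Y) (pow_pos hr.pos d) ?_
  intro m hm
  obtain ⟨n, rfl⟩ : ∃ n, m = n + 1 := ⟨m - 1, by omega⟩
  obtain ⟨En, hEn, hEE, hfix, hD⟩ := Hlev (n + 1) (Nat.succ_pos n)
  have hmono : ∀ x : JZero p, σ • (r ^ (n + 1) • x) = r ^ (n + 1) • x →
      σ • (σ • x - x) = σ • x - x := by
    intro x hx
    have hrn : ¬ p ∣ r ^ (n + 1) := by
      intro hdvd
      exact hrp ((Nat.prime_dvd_prime_iff_eq hp hr).1 (hp.dvd_of_dvd_pow hdvd)).symm
    have key := Fermat.Agent.S15P.DivMono85.monodromy_div_prime p hp hp5 A hA (r ^ (n + 1)) hrn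
      σ σ hσ hσ x hx
    rw [smul_sub]
    have e' : σ • σ • x - σ • x - (σ • x - x) = σ • σ • x - σ • x - σ • x + x := by abel
    exact sub_eq_zero.1 (e'.trans key)
  have := card_pow_le_level (H := JZero p) r n σ c hmono (hdivn n) (hfin (n + 1)) E En (hEn σ) hEE Y
    (Nat.card Y) d le_rfl
    (fun x hx h1 h2 => hY _ ⟨n + 1, by rw [← map_nsmul, hx, map_zero]⟩ (hfix x hx h1 h2)) hD
    {w : JZero p | ∃ z : JZero p, (∀ g : GQ, g • (r • z) = r • z) ∧ w = E (σ • z - z)}
    (fun w ⟨z, hz, hw⟩ => ⟨z, hz σ, hw⟩)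
  rw [← pow_mul]
  exact this

end Fermat.Agent.S15P.PSide92
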