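import Mathlib
import Fermat.Agent.S15P.PSide92
import Fermat.Agent.MW.DivA.Main
import Fermat.Agent.MW.WMW.JZero

/-!
# S15 (LOC-p), row LOCp-INST: L7 with its main-side hypotheses discharged

* `exists_torsion_bound` : Mordell–Weil (`AddGroup.FG` of the fixed points) gives a finite
  subgroup `Y` containing every fixed point of `r`-power order  (Mathlib only).
* `kumRange`             : the subgroup `W = {E (σ z − z) : r z rational}` of `J₀(p)(ℚ̄)`.
* `card_W_le`            : **L7 with only `(σ, c, E, d, Hlev)` and S17 left**: `#W ≤ r ^ d`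
  (divisibility: `MW.DivA.jZero_divisible`; finiteness of torsion:
  `MW.WMW.JZeroInst.finite_torsion`; `Y` from `hFG`, which is literally the statement of S17:
  `Fermat.Agent.S17.result p hp hp5`, or `MW.Top.InstC.fg_fixedPoints p`).
* `card_kumRange_le`, `finite_kumRange`, `sub_mem_kumRange` : the same in the subgroup shape
  consumed by `Desc40` (`W`, `hW`).
-/

namespace Fermat.Agent.S15P.PSideInst92

open ModularCurve AlgebraicCurve Fermat.Agent.S15P.PSide92

local notation "Qb" => AlgebraicClosure ℚ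
local notation "GQ" => (AlgebraicClosure ℚ ≃ₐ[ℚ] AlgebraicClosure ℚ)

/-- **S17 ⟹ `Y`** (abstract): if the fixed points form a finitely generated group, there is a
finite subgroup containing every fixed torsion point. -/
theorem exists_torsion_bound {Γ J : Type*} [Group Γ] [AddCommGroup J] [DistribMulAction Γ J]
    (hFG : AddGroup.FG ↥(FixedPoints.addSubgroup Γ J)) :
    ∃ Y : AddSubgroup J, Finite Y ∧
      ∀ x : J, (∃ n : ℕ, n ≠ 0 ∧ n • x = 0) → (∀ g : Γ, g • x = x) → x ∈ Y := by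
  classical
  set M : AddSubgroup J := FixedPoints.addSubgroup Γ J with hM
  have hfinM : Module.Finite ℤ M := Module.Finite.iff_addGroup_fg.mpr hFG
  have hfinT : Finite ↥(Submodule.torsion ℤ M) :=
    Module.finite_of_fg_torsion _ Submodule.torsion_isTorsion
  refine ⟨((Submodule.torsion ℤ M).toAddSubgroup).map M.subtype, ?_, ?_⟩
  · have h := (Set.toFinite (((Submodule.torsion ℤ M).toAddSubgroup : AddSubgroup M) :
      Set M)).image M.subtype
    rw [← AddSubgroup.coe_map] at h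
    exact h.to_subtype
  · rintro x ⟨n, hn0, hn⟩ hx
    have hxM : x ∈ M := (FixedPoints.mem_addSubgroup Γ J x).mpr hx
    refine ⟨⟨x, hxM⟩, ?_, rfl⟩
    show (⟨x, hxM⟩ : M) ∈ Submodule.torsion ℤ M
    rw [Submodule.mem_torsion_iff]
    refine ⟨⟨(n : ℤ), ?_⟩, ?_⟩
    · exact mem_nonZeroDivisors_of_ne_zero (Int.natCast_ne_zero.mpr hn0)
    · apply Subtype.ext
      show ((n : ℤ) • (⟨x, hxM⟩ : M) : M).1 = 0
      rw [natCast_zsmul]
      exact hn

variable (p r : ℕ)

/-- The subgroup `W = {E (σ z − z) : r z rational}` of `J₀(p)(ℚ̄)`. -/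
def kumRange (E : JZero p →+ JZero p) (σ : GQ) : AddSubgroup (JZero p) where
  carrier := {w | ∃ z : JZero p, (∀ g : GQ, g • (r • z) = r • z) ∧ w = E (σ • z - z)}
  add_mem' := by
    rintro _ _ ⟨z, hz, rfl⟩ ⟨z', hz', rfl⟩
    refine ⟨z + z', fun g => ?_, ?_⟩
    · rw [nsmul_add, smul_add, hz g, hz' g]
    · rw [← map_add, smul_add]; congr 1; abel
  zero_mem' := ⟨0, fun g => by
      rw [nsmul_zero]; exact smul_zero g, by
    rw [show σ • (0 : JZero p) = 0 from smul_zero (A := JZero p) σ, sub_self, map_zero]⟩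
  neg_mem' := by
    rintro _ ⟨z, hz, rfl⟩
    refine ⟨-z, fun g => ?_, ?_⟩
    · have h1 : r • -z = -(r • z) := neg_nsmul z r
      rw [h1, show g • -(r • z) = -(g • (r • z)) from smul_neg (A := JZero p) g _, hz g]
    · rw [← map_neg, show σ • -z = -(σ • z) from smul_neg (A := JZero p) σ z]; congr 1; abel

theorem mem_kumRange {E : JZero p →+ JZero p} {σ : GQ} {w : JZero p} :
    w ∈ kumRange p r E σ ↔ ∃ z : JZero p, (∀ g : GQ, g • (r • z) = r • z) ∧ w = E (σ • z - z) :=
  Iff.rfl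

/-- The seam to `Desc40` (`hW`): if `E` is the identity on `G`, every value `σ z − z ∈ G` of a
division point of a rational point lies in `W`. -/
theorem sub_mem_kumRange {E : JZero p →+ JZero p} {σ : GQ} (G : AddSubgroup (JZero p))
    (hEid : ∀ g ∈ G, E g = g) (z : JZero p) (hz : ∀ g : GQ, g • (r • z) = r • z)
    (hzG : σ • z - z ∈ G) : σ • z - z ∈ kumRange p r E σ :=
  ⟨z, hz, (hEid _ hzG).symm⟩

theorem finite_kumRange [NeZero p] (hr : 0 < r) (E : JZero p →+ JZero p) (σ : GQ) :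
    Finite (kumRange p r E σ) := by
  have h := (Fermat.Agent.MW.WMW.JZeroInst.finite_torsion p r hr).image E
  refine (h.subset ?_).to_subtype
  rintro _ ⟨z, hz, rfl⟩
  refine ⟨σ • z - z, ?_, rfl⟩
  show r • (σ • z - z) = 0
  have e : r • (σ • z) = σ • (r • z) :=
    (map_nsmul (DistribSMul.toAddMonoidHom (JZero p) σ) r z).symm
  rw [nsmul_sub, e, hz σ, sub_self]

/-- **LOCp-INST: L7 with only `(σ, c, E, d, Hlev)` and S17 (`hFG`) left** — `#W ≤ r ^ d`. -/
theorem card_W_le [NeZero p] (hp : p.Prime) (hp5 : 5 ≤ p) (hr : r.Prime) (hrp : r ≠ p)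
    (hFG : AddGroup.FG ↥(FixedPoints.addSubgroup GQ (JZero p)))
    (A : ValuationSubring Qb) (hA : A.LiesOverPrime p)
    (σ c : GQ) (hσ : σ ∈ A.inertiaSubgroupIn ℚ)
    (E : JZero p →+ JZero p) (d : ℕ)
    (Hlev : ∀ n : ℕ, 0 < n → ∃ En : JZero p →+ JZero p,
      (∀ (γ : GQ) (x : JZero p), En (γ • x) = γ • En x) ∧
      (∀ x : JZero p, r • x = 0 → En x = E x) ∧
      (∀ x : JZero p, r ^ n • x = 0 → σ • En x = En x → c • En x = En x →
        ∀ g : GQ, g • En x = En x) ∧
      Nat.card {u : JZero p // ∃ x, r ^ n • x = 0 ∧ u = c • En x - En x} ≤ r ^ (d * n)) :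
    Nat.card {w : JZero p // ∃ z : JZero p, (∀ g : GQ, g • (r • z) = r • z) ∧
      w = E (σ • z - z)} ≤ r ^ d := by
  obtain ⟨Y, hYfin, hY⟩ := exists_torsion_bound (Γ := GQ) (J := JZero p) hFG
  exact card_kum_sigma_le p hp hp5 r hr hrp A hA σ c hσ
    (fun z => Fermat.Agent.MW.DivA.jZero_divisible p hr.pos z)
    (fun n => Fermat.Agent.MW.WMW.JZeroInst.finite_torsion p _ (pow_pos hr.pos n))
    Y (fun x ⟨n, hn⟩ hx => hY x ⟨r ^ n, (pow_pos hr.pos n).ne', hn⟩ hx) E d Hlev

/-- **L7 in the subgroup shape consumed by `Desc40`**: `#W ≤ r ^ d` for `W = kumRange`. -/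
theorem card_kumRange_le [NeZero p] (hp : p.Prime) (hp5 : 5 ≤ p) (hr : r.Prime) (hrp : r ≠ p)
    (hFG : AddGroup.FG ↥(FixedPoints.addSubgroup GQ (JZero p)))
    (A : ValuationSubring Qb) (hA : A.LiesOverPrime p)
    (σ c : GQ) (hσ : σ ∈ A.inertiaSubgroupIn ℚ)
    (E : JZero p →+ JZero p) (d : ℕ)
    (Hlev : ∀ n : ℕ, 0 < n → ∃ En : JZero p →+ JZero p,
      (∀ (γ : GQ) (x : JZero p), En (γ • x) = γ • En x) ∧
      (∀ x : JZero p, r • x = 0 → En x = E x) ∧
      (∀ x : JZero p, r ^ n • x = 0 → σ • En x = En x → c • En x = En x →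
        ∀ g : GQ, g • En x = En x) ∧
      Nat.card {u : JZero p // ∃ x, r ^ n • x = 0 ∧ u = c • En x - En x} ≤ r ^ (d * n)) :
    Nat.card (kumRange p r E σ) ≤ r ^ d :=
  card_W_le p r hp hp5 hr hrp hFG A hA σ c hσ E d Hlev

end Fermat.Agent.S15P.PSideInst92
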