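import Mathlib
import Fermat.Agent.S15P.DivMono85
import Fermat.Agent.ESJ.RedK.GoodFinal

/-!
# (D-DIV): division points of inertia-fixed points are unramified at the primes of good reduction

`ESJ.Cong.TorsionESK.inertia_smul_eq` says that the inertia group at `ℓ ∤ N` acts trivially on
the `m`-torsion of `J₀(N)`, `ℓ ∤ m`.  Here the same is proved for every `x ∈ J₀(N)(ℚ̄)` such that
`m • x` is fixed by the inertia element (for instance an `m`-division point of a rational
point): the Kummer classes of rational points are unramified at every `ℓ ∤ N m`.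

* `inertia_smul_eq_of_kummerRoot` : from the Kummer root statement `KummerRoot N A m`;
* `inertia_smul_eq_div` : the closed statement, for all `N`, `ℓ ∤ N`, `ℓ ∤ m`.
-/

set_option autoImplicit false

noncomputable section

namespace Fermat.Agent.S15P.GoodDiv85

open ModularCurve AlgebraicCurve HahnSeries
open Fermat.Agent.ESJ.Cong Fermat.Agent.ESJ.Cong.TorsionESK
  Fermat.Agent.S15P.DivMono85 Fermat.Agent.Lib.FF Fermat.Agent.Lib.FF.PlaceInf

local notation "Qb" => AlgebraicClosure ℚ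

set_option maxHeartbeats 1000000 in
/-- **Inertia at a good prime acts trivially on division points** (from the Kummer root
statement): if `m • x` is fixed by `τ` in the inertia group of `A`, then so is `x`. -/
theorem inertia_smul_eq_of_kummerRoot (N : ℕ) [NeZero N] (A : ValuationSubring Qb)
    (hNk : (N : IsLocalRing.ResidueField A) ≠ 0) {m : ℕ} (hm : m ≠ 0) (hK : KummerRoot N A m)
    (τ : Qb ≃ₐ[ℚ] Qb) (hτ : τ ∈ A.inertiaSubgroupIn ℚ)
    (x : JZero N) (hx : τ • (m • x) = m • x) : τ • x = x := by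
  set G := arithmeticGalois (modularFunctionFieldFull N) τ with hG
  -- the `τ`-fixed divisor representing `m • x`
  have hfix : G • ((m : ℤ) • x) = (m : ℤ) • x := by
    rw [natCast_zsmul]; exact hx
  obtain ⟨E, hE, hEx⟩ := exists_fixed_divisor (isFF1_xL Qb N) G (placeInfL Qb N)
    (arithmeticGalois_smul_placeInfL Qb N τ) ((m : ℤ) • x) hfix
  obtain ⟨D₀, rfl⟩ := Pic0.mk_surjective x
  have hmD : Pic0.mk ((m : ℤ) • D₀) = Pic0.mk E := hEx.symm
  obtain ⟨f₀, hf₀, hdiv₀⟩ := exists_ord_of_mk_eq hmD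
  have hdiv₀' : ∀ P : Place Qb (modularFunctionFieldBar N),
      (m : ℤ) * (D₀ : Divisor Qb (modularFunctionFieldBar N)) P
        - (E : Divisor Qb (modularFunctionFieldBar N)) P = P.ord f₀ := by
    intro P
    have := hdiv₀ P
    simpa using this
  -- the integral form `f * s = P`
  have hf0 : (f₀ : LaurentSeries Qb) ≠ 0 := fun h => hf₀ (Subtype.ext h)
  obtain ⟨a, P, s, ha, hPF0, hsF0, hP0, hs0, -, -, heq0⟩ :=
    Fermat.Agent.Lib.Red.goodV_full' A (IsLocalRing.residue A) N hNk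
      (f₀ : LaurentSeries Qb) f₀.2 hf0
  have hPF : coeffMap A.subtype P ∈ modularFunctionFieldBar N := hPF0
  have hsF : coeffMap A.subtype s ∈ modularFunctionFieldBar N := hsF0
  have hP : coeffMap (IsLocalRing.residue A) P ≠ 0 := hP0
  have hs : coeffMap (IsLocalRing.residue A) s ≠ 0 := hs0
  have heq : HahnSeries.C a * (f₀ : LaurentSeries Qb) * coeffMap A.subtype s
      = coeffMap A.subtype P := heq0
  obtain ⟨f, hf⟩ : ∃ f : modularFunctionFieldBar N,
      f = algebraMap Qb (modularFunctionFieldBar N) a * f₀ := ⟨_, rfl⟩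
  have hfne : f ≠ 0 := by
    rw [hf]
    exact mul_ne_zero ((map_ne_zero _).2 ha) hf₀
  have hordf : ∀ v : Place Qb (modularFunctionFieldBar N), v.ord f = v.ord f₀ := by
    intro v
    rw [hf, v.ord_mul ((map_ne_zero _).2 ha) hf₀, ord_algebraMap85 v ha, zero_add]
  have hfs : f * ⟨_, hsF⟩ = ⟨_, hPF⟩ := by
    rw [hf]
    refine Subtype.ext ?_
    have h1 : ((algebraMap Qb (modularFunctionFieldBar N) a :
        modularFunctionFieldBar N) : LaurentSeries Qb) = HahnSeries.C a := by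
      rw [Fermat.Agent.Lib.Red.C_eq_algebraMap]
      rfl
    show ((algebraMap Qb (modularFunctionFieldBar N) a :
        modularFunctionFieldBar N) : LaurentSeries Qb) *
          (f₀ : LaurentSeries Qb) * coeffMap A.subtype s = coeffMap A.subtype P
    rw [h1]
    exact heq
  -- the Galois conjugate
  obtain ⟨hd, hres⟩ := resAut_eq_one_of_mem_inertia A hτ
  obtain ⟨P1, hP1, hGP, hrP1⟩ := exists_galois_smul N A ⟨τ, hd⟩ P hPF
  obtain ⟨s1, hs1, hGs, hrs1⟩ := exists_galois_smul N A ⟨τ, hd⟩ s hsF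
  have hid : ∀ u : LaurentSeries (IsLocalRing.ResidueField A),
      coeffMap ((resAut A ⟨τ, hd⟩ : IsLocalRing.ResidueField A ≃+* IsLocalRing.ResidueField A) :
        IsLocalRing.ResidueField A →+* IsLocalRing.ResidueField A) u = u := by
    intro u
    rw [hres]
    exact coeffMap_id u
  rw [hid] at hrP1 hrs1
  have hGf0 : G • f ≠ 0 := by
    intro h0
    apply hfne
    have := congrArg (fun z => G⁻¹ • z) h0
    simpa using this
  have hGfs : G • f * ⟨_, hs1⟩ = ⟨_, hP1⟩ := by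
    rw [← hGs, ← hGP, ← smul_mul', hfs]
  have hy : coeffMap A.subtype (P * s1) ∈ modularFunctionFieldBar N := by
    rw [map_mul]
    exact mul_mem hPF hs1
  have hz : coeffMap A.subtype (s * P1) ∈ modularFunctionFieldBar N := by
    rw [map_mul]
    exact mul_mem hsF hP1
  obtain ⟨H, hH⟩ : ∃ H : modularFunctionFieldBar N, H = f * (G • f)⁻¹ := ⟨_, rfl⟩
  have hHne : H ≠ 0 := by
    rw [hH]
    exact mul_ne_zero hfne (inv_ne_zero hGf0)
  have hzbar : coeffMap (IsLocalRing.residue A) (s * P1) ≠ 0 := by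
    rw [map_mul, hrP1]
    exact mul_ne_zero hs hP
  have hyz : coeffMap (IsLocalRing.residue A) (P * s1)
      = coeffMap (IsLocalRing.residue A) (s * P1) := by
    rw [map_mul, map_mul, hrP1, hrs1, mul_comm]
  have hHyz : H * ⟨_, hz⟩ = ⟨_, hy⟩ := by
    have e1 : (⟨_, hz⟩ : modularFunctionFieldBar N) = ⟨_, hsF⟩ * ⟨_, hP1⟩ :=
      Subtype.ext (map_mul _ _ _)
    have e2 : (⟨_, hy⟩ : modularFunctionFieldBar N) = ⟨_, hPF⟩ * ⟨_, hs1⟩ :=
      Subtype.ext (map_mul _ _ _)
    rw [e1, e2, ← hfs, ← hGfs, hH]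
    field_simp
  have hz0 : (⟨_, hz⟩ : modularFunctionFieldBar N) ≠ 0 := incl_ne_zero hz hzbar
  -- the divisor of `H`
  have hordH : ∀ v : Place Qb (modularFunctionFieldBar N),
      v.ord H = (m : ℤ) * ((D₀ : Divisor Qb (modularFunctionFieldBar N)) v
        - (G • (D₀ : Divisor Qb (modularFunctionFieldBar N))) v) := by
    intro v
    have e1 : v.ord (G • f) = (G⁻¹ • v).ord f := by
      have := SemilinearAut.ord_smul G (G⁻¹ • v) f
      rwa [smul_inv_smul] at this
    have e2 : (E : Divisor Qb (modularFunctionFieldBar N)) (G⁻¹ • v)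
        = (E : Divisor Qb (modularFunctionFieldBar N)) v := by
      conv_rhs => rw [← hE]
      exact (SemilinearAut.divisor_smul_apply G _ v).symm
    have e3 := hdiv₀' v
    have e4 := hdiv₀' (G⁻¹ • v)
    have e5 : v.ord H = v.ord f + v.ord (G • f)⁻¹ := by
      rw [hH]
      exact v.ord_mul hfne (inv_ne_zero hGf0)
    have e6 : v.ord (G • f)⁻¹ = -v.ord (G • f) := v.ord_inv _
    have e7 : (G • (D₀ : Divisor Qb (modularFunctionFieldBar N))) v
        = (D₀ : Divisor Qb (modularFunctionFieldBar N)) (G⁻¹ • v) :=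
      SemilinearAut.divisor_smul_apply G _ v
    have e8 := hordf v
    have e9 := hordf (G⁻¹ • v)
    rw [e5, e6, e1, e8, e9, e7]
    linarith
  obtain ⟨g, hg⟩ := hK (P * s1) (s * P1) hy hz hzbar hyz (fun v => by
    rw [← hHyz, v.ord_mul hHne hz0, add_sub_cancel_right, hordH v]
    exact dvd_mul_right _ _)
  have hHg : H = g ^ m := by
    have h1 : H * ⟨_, hz⟩ = g ^ m * ⟨_, hz⟩ := by rw [hHyz, hg, mul_comm]
    exact mul_right_cancel₀ hz0 h1
  have hg0 : g ≠ 0 := by
    rintro rfl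
    rw [zero_pow hm] at hHg
    exact hHne hHg
  have hordg : ∀ v : Place Qb (modularFunctionFieldBar N),
      (D₀ : Divisor Qb (modularFunctionFieldBar N)) v
        - (G • (D₀ : Divisor Qb (modularFunctionFieldBar N))) v = v.ord g := by
    intro v
    have h1 := hordH v
    rw [hHg, ← zpow_natCast, v.ord_zpow] at h1
    exact (mul_left_cancel₀ (Int.natCast_ne_zero.2 hm) h1).symm
  have key : Pic0.mk D₀ = Pic0.mk (SemilinearAut.degZeroSMulHom G D₀) :=
    mk_eq_mk_of_ord g hg0 hordg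
  show G • Pic0.mk D₀ = Pic0.mk D₀
  rw [SemilinearAut.pic0_smul_mk]
  exact key.symm

/-- **(D-DIV)**: for a prime `ℓ ∤ N`, `τ` in an inertia group at `ℓ` and `x ∈ J₀(N)(ℚ̄)` such
that `m • x` is fixed by `τ`, `ℓ ∤ m`:  `τ • x = x`.  (Kummer classes of rational points of
`J₀(N)` are unramified outside `N m`.) -/
theorem inertia_smul_eq_div (N : ℕ) [NeZero N] (ℓ : ℕ) (hℓ : ℓ.Prime) (hℓN : ¬ ℓ ∣ N)
    (A : ValuationSubring Qb) (hA : A.LiesOverPrime ℓ) (m : ℕ) (hm0 : m ≠ 0) (hm : ¬ ℓ ∣ m)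
    (τ : Qb ≃ₐ[ℚ] Qb) (hτ : τ ∈ A.inertiaSubgroupIn ℚ)
    (x : JZero N) (hx : τ • (m • x) = m • x) : τ • x = x :=
  inertia_smul_eq_of_kummerRoot N A
    (Fermat.Agent.ESJ.RedK.natCast_residue_ne_zero (N := N) hℓ hA hℓN) hm0
    (Fermat.Agent.ESJ.RedK.kummerRoot_all N ℓ hℓ hℓN A hA m hm0 hm) τ hτ x hx

/-- The form used by the descent: `x` a division point of a Galois-fixed point. -/
theorem inertia_smul_eq_of_rational (N : ℕ) [NeZero N] (ℓ : ℕ) (hℓ : ℓ.Prime) (hℓN : ¬ ℓ ∣ N)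
    (A : ValuationSubring Qb) (hA : A.LiesOverPrime ℓ) (m : ℕ) (hm0 : m ≠ 0) (hm : ¬ ℓ ∣ m)
    (x : JZero N) (hx : ∀ g : Qb ≃ₐ[ℚ] Qb, g • (m • x) = m • x)
    (τ : Qb ≃ₐ[ℚ] Qb) (hτ : τ ∈ A.inertiaSubgroupIn ℚ) : τ • x = x :=
  inertia_smul_eq_div N ℓ hℓ hℓN A hA m hm0 hm τ hτ x (hx τ)

end Fermat.Agent.S15P.GoodDiv85
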