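/-
S15P, layer (JH), row JH-chi — the ABSTRACT half (helper87).  Mathlib only.

A group `Γ` acts on an abelian group `J`; `S ≤ J` is a stable subgroup, `y ∈ J` with `r y ∈ S`
(`r` prime) and `Γ` acts on `y` by scalars modulo `S`.  If every `γ` agrees on `y` and under a
character `χ : Γ →* (ZMod r)ˣ` with a power of some `σ` such that `χ σ = ℓ` and
`((σ - 1)(σ - ℓ))^m y = 0`, then `Γ` acts on `y` modulo `S` trivially, or through `χ`.

* `union_two`     : a group is not the union of two proper "subgroups" (predicate form);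
* `quad_iter`     : `((σ - 1)(σ - ℓ))^j z ≡ c ((a - 1)(a - ℓ))^j y` if `z ≡ c y`, `σ y ≡ a y`;
* `lineChar_core` : the dichotomy.
-/
import Mathlib

set_option autoImplicit false

namespace Fermat.Agent.S15P.LineCore87

/-- A group is not the union of two proper subgroups (predicate form). -/
theorem union_two {Γ : Type*} [Group Γ] (P1 P2 : Γ → Prop)
    (m1 : ∀ a b, P1 a → P1 b → P1 (a * b)) (i1 : ∀ a, P1 a → P1 a⁻¹)
    (m2 : ∀ a b, P2 a → P2 b → P2 (a * b)) (i2 : ∀ a, P2 a → P2 a⁻¹)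
    (h : ∀ γ, P1 γ ∨ P2 γ) : (∀ γ, P1 γ) ∨ (∀ γ, P2 γ) := by
  by_contra hne
  rw [not_or, not_forall, not_forall] at hne
  obtain ⟨⟨γ1, h1⟩, ⟨γ2, h2⟩⟩ := hne
  have p2 : P2 γ1 := (h γ1).resolve_left h1
  have p1 : P1 γ2 := (h γ2).resolve_right h2
  rcases h (γ1 * γ2) with q | q
  · apply h1
    have := m1 _ _ q (i1 _ p1)
    simpa using this
  · apply h2
    have := m2 _ _ (i2 _ p2) q
    simpa using this

section core

variable {Γ : Type*} [Group Γ] {J : Type*} [AddCommGroup J] [DistribMulAction Γ J]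

/-- `γ • (a • x) = a • (γ • x)` for integer scalars. -/
theorem smul_zsmul' (γ : Γ) (a : ℤ) (x : J) : γ • (a • x) = a • (γ • x) :=
  map_zsmul (DistribSMul.toAddMonoidHom J γ) a x

/-- `γ • (a • x) = a • (γ • x)` for natural scalars. -/
theorem smul_nsmul' (γ : Γ) (a : ℕ) (x : J) : γ • (a • x) = a • (γ • x) :=
  map_nsmul (DistribSMul.toAddMonoidHom J γ) a x

variable (S : AddSubgroup J) (y : J)

/-- `γ` acts on `y` by the integer `a` modulo `S`. -/
def Rel (γ : Γ) (a : ℤ) : Prop := γ • y - a • y ∈ S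

variable {S y}

theorem rel_one : Rel S y (1 : Γ) 1 := by
  unfold Rel
  rw [one_smul, one_zsmul, sub_self]
  exact S.zero_mem

theorem rel_congr {r : ℕ} (hry : r • y ∈ S) {γ : Γ} {a a' : ℤ} (h : Rel S y γ a)
    (hd : (r : ℤ) ∣ a - a') : Rel S y γ a' := by
  obtain ⟨t, ht⟩ := hd
  have h1 : (a - a') • y ∈ S := by
    rw [ht, mul_comm, mul_zsmul, natCast_zsmul]
    exact S.zsmul_mem hry t
  have e : γ • y - a' • y = (γ • y - a • y) + (a - a') • y := by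
    rw [sub_zsmul]; abel
  unfold Rel
  rw [e]
  exact S.add_mem h h1

theorem rel_unique {r : ℕ} (hr : r.Prime) (hry : r • y ∈ S) (hy : y ∉ S) {γ : Γ} {a a' : ℤ}
    (h : Rel S y γ a) (h' : Rel S y γ a') : (r : ℤ) ∣ a - a' := by
  by_contra hnd
  have h1 : (a - a') • y ∈ S := by
    have e : (a - a') • y = (γ • y - a' • y) - (γ • y - a • y) := by
      rw [sub_zsmul]; abel
    rw [e]
    exact S.sub_mem h' h
  have hcop : IsCoprime (a - a') (r : ℤ) := by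
    have hp : Prime (r : ℤ) := Nat.prime_iff_prime_int.mp hr
    exact (hp.coprime_iff_not_dvd.mpr hnd).symm
  obtain ⟨u, v, huv⟩ := hcop
  apply hy
  have e : y = u • ((a - a') • y) + v • (r • y) := by
    rw [← mul_zsmul, ← natCast_zsmul y r, ← mul_zsmul, ← add_zsmul, huv, one_zsmul]
  rw [e]
  exact S.add_mem (S.zsmul_mem h1 u) (S.zsmul_mem hry v)

theorem rel_mul (hS : ∀ (γ : Γ) (x : J), x ∈ S → γ • x ∈ S) {γ γ' : Γ} {a a' : ℤ}
    (h : Rel S y γ a) (h' : Rel S y γ' a') : Rel S y (γ * γ') (a * a') := by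
  have e : (γ * γ') • y - (a * a') • y = γ • (γ' • y - a' • y) + a' • (γ • y - a • y) := by
    rw [mul_smul, smul_sub, smul_zsmul', zsmul_sub, ← mul_zsmul, mul_comm a' a]
    abel
  unfold Rel
  rw [e]
  exact S.add_mem (hS γ _ h') (S.zsmul_mem h a')

theorem rel_pow (hS : ∀ (γ : Γ) (x : J), x ∈ S → γ • x ∈ S) {γ : Γ} {a : ℤ}
    (h : Rel S y γ a) (k : ℕ) : Rel S y (γ ^ k) (a ^ k) := by
  induction k with
  | zero => rw [pow_zero, pow_zero]; exact rel_one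
  | succ k ih => rw [pow_succ, pow_succ]; exact rel_mul hS ih h

theorem rel_inv (hS : ∀ (γ : Γ) (x : J), x ∈ S → γ • x ∈ S) {r : ℕ} (hry : r • y ∈ S)
    {γ : Γ} {a b : ℤ} (h : Rel S y γ a) (hd : (r : ℤ) ∣ a * b - 1) : Rel S y γ⁻¹ b := by
  obtain ⟨t, ht⟩ := hd
  -- `y - a • γ⁻¹ y ∈ S`
  have h1 : y - a • (γ⁻¹ • y) ∈ S := by
    have e : y - a • (γ⁻¹ • y) = γ⁻¹ • (γ • y - a • y) := by
      rw [smul_sub, inv_smul_smul, smul_zsmul']
    rw [e]
    exact hS _ _ h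
  have h2 : (a * b - 1) • (γ⁻¹ • y) ∈ S := by
    rw [ht, mul_comm, mul_zsmul, natCast_zsmul, ← smul_nsmul']
    exact S.zsmul_mem (hS _ _ hry) t
  have e : γ⁻¹ • y - b • y = -(b • (y - a • (γ⁻¹ • y))) - (a * b - 1) • (γ⁻¹ • y) := by
    rw [zsmul_sub, ← mul_zsmul, sub_zsmul, one_zsmul, mul_comm b a]
    abel
  unfold Rel
  rw [e]
  exact S.sub_mem (S.neg_mem (S.zsmul_mem h1 b)) h2

/-- One step of `(σ - 1)(σ - ℓ)` on the line. -/
theorem quad_step (hS : ∀ (γ : Γ) (x : J), x ∈ S → γ • x ∈ S) (σ : Γ) (ℓ : ℕ) {a : ℤ}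
    (ha : Rel S y σ a) (z : J) (c : ℤ) (hz : z - c • y ∈ S) :
    (σ • σ • z - (1 + ℓ) • σ • z + ℓ • z) - (c * ((a - 1) * (a - ℓ))) • y ∈ S := by
  have e : (σ • σ • z - (1 + ℓ) • σ • z + ℓ • z) - (c * ((a - 1) * (a - ℓ))) • y
      = σ • σ • (z - c • y) + c • σ • (σ • y - a • y) + (c * a) • (σ • y - a • y)
        - ((1 + ℓ : ℕ) : ℤ) • σ • (z - c • y) - (((1 + ℓ : ℕ) : ℤ) * c) • (σ • y - a • y)
        + ((ℓ : ℕ) : ℤ) • (z - c • y) := by
    simp only [smul_sub, smul_zsmul', ← natCast_zsmul]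
    generalize σ • σ • z = A1
    generalize σ • σ • y = A2
    generalize σ • z = A3
    generalize σ • y = A4
    push_cast
    module
  rw [e]
  have h1 := hS σ _ (hS σ _ hz)
  have h2 := S.zsmul_mem (hS σ _ ha) c
  have h3 := S.zsmul_mem ha (c * a)
  have h4 := S.zsmul_mem (hS σ _ hz) ((1 + ℓ : ℕ) : ℤ)
  have h5 := S.zsmul_mem ha (((1 + ℓ : ℕ) : ℤ) * c)
  have h6 := S.zsmul_mem hz ((ℓ : ℕ) : ℤ)
  exact S.add_mem (S.sub_mem (S.sub_mem (S.add_mem (S.add_mem h1 h2) h3) h4) h5) h6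

/-- Iterating `(σ - 1)(σ - ℓ)` on the line. -/
theorem quad_iter (hS : ∀ (γ : Γ) (x : J), x ∈ S → γ • x ∈ S) (σ : Γ) (ℓ : ℕ) {a : ℤ}
    (ha : Rel S y σ a) (j : ℕ) (z : J) (c : ℤ) (hz : z - c • y ∈ S) :
    ((fun z : J => σ • σ • z - (1 + ℓ) • σ • z + ℓ • z)^[j]) z
      - (c * ((a - 1) * (a - ℓ)) ^ j) • y ∈ S := by
  induction j generalizing z c with
  | zero => simpa using hz
  | succ j ih =>
    rw [Function.iterate_succ_apply]
    have h1 := quad_step hS σ ℓ ha z c hz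
    have h2 := ih _ _ h1
    have e : c * ((a - 1) * (a - ℓ)) ^ (j + 1) = c * ((a - 1) * (a - ℓ)) * ((a - 1) * (a - ℓ)) ^ j := by
      ring
    rw [e]
    exact h2

/-- If `((σ - 1)(σ - ℓ))^m` kills `y ∉ S` and `σ y ≡ a y`, then `a ≡ 1` or `a ≡ ℓ` mod `r`. -/
theorem scalar_of_quad (hS : ∀ (γ : Γ) (x : J), x ∈ S → γ • x ∈ S) {r : ℕ} (hr : r.Prime)
    (hry : r • y ∈ S) (hy : y ∉ S) (σ : Γ) (ℓ m : ℕ) {a : ℤ} (ha : Rel S y σ a)
    (hQ : ((fun z : J => σ • σ • z - (1 + ℓ) • σ • z + ℓ • z)^[m]) y = 0) :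
    (r : ℤ) ∣ a - 1 ∨ (r : ℤ) ∣ a - ℓ := by
  have h0 : y - (1 : ℤ) • y ∈ S := by rw [one_zsmul, sub_self]; exact S.zero_mem
  have h1 := quad_iter hS σ ℓ ha m y 1 h0
  rw [hQ, zero_sub, one_mul] at h1
  have h2 : (((a - 1) * (a - ℓ)) ^ m) • y ∈ S := by
    have := S.neg_mem h1
    rwa [neg_neg] at this
  have hp : Prime (r : ℤ) := Nat.prime_iff_prime_int.mp hr
  have hd : (r : ℤ) ∣ ((a - 1) * (a - ℓ)) ^ m := by
    by_contra hnd
    have hcop : IsCoprime (((a - 1) * (a - ℓ)) ^ m) (r : ℤ) :=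
      (hp.coprime_iff_not_dvd.mpr hnd).symm
    obtain ⟨u, v, huv⟩ := hcop
    apply hy
    have e : y = u • ((((a - 1) * (a - ℓ)) ^ m) • y) + v • (r • y) := by
      rw [← mul_zsmul, ← natCast_zsmul y r, ← mul_zsmul, ← add_zsmul, huv, one_zsmul]
    rw [e]
    exact S.add_mem (S.zsmul_mem h2 u) (S.zsmul_mem hry v)
  exact hp.dvd_or_dvd (hp.dvd_of_dvd_pow hd)

/-- Casting the canonical representative back. -/
theorem cast_val {r : ℕ} [NeZero r] (x : ZMod r) : (((x.val : ℕ) : ℤ) : ZMod r) = x := by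
  rw [Int.cast_natCast, ZMod.natCast_zmod_val]

theorem dvd_of_cast_eq {r : ℕ} {a b : ℤ} (h : (a : ZMod r) = (b : ZMod r)) : (r : ℤ) ∣ a - b :=
  (ZMod.intCast_eq_intCast_iff_dvd_sub b a r).mp h.symm

/-- **The dichotomy** (abstract half of JH-chi). -/
theorem lineChar_core (hS : ∀ (γ : Γ) (x : J), x ∈ S → γ • x ∈ S) {r : ℕ} [Fact r.Prime]
    (hry : r • y ∈ S) (hsc : ∀ γ : Γ, ∃ m : ℤ, γ • y - m • y ∈ S)
    (χ : Γ →* (ZMod r)ˣ)
    (hF : ∀ γ : Γ, ∃ (σ : Γ) (ℓ k m : ℕ), ((χ σ : (ZMod r)ˣ) : ZMod r) = (ℓ : ZMod r) ∧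
        χ γ = χ (σ ^ k) ∧ γ • y = σ ^ k • y ∧
        ((fun z : J => σ • σ • z - (1 + ℓ) • σ • z + ℓ • z)^[m]) y = 0) :
    (∀ γ : Γ, γ • y - y ∈ S) ∨
      (∀ γ : Γ, γ • y - ((χ γ : (ZMod r)ˣ) : ZMod r).val • y ∈ S) := by
  have hr : r.Prime := Fact.out
  have : NeZero r := ⟨hr.ne_zero⟩
  by_cases hy : y ∈ S
  · exact Or.inl fun γ => S.sub_mem (hS γ y hy) hy
  have key := union_two (Γ := Γ) (fun γ => Rel S y γ 1)
    (fun γ => Rel S y γ ((((χ γ : (ZMod r)ˣ) : ZMod r).val : ℕ) : ℤ)) ?_ ?_ ?_ ?_ ?_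
  · rcases key with h | h
    · refine Or.inl fun γ => ?_
      have := h γ
      unfold Rel at this
      rwa [one_zsmul] at this
    · refine Or.inr fun γ => ?_
      have := h γ
      unfold Rel at this
      rwa [natCast_zsmul] at this
  · intro a b ha hb
    have := rel_mul hS ha hb
    rwa [one_mul] at this
  · intro a ha
    exact rel_inv hS hry ha (by norm_num)
  · intro a b ha hb
    refine rel_congr hry (rel_mul hS ha hb) (dvd_of_cast_eq ?_)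
    rw [Int.cast_mul, cast_val, cast_val, cast_val, map_mul, Units.val_mul]
  · intro a ha
    refine rel_inv hS hry ha (dvd_of_cast_eq ?_)
    rw [Int.cast_mul, cast_val, cast_val, map_inv, Units.mul_inv, Int.cast_one]
  · intro γ
    obtain ⟨σ, ℓ, k, m, hχσ, hχγ, hγy, hQ⟩ := hF γ
    obtain ⟨a, ha⟩ := hsc σ
    have ha' : Rel S y σ a := ha
    rcases scalar_of_quad hS hr hry hy σ ℓ m ha' hQ with h1 | h1
    · left
      have h2 : Rel S y σ 1 := rel_congr hry ha' h1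
      have h3 := rel_pow hS h2 k
      rw [one_pow] at h3
      unfold Rel at h3 ⊢
      rwa [hγy]
    · right
      have h2 : Rel S y σ (ℓ : ℤ) := rel_congr hry ha' h1
      have h3 := rel_pow hS h2 k
      have h4 : Rel S y (σ ^ k) ((((χ (σ ^ k) : (ZMod r)ˣ) : ZMod r).val : ℕ) : ℤ) := by
        refine rel_congr hry h3 (dvd_of_cast_eq ?_)
        rw [cast_val, map_pow, Units.val_pow_eq_pow_val, hχσ]
        push_cast
        rfl
      unfold Rel at h4 ⊢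
      rwa [hγy, hχγ]

end core

end Fermat.Agent.S15P.LineCore87
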