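/-
S15P, layer (JH), row JH-chi (helper87): a vector `y` of an Eisenstein piece `X ⊆ J₀(N)[r^n]`
with `r y ∈ S` on which Galois acts by scalars modulo a stable `S ≤ X` is Galois-fixed modulo
`S`, or Galois acts on it as on `μ_r`.

`lineChar_of` proves the interface Prop `JH.LineChar N` from row JH-B's literal (`FrobQuad N`:
every `γ` agrees on `X` and on a given number field with a power of a Frobenius `σ` at some
`ℓ ∤ N r`, `ℓ ∉ B`, and `((σ - 1)(σ - ℓ))^m = 0` on `X`).  The character is main's mod `r` cyclotomic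
character `ESJ.Rep.cycloMod r` (value `ℓ` on Frobenius at `ℓ`), the group theory is
`LineCore87.lineChar_core`.  `lineChar` is the unconditional statement, with row JH-B taken
from `JHFrob13.exists_frob_quad`.
-/
import Mathlib
import Fermat.Agent.S15P.InterfacesJH
import Fermat.Agent.S15P.LineCore87
import Fermat.Agent.ESJ.Rep.CycloMod
import Fermat.Agent.S15P.JHFrob13

set_option autoImplicit false

namespace Fermat.Agent.S15P.JHLineChar87

open ModularCurve Fermat.Agent.S15P.JH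

/-- Row JH-B's literal (`exists_frob_quad`), as a Prop. -/
def FrobQuad (N : ℕ) [NeZero N] : Prop :=
  ∀ (r n : ℕ), r.Prime → ∀ (B : Finset ℕ) (X : AddSubgroup (JZero N)), IsEisPiece N r n B X →
    ∀ (K₀ : IntermediateField ℚ Qb) [FiniteDimensional ℚ K₀] (γ : GQ),
      ∃ (ℓ : ℕ) (A : ValuationSubring Qb) (σ : GQ) (k m : ℕ), ℓ.Prime ∧ ¬ ℓ ∣ N * r ∧ ℓ ∉ B ∧
        A.LiesOverPrime ℓ ∧ A.IsFrobeniusAt σ ℓ ∧
        (∀ a ∈ K₀, γ a = (σ ^ k) a) ∧ (∀ x ∈ X, γ • x = σ ^ k • x) ∧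
        ∀ x ∈ X, ((fun z : JZero N => σ • σ • z - (1 + ℓ) • σ • z + ℓ • z)^[m]) x = 0

/-- Two automorphisms which agree on a primitive `r`-th root of unity have the same mod `r`
cyclotomic character. -/
theorem cycloMod_congr (r : ℕ) [NeZero r] {ζ : Qb} (hζ : IsPrimitiveRoot ζ r) (γ γ' : GQ)
    (h : γ ζ = γ' ζ) : ESJ.Rep.cycloMod r γ = ESJ.Rep.cycloMod r γ' := by
  apply Units.ext
  have h1 := ESJ.Rep.cycloMod_spec r γ' ζ hζ.pow_eq_one
  rw [← h] at h1
  rw [ESJ.Rep.cycloMod_eq_natCast r γ _ hζ h1, ZMod.natCast_zmod_val]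

/-- A nontrivial `r`-th root of unity (`r` prime) is primitive. -/
theorem isPrimitiveRoot_of_prime {r : ℕ} (hr : r.Prime) {ζ : Qb} (h : ζ ^ r = 1) (h1 : ζ ≠ 1) :
    IsPrimitiveRoot ζ r := by
  have hd : orderOf ζ ∣ r := orderOf_dvd_of_pow_eq_one h
  rcases (Nat.dvd_prime hr).mp hd with h2 | h2
  · exact absurd (orderOf_eq_one_iff.mp h2) h1
  · rw [← h2]
    exact IsPrimitiveRoot.orderOf ζ

/-- **(JH-χ)** from row JH-B. -/
theorem lineChar_of (N : ℕ) [NeZero N] (hF : FrobQuad N) : LineChar N := by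
  intro r hr B X n hX S _hSX hS y hyX hry hsc
  have : Fact r.Prime := ⟨hr⟩
  have : NeZero r := ⟨hr.ne_zero⟩
  obtain ⟨ζ0, hζ0⟩ := ESJ.Rep.CycloMod.exists_primitiveRoot r
  have hζint : IsIntegral ℤ ζ0 := hζ0.isIntegral hr.pos
  have : FiniteDimensional ℚ (IntermediateField.adjoin ℚ {ζ0}) :=
    IntermediateField.adjoin.finiteDimensional hζint.tower_top
  have key := LineCore87.lineChar_core (Γ := GQ) (J := JZero N) (S := S) (y := y) hS hry hsc
    (ESJ.Rep.cycloMod r) ?_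
  · rcases key with h | h
    · exact Or.inl h
    · refine Or.inr fun γ ζ m hζr hζ1 hγζ => ?_
      have hζp : IsPrimitiveRoot ζ r := isPrimitiveRoot_of_prime hr hζr hζ1
      have hχ := ESJ.Rep.cycloMod_eq_natCast r γ m hζp hγζ
      have h1 : LineCore87.Rel S y γ
          ((((ESJ.Rep.cycloMod r γ : (ZMod r)ˣ) : ZMod r).val : ℕ) : ℤ) := by
        unfold LineCore87.Rel
        rw [natCast_zsmul]
        exact h γ
      have h2 : LineCore87.Rel S y γ ((m : ℕ) : ℤ) := by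
        refine LineCore87.rel_congr hry h1 (LineCore87.dvd_of_cast_eq ?_)
        rw [LineCore87.cast_val, hχ, Int.cast_natCast]
      unfold LineCore87.Rel at h2
      rwa [natCast_zsmul] at h2
  · intro γ
    obtain ⟨ℓ, A, σ, k, m, hℓ, hℓNr, -, hA, hσ, hK, hXγ, hQ⟩ :=
      hF r n hr B X hX (IntermediateField.adjoin ℚ {ζ0}) γ
    refine ⟨σ, ℓ, k, m, ?_, ?_, hXγ y hyX, hQ y hyX⟩
    · exact ESJ.Rep.cycloMod_frobenius r hℓ (fun hd => hℓNr (dvd_mul_of_dvd_right hd N)) A hA σ hσ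
    · exact cycloMod_congr r hζ0 γ (σ ^ k)
        (hK ζ0 (IntermediateField.mem_adjoin_simple_self ℚ ζ0))

/-- Row JH-B (`JHFrob13.exists_frob_quad`) gives `FrobQuad N`. -/
theorem frobQuad (N : ℕ) [NeZero N] : FrobQuad N := by
  intro r n hr B X hX K₀ _ γ
  obtain ⟨m, hm⟩ := JHFrob13.exists_frob_quad N r n hr B X hX
  obtain ⟨ℓ, A, σ, k, h1, h2, h3, h4, h5, h6, h7, h8⟩ := hm K₀ γ
  exact ⟨ℓ, A, σ, k, m, h1, h2, h3, h4, h5, h6, h7, h8⟩

/-- **(JH-χ)**: the interface Prop `JH.LineChar N`, unconditionally. -/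
theorem lineChar (N : ℕ) [NeZero N] : LineChar N :=
  lineChar_of N (frobQuad N)

end Fermat.Agent.S15P.JHLineChar87
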