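/-
S15 design cell, layer L4 (characters) — helper96.

Global facts about characters and Kummer cocycles of `G_ℚ` used to turn the local inputs
(L2: unramified outside `p r`; L3: unit classes at `r`) into the hypotheses `H`, `Htriv`, `Hmu` of
the abstract count (ACL40).
-/
import Mathlib
import Fermat.Prelude.Def_GaloisRep_ComplexConjugation
import Fermat.Prelude.Def_FLTPrelim_Ramification
import Fermat.Agent.Lib.FinFlat.Unr
import Fermat.Agent.Lib.InertiaLift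
import Fermat.Agent.Lib.PlaceConj
import Fermat.Agent.PT.G.KumH90

set_option autoImplicit false

namespace Fermat.Agent.S15P.Char96

local notation "Qb" => AlgebraicClosure ℚ
local notation "GQ" => (AlgebraicClosure ℚ ≃ₐ[ℚ] AlgebraicClosure ℚ)

/-! ### Value group lemmas -/

theorem eq_one_of_pow_eq_one {Γ₀ : Type*} [LinearOrderedCommGroupWithZero Γ₀] {g : Γ₀} {n : ℕ}
    (hn : n ≠ 0) (h : g ^ n = 1) : g = 1 := by
  rcases lt_trichotomy g 1 with h1 | h1 | h1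
  · exact absurd h (pow_lt_one₀ zero_le h1 hn).ne
  · exact h1
  · exact absurd h (one_lt_pow₀ h1 hn).ne'

/-! ### The test elements -/

open Fermat.Agent.Lib.FinFlat in
/-- Inertia at `p` fixes the roots of unity of order prime to `p`. -/
theorem inertia_apply_of_pow_eq_one {p : ℕ} (hp : p.Prime) (A : ValuationSubring Qb)
    (hA : A.LiesOverPrime p) {σ : GQ} (hσ : σ ∈ A.inertiaSubgroupIn ℚ) {m : ℕ} (hm0 : m ≠ 0)
    (hm : ¬ p ∣ m) {ζ : Qb} (hζ : ζ ^ m = 1) : σ ζ = ζ := by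
  have hcop : Nat.Coprime p m := (Nat.Prime.coprime_iff_not_dvd hp).mpr hm
  have h1 : p ^ Nat.totient m ≡ 1 [MOD m] := Nat.ModEq.pow_totient hcop
  have hN : 0 < Nat.totient m := Nat.totient_pos.mpr (Nat.pos_of_ne_zero hm0)
  have hdvd : m ∣ p ^ Nat.totient m - 1 :=
    (Nat.modEq_iff_dvd' (Nat.one_le_pow _ _ hp.pos)).mp h1.symm
  obtain ⟨k, hk⟩ := hdvd
  exact apply_eq_of_mem_inertia_of_pow_eq_one hp A hA hσ hN (by rw [hk, pow_mul, hζ, one_pow])

open Fermat.Agent.Lib.FinFlat in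
/-- Some element of the inertia group at `p` moves a given `r`-th root of `p`. -/
theorem exists_inertia_move {p : ℕ} (hp : p.Prime) (A : ValuationSubring Qb)
    (hA : A.LiesOverPrime p) {r : ℕ} (hr : 2 ≤ r) {π₀ : Qb} (hπ₀ : π₀ ^ r = (p : Qb)) :
    ∃ σ ∈ A.inertiaSubgroupIn ℚ, σ π₀ ≠ π₀ := by
  have hr0 : r ≠ 0 := by omega
  have hp0 : (p : Qb) ≠ 0 := Nat.cast_ne_zero.mpr hp.ne_zero
  have hπ₀0 : π₀ ≠ 0 := by
    rintro rfl
    rw [zero_pow hr0] at hπ₀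
    exact hp0 hπ₀.symm
  have hvp : A.valuation (p : Qb) < 1 := A.mem_nonunits_iff.mp hA
  have hvp0 : A.valuation (p : Qb) ≠ 0 := (Valuation.ne_zero_iff _).2 hp0
  by_contra hcon
  push Not at hcon
  obtain ⟨n, hn⟩ := exists_zpow_valuation_eq_of_inertia_fixed hp A hA hcon hπ₀0
  have h1 : A.valuation (p : Qb) ^ (1 : ℤ) = A.valuation (p : Qb) ^ (n * (r : ℤ)) := by
    have e1 : A.valuation (p : Qb) = A.valuation π₀ ^ r := by rw [← map_pow, hπ₀]
    rw [zpow_one, zpow_mul, zpow_natCast, ← map_zpow₀, ← hn]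
    exact e1
  have h2 : (1 : ℤ) = n * (r : ℤ) := zpow_right_injective₀ (zero_lt_iff.mpr hvp0) hvp.ne h1
  have h3 : (r : ℤ) ∣ 1 := ⟨n, by rw [mul_comm]; exact h2⟩
  have h4 := Int.le_of_dvd one_pos h3
  omega

/-- (L4-σ) Some element of the inertia group at `p` moves every `r`-th root of `p`
(`r` prime to `p`). -/
theorem exists_inertia_move_root {p : ℕ} (hp : p.Prime) (A : ValuationSubring Qb)
    (hA : A.LiesOverPrime p) (r : ℕ) (hr : 2 ≤ r) (hrp : ¬ p ∣ r) :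
    ∃ σ ∈ A.inertiaSubgroupIn ℚ, ∀ π : Qb, π ^ r = (p : Qb) → σ π ≠ π := by
  have hr0 : r ≠ 0 := by omega
  have hp0 : (p : Qb) ≠ 0 := Nat.cast_ne_zero.mpr hp.ne_zero
  obtain ⟨π₀, hπ₀⟩ := IsAlgClosed.exists_pow_nat_eq (p : Qb) (Nat.pos_of_ne_zero hr0)
  obtain ⟨σ, hσ, hσπ⟩ := exists_inertia_move hp A hA hr hπ₀
  refine ⟨σ, hσ, fun π hπ h => hσπ ?_⟩
  have hπ0 : π ≠ 0 := by
    rintro rfl
    rw [zero_pow hr0] at hπ
    exact hp0 hπ.symm
  have hω : (π₀ / π) ^ r = 1 := by rw [div_pow, hπ₀, hπ, div_self hp0]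
  have hσω := inertia_apply_of_pow_eq_one hp A hA hσ hr0 hrp hω
  have e : π₀ = (π₀ / π) * π := by field_simp
  rw [e, map_mul, hσω, h]

/-- (L4-σ, `r = 2`) Some element of the inertia group at `p` negates the square roots of `p`. -/
theorem exists_inertia_neg_sqrt {p : ℕ} (hp : p.Prime) (A : ValuationSubring Qb)
    (hA : A.LiesOverPrime p) :
    ∃ σ ∈ A.inertiaSubgroupIn ℚ, ∀ s : Qb, s ^ 2 = (p : Qb) → σ s = -s := by
  obtain ⟨π₀, hπ₀⟩ := IsAlgClosed.exists_pow_nat_eq (p : Qb) (n := 2) (by norm_num)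
  obtain ⟨σ, hσ, hσπ⟩ := exists_inertia_move hp A hA le_rfl hπ₀
  have hneg : σ π₀ = -π₀ := by
    have h1 : (σ π₀) ^ 2 = π₀ ^ 2 := by rw [← map_pow, hπ₀, map_natCast]
    have h2 : (σ π₀ - π₀) * (σ π₀ + π₀) = 0 := by ring_nf; rw [h1]; ring
    rcases mul_eq_zero.mp h2 with h | h
    · exact absurd (sub_eq_zero.mp h) hσπ
    · exact eq_neg_of_add_eq_zero_left h
  refine ⟨σ, hσ, fun s hs => ?_⟩
  have h2 : (s - π₀) * (s + π₀) = 0 := by ring_nf; rw [hs, hπ₀]; ring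
  rcases mul_eq_zero.mp h2 with h | h
  · rw [sub_eq_zero.mp h, hneg]
  · rw [eq_neg_of_add_eq_zero_left h, map_neg, hneg]

open Fermat.Agent.Lib.FrobeniusExists in
/-- Inertia at an odd `p` fixes the square roots of the integers prime to `p`
(`i`, `√2`, `√-2`, …). -/
theorem inertia_apply_sqrt {p : ℕ} (hp : p.Prime) (hp2 : p ≠ 2) (A : ValuationSubring Qb)
    (hA : A.LiesOverPrime p) {σ : GQ} (hσ : σ ∈ A.inertiaSubgroupIn ℚ) {u : ℤ}
    (hu : ¬ (p : ℤ) ∣ u) {s : Qb} (hs : s ^ 2 = (u : Qb)) : σ s = s := by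
  have hvp : A.valuation (p : Qb) < 1 := A.mem_nonunits_iff.mp hA
  have hvu : A.valuation (u : Qb) = 1 := val_intCast_eq_one A.valuation hp hvp hu
  have hv2 : A.valuation (2 : Qb) = 1 := by
    have h := val_intCast_eq_one A.valuation hp hvp (n := 2) (by
      intro h
      have h' : p ∣ 2 := by exact_mod_cast h
      exact hp2 ((Nat.prime_dvd_prime_iff_eq hp Nat.prime_two).mp h'))
    simpa using h
  have hvs : A.valuation s = 1 := by
    have h : A.valuation s ^ 2 = 1 := by rw [← map_pow, hs, hvu]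
    exact eq_one_of_pow_eq_one two_ne_zero h
  have hsA : s ∈ A := (A.valuation_le_one_iff s).mp hvs.le
  have h1 : (σ s) ^ 2 = s ^ 2 := by rw [← map_pow, hs, map_intCast]
  have h2 : (σ s - s) * (σ s + s) = 0 := by ring_nf; rw [h1]; ring
  rcases mul_eq_zero.mp h2 with h | h
  · exact sub_eq_zero.mp h
  · exfalso
    have h3 : σ s = -s := eq_neg_of_add_eq_zero_left h
    have h4 := ((Fermat.Agent.PT.Levels.mem_inertiaSubgroupIn_iff A σ).mp hσ).2 s hsA
    rw [h3, A.mem_nonunits_iff] at h4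
    have h5 : A.valuation (-s - s) = 1 := by
      have e : -s - s = -(2 * s) := by ring
      rw [e, Valuation.map_neg, map_mul, hv2, hvs, one_mul]
    rw [h5] at h4
    exact lt_irrefl _ h4

/-- (L4-c) Complex conjugation fixes the square roots of positive rationals. -/
theorem complexConjugation_sqrt_pos {u : ℚ} (hu : 0 < u) {s : Qb} (hs : s ^ 2 = (u : Qb)) :
    complexConjugation s = s := by
  apply complexEmbedding.toRingHom.injective
  show complexEmbedding (complexConjugation s) = complexEmbedding s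
  rw [complexEmbedding_complexConjugation]
  have h1 : (complexEmbedding s) ^ 2 = (u : ℂ) := by rw [← map_pow, hs, map_ratCast]
  have hu' : (0 : ℝ) ≤ (u : ℝ) := by exact_mod_cast hu.le
  have h2 : (complexEmbedding s - (Real.sqrt u : ℂ)) * (complexEmbedding s + (Real.sqrt u : ℂ)) = 0 := by
    have h3 : ((Real.sqrt u : ℝ) : ℂ) ^ 2 = (u : ℂ) := by
      rw [← Complex.ofReal_pow, Real.sq_sqrt hu']; push_cast; rfl
    ring_nf
    rw [h1, h3]; ring
  rcases mul_eq_zero.mp h2 with h | h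
  · rw [sub_eq_zero.mp h, Complex.conj_ofReal]
  · rw [eq_neg_of_add_eq_zero_left h, map_neg, Complex.conj_ofReal]

/-- (L4-c) Complex conjugation negates the square roots of negative rationals. -/
theorem complexConjugation_sqrt_neg {u : ℚ} (hu : u < 0) {s : Qb} (hs : s ^ 2 = (u : Qb)) :
    complexConjugation s = -s := by
  apply complexEmbedding.toRingHom.injective
  show complexEmbedding (complexConjugation s) = complexEmbedding (-s)
  rw [complexEmbedding_complexConjugation, map_neg]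
  have h1 : (complexEmbedding s) ^ 2 = (u : ℂ) := by rw [← map_pow, hs, map_ratCast]
  have hu' : (0 : ℝ) ≤ -(u : ℝ) := by
    have : (u : ℝ) < 0 := by exact_mod_cast hu
    linarith
  set w : ℂ := Complex.I * (Real.sqrt (-(u : ℝ)) : ℂ) with hw
  have hw2 : w ^ 2 = (u : ℂ) := by
    rw [hw, mul_pow, Complex.I_sq, ← Complex.ofReal_pow, Real.sq_sqrt hu']; push_cast; ring
  have hwc : starRingEnd ℂ w = -w := by
    rw [hw, map_mul, Complex.conj_I, Complex.conj_ofReal]; ring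
  have h2 : (complexEmbedding s - w) * (complexEmbedding s + w) = 0 := by
    ring_nf
    rw [h1, hw2]; ring
  rcases mul_eq_zero.mp h2 with h | h
  · rw [sub_eq_zero.mp h, hwc]
  · rw [eq_neg_of_add_eq_zero_left h, map_neg, hwc]

/-! ### `r = 2` -/

/-- Every nonzero rational is `± a t²` with `a` a squarefree natural number. -/
theorem rat_sq_repr (e : ℚ) (he : e ≠ 0) :
    ∃ (a : ℕ) (t : ℚ), Squarefree a ∧ t ≠ 0 ∧ (e = a * t ^ 2 ∨ e = -(a * t ^ 2)) := by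
  have hnum : e.num ≠ 0 := Rat.num_ne_zero.mpr he
  have hden : e.den ≠ 0 := e.den_nz
  have hpos : 0 < e.num.natAbs * e.den :=
    Nat.mul_pos (Int.natAbs_pos.mpr hnum) (Nat.pos_of_ne_zero hden)
  obtain ⟨a, b, -, hb, hab, hsq⟩ := Nat.sq_mul_squarefree_of_pos hpos
  have hd : (e.den : ℚ) ≠ 0 := by exact_mod_cast hden
  have hb0 : (b : ℚ) ≠ 0 := by exact_mod_cast hb.ne'
  refine ⟨a, (b : ℚ) / e.den, hsq, div_ne_zero hb0 hd, ?_⟩
  have h1 : ((b : ℚ)) ^ 2 * a = (e.num.natAbs : ℚ) * e.den := by exact_mod_cast hab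
  have key : (a : ℚ) * ((b : ℚ) / e.den) ^ 2 = (e.num.natAbs : ℚ) / e.den := by
    field_simp
    linarith
  have he' : e = (e.num : ℚ) / e.den := (Rat.num_div_den e).symm
  rcases Int.natAbs_eq e.num with h | h
  · left
    have hn : (e.num : ℚ) = (e.num.natAbs : ℚ) := by
      have := congrArg (Int.cast : ℤ → ℚ) h
      simpa using this
    rw [key, ← hn]
    exact he'
  · right
    have hn : (e.num : ℚ) = -(e.num.natAbs : ℚ) := by
      have := congrArg (Int.cast : ℤ → ℚ) h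
      simpa using this
    rw [key, ← neg_div, ← hn]
    exact he'

/-- Kummer form of a quadratic character of `G_ℚ`. -/
theorem exists_sqrt_of_quadChar (δ : GQ → ZMod 2) (hδ : ∀ g h : GQ, δ (g * h) = δ g + δ h)
    (F : IntermediateField ℚ Qb) [FiniteDimensional ℚ F]
    (hF : ∀ g s : GQ, s ∈ F.fixingSubgroup → δ (g * s) = δ g) :
    ∃ α : Qb, α ≠ 0 ∧ (∃ e : ℚ, e ≠ 0 ∧ α ^ 2 = (e : Qb)) ∧
      ∀ g : GQ, (δ g = 0 → g α = α) ∧ (δ g ≠ 0 → g α = -α) := by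
  have : Fact (Nat.Prime 2) := ⟨Nat.prime_two⟩
  have hmem : ∀ g : GQ, g ∈ (⊥ : IntermediateField ℚ Qb).fixingSubgroup := by
    intro g
    rw [IntermediateField.mem_fixingSubgroup_iff]
    intro x hx
    obtain ⟨q, rfl⟩ := IntermediateField.mem_bot.mp hx
    exact g.commutes q
  have hζ : IsPrimitiveRoot (-1 : Qb) 2 := IsPrimitiveRoot.neg_one 0 (by norm_num)
  obtain ⟨α, hα0, hα2, hα⟩ := Fermat.Agent.PT.Kummer.exists_root_of_character 2
    (⊥ : IntermediateField ℚ Qb) hζ (neg_mem (one_mem _)) δ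
    (fun g _ h _ => hδ g h) F (fun g _ s _ hs => hF g s hs)
  obtain ⟨e, he⟩ := IntermediateField.mem_bot.mp hα2
  have he' : α ^ 2 = (e : Qb) := by rw [← he]; exact (eq_ratCast (algebraMap ℚ Qb) e)
  refine ⟨α, hα0, ⟨e, ?_, he'⟩, fun g => ⟨fun h => ?_, fun h => ?_⟩⟩
  · rintro rfl
    rw [Rat.cast_zero] at he'
    exact hα0 (pow_eq_zero_iff (two_ne_zero) |>.mp he')
  · rw [hα g (hmem g), h]; simp
  · have h1 : δ g = 1 := by
      generalize δ g = x at h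
      fin_cases x
      · exact absurd rfl h
      · rfl
    rw [hα g (hmem g), h1]
    simp [ZMod.val_one]

open Fermat.Agent.Lib.FinFlat Fermat.Agent.Lib.FrobeniusExists in
/-- Core of (L4-2): the character of a square root of `± a`, `a` squarefree. -/
theorem quadChar_core {p : ℕ} (hp : p.Prime) (hp2 : p ≠ 2) (δ : GQ → ZMod 2)
    (hunr : ∀ ℓ : ℕ, ℓ.Prime → ℓ ≠ 2 → ℓ ≠ p → ∀ B : ValuationSubring Qb, B.LiesOverPrime ℓ →
      ∀ τ ∈ B.inertiaSubgroupIn ℚ, δ τ = 0)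
    (P : ValuationSubring Qb)
    (h2 : ∀ θ : Qb, (∀ τ ∈ P.inertiaSubgroupIn ℚ, τ θ = θ ∨ τ θ = -θ) →
      (∀ τ ∈ P.inertiaSubgroupIn ℚ, (τ θ = θ ↔ δ τ = 0)) → P.valuation θ ^ 2 ≠ P.valuation 2)
    (A : ValuationSubring Qb) (hA : A.LiesOverPrime p) (σ : GQ) (hσ : σ ∈ A.inertiaSubgroupIn ℚ)
    (hσp : ∀ s : Qb, s ^ 2 = (p : Qb) → σ s = -s) (hδσ : δ σ = 0)
    (hδc : δ complexConjugation = 0)
    (β : Qb) (hβ0 : β ≠ 0) (hβ : ∀ g : GQ, (δ g = 0 → g β = β) ∧ (δ g ≠ 0 → g β = -β))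
    (a : ℕ) (ha : Squarefree a) (ε : ℤ) (hε : ε = 1 ∨ ε = -1)
    (hβ2 : β ^ 2 = ((ε * (a : ℤ) : ℤ) : Qb)) : ∀ γ : GQ, δ γ = 0 := by
  -- `δ g = 0` iff `g` fixes `β`
  have hfix : ∀ g : GQ, g β = β → δ g = 0 := by
    intro g hg
    by_contra h
    have h1 := (hβ g).2 h
    rw [hg] at h1
    have h2 : (2 : Qb) * β = 0 := by linear_combination h1
    rcases mul_eq_zero.mp h2 with h3 | h3
    · exact two_ne_zero h3
    · exact hβ0 h3
  have hfix' : ∀ g : GQ, δ g = 0 → g β ≠ -β := by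
    intro g hg h1
    rw [(hβ g).1 hg] at h1
    have h2 : (2 : Qb) * β = 0 := by linear_combination h1
    rcases mul_eq_zero.mp h2 with h3 | h3
    · exact two_ne_zero h3
    · exact hβ0 h3
  have hεv : ∀ B : ValuationSubring Qb, B.valuation ((ε : ℤ) : Qb) = 1 := by
    intro B
    rcases hε with rfl | rfl
    · simp
    · simp
  -- (i) the prime factors of `a` other than `p` are `2`
  have h_i : ∀ q : ℕ, q.Prime → q ∣ a → q ≠ p → q = 2 := by
    intro q hq hqa hqp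
    by_contra hq2
    obtain ⟨B, hB⟩ := exists_liesOverPrime hq
    have hvq : B.valuation (q : Qb) < 1 := B.mem_nonunits_iff.mp hB
    have hq0 : (q : Qb) ≠ 0 := Nat.cast_ne_zero.mpr hq.ne_zero
    have hvq0 : B.valuation (q : Qb) ≠ 0 := (Valuation.ne_zero_iff _).2 hq0
    have hinert : ∀ τ ∈ B.inertiaSubgroupIn ℚ, τ β = β := fun τ hτ =>
      (hβ τ).1 (hunr q hq hq2 hqp B hB τ hτ)
    obtain ⟨n, hn⟩ := exists_zpow_valuation_eq_of_inertia_fixed hq B hB hinert hβ0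
    obtain ⟨a', rfl⟩ := hqa
    have hqa' : ¬ (q : ℤ) ∣ (a' : ℤ) := by
      intro h
      have h' : q ∣ a' := by exact_mod_cast h
      obtain ⟨c, rfl⟩ := h'
      have : IsUnit q := ha q ⟨c, by ring⟩
      exact hq.one_lt.ne' (Nat.isUnit_iff.mp this)
    have hva' : B.valuation ((a' : ℤ) : Qb) = 1 := val_intCast_eq_one B.valuation hq hvq hqa'
    have h1 : B.valuation (q : Qb) ^ (1 : ℤ) = B.valuation (q : Qb) ^ (n * 2) := by
      have e1 : B.valuation β ^ 2 = B.valuation (q : Qb) := by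
        rw [← map_pow, hβ2]
        push_cast
        rw [map_mul, map_mul, hεv B]
        have : B.valuation ((a' : ℕ) : Qb) = 1 := by simpa using hva'
        rw [this, one_mul, mul_one]
      rw [zpow_one, zpow_mul, ← map_zpow₀, ← hn]
      exact e1.symm
    have h3 : (1 : ℤ) = n * 2 := zpow_right_injective₀ (zero_lt_iff.mpr hvq0) hvq.ne h1
    omega
  -- (ii) `p ∤ a`
  have h_ii : ¬ p ∣ a := by
    rintro ⟨a', rfl⟩
    have hpa' : ¬ (p : ℤ) ∣ ε * (a' : ℤ) := by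
      intro h
      have h1 : (p : ℤ) ∣ (a' : ℤ) := by
        rcases hε with rfl | rfl
        · simpa using h
        · simpa using h
      have h' : p ∣ a' := by exact_mod_cast h1
      obtain ⟨c, rfl⟩ := h'
      have : IsUnit p := ha p ⟨c, by ring⟩
      exact hp.one_lt.ne' (Nat.isUnit_iff.mp this)
    obtain ⟨π, hπ⟩ := IsAlgClosed.exists_pow_nat_eq (p : Qb) (n := 2) (by norm_num)
    have hp0 : (p : Qb) ≠ 0 := Nat.cast_ne_zero.mpr hp.ne_zero
    have hπ0 : π ≠ 0 := by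
      rintro rfl
      rw [zero_pow two_ne_zero] at hπ
      exact hp0 hπ.symm
    have hq : (β / π) ^ 2 = ((ε * (a' : ℤ) : ℤ) : Qb) := by
      rw [div_pow, hβ2, hπ]
      push_cast
      field_simp
    have h1 : σ (β / π) = β / π := inertia_apply_sqrt hp hp2 A hA hσ hpa' hq
    have h2 : σ β = -β := by
      have e : β = (β / π) * π := by field_simp
      rw [e, map_mul, h1, hσp π hπ]
      ring
    exact hfix' σ hδσ h2
  -- (iii) `a = 1` or `a = 2`
  have h_iii : a = 1 ∨ a = 2 := by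
    by_cases ha1 : a = 1
    · exact Or.inl ha1
    right
    obtain ⟨q, hq, hqa⟩ := Nat.exists_prime_and_dvd ha1
    have hq2 : q = 2 := h_i q hq hqa (fun h => h_ii (h ▸ hqa))
    subst hq2
    obtain ⟨a', rfl⟩ := hqa
    by_cases ha'1 : a' = 1
    · rw [ha'1]
    exfalso
    obtain ⟨q', hq', hq'a⟩ := Nat.exists_prime_and_dvd ha'1
    have hq'2 : q' = 2 := h_i q' hq' (Dvd.dvd.mul_left hq'a 2) (fun h => h_ii (h ▸ Dvd.dvd.mul_left hq'a 2))
    subst hq'2
    obtain ⟨c, rfl⟩ := hq'a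
    have : IsUnit 2 := ha 2 ⟨c, by ring⟩
    exact absurd (Nat.isUnit_iff.mp this) (by norm_num)
  have ha0 : (0 : ℚ) < (a : ℚ) := by
    rcases h_iii with h | h <;> rw [h] <;> norm_num
  -- (iv) `ε = 1`
  have h_iv : ε = 1 := by
    rcases hε with h | h
    · exact h
    exfalso
    have hβ2' : β ^ 2 = ((-(a : ℚ) : ℚ) : Qb) := by
      rw [hβ2, h]; push_cast; ring
    have h1 := complexConjugation_sqrt_neg (u := -(a : ℚ)) (by linarith) hβ2'
    exact hfix' complexConjugation hδc h1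
  subst h_iv
  -- (v) `a ≠ 2`
  have h_v : a = 1 := by
    rcases h_iii with h | h
    · exact h
    exfalso
    subst h
    have hβ2' : β ^ 2 = 2 := by rw [hβ2]; push_cast; ring
    have hpm : ∀ g : GQ, g β = β ∨ g β = -β := by
      intro g
      by_cases hg : δ g = 0
      · exact Or.inl ((hβ g).1 hg)
      · exact Or.inr ((hβ g).2 hg)
    refine h2 β (fun τ _ => hpm τ) (fun τ _ => ⟨hfix τ, (hβ τ).1⟩) ?_
    rw [← map_pow, hβ2']
  subst h_v
  -- (vi) `β = ± 1`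
  have hβ2' : β ^ 2 = 1 := by rw [hβ2]; push_cast; ring
  intro γ
  apply hfix
  have h1 : (β - 1) * (β + 1) = 0 := by ring_nf; rw [hβ2']; ring
  rcases mul_eq_zero.mp h1 with h | h
  · rw [sub_eq_zero.mp h, map_one]
  · rw [eq_neg_of_add_eq_zero_left h, map_neg, map_one]

/-- (L4-2) **The quadratic characters.** An additive level-constant `δ : G_ℚ → ℤ/2` which is
trivial on inertia at every odd `ℓ ≠ p`, is not the character of a `θ` with `v(θ)² = v(2)` on the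
inertia group of one place `P` over `2`, and kills `σ` (an element of inertia at `p` negating
`√p`) and complex conjugation, is zero. -/
theorem quadChar_eq_zero' {p : ℕ} (hp : p.Prime) (hp2 : p ≠ 2) (δ : GQ → ZMod 2)
    (hδ : ∀ g h : GQ, δ (g * h) = δ g + δ h)
    (F : IntermediateField ℚ Qb) [FiniteDimensional ℚ F]
    (hF : ∀ g s : GQ, s ∈ F.fixingSubgroup → δ (g * s) = δ g)
    (hunr : ∀ ℓ : ℕ, ℓ.Prime → ℓ ≠ 2 → ℓ ≠ p → ∀ B : ValuationSubring Qb, B.LiesOverPrime ℓ →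
      ∀ τ ∈ B.inertiaSubgroupIn ℚ, δ τ = 0)
    (P : ValuationSubring Qb)
    (h2 : ∀ θ : Qb, (∀ τ ∈ P.inertiaSubgroupIn ℚ, τ θ = θ ∨ τ θ = -θ) →
      (∀ τ ∈ P.inertiaSubgroupIn ℚ, (τ θ = θ ↔ δ τ = 0)) → P.valuation θ ^ 2 ≠ P.valuation 2)
    (A : ValuationSubring Qb) (hA : A.LiesOverPrime p) (σ : GQ) (hσ : σ ∈ A.inertiaSubgroupIn ℚ)
    (hσp : ∀ s : Qb, s ^ 2 = (p : Qb) → σ s = -s) (hδσ : δ σ = 0)
    (hδc : δ complexConjugation = 0) : ∀ γ : GQ, δ γ = 0 := by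
  obtain ⟨α, hα0, ⟨e, he0, he⟩, hα⟩ := exists_sqrt_of_quadChar δ hδ F hF
  obtain ⟨a, t, ha, ht0, hat⟩ := rat_sq_repr e he0
  have ht0' : (t : Qb) ≠ 0 := by exact_mod_cast ht0
  have hβ : ∀ g : GQ, (δ g = 0 → g (α / (t : Qb)) = α / (t : Qb)) ∧
      (δ g ≠ 0 → g (α / (t : Qb)) = -(α / (t : Qb))) := by
    intro g
    refine ⟨fun h => ?_, fun h => ?_⟩
    · rw [map_div₀, (hα g).1 h, map_ratCast]
    · rw [map_div₀, (hα g).2 h, map_ratCast, neg_div]
  rcases hat with h | h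
  · refine quadChar_core hp hp2 δ hunr P h2 A hA σ hσ hσp hδσ hδc (α / (t : Qb))
      (div_ne_zero hα0 ht0') hβ a ha 1 (Or.inl rfl) ?_
    rw [div_pow, he, h]
    push_cast
    field_simp
  · refine quadChar_core hp hp2 δ hunr P h2 A hA σ hσ hσp hδσ hδc (α / (t : Qb))
      (div_ne_zero hα0 ht0') hβ a ha (-1) (Or.inr rfl) ?_
    rw [div_pow, he, h]
    push_cast
    field_simp

set_option linter.unusedVariables false in
/-- (L4-2), literal of report #4924 (with the unused hypothesis `hP`). -/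
theorem quadChar_eq_zero {p : ℕ} (hp : p.Prime) (hp2 : p ≠ 2) (δ : GQ → ZMod 2)
    (hδ : ∀ g h : GQ, δ (g * h) = δ g + δ h)
    (F : IntermediateField ℚ Qb) [FiniteDimensional ℚ F]
    (hF : ∀ g s : GQ, s ∈ F.fixingSubgroup → δ (g * s) = δ g)
    (hunr : ∀ ℓ : ℕ, ℓ.Prime → ℓ ≠ 2 → ℓ ≠ p → ∀ B : ValuationSubring Qb, B.LiesOverPrime ℓ →
      ∀ τ ∈ B.inertiaSubgroupIn ℚ, δ τ = 0)
    (P : ValuationSubring Qb) (hP : P.LiesOverPrime 2)
    (h2 : ∀ θ : Qb, (∀ τ ∈ P.inertiaSubgroupIn ℚ, τ θ = θ ∨ τ θ = -θ) →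
      (∀ τ ∈ P.inertiaSubgroupIn ℚ, (τ θ = θ ↔ δ τ = 0)) → P.valuation θ ^ 2 ≠ P.valuation 2)
    (A : ValuationSubring Qb) (hA : A.LiesOverPrime p) (σ : GQ) (hσ : σ ∈ A.inertiaSubgroupIn ℚ)
    (hσp : ∀ s : Qb, s ^ 2 = (p : Qb) → σ s = -s) (hδσ : δ σ = 0)
    (hδc : δ complexConjugation = 0) : ∀ γ : GQ, δ γ = 0 :=
  quadChar_eq_zero' hp hp2 δ hδ F hF hunr P h2 A hA σ hσ hσp hδσ hδc

open Fermat.Agent.Lib.FinFlat in
/-- (L3 → L4 bridge, `r = 2`) If the restriction of `δ` to the inertia group of `P ∣ 2` is the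
quadratic character of the square root `β` of a `P`-unit, then the hypothesis `h2` of
`quadChar_eq_zero` holds. -/
theorem valuation_sq_ne_of_unit_root (P : ValuationSubring Qb) (hP : P.LiesOverPrime 2)
    (δ : GQ → ZMod 2) {β : Qb} (hβ : P.valuation β = 1)
    (hβδ : ∀ τ ∈ P.inertiaSubgroupIn ℚ, (δ τ = 0 → τ β = β) ∧ (δ τ ≠ 0 → τ β = -β)) :
    ∀ θ : Qb, (∀ τ ∈ P.inertiaSubgroupIn ℚ, τ θ = θ ∨ τ θ = -θ) →
      (∀ τ ∈ P.inertiaSubgroupIn ℚ, (τ θ = θ ↔ δ τ = 0)) →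
      P.valuation θ ^ 2 ≠ P.valuation 2 := by
  intro θ hθ1 hθ2
  have h20 : (2 : Qb) ≠ 0 := two_ne_zero
  have hv2 : P.valuation (2 : Qb) < 1 := by
    have := P.mem_nonunits_iff.mp hP
    simpa using this
  have hv20 : P.valuation (2 : Qb) ≠ 0 := (Valuation.ne_zero_iff _).2 h20
  by_cases hθ0 : θ = 0
  · rw [hθ0, map_zero, zero_pow two_ne_zero]
    exact hv20.symm
  have hβ0 : β ≠ 0 := by
    rintro rfl
    rw [map_zero] at hβ
    exact zero_ne_one hβ
  have hfix : ∀ τ ∈ P.inertiaSubgroupIn ℚ, τ (θ / β) = θ / β := by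
    intro τ hτ
    by_cases h : δ τ = 0
    · rw [map_div₀, (hθ2 τ hτ).mpr h, (hβδ τ hτ).1 h]
    · have h1 : τ θ = -θ := (hθ1 τ hτ).resolve_left (fun h' => h ((hθ2 τ hτ).mp h'))
      rw [map_div₀, h1, (hβδ τ hτ).2 h, neg_div_neg_eq]
  obtain ⟨n, hn⟩ := exists_zpow_valuation_eq_of_inertia_fixed Nat.prime_two P hP hfix
    (div_ne_zero hθ0 hβ0)
  rw [map_div₀, hβ, div_one] at hn
  intro hcon
  have h1 : P.valuation (2 : Qb) ^ (n * 2) = P.valuation (2 : Qb) ^ (1 : ℤ) := by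
    rw [zpow_one, zpow_mul, ← map_zpow₀, ← hcon, hn]
    push_cast
    rfl
  have h2 : n * 2 = (1 : ℤ) := zpow_right_injective₀ (zero_lt_iff.mpr hv20) hv2.ne h1
  omega

/-! ### `r` odd -/

/-- A root of unity of order prime to the residue characteristic which is `≡ 1` modulo the
maximal ideal is `1`. -/
theorem eq_one_of_val_sub_one_lt {K : Type*} [Field K] {Γ₀ : Type*}
    [LinearOrderedCommGroupWithZero Γ₀] (v : Valuation K Γ₀) {ξ : K} {n : ℕ}
    (hξ : v (ξ - 1) < 1) (hn : v (n : K) = 1) (hpow : ξ ^ n = 1) : ξ = 1 := by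
  have hn0 : n ≠ 0 := by
    rintro rfl
    rw [Nat.cast_zero, map_zero] at hn
    exact zero_ne_one hn
  have hvξ : v ξ = 1 := eq_one_of_pow_eq_one hn0 (by rw [← map_pow, hpow, map_one])
  have hk : ∀ k : ℕ, v (ξ ^ k - 1) < 1 := by
    intro k
    induction k with
    | zero => simp
    | succ k ih =>
      have e : ξ ^ (k + 1) - 1 = ξ * (ξ ^ k - 1) + (ξ - 1) := by ring
      rw [e]
      refine lt_of_le_of_lt (v.map_add _ _) (max_lt ?_ hξ)
      rw [map_mul, hvξ, one_mul]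
      exact ih
  by_contra hne
  have h1 : (ξ - 1) * ∑ k ∈ Finset.range n, ξ ^ k = 0 := by rw [mul_geom_sum, hpow, sub_self]
  have h2 : ∑ k ∈ Finset.range n, ξ ^ k = 0 :=
    (mul_eq_zero.mp h1).resolve_left (sub_ne_zero.mpr hne)
  have h3 : ∑ k ∈ Finset.range n, ξ ^ k = (n : K) + ∑ k ∈ Finset.range n, (ξ ^ k - 1) := by
    rw [Finset.sum_sub_distrib, Finset.sum_const, Finset.card_range, nsmul_eq_mul, mul_one]
    ring
  have h4 : v (∑ k ∈ Finset.range n, (ξ ^ k - 1)) < 1 :=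
    Valuation.map_sum_lt v one_ne_zero (fun k _ => hk k)
  have h5 : v ((n : K) + ∑ k ∈ Finset.range n, (ξ ^ k - 1)) = v (n : K) :=
    Valuation.map_add_eq_of_lt_left v (by rw [hn]; exact h4)
  rw [← h3, h2, map_zero, hn] at h5
  exact zero_ne_one h5

open Fermat.Agent.Lib.FrobeniusExists in
/-- Inertia at `p` fixes a unit whose `r`-th power it fixes (`p ∤ r`). -/
theorem inertia_apply_of_pow_fixed {p : ℕ} (hp : p.Prime) (A : ValuationSubring Qb)
    (hA : A.LiesOverPrime p) {τ : GQ} (hτ : τ ∈ A.inertiaSubgroupIn ℚ) {r : ℕ} (hrp : ¬ p ∣ r)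
    {u : Qb} (hvu : A.valuation u = 1) (hur : τ (u ^ r) = u ^ r) : τ u = u := by
  have hvp : A.valuation (p : Qb) < 1 := A.mem_nonunits_iff.mp hA
  have hvr : A.valuation ((r : ℕ) : Qb) = 1 := by
    have := val_intCast_eq_one A.valuation hp hvp (n := (r : ℤ)) (by exact_mod_cast hrp)
    simpa using this
  have hu0 : u ≠ 0 := by
    rintro rfl
    rw [map_zero] at hvu
    exact zero_ne_one hvu
  have huA : u ∈ A := (A.valuation_le_one_iff u).mp hvu.le
  have h1 := ((Fermat.Agent.PT.Levels.mem_inertiaSubgroupIn_iff A τ).mp hτ).2 u huA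
  rw [A.mem_nonunits_iff] at h1
  have h2 : A.valuation (τ u / u - 1) < 1 := by
    have e : τ u / u - 1 = (τ u - u) / u := by field_simp
    rw [e, map_div₀, hvu, div_one]
    exact h1
  have h3 : (τ u / u) ^ r = 1 := by
    rw [div_pow, ← map_pow, hur, div_self (pow_ne_zero _ hu0)]
  have h4 := eq_one_of_val_sub_one_lt A.valuation h2 hvr h3
  exact (div_eq_one_iff_eq hu0).mp h4

/-- An automorphism fixing `ζ` fixes `ℚ(ζ)`. -/
theorem mem_fixingSubgroup_adjoin_simple {ζ : Qb} {τ : GQ} (h : τ ζ = ζ) :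
    τ ∈ (IntermediateField.adjoin ℚ {ζ}).fixingSubgroup := by
  rw [IntermediateField.mem_fixingSubgroup_iff]
  intro x hx
  induction hx using IntermediateField.adjoin_induction with
  | mem x hx => rw [Set.mem_singleton_iff.mp hx]; exact h
  | algebraMap x => exact τ.commutes x
  | add x y _ _ hx hy => rw [map_add, hx, hy]
  | inv x _ hx => rw [map_inv₀, hx]
  | mul x y _ _ hx hy => rw [map_mul, hx, hy]

/-- An `r`-th root of unity `≠ 1` (`r` prime) is primitive. -/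
theorem isPrimitiveRoot_of_prime {r : ℕ} [Fact r.Prime] {ω : Qb} (h : ω ^ r = 1) (h1 : ω ≠ 1) :
    IsPrimitiveRoot ω r := by
  have := IsPrimitiveRoot.orderOf ω
  rwa [orderOf_eq_prime h h1] at this

/-- A character of `G_ℚ` which is trivial on the inertia group of one place over `ℓ` is trivial
on the inertia groups of all places over `ℓ`. -/
theorem char_inertia_of_place {r : ℕ} {ℓ : ℕ} (hℓ : ℓ.Prime) (δ : GQ → ZMod r)
    (hδ : ∀ g h : GQ, δ (g * h) = δ g + δ h) (A : ValuationSubring Qb) (hA : A.LiesOverPrime ℓ)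
    (h : ∀ τ ∈ A.inertiaSubgroupIn ℚ, δ τ = 0) (B : ValuationSubring Qb)
    (hB : B.LiesOverPrime ℓ) : ∀ τ ∈ B.inertiaSubgroupIn ℚ, δ τ = 0 := by
  intro τ hτ
  obtain ⟨g, -, hg, -⟩ := Fermat.Agent.Lib.PlaceConj.exists_conj hℓ A B hA hB
  have e : τ = g * (g⁻¹ * τ * g) * g⁻¹ := by group
  have h1 : g⁻¹ * τ * g ∈ A.inertiaSubgroupIn ℚ := by
    rw [← hg, ← e]
    exact hτ
  have h0 : δ 1 = 0 := by
    have := hδ 1 1
    rw [mul_one] at this
    exact left_eq_add.mp this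
  have h2 : δ g + δ g⁻¹ = 0 := by rw [← hδ, mul_inv_cancel, h0]
  rw [e, hδ, hδ, h _ h1, add_zero, h2]

open Fermat.Agent.Lib.FinFlat Fermat.Agent.PT.Kummer in
/-- (L4-Z) **Trivial steps.** An additive level-constant `δ : G_ℚ → ℤ/r` which is trivial
on inertia at every `ℓ ≠ p` and kills one element `σ` of inertia at `p` moving the `r`-th roots of
`p`, is zero. -/
theorem char_eq_zero_of_sigma {p r : ℕ} (hp : p.Prime) [Fact r.Prime] (hrp : r ≠ p)
    (δ : GQ → ZMod r) (hδ : ∀ g h : GQ, δ (g * h) = δ g + δ h)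
    (F : IntermediateField ℚ Qb) [FiniteDimensional ℚ F]
    (hF : ∀ g s : GQ, s ∈ F.fixingSubgroup → δ (g * s) = δ g)
    (hunr : ∀ ℓ : ℕ, ℓ.Prime → ℓ ≠ p → ∀ B : ValuationSubring Qb, B.LiesOverPrime ℓ →
      ∀ τ ∈ B.inertiaSubgroupIn ℚ, δ τ = 0)
    (A : ValuationSubring Qb) (hA : A.LiesOverPrime p) (σ : GQ) (hσ : σ ∈ A.inertiaSubgroupIn ℚ)
    (hσp : ∀ π : Qb, π ^ r = (p : Qb) → σ π ≠ π) (hδσ : δ σ = 0) : ∀ γ : GQ, δ γ = 0 := by
  have hr : r.Prime := Fact.out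
  have : NeZero r := ⟨hr.ne_zero⟩
  have hpr : ¬ p ∣ r := fun h => hrp ((Nat.prime_dvd_prime_iff_eq hp hr).mp h).symm
  have hp0 : (p : Qb) ≠ 0 := Nat.cast_ne_zero.mpr hp.ne_zero
  have h0 : δ 1 = 0 := by
    have := hδ 1 1
    rw [mul_one] at this
    exact left_eq_add.mp this
  -- Kummer theory over `ℚ(ζ)`
  obtain ⟨ζ, hζ⟩ := HasEnoughRootsOfUnity.exists_primitiveRoot Qb r
  obtain ⟨α, hα0, hαM, hα⟩ := exists_root_of_character r (IntermediateField.adjoin ℚ {ζ}) hζ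
    (IntermediateField.mem_adjoin_simple_self ℚ ζ) δ (fun g _ h _ => hδ g h) F
    (fun g _ s _ hs => hF g s hs)
  have hIM : ∀ τ ∈ A.inertiaSubgroupIn ℚ, τ ∈ (IntermediateField.adjoin ℚ {ζ}).fixingSubgroup :=
    fun τ hτ => mem_fixingSubgroup_adjoin_simple
      (inertia_apply_of_pow_eq_one hp A hA hτ hr.ne_zero hpr hζ.pow_eq_one)
  have hαfix : ∀ τ ∈ A.inertiaSubgroupIn ℚ, τ (α ^ r) = α ^ r := fun τ hτ =>
    (mem_iff_forall_apply_eq _ _).mp hαM τ (hIM τ hτ)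
  obtain ⟨n, hn⟩ := exists_zpow_valuation_eq_of_inertia_fixed hp A hA hαfix (pow_ne_zero r hα0)
  obtain ⟨π, hπ⟩ := IsAlgClosed.exists_pow_nat_eq (p : Qb) hr.pos
  have hπ0 : π ≠ 0 := by
    rintro rfl
    rw [zero_pow hr.ne_zero] at hπ
    exact hp0 hπ.symm
  have hπn0 : π ^ n ≠ 0 := zpow_ne_zero n hπ0
  obtain ⟨u, hu⟩ : ∃ u : Qb, u = α / π ^ n := ⟨_, rfl⟩
  have hαu : α = u * π ^ n := by rw [hu, div_mul_cancel₀ _ hπn0]
  have hur : u ^ r = α ^ r / (p : Qb) ^ n := by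
    rw [hu, div_pow, ← zpow_natCast (π ^ n) r, ← zpow_mul, mul_comm, zpow_mul, zpow_natCast, hπ]
  have hvu : A.valuation u = 1 := by
    apply eq_one_of_pow_eq_one hr.ne_zero
    rw [← map_pow, hur, map_div₀, hn, div_self]
    exact (Valuation.ne_zero_iff _).2 (zpow_ne_zero n hp0)
  have hu0 : u ≠ 0 := by
    rintro rfl
    rw [map_zero] at hvu
    exact zero_ne_one hvu
  have hτu : ∀ τ ∈ A.inertiaSubgroupIn ℚ, τ u = u := by
    intro τ hτ
    apply inertia_apply_of_pow_fixed hp A hA hτ hpr hvu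
    rw [hur, map_div₀, hαfix τ hτ, map_zpow₀, map_natCast]
  have key : ∀ τ ∈ A.inertiaSubgroupIn ℚ, τ π ^ n = ζ ^ (δ τ).val * π ^ n := by
    intro τ hτ
    have h1 := hα τ (hIM τ hτ)
    rw [hαu, map_mul, hτu τ hτ, map_zpow₀] at h1
    apply mul_left_cancel₀ hu0
    rw [h1, mul_left_comm]
  -- `r ∣ n`
  have hσn : (σ π / π) ^ n = 1 := by
    rw [div_zpow, key σ hσ, hδσ, ZMod.val_zero, pow_zero, one_mul, div_self hπn0]
  have hω : IsPrimitiveRoot (σ π / π) r := by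
    apply isPrimitiveRoot_of_prime
    · rw [div_pow, ← map_pow, hπ, map_natCast, div_self hp0]
    · intro h
      exact hσp π hπ ((div_eq_one_iff_eq hπ0).mp h)
  obtain ⟨n', hn'⟩ := (hω.zpow_eq_one_iff_dvd n).mp hσn
  have hpn : ∀ x : Qb, x ^ r = (p : Qb) → x ^ n = (p : Qb) ^ n' := by
    intro x hx
    rw [hn', zpow_mul, zpow_natCast, hx]
  -- `δ` is trivial on inertia at `A`
  have hA0 : ∀ τ ∈ A.inertiaSubgroupIn ℚ, δ τ = 0 := by
    intro τ hτ
    have h1 := key τ hτ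
    rw [hpn π hπ, hpn (τ π) (by rw [← map_pow, hπ, map_natCast])] at h1
    have h2 : ζ ^ (δ τ).val = 1 := (mul_eq_right₀ (zpow_ne_zero n' hp0)).mp h1.symm
    apply zeta_pow_val_injective r hζ
    rw [h2, ZMod.val_zero, pow_zero]
  -- everywhere unramified characters of `G_ℚ` are trivial
  let f : GQ →* Multiplicative (ZMod r) :=
    { toFun := fun g => Multiplicative.ofAdd (δ g)
      map_one' := by rw [h0]; rfl
      map_mul' := fun g h => by rw [hδ g h]; rfl }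
  have hf : IsOpen (f.ker : Set GQ) := by
    refine Subgroup.isOpen_mono (H₁ := F.fixingSubgroup) ?_ (IntermediateField.fixingSubgroup_isOpen F)
    intro s hs
    rw [MonoidHom.mem_ker]
    show Multiplicative.ofAdd (δ s) = 1
    have := hF 1 s hs
    rw [one_mul, h0] at this
    rw [this]; rfl
  intro γ
  have h1 := Fermat.Agent.Lib.InertiaLift.monoidHom_eq_one_of_inertia f hf (fun ℓ hℓ B hB τ hτ => by
    show Multiplicative.ofAdd (δ τ) = 1
    by_cases hℓp : ℓ = p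
    · subst hℓp
      rw [char_inertia_of_place hℓ δ hδ A hA hA0 B hB τ hτ]; rfl
    · rw [hunr ℓ hℓ hℓp B hB τ hτ]; rfl) γ
  exact ofAdd_eq_one.mp h1

/-! ### `μ`-steps -/

open Fermat.Agent.Lib.FrobeniusExists in
/-- Unique factorisation: if `(θ d) ^ r = ± N s ^ r` and the valuation of `θ` at one place over
each prime `ℓ ≠ p` is an integral power of that of `ℓ`, then `N = p ^ j t ^ r`. -/
theorem nat_repr_of_val {p r : ℕ} (hr : r ≠ 0) (θ : Qb) (ε : Qb) (hε : ε = 1 ∨ ε = -1)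
    (d : ℕ) (hd : d ≠ 0)
    (hval : ∀ ℓ : ℕ, ℓ.Prime → ℓ ≠ p → ∃ B : ValuationSubring Qb, B.LiesOverPrime ℓ ∧
      ∃ n : ℤ, B.valuation θ = B.valuation ((ℓ : Qb) ^ n)) :
    ∀ N : ℕ, N ≠ 0 → ∀ s : ℕ, s ≠ 0 → θ ^ r * (d : Qb) ^ r = ε * (N : Qb) * (s : Qb) ^ r →
      ∃ (t j : ℕ), t ≠ 0 ∧ N = p ^ j * t ^ r := by
  intro N
  induction N using Nat.strong_induction_on with
  | _ N ih =>
    intro hN s hs hθ
    by_cases hall : ∀ ℓ : ℕ, ℓ.Prime → ℓ ∣ N → ℓ = p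
    · refine ⟨1, N.primeFactorsList.length, one_ne_zero, ?_⟩
      rw [one_pow, mul_one]
      exact Nat.eq_prime_pow_of_unique_prime_dvd hN (fun hd hdN => hall _ hd hdN)
    push Not at hall
    obtain ⟨ℓ, hℓ, hℓN, hℓp⟩ := hall
    obtain ⟨B, hB, n, hn⟩ := hval ℓ hℓ hℓp
    have hvℓ : B.valuation (ℓ : Qb) < 1 := B.mem_nonunits_iff.mp hB
    have hℓ0 : (ℓ : Qb) ≠ 0 := Nat.cast_ne_zero.mpr hℓ.ne_zero
    have hvℓ0 : B.valuation (ℓ : Qb) ≠ 0 := (Valuation.ne_zero_iff _).2 hℓ0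
    obtain ⟨k, N', hN', rfl⟩ := Nat.exists_eq_pow_mul_and_not_dvd hN ℓ hℓ.ne_one
    obtain ⟨m, s', hs', rfl⟩ := Nat.exists_eq_pow_mul_and_not_dvd hs ℓ hℓ.ne_one
    obtain ⟨e, d', hd', rfl⟩ := Nat.exists_eq_pow_mul_and_not_dvd hd ℓ hℓ.ne_one
    have hunit : ∀ x : ℕ, ¬ ℓ ∣ x → B.valuation ((x : ℕ) : Qb) = 1 := by
      intro x hx
      have := val_intCast_eq_one B.valuation hℓ hvℓ (n := (x : ℤ)) (by exact_mod_cast hx)
      simpa using this
    have hvε : B.valuation ε = 1 := by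
      rcases hε with rfl | rfl
      · simp
      · simp
    have h1 : B.valuation (ℓ : Qb) ^ (n * (r : ℤ) + ((e * r : ℕ) : ℤ))
        = B.valuation (ℓ : Qb) ^ (((k + m * r : ℕ) : ℤ)) := by
      have e1 : B.valuation θ ^ r * B.valuation (ℓ : Qb) ^ (e * r)
          = B.valuation (ℓ : Qb) ^ (k + m * r) := by
        have h2 := congrArg B.valuation hθ
        push_cast at h2
        simp only [map_mul, map_pow, hvε, hunit N' hN', hunit s' hs', hunit d' hd', one_mul,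
          mul_one] at h2
        rw [pow_add, pow_mul, pow_mul, ← h2]
      rw [zpow_add₀ hvℓ0, zpow_mul, zpow_natCast, zpow_natCast, zpow_natCast, ← map_zpow₀, ← hn,
        e1]
    have h2 : n * (r : ℤ) + ((e * r : ℕ) : ℤ) = ((k + m * r : ℕ) : ℤ) :=
      zpow_right_injective₀ (zero_lt_iff.mpr hvℓ0) hvℓ.ne h1
    have hk0 : k ≠ 0 := by
      rintro rfl
      rw [pow_zero, one_mul] at hℓN
      exact hN' hℓN
    have hrk : r ∣ k := by
      have : (r : ℤ) ∣ (k : ℤ) := ⟨n + e - m, by push_cast at h2; linarith⟩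
      exact_mod_cast this
    obtain ⟨k', rfl⟩ := hrk
    have hk'0 : k' ≠ 0 := by
      rintro rfl
      exact hk0 (mul_zero r)
    obtain ⟨k'', rfl⟩ : ∃ k'' : ℕ, k' = k'' + 1 := ⟨k' - 1, by omega⟩
    have hN'pos : 0 < N' := Nat.pos_of_ne_zero (by rintro rfl; exact hN' (dvd_zero ℓ))
    have hsplit : ℓ ^ (r * (k'' + 1)) * N' = ℓ ^ r * (ℓ ^ (r * k'') * N') := by ring
    have hlt : ℓ ^ (r * k'') * N' < ℓ ^ (r * (k'' + 1)) * N' := by
      rw [hsplit]
      have h3 : 0 < ℓ ^ (r * k'') * N' := Nat.mul_pos (pow_pos hℓ.pos _) hN'pos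
      have h4 : 1 < ℓ ^ r := Nat.one_lt_pow hr hℓ.one_lt
      nlinarith
    obtain ⟨t, j, ht, htj⟩ := ih _ hlt (Nat.mul_ne_zero (pow_ne_zero _ hℓ.ne_zero) hN'pos.ne')
      (ℓ * (ℓ ^ m * s')) (Nat.mul_ne_zero hℓ.ne_zero hs) (by
        rw [hθ]; push_cast; ring)
    refine ⟨ℓ * t, j, mul_ne_zero hℓ.ne_zero ht, ?_⟩
    rw [hsplit, htj]
    ring

/-- (L4-μ, multiplicative form) **`μ`-steps, `r` odd.** Let `c : G_ℚ → μ_r` be a level-constant
cocycle (`c (g h) = c g · g (c h)`) such that every Kummer generator `θ` (`g θ = c g · θ`) has, at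
one place over each prime `ℓ ≠ p`, a valuation in `v(ℓ) ^ ℤ` (at `ℓ ∤ r p`: `c` trivial on
inertia; at `ℓ = r`: unit class), and which kills one element `σ` of inertia at `p` moving the
`r`-th roots of `p`. Then `c` is a coboundary of an `r`-th root of unity: `c g = g w / w`. -/
theorem mulCocycle_eq_coboundary_of_sigma {p r : ℕ} (hp : p.Prime) [Fact r.Prime] (hr2 : r ≠ 2)
    (hrp : r ≠ p) (c : GQ → Qb) (hc1 : ∀ g : GQ, c g ^ r = 1)
    (hc : ∀ g h : GQ, c (g * h) = c g * g (c h))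
    (F : IntermediateField ℚ Qb) [FiniteDimensional ℚ F]
    (hF : ∀ g s : GQ, s ∈ F.fixingSubgroup → c (g * s) = c g)
    (hval : ∀ θ : Qb, θ ≠ 0 → (∀ g : GQ, g θ = c g * θ) → ∀ ℓ : ℕ, ℓ.Prime → ℓ ≠ p →
      ∃ B : ValuationSubring Qb, B.LiesOverPrime ℓ ∧
        ∃ n : ℤ, B.valuation θ = B.valuation ((ℓ : Qb) ^ n))
    (A : ValuationSubring Qb) (hA : A.LiesOverPrime p) (σ : GQ) (hσ : σ ∈ A.inertiaSubgroupIn ℚ)
    (hσp : ∀ π : Qb, π ^ r = (p : Qb) → σ π ≠ π) (hcσ : c σ = 1) :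
    ∃ w : Qb, w ^ r = 1 ∧ ∀ g : GQ, c g * w = g w := by
  have hr : r.Prime := Fact.out
  have hpr : ¬ p ∣ r := fun h => hrp ((Nat.prime_dvd_prime_iff_eq hp hr).mp h).symm
  have hp0 : (p : Qb) ≠ 0 := Nat.cast_ne_zero.mpr hp.ne_zero
  have hrodd : Odd r := hr.odd_of_ne_two hr2
  have hmem : ∀ g : GQ, g ∈ (⊥ : IntermediateField ℚ Qb).fixingSubgroup := by
    intro g
    rw [IntermediateField.mem_fixingSubgroup_iff]
    intro x hx
    obtain ⟨q, rfl⟩ := IntermediateField.mem_bot.mp hx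
    exact g.commutes q
  have hc0 : ∀ g : GQ, c g ≠ 0 := by
    intro g h
    have := hc1 g
    rw [h, zero_pow hr.ne_zero] at this
    exact zero_ne_one this
  -- Hilbert 90
  obtain ⟨b, hb0, hb⟩ := Fermat.Agent.PT.Kummer.hilbert90 (⊥ : IntermediateField ℚ Qb) c
    (fun g _ => hc0 g) (fun g _ h _ => hc g h) F (fun g _ s _ hs => hF g s hs)
  have hgb : ∀ g : GQ, g b = c g * b := by
    intro g
    rw [hb g (hmem g), div_mul_cancel₀ _ hb0]
  -- `b ^ r` is rational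
  have hbr : b ^ r ∈ (⊥ : IntermediateField ℚ Qb) := by
    rw [Fermat.Agent.PT.Kummer.mem_iff_forall_apply_eq]
    intro g _
    rw [map_pow, hgb g, mul_pow, hc1 g, one_mul]
  obtain ⟨u, hu⟩ := IntermediateField.mem_bot.mp hbr
  have hu' : b ^ r = (u : Qb) := by rw [← hu]; exact (eq_ratCast (algebraMap ℚ Qb) u)
  have hu0 : u ≠ 0 := by
    rintro rfl
    rw [Rat.cast_zero] at hu'
    exact hb0 (pow_eq_zero_iff hr.ne_zero |>.mp hu')
  -- `u = ε N₀ / D`
  have hnum : u.num ≠ 0 := Rat.num_ne_zero.mpr hu0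
  have hden : u.den ≠ 0 := u.den_nz
  have hD0 : ((u.den : ℕ) : Qb) ≠ 0 := Nat.cast_ne_zero.mpr hden
  obtain ⟨ε, hε, hεu⟩ : ∃ ε : Qb, (ε = 1 ∨ ε = -1) ∧
      b ^ r * ((u.den : ℕ) : Qb) = ε * ((u.num.natAbs : ℕ) : Qb) := by
    have h1 : (u : Qb) * ((u.den : ℕ) : Qb) = ((u.num : ℤ) : Qb) := by
      have := Rat.mul_den_eq_num u
      exact_mod_cast this
    rcases Int.natAbs_eq u.num with h | h
    · refine ⟨1, Or.inl rfl, ?_⟩
      rw [hu', h1, one_mul]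
      conv_lhs => rw [h]
      simp
    · refine ⟨-1, Or.inr rfl, ?_⟩
      rw [hu', h1]
      conv_lhs => rw [h]
      simp
  have hεr : ε ^ r = ε := by
    rcases hε with rfl | rfl
    · exact one_pow r
    · exact hrodd.neg_one_pow
  have hε0 : ε ≠ 0 := by
    rcases hε with rfl | rfl
    · exact one_ne_zero
    · exact neg_ne_zero.mpr one_ne_zero
  have hDr : ((u.den : ℕ) : Qb) ^ r = ((u.den : ℕ) : Qb) ^ (r - 1) * ((u.den : ℕ) : Qb) := by
    rw [← pow_succ, Nat.sub_add_cancel hr.pos]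
  obtain ⟨t, j, ht, htj⟩ := nat_repr_of_val hr.ne_zero b ε hε u.den hden
    (hval b hb0 hgb) (u.num.natAbs * u.den ^ (r - 1))
    (Nat.mul_ne_zero (Int.natAbs_ne_zero.mpr hnum) (pow_ne_zero _ hden)) 1 one_ne_zero (by
      rw [hDr]
      push_cast
      linear_combination (((u.den : ℕ) : Qb) ^ (r - 1)) * hεu)
  have ht0 : ((t : ℕ) : Qb) ≠ 0 := Nat.cast_ne_zero.mpr ht
  -- `β := b D / (ε t)` is an `r`-th root of `p ^ j`
  obtain ⟨q, hq⟩ : ∃ q : Qb, q = ε * (t : Qb) / ((u.den : ℕ) : Qb) := ⟨_, rfl⟩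
  have hq0 : q ≠ 0 := by
    rw [hq]
    exact div_ne_zero (mul_ne_zero hε0 ht0) hD0
  have hgq : ∀ g : GQ, g q = q := by
    intro g
    rw [hq, map_div₀, map_mul, map_natCast, map_natCast]
    rcases hε with rfl | rfl
    · rw [map_one]
    · rw [map_neg, map_one]
  have hβr : (b / q) ^ r = (p : Qb) ^ j := by
    have h1 : b ^ r * ((u.den : ℕ) : Qb) ^ r = ε * ((p : Qb) ^ j * (t : Qb) ^ r) := by
      have h2 := congrArg (fun x : ℕ => (x : Qb)) htj
      simp only [Nat.cast_mul, Nat.cast_pow] at h2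
      rw [hDr]
      linear_combination (((u.den : ℕ) : Qb) ^ (r - 1)) * hεu + ε * h2
    rw [hq, div_pow, div_pow, mul_pow, hεr]
    field_simp
    linear_combination h1
  have hgβ : ∀ g : GQ, g (b / q) = c g * (b / q) := by
    intro g
    rw [map_div₀, hgb g, hgq g, mul_div_assoc]
  -- `β = w π ^ j`
  obtain ⟨π, hπ⟩ := IsAlgClosed.exists_pow_nat_eq (p : Qb) hr.pos
  have hπ0 : π ≠ 0 := by
    rintro rfl
    rw [zero_pow hr.ne_zero] at hπ
    exact hp0 hπ.symm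
  have hπj0 : π ^ j ≠ 0 := pow_ne_zero j hπ0
  obtain ⟨w, hw⟩ : ∃ w : Qb, w = b / q / π ^ j := ⟨_, rfl⟩
  have hβw : b / q = w * π ^ j := by rw [hw, div_mul_cancel₀ _ hπj0]
  have hwr : w ^ r = 1 := by
    rw [hw, div_pow, hβr, ← pow_mul, mul_comm, pow_mul, hπ, div_self (pow_ne_zero _ hp0)]
  have hw0 : w ≠ 0 := by
    rintro rfl
    rw [zero_pow hr.ne_zero] at hwr
    exact zero_ne_one hwr
  -- `r ∣ j`
  have hσw : σ w = w := inertia_apply_of_pow_eq_one hp A hA hσ hr.ne_zero hpr hwr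
  have hσj : (σ π / π) ^ j = 1 := by
    have h1 := hgβ σ
    rw [hcσ, one_mul, hβw, map_mul, hσw, map_pow] at h1
    rw [div_pow, mul_left_cancel₀ hw0 h1, div_self hπj0]
  have hω : IsPrimitiveRoot (σ π / π) r := by
    apply isPrimitiveRoot_of_prime
    · rw [div_pow, ← map_pow, hπ, map_natCast, div_self hp0]
    · intro h
      exact hσp π hπ ((div_eq_one_iff_eq hπ0).mp h)
  obtain ⟨j', hj'⟩ := (hω.pow_eq_one_iff_dvd j).mp hσj
  have hπj : π ^ j = (p : Qb) ^ j' := by rw [hj', pow_mul, hπ]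
  refine ⟨w, hwr, fun g => ?_⟩
  have h1 := hgβ g
  rw [hβw, hπj, map_mul, map_pow, map_natCast] at h1
  have h2 : (p : Qb) ^ j' ≠ 0 := pow_ne_zero _ hp0
  apply mul_right_cancel₀ h2
  rw [h1, mul_assoc]

open Fermat.Agent.Lib.FinFlat in
/-- (L3 → L4 bridge) If the restriction of `c` to the inertia group of `P ∣ r` is the Kummer
cocycle of a `P`-unit `β`, then every Kummer generator of `c` has valuation in `v(r) ^ ℤ`. -/
theorem valuation_eq_zpow_of_unit_root {r : ℕ} (hr : r.Prime) (P : ValuationSubring Qb)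
    (hP : P.LiesOverPrime r) (c : GQ → Qb) {β : Qb} (hβ : P.valuation β = 1)
    (hβc : ∀ τ ∈ P.inertiaSubgroupIn ℚ, τ β = c τ * β) {θ : Qb} (hθ0 : θ ≠ 0)
    (hθ : ∀ τ ∈ P.inertiaSubgroupIn ℚ, τ θ = c τ * θ) :
    ∃ n : ℤ, P.valuation θ = P.valuation ((r : Qb) ^ n) := by
  have hβ0 : β ≠ 0 := by
    rintro rfl
    rw [map_zero] at hβ
    exact zero_ne_one hβ
  have hfix : ∀ τ ∈ P.inertiaSubgroupIn ℚ, τ (θ / β) = θ / β := by
    intro τ hτ
    by_cases h : c τ = 0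
    · have h1 := hθ τ hτ
      rw [h, zero_mul] at h1
      exact absurd ((map_eq_zero_iff τ τ.injective).mp h1) hθ0
    · rw [map_div₀, hθ τ hτ, hβc τ hτ, mul_div_mul_left _ _ h]
  obtain ⟨n, hn⟩ := exists_zpow_valuation_eq_of_inertia_fixed hr P hP hfix (div_ne_zero hθ0 hβ0)
  refine ⟨n, ?_⟩
  rw [← hn, map_div₀, hβ, div_one]

/-- For `ζ ^ r = 1`: `ζ ^ (n mod r) = ζ ^ n`. -/
theorem zeta_pow_val_intCast {r : ℕ} [NeZero r] {ζ : Qb} (hζ : ζ ^ r = 1) (n : ℤ) :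
    ζ ^ ((n : ZMod r)).val = ζ ^ n := by
  have hζ0 : ζ ≠ 0 := by
    rintro rfl
    rw [zero_pow (NeZero.ne r)] at hζ
    exact zero_ne_one hζ
  have h1 : (((n : ZMod r)).val : ℤ) = n % r := ZMod.val_intCast n
  rw [← zpow_natCast, h1]
  conv_rhs => rw [← Int.emod_add_mul_ediv n r]
  rw [zpow_add₀ hζ0, zpow_mul, zpow_natCast, hζ, one_zpow, mul_one]

open Fermat.Agent.Lib.FinFlat Fermat.Agent.Lib.FrobeniusExists Fermat.Agent.PT.Kummer in
/-- (L4-μ) **`μ`-steps, `r` odd.** Let `a : G_ℚ → ℤ/r` be a level-constant cocycle for the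
cyclotomic character (`g ζ = ζ ^ m g`, `a (g h) = a g + m g · a h`), trivial on inertia at every
`ℓ ∉ {p, r}`, a unit class at `r` (every Kummer generator `θ` has `v_P(θ) ∈ v_P(r) ^ ℤ` at one
place `P ∣ r`), and killing one element `σ` of inertia at `p` moving the `r`-th roots of `p`.
Then `a` is a coboundary: `a g = k · (m g - 1)`. -/
theorem cocycle_eq_coboundary_of_sigma_val {p r : ℕ} (hp : p.Prime) [Fact r.Prime] (hr2 : r ≠ 2)
    (hrp : r ≠ p) {ζ : Qb} (hζ : IsPrimitiveRoot ζ r) (m : GQ → ℤ) (hm : ∀ g : GQ, g ζ = ζ ^ m g)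
    (a : GQ → ZMod r) (ha : ∀ g h : GQ, a (g * h) = a g + (m g : ZMod r) * a h)
    (F : IntermediateField ℚ Qb) [FiniteDimensional ℚ F]
    (hF : ∀ g s : GQ, s ∈ F.fixingSubgroup → a (g * s) = a g)
    (hunr : ∀ ℓ : ℕ, ℓ.Prime → ℓ ≠ p → ℓ ≠ r → ∀ B : ValuationSubring Qb, B.LiesOverPrime ℓ →
      ∀ τ ∈ B.inertiaSubgroupIn ℚ, a τ = 0)
    (P : ValuationSubring Qb) (hP : P.LiesOverPrime r)
    (hunit : ∀ θ : Qb, θ ≠ 0 → (∀ g : GQ, g θ = ζ ^ (a g).val * θ) →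
      ∃ n : ℤ, P.valuation θ = P.valuation ((r : Qb) ^ n))
    (A : ValuationSubring Qb) (hA : A.LiesOverPrime p) (σ : GQ) (hσ : σ ∈ A.inertiaSubgroupIn ℚ)
    (hσp : ∀ π : Qb, π ^ r = (p : Qb) → σ π ≠ π) (haσ : a σ = 0) :
    ∃ k : ZMod r, ∀ g : GQ, a g = k * ((m g : ZMod r) - 1) := by
  have hr : r.Prime := Fact.out
  have : NeZero r := ⟨hr.ne_zero⟩
  have hζr : ζ ^ r = 1 := hζ.pow_eq_one
  obtain ⟨w, hwr, hw⟩ := mulCocycle_eq_coboundary_of_sigma hp hr2 hrp (fun g => ζ ^ (a g).val)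
    (fun g => by rw [← pow_mul, mul_comm, pow_mul, hζr, one_pow])
    (fun g h => by
      show ζ ^ (a (g * h)).val = ζ ^ (a g).val * g (ζ ^ (a h).val)
      have e : (m g : ZMod r) * a h = ((m g * ((a h).val : ℤ) : ℤ) : ZMod r) := by
        push_cast
        rw [ZMod.natCast_zmod_val]
      rw [ha g h, zeta_pow_val_add r hζr, e, zeta_pow_val_intCast hζr, map_pow, hm g, zpow_mul,
        zpow_natCast])
    F (fun g s hs => by
      show ζ ^ (a (g * s)).val = ζ ^ (a g).val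
      rw [hF g s hs])
    (fun θ hθ0 hθ ℓ hℓ hℓp => by
      by_cases hℓr : ℓ = r
      · subst hℓr
        exact ⟨P, hP, hunit θ hθ0 hθ⟩
      · obtain ⟨B, hB⟩ := exists_liesOverPrime hℓ
        refine ⟨B, hB, exists_zpow_valuation_eq_of_inertia_fixed hℓ B hB (fun τ hτ => ?_) hθ0⟩
        have h1 : τ θ = ζ ^ (a τ).val * θ := hθ τ
        rw [h1, hunr ℓ hℓ hℓp hℓr B hB τ hτ, ZMod.val_zero, pow_zero, one_mul])
    A hA σ hσ hσp (by
      show ζ ^ (a σ).val = 1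
      rw [haσ, ZMod.val_zero, pow_zero])
  obtain ⟨k, -, rfl⟩ := hζ.eq_pow_of_pow_eq_one hwr
  refine ⟨(k : ZMod r), fun g => ?_⟩
  have h1 : ζ ^ (a g).val * ζ ^ k = g (ζ ^ k) := hw g
  have h2 : ζ ^ (a g + (k : ZMod r)).val = ζ ^ (((m g * (k : ℤ) : ℤ) : ZMod r)).val := by
    rw [zeta_pow_val_add r hζr, zeta_pow_natCast_val r hζr, h1, zeta_pow_val_intCast hζr, map_pow,
      hm g, zpow_mul, zpow_natCast]
  have h3 := zeta_pow_val_injective r hζ h2
  push_cast at h3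
  linear_combination h3

open Fermat.Agent.Lib.FrobeniusExists in
/-- The valuation of a natural number at a place over `ℓ`. -/
theorem valuation_natCast_eq_pow {ℓ : ℕ} (hℓ : ℓ.Prime) (B : ValuationSubring Qb)
    (hB : B.LiesOverPrime ℓ) (x : ℕ) (hx : x ≠ 0) :
    B.valuation ((x : ℕ) : Qb) = B.valuation (ℓ : Qb) ^ padicValNat ℓ x := by
  have : Fact ℓ.Prime := ⟨hℓ⟩
  have hvℓ : B.valuation (ℓ : Qb) < 1 := B.mem_nonunits_iff.mp hB
  obtain ⟨e, x', hx', rfl⟩ := Nat.exists_eq_pow_mul_and_not_dvd hx ℓ hℓ.ne_one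
  have hx'0 : x' ≠ 0 := by
    rintro rfl
    exact hx' (dvd_zero ℓ)
  have h1 : padicValNat ℓ (ℓ ^ e * x') = e := by
    rw [padicValNat.mul (pow_ne_zero e hℓ.ne_zero) hx'0, padicValNat.prime_pow,
      padicValNat.eq_zero_of_not_dvd hx', add_zero]
  have h2 : B.valuation ((x' : ℕ) : Qb) = 1 := by
    have := val_intCast_eq_one B.valuation hℓ hvℓ (n := (x' : ℤ)) (by exact_mod_cast hx')
    simpa using this
  rw [h1]
  push_cast
  rw [map_mul, map_pow, h2, mul_one]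

/-- The valuation of a rational number at a place over `ℓ`. -/
theorem valuation_ratCast_eq_zpow {ℓ : ℕ} (hℓ : ℓ.Prime) (B : ValuationSubring Qb)
    (hB : B.LiesOverPrime ℓ) (u : ℚ) (hu : u ≠ 0) :
    B.valuation (u : Qb) = B.valuation (ℓ : Qb) ^ padicValRat ℓ u := by
  have hnum : u.num ≠ 0 := Rat.num_ne_zero.mpr hu
  have hden : u.den ≠ 0 := u.den_nz
  have hℓ0 : (ℓ : Qb) ≠ 0 := Nat.cast_ne_zero.mpr hℓ.ne_zero
  have hvℓ0 : B.valuation (ℓ : Qb) ≠ 0 := (Valuation.ne_zero_iff _).2 hℓ0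
  have h1 : (u : Qb) = ((u.num : ℤ) : Qb) / ((u.den : ℕ) : Qb) := by
    conv_lhs => rw [← Rat.num_div_den u]
    push_cast
    rfl
  have h2 : B.valuation (((u.num : ℤ) : Qb)) = B.valuation (((u.num.natAbs : ℕ) : Qb)) := by
    rcases Int.natAbs_eq u.num with h | h
    · conv_lhs => rw [h]
      rw [Int.cast_natCast]
    · conv_lhs => rw [h]
      rw [Int.cast_neg, Valuation.map_neg, Int.cast_natCast]
  have h3 : padicValRat ℓ u = (padicValNat ℓ u.num.natAbs : ℤ) - (padicValNat ℓ u.den : ℤ) := rfl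
  rw [h1, map_div₀, h2, valuation_natCast_eq_pow hℓ B hB _ (Int.natAbs_ne_zero.mpr hnum),
    valuation_natCast_eq_pow hℓ B hB _ hden, h3, zpow_sub₀ hvℓ0, zpow_natCast, zpow_natCast]

open Fermat.Agent.Lib.FrobeniusExists in
/-- (L4-μ), literal of report #4924: the unit condition at `r` in the form
`r ∣ v_r(θ ^ r)`. -/
theorem cocycle_eq_coboundary_of_sigma {p r : ℕ} (hp : p.Prime) [Fact r.Prime] (hr2 : r ≠ 2)
    (hrp : r ≠ p) {ζ : Qb} (hζ : IsPrimitiveRoot ζ r) (m : GQ → ℤ) (hm : ∀ g : GQ, g ζ = ζ ^ m g)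
    (a : GQ → ZMod r) (ha : ∀ g h : GQ, a (g * h) = a g + (m g : ZMod r) * a h)
    (F : IntermediateField ℚ Qb) [FiniteDimensional ℚ F]
    (hF : ∀ g s : GQ, s ∈ F.fixingSubgroup → a (g * s) = a g)
    (hunr : ∀ ℓ : ℕ, ℓ.Prime → ℓ ≠ p → ℓ ≠ r → ∀ B : ValuationSubring Qb, B.LiesOverPrime ℓ →
      ∀ τ ∈ B.inertiaSubgroupIn ℚ, a τ = 0)
    (hunit : ∀ (u : ℚ) (θ : Qb), u ≠ 0 → θ ^ r = (u : Qb) →
      (∀ g : GQ, g θ = ζ ^ (a g).val * θ) → (r : ℤ) ∣ padicValRat r u)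
    (A : ValuationSubring Qb) (hA : A.LiesOverPrime p) (σ : GQ) (hσ : σ ∈ A.inertiaSubgroupIn ℚ)
    (hσp : ∀ π : Qb, π ^ r = (p : Qb) → σ π ≠ π) (haσ : a σ = 0) :
    ∃ k : ZMod r, ∀ g : GQ, a g = k * ((m g : ZMod r) - 1) := by
  have hr : r.Prime := Fact.out
  obtain ⟨P, hP⟩ := exists_liesOverPrime hr
  refine cocycle_eq_coboundary_of_sigma_val hp hr2 hrp hζ m hm a ha F hF hunr P hP ?_ A hA σ hσ
    hσp haσ
  intro θ hθ0 hθ
  have hbr : θ ^ r ∈ (⊥ : IntermediateField ℚ Qb) := by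
    rw [Fermat.Agent.PT.Kummer.mem_iff_forall_apply_eq]
    intro g _
    rw [map_pow, hθ g, mul_pow, ← pow_mul, mul_comm _ r, pow_mul, hζ.pow_eq_one, one_pow, one_mul]
  obtain ⟨u, hu⟩ := IntermediateField.mem_bot.mp hbr
  have hu' : θ ^ r = (u : Qb) := by rw [← hu]; exact (eq_ratCast (algebraMap ℚ Qb) u)
  have hu0 : u ≠ 0 := by
    rintro rfl
    rw [Rat.cast_zero] at hu'
    exact hθ0 (pow_eq_zero_iff hr.ne_zero |>.mp hu')
  obtain ⟨n, hn⟩ := hunit u θ hu0 hu' hθ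
  refine ⟨n, ?_⟩
  have hr0 : (r : Qb) ≠ 0 := Nat.cast_ne_zero.mpr hr.ne_zero
  have hvr0 : P.valuation (r : Qb) ≠ 0 := (Valuation.ne_zero_iff _).2 hr0
  have h1 : P.valuation θ ^ r = (P.valuation (r : Qb) ^ n) ^ r := by
    rw [← map_pow, hu', valuation_ratCast_eq_zpow hr P hP u hu0, hn, mul_comm, zpow_mul,
      zpow_natCast]
  have h2 : P.valuation θ / P.valuation (r : Qb) ^ n = 1 := by
    apply eq_one_of_pow_eq_one hr.ne_zero
    rw [div_pow, h1, div_self (pow_ne_zero _ (zpow_ne_zero n hvr0))]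
  rw [map_zpow₀]
  exact (div_eq_one_iff_eq (zpow_ne_zero n hvr0)).mp h2

end Fermat.Agent.S15P.Char96
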