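/-
S15, layer L4 (characters) — helper96: the ABSTRACT STEP ADAPTERS.

From the module-theoretic shape of one step of the flag (`S ≤ G` stable, `y ∉ S`, `r • y ∈ S`,
`γ • z - z ∈ S + ℤ y`) to the character theorems of `S15P/Char96`: the conclusions of the
hypotheses `H`, `Htriv`, `Hmu` of `Desc40.exists_poly_two` / `exists_poly_odd`, for an arbitrary
module `J` over the absolute Galois group of `ℚ`.  The consumer supplies: a finite level `F` of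
`z`, unramifiedness of `z` modulo `S` outside `p` (and `r`), and the local input at `r`.
-/
import Mathlib
import Fermat.Agent.S15P.Char96

set_option autoImplicit false

namespace Fermat.Agent.S15P.StepChar96

open Fermat.Agent.S15P.Char96

local notation "Qb" => AlgebraicClosure ℚ
local notation "GQ" => (AlgebraicClosure ℚ ≃ₐ[ℚ] AlgebraicClosure ℚ)

variable {J : Type*} [AddCommGroup J] [DistribMulAction GQ J]

omit [DistribMulAction GQ J] in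
/-- Well-definedness of the step coordinate: `j • y ∈ S` forces `r ∣ j`. -/
theorem dvd_of_zsmul_mem {r : ℕ} (hr : r.Prime) (S : AddSubgroup J) {y : J} (hyS : y ∉ S)
    (hry : r • y ∈ S) {j : ℤ} (hj : j • y ∈ S) : (r : ℤ) ∣ j := by
  by_contra h
  have hcop : IsCoprime (r : ℤ) j :=
    (Nat.prime_iff_prime_int.mp hr).coprime_iff_not_dvd.mpr h
  obtain ⟨a, b, hab⟩ := hcop
  apply hyS
  have e : y = a • ((r : ℤ) • y) + b • (j • y) := by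
    rw [smul_smul, smul_smul, ← add_smul, hab, one_smul]
  rw [e]
  refine S.add_mem (S.zsmul_mem ?_ a) (S.zsmul_mem hj b)
  rw [natCast_zsmul]
  exact hry

omit [DistribMulAction GQ J] in
theorem zsmul_mem_of_dvd {r : ℕ} (S : AddSubgroup J) {y : J} (hry : r • y ∈ S) {j : ℤ}
    (hj : (r : ℤ) ∣ j) : j • y ∈ S := by
  obtain ⟨k, rfl⟩ := hj
  rw [mul_comm, mul_smul, natCast_zsmul]
  exact S.zsmul_mem hry k

/-- The step cocycle: for a line `y` mod `S` on which `γ` acts by the scalar `m γ`, and `z` with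
`γ • z - z ∈ S + ℤ y`, the coordinate `a γ ∈ ℤ/r` of `γ • z - z` is a cocycle for `m`. -/
theorem exists_stepCocycle {r : ℕ} [Fact r.Prime] (S : AddSubgroup J)
    (hS : ∀ (γ : GQ) (x : J), x ∈ S → γ • x ∈ S) (y : J) (hyS : y ∉ S) (hry : r • y ∈ S)
    (m : GQ → ℤ) (hm : ∀ γ : GQ, γ • y - m γ • y ∈ S) (z : J)
    (hz : ∀ γ : GQ, ∃ j : ℤ, γ • z - z - j • y ∈ S) :
    ∃ a : GQ → ZMod r, (∀ g h : GQ, a (g * h) = a g + (m g : ZMod r) * a h) ∧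
      ∀ (g : GQ) (j : ℤ), g • z - z - j • y ∈ S ↔ a g = (j : ZMod r) := by
  have hr : r.Prime := Fact.out
  choose jf hjf using hz
  have key : ∀ (g : GQ) (j : ℤ),
      g • z - z - j • y ∈ S ↔ ((jf g : ℤ) : ZMod r) = (j : ZMod r) := by
    intro g j
    rw [ZMod.intCast_eq_intCast_iff_dvd_sub]
    constructor
    · intro h
      apply dvd_of_zsmul_mem hr S hyS hry
      have e : (j - jf g) • y = (g • z - z - jf g • y) - (g • z - z - j • y) := by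
        rw [sub_smul]; abel
      rw [e]
      exact S.sub_mem (hjf g) h
    · intro h
      have e : g • z - z - j • y = (g • z - z - jf g • y) - (j - jf g) • y := by
        rw [sub_smul]; abel
      rw [e]
      exact S.sub_mem (hjf g) (zsmul_mem_of_dvd S hry h)
  refine ⟨fun g => ((jf g : ℤ) : ZMod r), fun g h => ?_, key⟩
  have e1 : g • (jf h • y) = jf h • (g • y) := smul_comm g (jf h) y
  have h1 : (g * h) • z - z - (jf g + jf h * m g) • y ∈ S := by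
    have e : (g * h) • z - z - (jf g + jf h * m g) • y
        = g • (h • z - z - jf h • y) + jf h • (g • y - m g • y) + (g • z - z - jf g • y) := by
      simp only [mul_smul, smul_sub, add_smul]
      rw [e1]
      abel
    rw [e]
    exact S.add_mem (S.add_mem (hS g _ (hjf h)) (S.zsmul_mem (hm g) _)) (hjf g)
  have h2 := (key (g * h) _).mp h1
  show ((jf (g * h) : ℤ) : ZMod r) = ((jf g : ℤ) : ZMod r) + ((m g : ℤ) : ZMod r) * ((jf h : ℤ) : ZMod r)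
  rw [h2]
  push_cast
  ring

/-- The step cocycle is constant on the cosets of the stabiliser of `z`. -/
theorem stepCocycle_level {r : ℕ} [NeZero r] (S : AddSubgroup J) (y z : J) (a : GQ → ZMod r)
    (hkey : ∀ (g : GQ) (j : ℤ), g • z - z - j • y ∈ S ↔ a g = (j : ZMod r))
    (g s : GQ) (hs : s • z = z) : a (g * s) = a g := by
  obtain ⟨j, hj⟩ : ∃ j : ℤ, a g = (j : ZMod r) :=
    ⟨((a g).val : ℤ), by rw [Int.cast_natCast, ZMod.natCast_zmod_val]⟩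
  rw [hj]
  apply (hkey (g * s) j).mp
  rw [mul_smul, hs]
  exact (hkey g j).mpr hj

/-- **(`Htriv`) trivial step, any prime `r ≠ p`**; the local input at `r` is asked at ONE place
`P` over `r`. -/
theorem step_triv_of_place {p r : ℕ} (hp : p.Prime) [Fact r.Prime] (hrp : r ≠ p)
    (S : AddSubgroup J) (hS : ∀ (γ : GQ) (x : J), x ∈ S → γ • x ∈ S) (y : J) (hyS : y ∉ S)
    (hry : r • y ∈ S) (hy : ∀ γ : GQ, γ • y - y ∈ S) (z : J)
    (hz : ∀ γ : GQ, ∃ j : ℤ, γ • z - z - j • y ∈ S)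
    (F : IntermediateField ℚ Qb) [FiniteDimensional ℚ F]
    (hF : ∀ s : GQ, s ∈ F.fixingSubgroup → s • z = z)
    (hunr : ∀ ℓ : ℕ, ℓ.Prime → ℓ ≠ p → ℓ ≠ r → ∀ B : ValuationSubring Qb, B.LiesOverPrime ℓ →
      ∀ τ ∈ B.inertiaSubgroupIn ℚ, τ • z - z ∈ S)
    (P : ValuationSubring Qb) (hP : P.LiesOverPrime r)
    (hunrP : ∀ τ ∈ P.inertiaSubgroupIn ℚ, τ • z - z ∈ S)
    (A : ValuationSubring Qb) (hA : A.LiesOverPrime p) (σ : GQ) (hσ : σ ∈ A.inertiaSubgroupIn ℚ)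
    (hσp : ∀ π : Qb, π ^ r = (p : Qb) → σ π ≠ π) (hσz : σ • z - z ∈ S) :
    ∀ γ : GQ, γ • z - z ∈ S := by
  have hr : r.Prime := Fact.out
  have : NeZero r := ⟨hr.ne_zero⟩
  obtain ⟨a, ha, hkey⟩ := exists_stepCocycle S hS y hyS hry (fun _ => 1)
    (fun γ => by
      show γ • y - (1 : ℤ) • y ∈ S
      rw [one_smul]
      exact hy γ) z hz
  have hadd : ∀ g h : GQ, a (g * h) = a g + a h := fun g h => by
    rw [ha g h, Int.cast_one, one_mul]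
  have hzero : ∀ g : GQ, g • z - z ∈ S ↔ a g = 0 := by
    intro g
    have := hkey g 0
    rwa [zero_smul, sub_zero, Int.cast_zero] at this
  have hunr' : ∀ ℓ : ℕ, ℓ.Prime → ℓ ≠ p → ∀ B : ValuationSubring Qb, B.LiesOverPrime ℓ →
      ∀ τ ∈ B.inertiaSubgroupIn ℚ, a τ = 0 := by
    intro ℓ hℓ hℓp B hB τ hτ
    by_cases hℓr : ℓ = r
    · rw [hℓr] at hB
      exact char_inertia_of_place hr a hadd P hP (fun τ hτ => (hzero τ).mp (hunrP τ hτ)) B hB τ hτ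
    · exact (hzero τ).mp (hunr ℓ hℓ hℓp hℓr B hB τ hτ)
  have h0 := char_eq_zero_of_sigma hp hrp a hadd F
    (fun g s hs => stepCocycle_level S y z a hkey g s (hF s hs)) hunr' A hA σ hσ hσp
    ((hzero σ).mp hσz)
  exact fun γ => (hzero γ).mpr (h0 γ)

open Fermat.Agent.Lib.FrobeniusExists in
/-- **(`Htriv`) trivial step, any prime `r ≠ p`.** -/
theorem step_triv {p r : ℕ} (hp : p.Prime) [Fact r.Prime] (hrp : r ≠ p) (S : AddSubgroup J)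
    (hS : ∀ (γ : GQ) (x : J), x ∈ S → γ • x ∈ S) (y : J) (hyS : y ∉ S) (hry : r • y ∈ S)
    (hy : ∀ γ : GQ, γ • y - y ∈ S) (z : J) (hz : ∀ γ : GQ, ∃ j : ℤ, γ • z - z - j • y ∈ S)
    (F : IntermediateField ℚ Qb) [FiniteDimensional ℚ F]
    (hF : ∀ s : GQ, s ∈ F.fixingSubgroup → s • z = z)
    (hunr : ∀ ℓ : ℕ, ℓ.Prime → ℓ ≠ p → ∀ B : ValuationSubring Qb, B.LiesOverPrime ℓ →
      ∀ τ ∈ B.inertiaSubgroupIn ℚ, τ • z - z ∈ S)
    (A : ValuationSubring Qb) (hA : A.LiesOverPrime p) (σ : GQ) (hσ : σ ∈ A.inertiaSubgroupIn ℚ)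
    (hσp : ∀ π : Qb, π ^ r = (p : Qb) → σ π ≠ π) (hσz : σ • z - z ∈ S) :
    ∀ γ : GQ, γ • z - z ∈ S := by
  have hr : r.Prime := Fact.out
  obtain ⟨P, hP⟩ := exists_liesOverPrime hr
  exact step_triv_of_place hp hrp S hS y hyS hry hy z hz F hF
    (fun ℓ hℓ hℓp _ B hB τ hτ => hunr ℓ hℓ hℓp B hB τ hτ) P hP (hunr r hr hrp P hP) A hA σ hσ hσp
    hσz

/-- **(`H`) the step at `r = 2`.** -/
theorem step_two {p : ℕ} (hp : p.Prime) (hp2 : p ≠ 2) (S : AddSubgroup J)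
    (hS : ∀ (γ : GQ) (x : J), x ∈ S → γ • x ∈ S) (y : J) (hyS : y ∉ S) (h2y : 2 • y ∈ S)
    (hy : ∀ γ : GQ, γ • y - y ∈ S) (z : J)
    (hz : ∀ γ : GQ, γ • z - z ∈ S ∨ γ • z - z - y ∈ S)
    (F : IntermediateField ℚ Qb) [FiniteDimensional ℚ F]
    (hF : ∀ s : GQ, s ∈ F.fixingSubgroup → s • z = z)
    (hunr : ∀ ℓ : ℕ, ℓ.Prime → ℓ ≠ 2 → ℓ ≠ p → ∀ B : ValuationSubring Qb, B.LiesOverPrime ℓ →
      ∀ τ ∈ B.inertiaSubgroupIn ℚ, τ • z - z ∈ S)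
    (P : ValuationSubring Qb)
    (h2 : ∀ θ : Qb, (∀ τ ∈ P.inertiaSubgroupIn ℚ, τ θ = θ ∨ τ θ = -θ) →
      (∀ τ ∈ P.inertiaSubgroupIn ℚ, (τ θ = θ ↔ τ • z - z ∈ S)) →
      P.valuation θ ^ 2 ≠ P.valuation 2)
    (A : ValuationSubring Qb) (hA : A.LiesOverPrime p) (σ : GQ) (hσ : σ ∈ A.inertiaSubgroupIn ℚ)
    (hσp : ∀ s : Qb, s ^ 2 = (p : Qb) → σ s = -s) (hσz : σ • z - z ∈ S)
    (hcz : complexConjugation • z - z ∈ S) : ∀ γ : GQ, γ • z - z ∈ S := by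
  have : Fact (Nat.Prime 2) := ⟨Nat.prime_two⟩
  have hz' : ∀ γ : GQ, ∃ j : ℤ, γ • z - z - j • y ∈ S := by
    intro γ
    rcases hz γ with h | h
    · exact ⟨0, by rw [zero_smul, sub_zero]; exact h⟩
    · exact ⟨1, by rw [one_smul]; exact h⟩
  obtain ⟨a, ha, hkey⟩ := exists_stepCocycle (r := 2) S hS y hyS h2y (fun _ => 1)
    (fun γ => by
      show γ • y - (1 : ℤ) • y ∈ S
      rw [one_smul]
      exact hy γ) z hz'
  have hadd : ∀ g h : GQ, a (g * h) = a g + a h := fun g h => by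
    rw [ha g h, Int.cast_one, one_mul]
  have hzero : ∀ g : GQ, g • z - z ∈ S ↔ a g = 0 := by
    intro g
    have := hkey g 0
    rwa [zero_smul, sub_zero, Int.cast_zero] at this
  have h0 := quadChar_eq_zero' hp hp2 a hadd F
    (fun g s hs => stepCocycle_level S y z a hkey g s (hF s hs))
    (fun ℓ hℓ hℓ2 hℓp B hB τ hτ => (hzero τ).mp (hunr ℓ hℓ hℓ2 hℓp B hB τ hτ)) P
    (fun θ h1 h2' => h2 θ h1 (fun τ hτ => (h2' τ hτ).trans (hzero τ).symm))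
    A hA σ hσ hσp ((hzero σ).mp hσz) ((hzero complexConjugation).mp hcz)
  exact fun γ => (hzero γ).mpr (h0 γ)

/-- **(`Hmu`) `μ`-step, `r` odd.** -/
theorem step_mu {p r : ℕ} (hp : p.Prime) [Fact r.Prime] (hr2 : r ≠ 2) (hrp : r ≠ p)
    (S : AddSubgroup J) (hS : ∀ (γ : GQ) (x : J), x ∈ S → γ • x ∈ S) (y : J) (hyS : y ∉ S)
    (hry : r • y ∈ S) {ζ : Qb} (hζ : IsPrimitiveRoot ζ r)
    (hycyc : ∀ (γ : GQ) (i : ℕ), γ ζ = ζ ^ i → γ • y - i • y ∈ S) (z : J)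
    (hz : ∀ γ : GQ, ∃ j : ℤ, γ • z - z - j • y ∈ S)
    (F : IntermediateField ℚ Qb) [FiniteDimensional ℚ F]
    (hF : ∀ s : GQ, s ∈ F.fixingSubgroup → s • z = z)
    (hunr : ∀ ℓ : ℕ, ℓ.Prime → ℓ ≠ p → ℓ ≠ r → ∀ B : ValuationSubring Qb, B.LiesOverPrime ℓ →
      ∀ τ ∈ B.inertiaSubgroupIn ℚ, τ • z - z ∈ S)
    (P : ValuationSubring Qb) (hP : P.LiesOverPrime r)
    (hunit : ∀ θ : Qb, θ ≠ 0 → (∀ (g : GQ) (j : ℤ), g • z - z - j • y ∈ S → g θ = ζ ^ j * θ) →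
      ∃ n : ℤ, P.valuation θ = P.valuation ((r : Qb) ^ n))
    (A : ValuationSubring Qb) (hA : A.LiesOverPrime p) (σ : GQ) (hσ : σ ∈ A.inertiaSubgroupIn ℚ)
    (hσp : ∀ π : Qb, π ^ r = (p : Qb) → σ π ≠ π) (hσz : σ • z - z ∈ S) :
    ∃ j : ℤ, ∀ γ : GQ, γ • z - z - j • (γ • y - y) ∈ S := by
  have hr : r.Prime := Fact.out
  have : NeZero r := ⟨hr.ne_zero⟩
  have hζr : ζ ^ r = 1 := hζ.pow_eq_one
  have hex : ∀ g : GQ, ∃ i : ℕ, g ζ = ζ ^ i := by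
    intro g
    obtain ⟨i, -, hi⟩ := hζ.eq_pow_of_pow_eq_one (ξ := g ζ) (by rw [← map_pow, hζr, map_one])
    exact ⟨i, hi.symm⟩
  choose i hi using hex
  obtain ⟨m, hmdef⟩ : ∃ m : GQ → ℤ, m = fun g => ((i g : ℕ) : ℤ) := ⟨_, rfl⟩
  have hm : ∀ g : GQ, g ζ = ζ ^ m g := fun g => by
    rw [hmdef, zpow_natCast]
    exact hi g
  have hmy : ∀ γ : GQ, γ • y - m γ • y ∈ S := fun γ => by
    rw [hmdef]
    show γ • y - ((i γ : ℕ) : ℤ) • y ∈ S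
    rw [natCast_zsmul]
    exact hycyc γ (i γ) (hi γ)
  obtain ⟨a, ha, hkey⟩ := exists_stepCocycle S hS y hyS hry m hmy z hz
  have hzero : ∀ g : GQ, g • z - z ∈ S ↔ a g = 0 := by
    intro g
    have := hkey g 0
    rwa [zero_smul, sub_zero, Int.cast_zero] at this
  obtain ⟨k, hk⟩ := cocycle_eq_coboundary_of_sigma_val hp hr2 hrp hζ m hm a ha F
    (fun g s hs => stepCocycle_level S y z a hkey g s (hF s hs))
    (fun ℓ hℓ hℓp hℓr B hB τ hτ => (hzero τ).mp (hunr ℓ hℓ hℓp hℓr B hB τ hτ)) P hP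
    (fun θ hθ0 hθ => hunit θ hθ0 (fun g j hj => by
      rw [hθ g, (hkey g j).mp hj, zeta_pow_val_intCast hζr]))
    A hA σ hσ hσp ((hzero σ).mp hσz)
  refine ⟨(k.val : ℤ), fun γ => ?_⟩
  have h1 : γ • z - z - ((k.val : ℤ) * (m γ - 1)) • y ∈ S := by
    apply (hkey γ _).mpr
    rw [hk γ]
    push_cast
    rw [ZMod.natCast_zmod_val]
  have e : γ • z - z - (k.val : ℤ) • (γ • y - y)
      = (γ • z - z - ((k.val : ℤ) * (m γ - 1)) • y) - (k.val : ℤ) • (γ • y - m γ • y) := by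
    simp only [mul_smul, sub_smul, one_smul, smul_sub]
    abel
  rw [e]
  exact S.sub_mem h1 (S.zsmul_mem (hmy γ) _)

/-- In the `μ`-alternative of the flag (`c • y + y ∈ S`, `r` odd) the line is not fixed. -/
theorem not_fixed_of_conj_neg {r : ℕ} (hr : r.Prime) (hr2 : r ≠ 2) (S : AddSubgroup J) {y : J}
    (hyS : y ∉ S) (hry : r • y ∈ S) (c : GQ) (hc : c • y + y ∈ S) :
    ¬ ∀ γ : GQ, γ • y - y ∈ S := by
  intro h
  have h1 := h c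
  have h2 : (2 : ℤ) • y ∈ S := by
    have e : (2 : ℤ) • y = (c • y + y) - (c • y - y) := by rw [two_smul]; abel
    rw [e]
    exact S.sub_mem hc h1
  have h3 := dvd_of_zsmul_mem hr S hyS hry h2
  have h4 : r ∣ 2 := by exact_mod_cast h3
  exact hr2 ((Nat.prime_dvd_prime_iff_eq hr Nat.prime_two).mp h4)

/-! ### The hypotheses `H`, `Htriv`, `Hmu` of `Desc40` (with `Γ := GQ`, `Z := Zdiv GQ r M G`) -/

/-- **`Desc40.exists_poly_two`'s hypothesis `H`** from: finite level (`hlev`, main's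
`ESJ.Jac.FiniteLevel.exists_finiteLevel_jZero`), L2 (`hunr`, main's
`GoodDiv85.inertia_smul_eq_of_rational`) and L3 at one place `P` (`hloc`). -/
theorem H_of_local {p : ℕ} (hp : p.Prime) (hp2 : p ≠ 2) (G Z : AddSubgroup J)
    (hlev : ∀ z ∈ Z, ∃ L : IntermediateField ℚ Qb, FiniteDimensional ℚ L ∧
      ∀ s : GQ, (∀ x ∈ L, s x = x) → s • z = z)
    (hunr : ∀ z ∈ Z, ∀ ℓ : ℕ, ℓ.Prime → ℓ ≠ 2 → ℓ ≠ p → ∀ B : ValuationSubring Qb,
      B.LiesOverPrime ℓ → ∀ τ ∈ B.inertiaSubgroupIn ℚ, τ • z = z)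
    (P : ValuationSubring Qb)
    (hloc : ∀ S : AddSubgroup J, S ≤ G → (∀ (γ : GQ) (x : J), x ∈ S → γ • x ∈ S) → ∀ y ∈ G,
      y ∉ S → 2 • y ∈ S → (∀ γ : GQ, γ • y - y ∈ S) →
      ∀ z ∈ Z, (∀ γ : GQ, γ • z - z ∈ S ∨ γ • z - z - y ∈ S) →
      ∀ θ : Qb, (∀ τ ∈ P.inertiaSubgroupIn ℚ, τ θ = θ ∨ τ θ = -θ) →
        (∀ τ ∈ P.inertiaSubgroupIn ℚ, (τ θ = θ ↔ τ • z - z ∈ S)) →
        P.valuation θ ^ 2 ≠ P.valuation 2)
    (A : ValuationSubring Qb) (hA : A.LiesOverPrime p) (σ : GQ) (hσ : σ ∈ A.inertiaSubgroupIn ℚ)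
    (hσp : ∀ s : Qb, s ^ 2 = (p : Qb) → σ s = -s) :
    ∀ S : AddSubgroup J, S ≤ G → (∀ (γ : GQ) (x : J), x ∈ S → γ • x ∈ S) → ∀ y ∈ G,
      y ∉ S → 2 • y ∈ S → (∀ γ : GQ, γ • y - y ∈ S) →
      ∀ z ∈ Z, (∀ γ : GQ, γ • z - z ∈ S ∨ γ • z - z - y ∈ S) → σ • z - z ∈ S →
        complexConjugation • z - z ∈ S → ∀ γ : GQ, γ • z - z ∈ S := by
  intro S hSG hS y hyG hyS h2y hy z hzZ hz hσz hcz
  obtain ⟨L, hLfin, hL⟩ := hlev z hzZ
  exact step_two hp hp2 S hS y hyS h2y hy z hz L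
    (fun s hs => hL s ((IntermediateField.mem_fixingSubgroup_iff L s).mp hs))
    (fun ℓ hℓ hℓ2 hℓp B hB τ hτ => by
      rw [hunr z hzZ ℓ hℓ hℓ2 hℓp B hB τ hτ, sub_self]
      exact S.zero_mem)
    P (hloc S hSG hS y hyG hyS h2y hy z hzZ hz) A hA σ hσ hσp hσz hcz

/-- **`Desc40.exists_poly_odd`'s hypothesis `Htriv`** from: finite level, L2, and L3-(Z) at one
place `P` over `r`. -/
theorem Htriv_of_local {p r : ℕ} (hp : p.Prime) [Fact r.Prime] (hrp : r ≠ p)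
    (G Z : AddSubgroup J)
    (hlev : ∀ z ∈ Z, ∃ L : IntermediateField ℚ Qb, FiniteDimensional ℚ L ∧
      ∀ s : GQ, (∀ x ∈ L, s x = x) → s • z = z)
    (hunr : ∀ z ∈ Z, ∀ ℓ : ℕ, ℓ.Prime → ℓ ≠ p → ℓ ≠ r → ∀ B : ValuationSubring Qb,
      B.LiesOverPrime ℓ → ∀ τ ∈ B.inertiaSubgroupIn ℚ, τ • z = z)
    (P : ValuationSubring Qb) (hP : P.LiesOverPrime r)
    (hloc : ∀ S : AddSubgroup J, S ≤ G → (∀ (γ : GQ) (x : J), x ∈ S → γ • x ∈ S) → ∀ y ∈ G,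
      y ∉ S → r • y ∈ S → (∀ γ : GQ, γ • y - y ∈ S) →
      ∀ z ∈ Z, (∀ γ : GQ, ∃ j : ℤ, γ • z - z - j • y ∈ S) →
      ∀ τ ∈ P.inertiaSubgroupIn ℚ, τ • z - z ∈ S)
    (A : ValuationSubring Qb) (hA : A.LiesOverPrime p) (σ : GQ) (hσ : σ ∈ A.inertiaSubgroupIn ℚ)
    (hσp : ∀ π : Qb, π ^ r = (p : Qb) → σ π ≠ π) :
    ∀ S : AddSubgroup J, S ≤ G → (∀ (γ : GQ) (x : J), x ∈ S → γ • x ∈ S) → ∀ y ∈ G,
      y ∉ S → r • y ∈ S → (∀ γ : GQ, γ • y - y ∈ S) →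
      ∀ z ∈ Z, (∀ γ : GQ, ∃ j : ℤ, γ • z - z - j • y ∈ S) → σ • z - z ∈ S →
        ∀ γ : GQ, γ • z - z ∈ S := by
  intro S hSG hS y hyG hyS hry hy z hzZ hz hσz
  obtain ⟨L, hLfin, hL⟩ := hlev z hzZ
  exact step_triv_of_place hp hrp S hS y hyS hry hy z hz L
    (fun s hs => hL s ((IntermediateField.mem_fixingSubgroup_iff L s).mp hs))
    (fun ℓ hℓ hℓp hℓr B hB τ hτ => by
      rw [hunr z hzZ ℓ hℓ hℓp hℓr B hB τ hτ, sub_self]
      exact S.zero_mem)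
    P hP (hloc S hSG hS y hyG hyS hry hy z hzZ hz) A hA σ hσ hσp hσz

/-- **`Desc40.exists_poly_odd`'s hypothesis `Hmu`** from: finite level, L2, (JH-χ) (`hline`, the
conclusion of `JH.LineChar`) and L3-(MU) at one place `P` over `r` (`hloc`). -/
theorem Hmu_of_local {p r : ℕ} (hp : p.Prime) [Fact r.Prime] (hr2 : r ≠ 2) (hrp : r ≠ p)
    (G Z : AddSubgroup J) (c : GQ)
    (hlev : ∀ z ∈ Z, ∃ L : IntermediateField ℚ Qb, FiniteDimensional ℚ L ∧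
      ∀ s : GQ, (∀ x ∈ L, s x = x) → s • z = z)
    (hunr : ∀ z ∈ Z, ∀ ℓ : ℕ, ℓ.Prime → ℓ ≠ p → ℓ ≠ r → ∀ B : ValuationSubring Qb,
      B.LiesOverPrime ℓ → ∀ τ ∈ B.inertiaSubgroupIn ℚ, τ • z = z)
    (hline : ∀ S : AddSubgroup J, S ≤ G → (∀ (γ : GQ) (x : J), x ∈ S → γ • x ∈ S) →
      ∀ y ∈ G, r • y ∈ S → (∀ γ : GQ, ∃ m : ℤ, γ • y - m • y ∈ S) →
        (∀ γ : GQ, γ • y - y ∈ S) ∨
          (∀ (γ : GQ) (ζ : Qb) (m : ℕ), ζ ^ r = 1 → ζ ≠ 1 → γ ζ = ζ ^ m → γ • y - m • y ∈ S))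
    {ζ : Qb} (hζ : IsPrimitiveRoot ζ r)
    (P : ValuationSubring Qb) (hP : P.LiesOverPrime r)
    (hloc : ∀ S : AddSubgroup J, S ≤ G → (∀ (γ : GQ) (x : J), x ∈ S → γ • x ∈ S) → ∀ y ∈ G,
      y ∉ S → r • y ∈ S → (∀ (γ : GQ) (i : ℕ), γ ζ = ζ ^ i → γ • y - i • y ∈ S) →
      ∀ z ∈ Z, (∀ γ : GQ, ∃ j : ℤ, γ • z - z - j • y ∈ S) →
      ∀ θ : Qb, θ ≠ 0 → (∀ (g : GQ) (j : ℤ), g • z - z - j • y ∈ S → g θ = ζ ^ j * θ) →
        ∃ n : ℤ, P.valuation θ = P.valuation ((r : Qb) ^ n))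
    (A : ValuationSubring Qb) (hA : A.LiesOverPrime p) (σ : GQ) (hσ : σ ∈ A.inertiaSubgroupIn ℚ)
    (hσp : ∀ π : Qb, π ^ r = (p : Qb) → σ π ≠ π) :
    ∀ S : AddSubgroup J, S ≤ G → (∀ (γ : GQ) (x : J), x ∈ S → γ • x ∈ S) → ∀ y ∈ G,
      y ∉ S → r • y ∈ S → (∀ γ : GQ, ∃ m : ℤ, γ • y - m • y ∈ S) → c • y + y ∈ S →
      ∀ z ∈ Z, (∀ γ : GQ, ∃ j : ℤ, γ • z - z - j • y ∈ S) → σ • z - z ∈ S →
        ∃ j : ℤ, ∀ γ : GQ, γ • z - z - j • (γ • y - y) ∈ S := by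
  intro S hSG hS y hyG hyS hry hsc hcy z hzZ hz hσz
  have hr : r.Prime := Fact.out
  have hζ1 : ζ ≠ 1 := hζ.ne_one hr.one_lt
  have hycyc : ∀ (γ : GQ) (i : ℕ), γ ζ = ζ ^ i → γ • y - i • y ∈ S := by
    rcases hline S hSG hS y hyG hry hsc with h | h
    · exact absurd h (not_fixed_of_conj_neg hr hr2 S hyS hry c hcy)
    · exact fun γ i hi => h γ ζ i hζ.pow_eq_one hζ1 hi
  obtain ⟨L, hLfin, hL⟩ := hlev z hzZ
  exact step_mu hp hr2 hrp S hS y hyS hry hζ hycyc z hz L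
    (fun s hs => hL s ((IntermediateField.mem_fixingSubgroup_iff L s).mp hs))
    (fun ℓ hℓ hℓp hℓr B hB τ hτ => by
      rw [hunr z hzZ ℓ hℓ hℓp hℓr B hB τ hτ, sub_self]
      exact S.zero_mem)
    P hP (hloc S hSG hS y hyG hyS hry hycyc z hzZ hz) A hA σ hσ hσp hσz

end Fermat.Agent.S15P.StepChar96
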