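import Mathlib
import Fermat.Agent.Lib.FinFlat.Mult
import Fermat.Agent.Lib.FinFlat.Conn
import Fermat.Agent.Lib.FinFlat.PBridge
import Fermat.Agent.Lib.FinFlat.OrderOps
import Fermat.Agent.PT.Levels

/-!
# S15 design cell (helper52): the local lemma at an odd prime `r`, mu steps (L3-ODD, half (MU))

A finite Galois module `E` with a Hopf order at the odd prime `r`, a subgroup `W` killed by `r` on
which the inertia group at a place `P` over `r` acts through the cyclotomic character (a "mu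
step"), and a point `x` whose inertia displacements `σ x - x` lie in `W`.  Then the displacement
cocycle is the Kummer cocycle of a UNIT: for every additive character `χ` of `E` there is a unit
`z` of `P` with `σ z = χ (σ x - x) * z` for ALL `σ` in the inertia group.

This sharpens main's `IsPOrder.exists_unit_witness` (no connected-component / indicator
hypothesis on `W`, no restriction to the elements fixing `μ_r`): the test function is the
character `χ` itself, which is its own `χ|_W`-isotypic projection.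

Consequence (`valuation_eq_zpow_of_hopfOrder_mu`): an element `θ` with the same inertia cocycle
has the valuation of an integral power of `r` — so `v(θ) ^ r ≠ v(r)`.
-/

set_option autoImplicit false

namespace Fermat.Agent.S15P.LocOddMu52

open Fermat.Agent.Lib.FinFlat Fermat.Agent.PT.Levels

local notation "Qb" => AlgebraicClosure ℚ
local notation "GQ" => (AlgebraicClosure ℚ ≃ₐ[ℚ] AlgebraicClosure ℚ)

variable {P : ValuationSubring Qb} {Γ : Subgroup GQ} {V : Type} [AddCommGroup V]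
  {act : GQ → V → V} {B : Subalgebra P (V → Qb)}

/-- Multiplication by an integer prime to `p` is a bijection of a finite group killed by `p`. -/
theorem nsmul_bijective_of_not_dvd {p : ℕ} (hp : p.Prime) {a : ℕ} (ha : ¬ p ∣ a)
    (W : AddSubgroup V) [Finite W] (hpW : ∀ w ∈ W, p • w = 0) :
    Function.Bijective (fun w : W => a • w) := by
  refine Finite.injective_iff_bijective.mp ?_
  intro w w' hww
  have h1 : a • (w - w') = 0 := by
    rw [smul_sub]
    exact sub_eq_zero.mpr hww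
  have h2 : p • (w - w') = 0 := Subtype.ext (hpW _ (w - w').2)
  have h3 : addOrderOf (w - w') ∣ Nat.gcd p a :=
    Nat.dvd_gcd (addOrderOf_dvd_of_nsmul_eq_zero h2) (addOrderOf_dvd_of_nsmul_eq_zero h1)
  rw [(hp.coprime_iff_not_dvd.mpr ha).gcd_eq_one, Nat.dvd_one] at h3
  exact sub_eq_zero.mp (AddMonoid.addOrderOf_eq_one_iff.mp h3)

open Classical in
/-- **Unit Kummer witnesses along a mu-type subgroup.**  `W` a subgroup killed by the odd prime
`p` on which `Γ ⊇ I` acts through the cyclotomic character; `e` any point; `χ` any additive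
character of `V`.  There is a unit `z` of `P` with `σ z = χ (σ e - e) z` for every `σ ∈ Γ` whose
displacement `σ e - e` lies in `W`. -/
theorem exists_unit_witness_along [Finite V] {p : ℕ} (hp : p.Prime)
    (hp2 : p ≠ 2) (hP : P.LiesOverPrime p) (hB : IsPOrder P Γ act B)
    (hI : P.inertiaSubgroupIn ℚ ≤ Γ)
    (hadd : ∀ σ ∈ Γ, ∀ v w, act σ (v + w) = act σ v + act σ w) (W : AddSubgroup V)
    (hpW : ∀ w ∈ W, p • w = 0)
    (hact : ∀ σ ∈ Γ, ∃ a : ℕ, (∀ w ∈ W, act σ w = a • w) ∧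
      ∀ ζ : Qb, ζ ^ p = 1 → σ ζ = ζ ^ a)
    (e : V) (χ : AddChar V Qb) :
    ∃ z : Qb, z ∈ P ∧ z ∉ P.nonunits ∧ ∀ σ ∈ Γ, act σ e - e ∈ W →
      σ z = χ (act σ e - e) * z := by
  cases nonempty_fintype V
  have hN : (Fintype.card W : Qb) ≠ 0 := Nat.cast_ne_zero.mpr Fintype.card_ne_zero
  -- the character of `W`
  let ψ : AddChar W Qb := χ.compAddMonoidHom W.subtype
  have hψ : ∀ w : W, ψ w = χ (w : V) := fun w => rfl
  -- the projector
  let Pr : (V → Qb) → V → Qb := fun g v => (∑ w : W, ψ (-w) * g (v + w)) / (Fintype.card W : Qb)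
  have hPrB : ∀ g ∈ B, Pr g ∈ B := fun g hg => hB.proj_mem hp hp2 hP hI W hpW hact ψ hg
  -- the test function is the character itself
  have hχB : (χ : V → Qb) ∈ B := hB.addChar_mem' χ
  have hPrχ : Pr χ e = χ e := by
    have h1 : ∀ w : W, ψ (-w) * χ (e + w) = χ e := by
      intro w
      rw [hψ, AddChar.map_add_eq_mul, AddSubgroup.coe_neg, AddChar.map_neg_eq_inv]
      have hw0 : χ (w : V) ≠ 0 := addChar_ne_zero χ w
      field_simp
    show (∑ w : W, ψ (-w) * χ (e + w)) / (Fintype.card W : Qb) = χ e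
    rw [Finset.sum_congr rfl fun w _ => h1 w, Finset.sum_const, Finset.card_univ, nsmul_eq_mul,
      mul_comm, mul_div_assoc, div_self hN, mul_one]
  obtain ⟨n, c, g, hg, hge, hsum⟩ := hB.exists_eq_sum hχB
  have hlin : Pr χ e = ∑ i, (c i : Qb) * Pr (g i) e := by
    show (∑ w : W, ψ (-w) * χ (e + w)) / (Fintype.card W : Qb) =
      ∑ i, (c i : Qb) * ((∑ w : W, ψ (-w) * g i (e + w)) / (Fintype.card W : Qb))
    have h1 : ∀ w : W, ψ (-w) * χ (e + w) = ∑ i, (c i : Qb) * (ψ (-w) * g i (e + w)) := by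
      intro w
      have := congrFun hsum (e + w)
      rw [Finset.sum_apply] at this
      rw [this, Finset.mul_sum]
      refine Finset.sum_congr rfl fun i _ => ?_
      simp only [Pi.smul_apply, smul_eq_mul]
      ring
    rw [Finset.sum_congr rfl fun w _ => h1 w, Finset.sum_comm, Finset.sum_div]
    refine Finset.sum_congr rfl fun i _ => ?_
    rw [← Finset.mul_sum, mul_div_assoc]
  -- some `Pr (g i) e` is a unit
  have hχunit : χ e ∉ P.nonunits := by
    rw [P.mem_nonunits_iff, valuation_eq_one_of_pow_eq_one P Nat.card_pos.ne'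
      (addChar_pow_card χ e)]
    exact lt_irrefl 1
  obtain ⟨i, hi⟩ : ∃ i, Pr (g i) e ∉ P.nonunits := by
    by_contra hcon
    push Not at hcon
    apply hχunit
    rw [← hPrχ, hlin]
    exact nonunits_sum_mem _ _ fun i _ => nonunits_mul_mem_left (c i).2 (hcon i)
  refine ⟨Pr (g i) e, hB.integral _ (hPrB _ (hg i)) e, hi, fun σ hσ h => ?_⟩
  obtain ⟨a, ha, haζ⟩ := hact σ hσ
  have hap : ¬ p ∣ a := not_dvd_of_apply_eq_pow hp haζ
  have hbij : Function.Bijective (fun w : W => a • w) := nsmul_bijective_of_not_dvd hp hap W hpW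
  have hσψ : ∀ w : W, σ (ψ w) = ψ (a • w) := by
    intro w
    have hpw : p • w = 0 := Subtype.ext (hpW w w.2)
    have h1 : ψ w ^ p = 1 := by
      rw [← AddChar.map_nsmul_eq_pow, hpw, AddChar.map_zero_eq_one]
    rw [haζ _ h1, AddChar.map_nsmul_eq_pow]
  set w₀ : W := ⟨act σ e - e, h⟩ with hw₀
  show σ ((∑ w : W, ψ (-w) * g i (e + w)) / (Fintype.card W : Qb)) =
    χ (act σ e - e) * ((∑ w : W, ψ (-w) * g i (e + w)) / (Fintype.card W : Qb))
  rw [map_div₀, map_natCast, map_sum, ← mul_div_assoc, Finset.mul_sum]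
  congr 1
  have h1 : ∀ w : W, σ (ψ (-w) * g i (e + w)) =
      ψ (-(a • w)) * g i (act σ e + ((a • w : W) : V)) := by
    intro w
    rw [map_mul, hσψ, ← hge i σ hσ, hadd σ hσ, ha w w.2, smul_neg, AddSubgroup.coe_nsmul]
  rw [Finset.sum_congr rfl fun w _ => h1 w]
  rw [Fintype.sum_bijective (fun w : W => a • w) hbij
    (fun w => ψ (-(a • w)) * g i (act σ e + ((a • w : W) : V)))
    (fun w => ψ (-w) * g i (act σ e + (w : V))) (fun w => rfl)]
  refine Fintype.sum_bijective (fun w => w₀ + w) (AddGroup.addLeft_bijective w₀) _ _ fun w => ?_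
  have h2 : ψ (-w) = χ (act σ e - e) * ψ (-(w₀ + w)) := by
    have h3 : χ (act σ e - e) = ψ w₀ := rfl
    rw [h3, ← AddChar.map_add_eq_mul]
    congr 1
    abel
  have h5 : e + ((w₀ + w : W) : V) = act σ e + (w : V) := by
    show e + ((act σ e - e) + (w : V)) = act σ e + (w : V)
    abel
  rw [h2, h5]
  ring

/-- **L3-ODD (MU), witness form.**  `E` a finite Galois module with a Hopf order at the odd prime
`r`; `W ≤ E` killed by `r`, with the inertia group at `P | r` acting on `W` through the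
cyclotomic character; `x ∈ E`.  For every additive character `χ` of `E` there is a unit `z` of
`P` such that `σ z = χ (σ x - x) z` for all inertia elements `σ` with `σ x - x ∈ W`. -/
theorem exists_unit_witness_of_hopfOrder {r : ℕ} [Fact r.Prime] (hr2 : r ≠ 2) {E : Type}
    [AddCommGroup E] [Finite E] {act : GQ → E → E} (hE : HasHopfOrder r act)
    (P : ValuationSubring Qb) (hP : P.LiesOverPrime r)
    (hadd : ∀ σ ∈ P.inertiaSubgroupIn ℚ, ∀ v w, act σ (v + w) = act σ v + act σ w)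
    (W : AddSubgroup E) (hrW : ∀ w ∈ W, r • w = 0)
    (hW : ∀ σ ∈ P.inertiaSubgroupIn ℚ, ∃ a : ℕ, (∀ w ∈ W, act σ w = a • w) ∧
      ∀ ζ : Qb, ζ ^ r = 1 → σ ζ = ζ ^ a)
    (x : E) (χ : AddChar E Qb) :
    ∃ z : Qb, z ∈ P ∧ z ∉ P.nonunits ∧ ∀ σ ∈ P.inertiaSubgroupIn ℚ, act σ x - x ∈ W →
      σ z = χ (act σ x - x) * z := by
  obtain ⟨B₀, hB₀⟩ := hE
  obtain ⟨B, hB, -⟩ := hB₀.exists_isPOrder P hP
  exact exists_unit_witness_along (Fact.out : r.Prime) hr2 hP (hB.mono le_top) le_rfl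
    hadd W hrW hW x χ

/-- **L3-ODD (MU), valuation form.**  In the situation of `exists_unit_witness_of_hopfOrder`, if
all inertia displacements of `x` lie in `W` and `θ ≠ 0` transforms under inertia by the same
cocycle (`σ θ = χ (σ x - x) θ`: a Kummer generator of the step), then `v_P(θ) = v_P(r ^ n)` for
an integer `n`: the Kummer class is a unit class at `r`. -/
theorem valuation_eq_zpow_of_hopfOrder_mu {r : ℕ} [Fact r.Prime] (hr2 : r ≠ 2) {E : Type}
    [AddCommGroup E] [Finite E] {act : GQ → E → E} (hE : HasHopfOrder r act)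
    (P : ValuationSubring Qb) (hP : P.LiesOverPrime r)
    (hadd : ∀ σ ∈ P.inertiaSubgroupIn ℚ, ∀ v w, act σ (v + w) = act σ v + act σ w)
    (W : AddSubgroup E) (hrW : ∀ w ∈ W, r • w = 0)
    (hW : ∀ σ ∈ P.inertiaSubgroupIn ℚ, ∃ a : ℕ, (∀ w ∈ W, act σ w = a • w) ∧
      ∀ ζ : Qb, ζ ^ r = 1 → σ ζ = ζ ^ a)
    (x : E) (χ : AddChar E Qb) (hx : ∀ σ ∈ P.inertiaSubgroupIn ℚ, act σ x - x ∈ W)
    (θ : Qb) (hθ0 : θ ≠ 0)
    (hθ : ∀ σ ∈ P.inertiaSubgroupIn ℚ, σ θ = χ (act σ x - x) * θ) :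
    ∃ n : ℤ, P.valuation θ = P.valuation ((r : Qb) ^ n) := by
  obtain ⟨z, hzP, hzu, hz⟩ := exists_unit_witness_of_hopfOrder hr2 hE P hP hadd W hrW hW x χ
  have hz0 : z ≠ 0 := fun h => hzu (h ▸ nonunits_zero_mem P)
  have hvz : P.valuation z = 1 := by
    rw [P.mem_nonunits_iff, not_lt] at hzu
    exact le_antisymm ((P.valuation_le_one_iff z).mpr hzP) hzu
  have hfix : ∀ σ ∈ P.inertiaSubgroupIn ℚ, σ (θ / z) = θ / z := by
    intro σ hσ
    have hχ0 : χ (act σ x - x) ≠ 0 := addChar_ne_zero χ _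
    rw [map_div₀, hθ σ hσ, hz σ hσ (hx σ hσ)]
    field_simp
  obtain ⟨n, hn⟩ := exists_zpow_valuation_eq_of_inertia_fixed (Fact.out : r.Prime) P hP hfix
    (div_ne_zero hθ0 hz0)
  refine ⟨n, ?_⟩
  rw [← hn, map_div₀, hvz, div_one]

/-- **L3-ODD (MU), the shape of `valuation_sq_ne_of_hopfOrder` (helper29, `r = 2`).**  In the
situation of `valuation_eq_zpow_of_hopfOrder_mu`, `θ ^ r` is not `r · unit`: a Kummer generator
of a mu step of a module with a Hopf order at the odd prime `r` is never the `r`-th root of a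
uniformiser. -/
theorem valuation_pow_ne_of_hopfOrder_mu {r : ℕ} [Fact r.Prime] (hr2 : r ≠ 2) {E : Type}
    [AddCommGroup E] [Finite E] {act : GQ → E → E} (hE : HasHopfOrder r act)
    (P : ValuationSubring Qb) (hP : P.LiesOverPrime r)
    (hadd : ∀ σ ∈ P.inertiaSubgroupIn ℚ, ∀ v w, act σ (v + w) = act σ v + act σ w)
    (W : AddSubgroup E) (hrW : ∀ w ∈ W, r • w = 0)
    (hW : ∀ σ ∈ P.inertiaSubgroupIn ℚ, ∃ a : ℕ, (∀ w ∈ W, act σ w = a • w) ∧
      ∀ ζ : Qb, ζ ^ r = 1 → σ ζ = ζ ^ a)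
    (x : E) (χ : AddChar E Qb) (hx : ∀ σ ∈ P.inertiaSubgroupIn ℚ, act σ x - x ∈ W)
    (θ : Qb) (hθ : ∀ σ ∈ P.inertiaSubgroupIn ℚ, σ θ = χ (act σ x - x) * θ) :
    P.valuation θ ^ r ≠ P.valuation (r : Qb) := by
  intro hv
  have hr : r.Prime := Fact.out
  have hr0 : (r : Qb) ≠ 0 := Nat.cast_ne_zero.mpr hr.ne_zero
  have hw1 : P.valuation (r : Qb) < 1 := P.mem_nonunits_iff.mp hP
  have hw0 : P.valuation (r : Qb) ≠ 0 := (Valuation.ne_zero_iff _).2 hr0
  have hθ0 : θ ≠ 0 := by
    rintro rfl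
    rw [map_zero, zero_pow hr.ne_zero] at hv
    exact hw0 hv.symm
  obtain ⟨n, hn⟩ := valuation_eq_zpow_of_hopfOrder_mu hr2 hE P hP hadd W hrW hW x χ hx θ hθ0 hθ
  set w := P.valuation (r : Qb) with hw
  rw [map_zpow₀, ← hw] at hn
  have hk : w ^ ((r : ℤ) * n - 1) = 1 := by
    have e : w ^ ((r : ℤ) * n) = w := by
      calc w ^ ((r : ℤ) * n) = (w ^ n) ^ r := by
            rw [← zpow_natCast (w ^ n) r, ← zpow_mul, mul_comm]
        _ = P.valuation θ ^ r := by rw [hn]
        _ = w := hv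
    rw [zpow_sub₀ hw0, e, zpow_one, div_self hw0]
  have hk0 : (r : ℤ) * n - 1 ≠ 0 := by
    intro h
    have h3 : (r : ℤ) * n = 1 := by linarith
    rcases Int.isUnit_iff.mp (IsUnit.of_mul_eq_one _ h3) with h4 | h4
    · have := hr.two_le
      omega
    · have := hr.two_le
      omega
  rcases lt_or_gt_of_ne hk0 with hneg | hpos
  · obtain ⟨k, hk'⟩ : ∃ k : ℕ, (r : ℤ) * n - 1 = -((k : ℤ) + 1) :=
      ⟨(-((r : ℤ) * n - 1) - 1).toNat, by omega⟩
    rw [hk', zpow_neg, inv_eq_one] at hk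
    have : w ^ ((k : ℤ) + 1) = w ^ (k + 1) := by
      rw [← zpow_natCast]; push_cast; rfl
    rw [this] at hk
    exact absurd hk (ne_of_lt (pow_lt_one₀ zero_le hw1 (by omega)))
  · obtain ⟨k, hk'⟩ : ∃ k : ℕ, (r : ℤ) * n - 1 = ((k : ℤ) + 1) :=
      ⟨((r : ℤ) * n - 1 - 1).toNat, by omega⟩
    rw [hk'] at hk
    have : w ^ ((k : ℤ) + 1) = w ^ (k + 1) := by
      rw [← zpow_natCast]; push_cast; rfl
    rw [this] at hk
    exact absurd hk (ne_of_lt (pow_lt_one₀ zero_le hw1 (by omega)))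

end Fermat.Agent.S15P.LocOddMu52
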