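/-
S15 (row 624 CONCRETE-DESC, seat helper40): **the step module**.

`z` a point of `J₀(N)(ℚ̄)` with `r • z` rational (`r ∤ N` prime), `S` a Galois-stable subgroup
of `J₀(N)[r]`, `y ∈ J₀(N)[r] ∖ S` a vector on which Galois acts by the scalars `χ` modulo `S`,
and `γ z - z ≡ a(γ) y` modulo `S`.  Then the explicit Galois module

  `(ℤ/r)²`,  `γ (b, c) = (χ(γ) b + c a(γ), c)`

(the subquotient `(S + ℤy + ℤz) / S` of the Kummer group of `z`) has a Hopf order at `r`:
it is a submodule of the quotient of the Kummer group `J₀(N)[r] × ℤ/r` of `z` (main's (ORD0),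
`Ord15.hasHopfOrder_kummer`) by `S × 0`.
-/
import Mathlib
import Fermat.Agent.S15P.Ord.KumMain15
import Fermat.Agent.Lib.FinFlat.Quotient
import Fermat.Agent.Lib.FinFlat.OrderOps

set_option autoImplicit false

namespace Fermat.Agent.S15P.StepMod40

open AlgebraicCurve ModularCurve Fermat.Agent.Lib.FinFlat Fermat.Agent.S15P.Ord15

local notation "Qb" => AlgebraicClosure ℚ
local notation "GQ" => (AlgebraicClosure ℚ ≃ₐ[ℚ] AlgebraicClosure ℚ)

/-- The step module `(ℤ/r)²` with `γ (b, c) = (χ γ * b + c * a γ, c)`. -/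
def stepAct (r : ℕ) (χ a : GQ → ZMod r) : GQ → ZMod r × ZMod r → ZMod r × ZMod r :=
  fun γ v => (χ γ * v.1 + v.2 * a γ, v.2)

theorem stepAct_apply (r : ℕ) (χ a : GQ → ZMod r) (γ : GQ) (v : ZMod r × ZMod r) :
    stepAct r χ a γ v = (χ γ * v.1 + v.2 * a γ, v.2) := rfl

theorem stepAct_add (r : ℕ) (χ a : GQ → ZMod r) (γ : GQ) (v w : ZMod r × ZMod r) :
    stepAct r χ a γ (v + w) = stepAct r χ a γ v + stepAct r χ a γ w := by
  refine Prod.ext ?_ rfl
  show χ γ * (v.1 + w.1) + (v.2 + w.2) * a γ = (χ γ * v.1 + v.2 * a γ) + (χ γ * w.1 + w.2 * a γ)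
  ring

theorem stepAct_zero (r : ℕ) (χ a : GQ → ZMod r) (γ : GQ) : stepAct r χ a γ 0 = 0 := by
  refine Prod.ext ?_ rfl
  show χ γ * (0 : ZMod r) + (0 : ZMod r) * a γ = 0
  ring

theorem nsmul_step (r : ℕ) (v : ZMod r × ZMod r) : r • v = 0 := by
  refine Prod.ext ?_ ?_
  · show r • v.1 = 0
    rw [nsmul_eq_mul, ZMod.natCast_self, zero_mul]
  · show r • v.2 = 0
    rw [nsmul_eq_mul, ZMod.natCast_self, zero_mul]

section aux

variable {M : Type*} [AddCommGroup M]

theorem nsmul_mod_of_kill (r : ℕ) (y : M) (hry : r • y = 0) (n : ℕ) : (n % r) • y = n • y := by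
  conv_rhs => rw [← Nat.div_add_mod n r]
  rw [add_nsmul, mul_nsmul, hry, nsmul_zero, zero_add]

theorem val_natCast_nsmul (r : ℕ) (y : M) (hry : r • y = 0) (n : ℕ) :
    ((n : ZMod r)).val • y = n • y := by
  rw [ZMod.val_natCast, nsmul_mod_of_kill r y hry]

/-- `x.val • y` for a polynomial expression `x` in `ZMod r`. -/
theorem val_nsmul_eq (r : ℕ) [NeZero r] (y : M) (hry : r • y = 0) (x : ZMod r) (n : ℕ)
    (h : x = (n : ZMod r)) : x.val • y = n • y := by
  rw [h, val_natCast_nsmul r y hry]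

theorem mem_of_val_nsmul_mem (r : ℕ) [Fact r.Prime] (S : AddSubgroup M) (y : M) (hry : r • y = 0)
    (b : ZMod r) (hb : b ≠ 0) (h : b.val • y ∈ S) : y ∈ S := by
  have h1 : (b⁻¹ * b).val • y = ((b⁻¹).val * b.val) • y :=
    val_nsmul_eq r y hry _ _ (by
      push_cast
      rw [ZMod.natCast_zmod_val, ZMod.natCast_zmod_val])
  rw [inv_mul_cancel₀ hb, ZMod.val_one, one_nsmul, mul_nsmul'] at h1
  rw [h1]
  exact S.nsmul_mem h _

theorem step_identity (b c : ℕ) (P Q R T : M) :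
    (b • P + c • Q) - (b • R + c • T) = -(b • (R - P)) - c • (T - Q) := by
  rw [nsmul_sub, nsmul_sub]
  abel

end aux

section main

set_option synthInstance.maxHeartbeats 400000

variable {N : ℕ}

theorem hasHopfOrder_step_aux [NeZero N] (r : ℕ) [Fact r.Prime] (m : ℕ) [NeZero m]
    (hmr : m = r) (z : JZero N) (hz : ∀ σ : GQ, σ • (m • z) = m • z)
    (hH : HasHopfOrder r (kumAct m z hz))
    (S : AddSubgroup (JZero N)) (hS : ∀ (γ : GQ) (x : JZero N), x ∈ S → γ • x ∈ S)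
    (y : JZero N) (hyS : y ∉ S) (hry : r • y = 0)
    (χ a : GQ → ZMod r)
    (hχ : ∀ γ : GQ, γ • y - (χ γ).val • y ∈ S)
    (ha : ∀ γ : GQ, γ • z - z - (a γ).val • y ∈ S) :
    HasHopfOrder r (stepAct r χ a) := by
  subst hmr
  have := torsion_finite (N := N) m
  -- the quotient of the Kummer group by `S × 0`
  let Vr : Type := ↥(Submodule.torsionBy ℤ (JZero N) (m : ℤ))
  let S' : AddSubgroup (Vr × ZMod m) :=
    AddSubgroup.prod (S.comap (Submodule.torsionBy ℤ (JZero N) (m : ℤ)).subtype.toAddMonoidHom) ⊥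
  have hS' : ∀ v : Vr × ZMod m, v ∈ S' ↔ ((v.1 : JZero N) ∈ S ∧ v.2 = 0) := by
    intro v
    show v ∈ AddSubgroup.prod _ _ ↔ _
    rw [AddSubgroup.mem_prod, AddSubgroup.mem_bot]
    rfl
  let actHom : GQ → (Vr × ZMod m) →+ (Vr × ZMod m) := fun γ =>
    AddMonoidHom.mk' (kumAct m z hz γ) (kumAct_add m z hz γ)
  have hstab : ∀ γ : GQ, S' ≤ S'.comap (actHom γ) := by
    intro γ v hv
    rw [hS'] at hv
    show kumAct m z hz γ v ∈ S'
    rw [hS']
    refine ⟨?_, hv.2⟩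
    show γ • (v.1 : JZero N) + v.2.val • (γ • z - z) ∈ S
    rw [hv.2, ZMod.val_zero, zero_nsmul, add_zero]
    exact hS γ _ hv.1
  let actQ : GQ → (Vr × ZMod m) ⧸ S' → (Vr × ZMod m) ⧸ S' := fun γ =>
    QuotientAddGroup.map S' S' (actHom γ) (hstab γ)
  have hQ : HasHopfOrder m actQ :=
    hH.of_surjective (QuotientAddGroup.mk' S') (QuotientAddGroup.mk'_surjective S')
      (fun σ v => rfl)
  -- the embedding of the step module
  have hy' : y ∈ Submodule.torsionBy ℤ (JZero N) (m : ℤ) := by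
    rw [Submodule.mem_torsionBy_iff, natCast_zsmul]
    exact hry
  let y' : Vr := ⟨y, hy'⟩
  have hy'r : ((zmultiplesHom Vr) y') (m : ℤ) = 0 := by
    show (m : ℤ) • y' = 0
    exact Subtype.ext (by
      show (m : ℤ) • y = 0
      rw [natCast_zsmul]; exact hry)
  let yHom : ZMod m →+ Vr := ZMod.lift m ⟨(zmultiplesHom Vr) y', hy'r⟩
  have hyHom : ∀ b : ZMod m, ((yHom b : Vr) : JZero N) = b.val • y := by
    intro b
    have h1 : yHom ((b.val : ℤ) : ZMod m) = (b.val : ℤ) • y' := ZMod.lift_coe m _ _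
    rw [Int.cast_natCast, ZMod.natCast_zmod_val] at h1
    rw [h1]
    show (b.val : ℤ) • y = b.val • y
    rw [natCast_zsmul]
  let ι : ZMod m × ZMod m →+ (Vr × ZMod m) ⧸ S' :=
    (QuotientAddGroup.mk' S').comp (AddMonoidHom.prodMap yHom (AddMonoidHom.id (ZMod m)))
  have hι : Function.Injective ι := by
    rw [injective_iff_map_eq_zero]
    intro w hw
    have h1 : (yHom w.1, w.2) ∈ S' := (QuotientAddGroup.eq_zero_iff _).mp hw
    rw [hS'] at h1
    have h2 : w.1 = 0 := by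
      by_contra hne
      exact hyS (mem_of_val_nsmul_mem m S y hry w.1 hne (by rw [← hyHom]; exact h1.1))
    exact Prod.ext h2 h1.2
  have hι' : ∀ (σ : GQ) (w : ZMod m × ZMod m), ι (stepAct m χ a σ w) = actQ σ (ι w) := by
    intro σ w
    show QuotientAddGroup.mk' S' (yHom (χ σ * w.1 + w.2 * a σ), w.2) =
      QuotientAddGroup.mk' S' (kumAct m z hz σ (yHom w.1, w.2))
    show ((yHom (χ σ * w.1 + w.2 * a σ), w.2) : (Vr × ZMod m) ⧸ S') =
      ((kumAct m z hz σ (yHom w.1, w.2) : Vr × ZMod m) : (Vr × ZMod m) ⧸ S')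
    rw [QuotientAddGroup.eq_iff_sub_mem, hS']
    refine ⟨?_, ?_⟩
    swap
    · show w.2 - w.2 = 0
      exact sub_self _
    show ((yHom (χ σ * w.1 + w.2 * a σ) : Vr) : JZero N) -
      (σ • ((yHom w.1 : Vr) : JZero N) + w.2.val • (σ • z - z)) ∈ S
    rw [hyHom, hyHom]
    have e1 : (χ σ * w.1 + w.2 * a σ).val • y =
        ((χ σ).val * w.1.val + w.2.val * (a σ).val) • y :=
      val_nsmul_eq m y hry _ _ (by
        push_cast
        rw [ZMod.natCast_zmod_val, ZMod.natCast_zmod_val, ZMod.natCast_zmod_val,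
          ZMod.natCast_zmod_val])
    have e2 : σ • (w.1.val • y) = w.1.val • (σ • y) :=
      map_nsmul (DistribSMul.toAddMonoidHom (JZero N) σ) _ y
    rw [e1, e2]
    have e3 : ((χ σ).val * w.1.val + w.2.val * (a σ).val) • y -
        (w.1.val • (σ • y) + w.2.val • (σ • z - z)) =
        -(w.1.val • (σ • y - (χ σ).val • y)) - w.2.val • (σ • z - z - (a σ).val • y) := by
      rw [add_nsmul, mul_nsmul, mul_nsmul']
      exact step_identity _ _ _ _ _ _
    rw [e3]
    exact S.sub_mem (S.neg_mem (S.nsmul_mem (hχ σ) _)) (S.nsmul_mem (ha σ) _)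
  exact hQ.of_injective ι hι hι'

/-- **The step module has a Hopf order at `r`.** -/
theorem hasHopfOrder_step [NeZero N] (r : ℕ) [Fact r.Prime] (hrN : ¬ r ∣ N)
    (z : JZero N) (hz : ∀ σ : GQ, σ • (r • z) = r • z)
    (S : AddSubgroup (JZero N)) (hS : ∀ (γ : GQ) (x : JZero N), x ∈ S → γ • x ∈ S)
    (y : JZero N) (hyS : y ∉ S) (hry : r • y = 0)
    (χ a : GQ → ZMod r)
    (hχ : ∀ γ : GQ, γ • y - (χ γ).val • y ∈ S)
    (ha : ∀ γ : GQ, γ • z - z - (a γ).val • y ∈ S) :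
    HasHopfOrder r (stepAct r χ a) := by
  have hz' : ∀ σ : GQ, σ • (r ^ 1 • z) = r ^ 1 • z := by
    intro σ
    rw [pow_one]
    exact hz σ
  have : NeZero (r ^ 1) := ⟨by rw [pow_one]; exact (Fact.out : r.Prime).ne_zero⟩
  exact hasHopfOrder_step_aux r (r ^ 1) (pow_one r) z hz'
    (hasHopfOrder_kummer N r hrN 1 z hz') S hS y hyS hry χ a hχ ha

end main

end Fermat.Agent.S15P.StepMod40
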