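/-
S15 (row 624 CONCRETE-DESC, seat helper40): **the three local statements at the descent prime
`r`, on the step module** (`StepMod40.hasHopfOrder_step`).

`z` with `r • z` rational, `S ≤ J₀(N)[r]` Galois-stable, `y ∈ J₀(N)[r] ∖ S`, `r ∤ N`.

* `step_two_h2`  (`r = 2`, `y` fixed mod `S`, `γ z - z ≡ δ(γ) y`): the quadratic character `δ`
  restricted to inertia at `2` is not that of a square root of a uniformiser
  (= the hypothesis `h2` of L4's `quadChar_eq_zero`);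
* `step_triv_unr` (`r` odd, `y` fixed mod `S`, `γ z - z ≡ a(γ) y`): `a` vanishes on inertia at
  `r` (= `hunr` at `ℓ = r` of L4's `char_eq_zero_of_sigma`);
* `step_mu_unit` (`r` odd, `γ y ≡ χ_cyc(γ) y`, `γ z - z ≡ a(γ) y`): a Kummer generator `θ` of
  the cocycle `a` has the valuation of an integral power of `r` at every place over `r`
  (⟹ `hunit` of L4's `cocycle_eq_coboundary_of_sigma`).
-/
import Mathlib
import Fermat.Agent.S15P.StepMod40
import Fermat.Agent.S15P.Loc2.TresRam29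
import Fermat.Agent.S15P.Loc2.OddStep29
import Fermat.Agent.S15P.LocOddMu52

set_option autoImplicit false

namespace Fermat.Agent.S15P.StepLoc40

open AlgebraicCurve ModularCurve Fermat.Agent.Lib.FinFlat Fermat.Agent.S15P.StepMod40

local notation "Qb" => AlgebraicClosure ℚ
local notation "GQ" => (AlgebraicClosure ℚ ≃ₐ[ℚ] AlgebraicClosure ℚ)

variable {N : ℕ}

/-- **`r = 2`.** -/
theorem step_two_h2 [NeZero N] (h2N : ¬ 2 ∣ N)
    (z : JZero N) (hz : ∀ σ : GQ, σ • (2 • z) = 2 • z)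
    (S : AddSubgroup (JZero N)) (hS : ∀ (γ : GQ) (x : JZero N), x ∈ S → γ • x ∈ S)
    (y : JZero N) (hyS : y ∉ S) (h2y : 2 • y = 0) (hy : ∀ γ : GQ, γ • y - y ∈ S)
    (δ : GQ → ZMod 2) (hδ : ∀ γ : GQ, γ • z - z - (δ γ).val • y ∈ S)
    (P : ValuationSubring Qb) (hP : P.LiesOverPrime 2) (θ : Qb)
    (hθσ : ∀ τ ∈ P.inertiaSubgroupIn ℚ, τ θ = θ ∨ τ θ = -θ)
    (hθδ : ∀ τ ∈ P.inertiaSubgroupIn ℚ, (τ θ = θ ↔ δ τ = 0)) :
    P.valuation θ ^ 2 ≠ P.valuation 2 := by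
  have : Fact (Nat.Prime 2) := ⟨Nat.prime_two⟩
  have hE : HasHopfOrder 2 (stepAct 2 (fun _ => 1) δ) :=
    hasHopfOrder_step 2 h2N z hz S hS y hyS h2y (fun _ => 1) δ
      (fun γ => by
        have h1 : ((1 : ZMod 2)).val = 1 := rfl
        rw [h1, one_nsmul]
        exact hy γ) hδ
  refine Fermat.Agent.S15P.Loc2.TresRam29.valuation_sq_ne_of_hopfOrder hE (nsmul_step 2) P hP θ hθσ
    (fun σ hσ => ?_)
  rw [hθδ σ hσ]
  constructor
  · intro h v
    refine Prod.ext ?_ rfl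
    show (1 : ZMod 2) * v.1 + v.2 * δ σ = v.1
    rw [h, mul_zero, add_zero, one_mul]
  · intro h
    have h1 := congrArg Prod.fst (h ((0 : ZMod 2), (1 : ZMod 2)))
    have h2 : (1 : ZMod 2) * (0 : ZMod 2) + (1 : ZMod 2) * δ σ = 0 := h1
    rwa [mul_zero, zero_add, one_mul] at h2

/-- **`r` odd, trivial step.** -/
theorem step_triv_unr [NeZero N] (r : ℕ) [Fact r.Prime] (hr2 : r ≠ 2) (hrN : ¬ r ∣ N)
    (z : JZero N) (hz : ∀ σ : GQ, σ • (r • z) = r • z)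
    (S : AddSubgroup (JZero N)) (hS : ∀ (γ : GQ) (x : JZero N), x ∈ S → γ • x ∈ S)
    (y : JZero N) (hyS : y ∉ S) (hry : r • y = 0) (hy : ∀ γ : GQ, γ • y - y ∈ S)
    (a : GQ → ZMod r) (ha : ∀ γ : GQ, γ • z - z - (a γ).val • y ∈ S)
    (P : ValuationSubring Qb) (hP : P.LiesOverPrime r) (τ : GQ)
    (hτ : τ ∈ P.inertiaSubgroupIn ℚ) : a τ = 0 := by
  have hr : r.Prime := Fact.out
  have : Fact (1 < r) := ⟨hr.one_lt⟩
  have hE : HasHopfOrder r (stepAct r (fun _ => 1) a) :=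
    hasHopfOrder_step r hrN z hz S hS y hyS hry (fun _ => 1) a
      (fun γ => by
        rw [ZMod.val_one, one_nsmul]
        exact hy γ) ha
  have h := Fermat.Agent.S15P.Loc2.OddStep29.act_eq_of_diff_eq_nsmul_odd hr hr2 hE (nsmul_step r) P hP
    τ hτ ((0 : ZMod r), (1 : ZMod r)) ((1 : ZMod r), (0 : ZMod r)) (a τ).val
    (fun τ' _ => by
      refine Prod.ext ?_ rfl
      show (1 : ZMod r) * (1 : ZMod r) + (0 : ZMod r) * a τ' = 1
      ring)
    (by
      refine Prod.ext ?_ ?_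
      · show ((1 : ZMod r) * (0 : ZMod r) + (1 : ZMod r) * a τ) - 0 = (a τ).val • (1 : ZMod r)
        rw [nsmul_eq_mul, ZMod.natCast_zmod_val]
        ring
      · show (1 : ZMod r) - 1 = (a τ).val • (0 : ZMod r)
        rw [smul_zero, sub_self])
  have h1 := congrArg Prod.fst h
  have h2 : (1 : ZMod r) * (0 : ZMod r) + (1 : ZMod r) * a τ = 0 := h1
  rwa [mul_zero, zero_add, one_mul] at h2

/-- **`r` odd, mu step.** -/
theorem step_mu_unit [NeZero N] (r : ℕ) [Fact r.Prime] (hr2 : r ≠ 2) (hrN : ¬ r ∣ N)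
    (z : JZero N) (hz : ∀ σ : GQ, σ • (r • z) = r • z)
    (S : AddSubgroup (JZero N)) (hS : ∀ (γ : GQ) (x : JZero N), x ∈ S → γ • x ∈ S)
    (y : JZero N) (hyS : y ∉ S) (hry : r • y = 0)
    {ζ : Qb} (hζ : IsPrimitiveRoot ζ r) (m : GQ → ℤ) (hm : ∀ g : GQ, g ζ = ζ ^ m g)
    (hy : ∀ γ : GQ, γ • y - ((m γ : ZMod r)).val • y ∈ S)
    (a : GQ → ZMod r) (ha : ∀ γ : GQ, γ • z - z - (a γ).val • y ∈ S)
    (P : ValuationSubring Qb) (hP : P.LiesOverPrime r) (θ : Qb) (hθ0 : θ ≠ 0)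
    (hθ : ∀ g : GQ, g θ = ζ ^ (a g).val * θ) :
    ∃ n : ℤ, P.valuation θ = P.valuation ((r : Qb) ^ n) := by
  have hr : r.Prime := Fact.out
  have : NeZero r := ⟨hr.ne_zero⟩
  have hE : HasHopfOrder r (stepAct r (fun γ => (m γ : ZMod r)) a) :=
    hasHopfOrder_step r hrN z hz S hS y hyS hry (fun γ => (m γ : ZMod r)) a hy ha
  let W : AddSubgroup (ZMod r × ZMod r) := AddSubgroup.prod ⊤ ⊥
  have hWmem : ∀ v : ZMod r × ZMod r, v ∈ W ↔ v.2 = 0 := by
    intro v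
    show v ∈ AddSubgroup.prod _ _ ↔ _
    rw [AddSubgroup.mem_prod, AddSubgroup.mem_bot]
    exact ⟨fun h => h.2, fun h => ⟨AddSubgroup.mem_top _, h⟩⟩
  let ψ : AddChar (ZMod r × ZMod r) Qb :=
    (AddChar.zmodChar r hζ.pow_eq_one).compAddMonoidHom (AddMonoidHom.fst (ZMod r) (ZMod r))
  have hψ : ∀ v : ZMod r × ZMod r, ψ v = ζ ^ v.1.val :=
    fun v => AddChar.zmodChar_apply hζ.pow_eq_one v.1
  refine Fermat.Agent.S15P.LocOddMu52.valuation_eq_zpow_of_hopfOrder_mu hr2 hE P hP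
    (fun σ _ v w => stepAct_add r _ a σ v w) W (fun w _ => nsmul_step r w) (fun σ _ => ?_)
    ((0 : ZMod r), (1 : ZMod r)) ψ (fun σ _ => ?_) θ hθ0 (fun σ _ => ?_)
  · refine ⟨((m σ : ZMod r)).val, fun w hw => ?_, fun ζ' hζ' => ?_⟩
    · rw [hWmem] at hw
      refine Prod.ext ?_ ?_
      · show (m σ : ZMod r) * w.1 + w.2 * a σ = ((m σ : ZMod r)).val • w.1
        rw [hw, zero_mul, add_zero, nsmul_eq_mul, ZMod.natCast_zmod_val]
      · show w.2 = ((m σ : ZMod r)).val • w.2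
        rw [hw, smul_zero]
    · obtain ⟨i, -, rfl⟩ := hζ.eq_pow_of_pow_eq_one hζ'
      have key : ζ ^ m σ = ζ ^ ((m σ : ZMod r)).val := by
        generalize hk0 : ((m σ : ZMod r)).val = k0
        have h2 : (r : ℤ) ∣ m σ - (k0 : ℤ) := by
          rw [← ZMod.intCast_zmod_eq_zero_iff_dvd, ← hk0]
          push_cast
          rw [ZMod.natCast_zmod_val, sub_self]
        obtain ⟨k, hk⟩ := h2
        have h3 : m σ = (k0 : ℤ) + r * k := by linarith
        have hζ0 : ζ ≠ 0 := hζ.ne_zero hr.ne_zero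
        rw [h3, zpow_add₀ hζ0, zpow_mul, zpow_natCast, zpow_natCast, hζ.pow_eq_one, one_zpow,
          mul_one]
      rw [map_pow, hm σ, key, ← pow_mul, mul_comm, pow_mul]
  · rw [hWmem]
    show (1 : ZMod r) - 1 = 0
    exact sub_self _
  · rw [hθ σ, hψ]
    congr 2
    show (a σ).val = ((m σ : ZMod r) * (0 : ZMod r) + (1 : ZMod r) * a σ - 0).val
    congr 1
    ring

end Fermat.Agent.S15P.StepLoc40
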