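/-
S15, (DESC) layer, clause (LOC) — helper96: **the concrete local step `StepH`** at `J₀(p)`.

`InterfacesDesc80.StepH p r E σ complexConjugation` (the hypotheses `H` / `Htriv`, `Hmu` of
`Desc40`) for a prime `r ≠ p`, from main:

* `StepChar96.H_of_local`, `Htriv_of_local`, `Hmu_of_local` (the character theorems of `Char96`),
* finite level of a point of `J₀(p)` (`ESJ.Jac.FiniteLevel.exists_finiteLevel_jZero`),
* L2: inertia at `ℓ ∤ p r` fixes the `r`-division points of rational points (`GoodDiv85`),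
* L3: the three local statements at `r` on the step module (`StepLoc40`),
* (JH-χ): the conclusion of `JH.LineChar` for `G = E J[r]` (hypothesis `hline` of `stepH`;
  `stepH_of_eisPiece` discharges it by `JHLineChar87.lineChar` when `G` is an Eisenstein piece).
-/
import Mathlib
import Fermat.Agent.S15P.StepChar96
import Fermat.Agent.S15P.StepLoc40
import Fermat.Agent.S15P.GoodDiv85
import Fermat.Agent.S15P.InterfacesDesc80
import Fermat.Agent.ESJ.Jac.FiniteLevel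
import Fermat.Agent.S15P.JHLineChar87

set_option autoImplicit false

namespace Fermat.Agent.S15P.StepH96

open ModularCurve Fermat.Agent.ESJ
open Fermat.Agent.S15P.InterfacesDesc80 Fermat.Agent.S15P.MainCount40
open Fermat.Agent.S15P.Char96 Fermat.Agent.S15P.StepChar96

local notation "Qb" => AlgebraicClosure ℚ

/-- `G = E J[r]` is killed by `r`. -/
theorem nsmul_eq_zero_of_mem_eisG {p r : ℕ} [NeZero p] {E : Module.End ℤ (JZero p)} {y : JZero p}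
    (hy : y ∈ eisG p r E) : r • y = 0 := by
  obtain ⟨x, hx, rfl⟩ := hy
  rw [← map_nsmul, hx, map_zero]

/-- A division point: `r • z` is rational. -/
theorem smul_nsmul_of_mem_Zdiv {p r : ℕ} [NeZero p] {G : AddSubgroup (JZero p)} {z : JZero p}
    (hz : z ∈ Zdiv GQ r (Mfix p) G) : ∀ g : GQ, g • (r • z) = r • z :=
  fun g => hz.1 g

/-- Finite level of the points of `J₀(p)`. -/
theorem hlev (p : ℕ) [NeZero p] (Z : AddSubgroup (JZero p)) :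
    ∀ z ∈ Z, ∃ L : IntermediateField ℚ Qb, FiniteDimensional ℚ L ∧
      ∀ s : GQ, (∀ x ∈ L, s x = x) → s • z = z :=
  fun z _ => Fermat.Agent.ESJ.Jac.FiniteLevel.exists_finiteLevel_jZero p z

/-- L2: inertia at `ℓ ∤ p r` fixes the `r`-division points of rational points. -/
theorem hunr (p : ℕ) [NeZero p] (hp : p.Prime) (r : ℕ) (hr : r.Prime) (G : AddSubgroup (JZero p)) :
    ∀ z ∈ Zdiv GQ r (Mfix p) G, ∀ ℓ : ℕ, ℓ.Prime → ℓ ≠ p → ℓ ≠ r → ∀ B : ValuationSubring Qb,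
      B.LiesOverPrime ℓ → ∀ τ ∈ B.inertiaSubgroupIn ℚ, τ • z = z := by
  intro z hz ℓ hℓ hℓp hℓr B hB τ hτ
  exact Fermat.Agent.S15P.GoodDiv85.inertia_smul_eq_of_rational p ℓ hℓ
    (fun h => hℓp ((Nat.prime_dvd_prime_iff_eq hℓ hp).mp h)) B hB r hr.ne_zero
    (fun h => hℓr ((Nat.prime_dvd_prime_iff_eq hℓ hr).mp h)) z (smul_nsmul_of_mem_Zdiv hz) τ hτ

/-- The step coordinate with `ℕ`-scalars (the shape of `StepLoc40`). -/
theorem exists_coord {p r : ℕ} [NeZero p] [Fact r.Prime] (S : AddSubgroup (JZero p))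
    (hS : ∀ (γ : GQ) (x : JZero p), x ∈ S → γ • x ∈ S) (y : JZero p) (hyS : y ∉ S)
    (hry : r • y ∈ S) (m : GQ → ℤ) (hm : ∀ γ : GQ, γ • y - m γ • y ∈ S) (z : JZero p)
    (hz : ∀ γ : GQ, ∃ j : ℤ, γ • z - z - j • y ∈ S) :
    ∃ a : GQ → ZMod r, (∀ γ : GQ, γ • z - z - (a γ).val • y ∈ S) ∧
      ∀ (g : GQ) (j : ℤ), g • z - z - j • y ∈ S ↔ a g = (j : ZMod r) := by
  have hr : r.Prime := Fact.out
  have : NeZero r := ⟨hr.ne_zero⟩
  obtain ⟨a, -, hkey⟩ := exists_stepCocycle S hS y hyS hry m hm z hz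
  refine ⟨a, fun γ => ?_, hkey⟩
  have h := (hkey γ ((a γ).val : ℤ)).mpr (by rw [Int.cast_natCast, ZMod.natCast_zmod_val])
  rwa [natCast_zsmul] at h

open Fermat.Agent.Lib.FrobeniusExists in
/-- **The clause `H` of `StepH` (`r = 2`).** -/
theorem stepH_two (p : ℕ) [NeZero p] (hp : p.Prime) (hp2 : p ≠ 2) (E : Module.End ℤ (JZero p))
    (A : ValuationSubring Qb) (hA : A.LiesOverPrime p) (σ : GQ) (hσ : σ ∈ A.inertiaSubgroupIn ℚ)
    (hσp : ∀ s : Qb, s ^ 2 = (p : Qb) → σ s = -s) :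
    ∀ S : AddSubgroup (JZero p), S ≤ eisG p 2 E →
      (∀ (γ : GQ) (x : JZero p), x ∈ S → γ • x ∈ S) → ∀ y ∈ eisG p 2 E,
      y ∉ S → 2 • y ∈ S → (∀ γ : GQ, γ • y - y ∈ S) →
      ∀ z ∈ Zdiv GQ 2 (Mfix p) (eisG p 2 E),
        (∀ γ : GQ, γ • z - z ∈ S ∨ γ • z - z - y ∈ S) → σ • z - z ∈ S →
        complexConjugation • z - z ∈ S → ∀ γ : GQ, γ • z - z ∈ S := by
  classical
  obtain ⟨P, hP⟩ := exists_liesOverPrime Nat.prime_two
  have h2p : ¬ 2 ∣ p := fun h => hp2 ((Nat.prime_dvd_prime_iff_eq Nat.prime_two hp).mp h).symm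
  refine H_of_local hp hp2 (eisG p 2 E) (Zdiv GQ 2 (Mfix p) (eisG p 2 E)) (hlev p _)
    (fun z hz ℓ hℓ hℓ2 hℓp B hB τ hτ =>
      hunr p hp 2 Nat.prime_two (eisG p 2 E) z hz ℓ hℓ hℓp hℓ2 B hB τ hτ) P ?_ A hA σ hσ hσp
  intro S _ hS y hyG hyS _ hy z hzZ hz θ hθσ hθ
  -- the character `δ γ = [γ z - z ∉ S]`
  have hδ : ∀ γ : GQ, γ • z - z - ((if γ • z - z ∈ S then (0 : ZMod 2) else 1)).val • y ∈ S := by
    intro γ
    by_cases h : γ • z - z ∈ S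
    · rw [if_pos h, ZMod.val_zero, zero_nsmul, sub_zero]
      exact h
    · rw [if_neg h]
      have h1 : ((1 : ZMod 2)).val = 1 := rfl
      rw [h1, one_nsmul]
      exact (hz γ).resolve_left h
  refine Fermat.Agent.S15P.StepLoc40.step_two_h2 h2p z (smul_nsmul_of_mem_Zdiv hzZ) S hS y hyS
    (nsmul_eq_zero_of_mem_eisG hyG) hy (fun γ => if γ • z - z ∈ S then (0 : ZMod 2) else 1) hδ P hP
    θ hθσ (fun τ hτ => ?_)
  rw [hθ τ hτ]
  by_cases h : τ • z - z ∈ S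
  · simp [h]
  · simp [h]

/-- **The clause `Htriv` of `StepH` (`r` odd, `r ≠ p`).** -/
theorem stepH_triv (p : ℕ) [NeZero p] (hp : p.Prime) (r : ℕ) [Fact r.Prime] (hr2 : r ≠ 2)
    (hrp : r ≠ p) (E : Module.End ℤ (JZero p))
    (A : ValuationSubring Qb) (hA : A.LiesOverPrime p) (σ : GQ) (hσ : σ ∈ A.inertiaSubgroupIn ℚ)
    (hσp : ∀ π : Qb, π ^ r = (p : Qb) → σ π ≠ π) :
    ∀ S : AddSubgroup (JZero p), S ≤ eisG p r E →
      (∀ (γ : GQ) (x : JZero p), x ∈ S → γ • x ∈ S) → ∀ y ∈ eisG p r E,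
      y ∉ S → r • y ∈ S → (∀ γ : GQ, γ • y - y ∈ S) →
      ∀ z ∈ Zdiv GQ r (Mfix p) (eisG p r E),
        (∀ γ : GQ, ∃ j : ℤ, γ • z - z - j • y ∈ S) → σ • z - z ∈ S →
        ∀ γ : GQ, γ • z - z ∈ S := by
  have hr : r.Prime := Fact.out
  obtain ⟨P, hP⟩ := Fermat.Agent.Lib.FrobeniusExists.exists_liesOverPrime hr
  have hrN : ¬ r ∣ p := fun h => hrp ((Nat.prime_dvd_prime_iff_eq hr hp).mp h)
  refine Htriv_of_local hp hrp (eisG p r E) (Zdiv GQ r (Mfix p) (eisG p r E)) (hlev p _)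
    (hunr p hp r hr (eisG p r E)) P hP ?_ A hA σ hσ hσp
  intro S _ hS y hyG hyS hry hy z hzZ hz τ hτ
  obtain ⟨a, ha, hkey⟩ := exists_coord S hS y hyS hry (fun _ => 1)
    (fun γ => by
      show γ • y - (1 : ℤ) • y ∈ S
      rw [one_zsmul]
      exact hy γ) z hz
  have h0 := Fermat.Agent.S15P.StepLoc40.step_triv_unr r hr2 hrN z (smul_nsmul_of_mem_Zdiv hzZ)
    S hS y hyS (nsmul_eq_zero_of_mem_eisG hyG) hy a ha P hP τ hτ
  have h1 := (hkey τ 0).mpr (by rw [h0, Int.cast_zero])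
  rwa [zero_zsmul, sub_zero] at h1

/-- **The clause `Hmu` of `StepH` (`r` odd, `r ≠ p`)**, given the conclusion of `JH.LineChar` for
`G = E J[r]`. -/
theorem stepH_mu (p : ℕ) [NeZero p] (hp : p.Prime) (r : ℕ) [Fact r.Prime] (hr2 : r ≠ 2)
    (hrp : r ≠ p) (E : Module.End ℤ (JZero p)) (c : GQ)
    (hline : ∀ S : AddSubgroup (JZero p), S ≤ eisG p r E →
      (∀ (γ : GQ) (x : JZero p), x ∈ S → γ • x ∈ S) →
      ∀ y ∈ eisG p r E, r • y ∈ S → (∀ γ : GQ, ∃ m : ℤ, γ • y - m • y ∈ S) →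
        (∀ γ : GQ, γ • y - y ∈ S) ∨
          (∀ (γ : GQ) (ζ : Qb) (m : ℕ), ζ ^ r = 1 → ζ ≠ 1 → γ ζ = ζ ^ m → γ • y - m • y ∈ S))
    (A : ValuationSubring Qb) (hA : A.LiesOverPrime p) (σ : GQ) (hσ : σ ∈ A.inertiaSubgroupIn ℚ)
    (hσp : ∀ π : Qb, π ^ r = (p : Qb) → σ π ≠ π) :
    ∀ S : AddSubgroup (JZero p), S ≤ eisG p r E →
      (∀ (γ : GQ) (x : JZero p), x ∈ S → γ • x ∈ S) → ∀ y ∈ eisG p r E,
      y ∉ S → r • y ∈ S → (∀ γ : GQ, ∃ m : ℤ, γ • y - m • y ∈ S) → c • y + y ∈ S →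
      ∀ z ∈ Zdiv GQ r (Mfix p) (eisG p r E),
        (∀ γ : GQ, ∃ j : ℤ, γ • z - z - j • y ∈ S) → σ • z - z ∈ S →
        ∃ j : ℤ, ∀ γ : GQ, γ • z - z - j • (γ • y - y) ∈ S := by
  have hr : r.Prime := Fact.out
  have : NeZero r := ⟨hr.ne_zero⟩
  obtain ⟨P, hP⟩ := Fermat.Agent.Lib.FrobeniusExists.exists_liesOverPrime hr
  obtain ⟨ζ, hζ⟩ := HasEnoughRootsOfUnity.exists_primitiveRoot Qb r
  have hζr : ζ ^ r = 1 := hζ.pow_eq_one
  have hrN : ¬ r ∣ p := fun h => hrp ((Nat.prime_dvd_prime_iff_eq hr hp).mp h)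
  refine Hmu_of_local hp hr2 hrp (eisG p r E) (Zdiv GQ r (Mfix p) (eisG p r E)) c (hlev p _)
    (hunr p hp r hr (eisG p r E)) hline hζ P hP ?_ A hA σ hσ hσp
  intro S _ hS y hyG hyS hry hycyc z hzZ hz θ hθ0 hθ
  -- the cyclotomic exponent
  have hex : ∀ g : GQ, ∃ i : ℕ, g ζ = ζ ^ i := by
    intro g
    obtain ⟨i, -, hi⟩ := hζ.eq_pow_of_pow_eq_one (ξ := g ζ) (by rw [← map_pow, hζr, map_one])
    exact ⟨i, hi.symm⟩
  choose i hi using hex
  obtain ⟨m, hmdef⟩ : ∃ m : GQ → ℤ, m = fun g => ((i g : ℕ) : ℤ) := ⟨_, rfl⟩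
  have hm : ∀ g : GQ, g ζ = ζ ^ m g := fun g => by
    rw [hmdef, zpow_natCast]
    exact hi g
  have hmy : ∀ γ : GQ, γ • y - m γ • y ∈ S := fun γ => by
    rw [hmdef]
    show γ • y - ((i γ : ℕ) : ℤ) • y ∈ S
    rw [natCast_zsmul]
    exact hycyc γ (i γ) (hi γ)
  obtain ⟨a, ha, hkey⟩ := exists_coord S hS y hyS hry m hmy z hz
  refine Fermat.Agent.S15P.StepLoc40.step_mu_unit r hr2 hrN z (smul_nsmul_of_mem_Zdiv hzZ) S hS y
    hyS (nsmul_eq_zero_of_mem_eisG hyG) hζ m hm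
    (fun γ => hycyc γ _ (by rw [zeta_pow_val_intCast hζr, ← hm γ])) a ha P hP θ hθ0 (fun g => ?_)
  have h1 := hθ g ((a g).val : ℤ) (by rw [natCast_zsmul]; exact ha g)
  rwa [zpow_natCast] at h1

/-- One element of the inertia group at `p` for both kinds of steps: it moves the `r`-th roots of
`p`, and negates the square roots of `p` if `r = 2`. -/
theorem exists_sigma {p : ℕ} (hp : p.Prime) (A : ValuationSubring Qb) (hA : A.LiesOverPrime p)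
    (r : ℕ) (hr : r.Prime) (hrp : r ≠ p) :
    ∃ σ ∈ A.inertiaSubgroupIn ℚ, (∀ π : Qb, π ^ r = (p : Qb) → σ π ≠ π) ∧
      (r = 2 → ∀ s : Qb, s ^ 2 = (p : Qb) → σ s = -s) := by
  by_cases hr2 : r = 2
  · subst hr2
    obtain ⟨σ, hσ, h⟩ := exists_inertia_neg_sqrt hp A hA
    refine ⟨σ, hσ, fun π hπ hfix => ?_, fun _ => h⟩
    have h1 := h π hπ
    rw [hfix] at h1
    have hπ0 : π ≠ 0 := by
      rintro rfl
      rw [zero_pow two_ne_zero] at hπ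
      exact (Nat.cast_ne_zero.mpr hp.ne_zero) hπ.symm
    have h2 : (2 : Qb) * π = 0 := by linear_combination h1
    rcases mul_eq_zero.mp h2 with h3 | h3
    · exact two_ne_zero h3
    · exact hπ0 h3
  · obtain ⟨σ, hσ, h⟩ := exists_inertia_move_root hp A hA r hr.two_le
      (fun h => hrp ((Nat.prime_dvd_prime_iff_eq hp hr).mp h).symm)
    exact ⟨σ, hσ, h, fun h2 => absurd h2 hr2⟩

/-- **(LOC): `InterfacesDesc80.StepH p r E σ complexConjugation`** for a prime `r ≠ p`. -/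
theorem stepH (p : ℕ) [NeZero p] (hp : p.Prime) (hp2 : p ≠ 2) (r : ℕ) (hr : r.Prime)
    (hrp : r ≠ p) (E : Module.End ℤ (JZero p))
    (hline : r ≠ 2 → ∀ S : AddSubgroup (JZero p), S ≤ eisG p r E →
      (∀ (γ : GQ) (x : JZero p), x ∈ S → γ • x ∈ S) →
      ∀ y ∈ eisG p r E, r • y ∈ S → (∀ γ : GQ, ∃ m : ℤ, γ • y - m • y ∈ S) →
        (∀ γ : GQ, γ • y - y ∈ S) ∨
          (∀ (γ : GQ) (ζ : Qb) (m : ℕ), ζ ^ r = 1 → ζ ≠ 1 → γ ζ = ζ ^ m → γ • y - m • y ∈ S))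
    (A : ValuationSubring Qb) (hA : A.LiesOverPrime p) (σ : GQ) (hσ : σ ∈ A.inertiaSubgroupIn ℚ)
    (hσp : ∀ π : Qb, π ^ r = (p : Qb) → σ π ≠ π)
    (hσ2 : r = 2 → ∀ s : Qb, s ^ 2 = (p : Qb) → σ s = -s) :
    StepH p r E σ complexConjugation := by
  have : Fact r.Prime := ⟨hr⟩
  refine ⟨fun h2 => ?_, fun hr2 => ⟨?_, ?_⟩⟩
  · subst h2
    exact stepH_two p hp hp2 E A hA σ hσ (hσ2 rfl)
  · exact stepH_triv p hp r hr2 hrp E A hA σ hσ hσp
  · exact stepH_mu p hp r hr2 hrp E complexConjugation (hline hr2) A hA σ hσ hσp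

/-- **(LOC)** with (JH-χ) discharged by `JHLineChar87.lineChar`: what is left is that
`G = E J[r]` is an Eisenstein piece (layer L0) when `r` is odd. -/
theorem stepH_of_eisPiece (p : ℕ) [NeZero p] (hp : p.Prime) (hp2 : p ≠ 2) (r : ℕ) (hr : r.Prime)
    (hrp : r ≠ p) (E : Module.End ℤ (JZero p))
    (hEis : r ≠ 2 → ∃ (B : Finset ℕ) (n : ℕ), JH.IsEisPiece p r n B (eisG p r E))
    (A : ValuationSubring Qb) (hA : A.LiesOverPrime p) (σ : GQ) (hσ : σ ∈ A.inertiaSubgroupIn ℚ)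
    (hσp : ∀ π : Qb, π ^ r = (p : Qb) → σ π ≠ π)
    (hσ2 : r = 2 → ∀ s : Qb, s ^ 2 = (p : Qb) → σ s = -s) :
    StepH p r E σ complexConjugation :=
  stepH p hp hp2 r hr hrp E (fun hr2 => by
    obtain ⟨B, n, hB⟩ := hEis hr2
    exact Fermat.Agent.S15P.JHLineChar87.lineChar p r hr B (eisG p r E) n hB) A hA σ hσ hσp hσ2

end Fermat.Agent.S15P.StepH96
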