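/-
S15, TOP layer (helper5): the CONCRETE level pull-back `J₀(N) → J₀(N q)` of main
(`pic0Pull (heckeAlphaBar Qb N q) …`, the map inside `ESJ.Cong.levelPullback_mul_prime` and
`Padic.PullKummer.levelPullback_mul_prime_one`) with its three properties stated for THAT map:
Galois-equivariant, commuting with `T_ℓ` for `ℓ ∤ N q`, and INJECTIVE (kernel killed by `1`).

`levelPull N q`, `levelPull_galois`, `levelPull_hecke`, `levelPull_injective`,
`levelPull_isLevelPullback_one` (the three clauses of `ESJ.LevelPullback N (N * q) 1` for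
`levelPull N q`), `isLevelPullback_levelPull` (`Interfaces80.IsLevelPullback (levelPull N q) d`
for every `d`).  This is what `TopSeam3_5.MStar3` asks of `π₂` (at `q = 2`, `d = 1`).
-/
import Mathlib
import Fermat.Agent.Padic.PullKummer
import Fermat.Agent.S15P.Interfaces80

set_option autoImplicit false
set_option linter.style.haveILetI false
set_option linter.unusedSectionVars false

noncomputable section

namespace Fermat.Agent.S15P.LevelPullOne5

open AlgebraicCurve ModularCurve IntermediateField HahnSeries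
open Fermat.Agent.S24 Fermat.Agent.S28 Fermat.Agent.S28.Chain Fermat.Agent.ESJ.HeckeInputs
open Fermat.Agent.ESJ.LevelDesc
open Fermat.Agent.ESJ.Cong Fermat.Agent.ESJ.Cong.ConjAnalytic
open Fermat.Agent.Padic.PullKummer

local notation "Qb" => AlgebraicClosure ℚ
local notation "GQ" => (AlgebraicClosure ℚ ≃ₐ[ℚ] AlgebraicClosure ℚ)

/-- The level pull-back of divisor classes `J₀(N) → J₀(N q)` along `F_N ⊆ F_{Nq}`. -/
def levelPull (N q : ℕ) [NeZero N] [NeZero q] [NeZero (N * q)] : JZero N →+ JZero (N * q) :=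
  haveI := hasPrincipalDivisors_bar (N * q)
  pic0Pull (heckeAlphaBar Qb N q) (heckeAlphaBarIntegral N q)
    (fundamentalIdentityAlong_heckeAlphaBar N q)

set_option synthInstance.maxHeartbeats 400000 in
set_option maxHeartbeats 1000000 in
theorem levelPull_galois (N q : ℕ) [NeZero N] [NeZero q] [NeZero (N * q)] (σ : GQ)
    (x : JZero N) : levelPull N q (σ • x) = σ • levelPull N q x := by
  haveI hPq := hasPrincipalDivisors_bar (N * q)
  have hFIa : FundamentalIdentityAlong Qb (heckeAlphaBar Qb N q) (heckeAlphaBarIntegral N q) :=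
    fundamentalIdentityAlong_heckeAlphaBar N q
  unfold levelPull
  rw [galois_smul_pic0_def, galois_smul_pic0_def]
  exact pic0Pull_smul (heckeAlphaBar Qb N q) (heckeAlphaBarIntegral N q) hFIa
    (comm_intertwines_alpha N q σ) x

set_option synthInstance.maxHeartbeats 400000 in
set_option maxHeartbeats 1000000 in
theorem levelPull_hecke (N q : ℕ) [NeZero N] [NeZero q] [NeZero (N * q)] (ℓ : Nat.Primes)
    (hℓ : ¬ (ℓ : ℕ) ∣ N * q) (x : JZero N) :
    levelPull N q (heckeOperatorBar N ℓ x) = heckeOperatorBar (N * q) ℓ (levelPull N q x) := by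
  haveI hPq := hasPrincipalDivisors_bar (N * q)
  have hFIa : FundamentalIdentityAlong Qb (heckeAlphaBar Qb N q) (heckeAlphaBarIntegral N q) :=
    fundamentalIdentityAlong_heckeAlphaBar N q
  haveI : NeZero (ℓ : ℕ) := ⟨ℓ.2.ne_zero⟩
  have hℓN : ¬ (ℓ : ℕ) ∣ N := fun h => hℓ (Dvd.dvd.mul_right h q)
  unfold levelPull
  rw [heckeOperatorBar_apply, heckeOperatorBar_apply]
  obtain ⟨hα, hβ, hP, hfin, hFI, hN⟩ := heckeInputsAlong_bar N ℓ
  obtain ⟨hα', hβ', hP', hfin', hFI', hN'⟩ := heckeInputsAlong_bar (N * q) ℓ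
  haveI := hP
  haveI := hP'
  have e1 := heckeOperatorAlong_eq hα hβ hFI hfin hN
  have e2 := heckeOperatorAlong_eq hα' hβ' hFI' hfin' hN'
  rw [e1, e2]
  exact pic0Pull_correspondence (heckeAlphaBar Qb N q) (heckeAlphaBar Qb N ℓ)
    (heckeBetaBar Qb N ℓ) (heckeAlphaBar Qb (N * q) ℓ) (heckeBetaBar Qb (N * q) ℓ)
    (LevelPull.incl N q ℓ) (heckeAlphaBarIntegral N q) hα hβ hα' hβ'
    (LevelPull.isIntegral_incl N q ℓ)
    hFIa hFI hfin hN hFI' hfin' hN' (LevelPull.alpha_comp_alpha N q ℓ)
    (LevelPull.beta_comp_alpha N q ℓ)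
    (LevelPull.norm_incl N q ℓ ℓ.2 hℓ) (LevelPull.exists_ord_eq_one (N * ℓ)) x

theorem levelPull_injective (N q : ℕ) [NeZero N] [NeZero q] [NeZero (N * q)] (hq : q.Prime)
    (hqN : ¬ q ∣ N) : Function.Injective (levelPull N q) :=
  pic0Pull_alpha_injective N q hq hqN

/-- The three clauses of `ESJ.LevelPullback N (N * q) 1` for the concrete map `levelPull N q`. -/
theorem levelPull_isLevelPullback_one (N q : ℕ) [NeZero N] [NeZero q] [NeZero (N * q)]
    (hq : q.Prime) (hqN : ¬ q ∣ N) :
    (∀ (σ : GQ) (x : JZero N), levelPull N q (σ • x) = σ • levelPull N q x) ∧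
    (∀ ℓ : Nat.Primes, ¬ (ℓ : ℕ) ∣ N * q → ∀ x : JZero N,
      levelPull N q (heckeOperatorBar N ℓ x) = heckeOperatorBar (N * q) ℓ (levelPull N q x)) ∧
    (∀ x : JZero N, levelPull N q x = 0 → 1 • x = 0) := by
  refine ⟨levelPull_galois N q, fun ℓ hℓ x => levelPull_hecke N q ℓ hℓ x, fun x hx => ?_⟩
  rw [one_smul]
  exact levelPull_injective N q hq hqN (hx.trans (map_zero _).symm)

/-- `levelPull N q` is a level pull-back in the sense of `S15P/Interfaces80`, with kernel killed
by any `d` (it is injective). -/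
theorem isLevelPullback_levelPull (N q : ℕ) [NeZero N] [NeZero q] [NeZero (N * q)]
    (hq : q.Prime) (hqN : ¬ q ∣ N) (d : ℕ) :
    Fermat.Agent.S15P.Interfaces80.IsLevelPullback (levelPull N q) d := by
  refine ⟨levelPull_galois N q, fun ℓ hℓ x => levelPull_hecke N q ℓ hℓ x, fun x hx => ?_⟩
  rw [levelPull_injective N q hq hqN (hx.trans (map_zero _).symm), smul_zero]

end Fermat.Agent.S15P.LevelPullOne5
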