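import Mathlib
import Fermat.Agent.Padic.LocalOf
import Fermat.Agent.Padic.GoodRedFinal
import Fermat.Agent.Padic.S33.RC.SmallAsm
import Fermat.Agent.Padic.S33.RC.SmallOrder
import Fermat.Agent.Padic.S33.RC.NCPlus

/-!
# S15 (RED-C): rational torsion of `J₀(N)` injects under reduction at every odd good prime

* `hasLocalOrderOn_of_km`, `hasLocalOrderOn_goodRed` : the (LOC) assembly at good reduction
  (`Padic/LocalKM`, `Padic/LocalOf`) re-run with the smallness of the generators exported
  (`S33/RC/SmallAsm.hasLocalOrderOn_of_families`): the generators of the local order are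
  constant modulo the maximal ideal on the fibres of `reductionModL`;
* `eq_zero_of_fixed_of_red_eq_zero` : an inertia-fixed torsion point (of ANY order, including
  the residue characteristic) with zero reduction at an odd prime of good reduction is `0`
  (a small local order is connected: `RC.exists_isPOrder_of_small`; a connected order has no
  nonzero quotient with trivial inertia action: `RC.NCPlus.mem_of_conn_eq_top`);
* `redC` : **(RED-C)** for `J₀(p)` and `ℓ ≥ 5`, `ℓ ≠ p`.
-/

set_option autoImplicit false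
set_option linter.style.haveILetI false

noncomputable section

namespace Fermat.Agent.S15P.RedC15

open AlgebraicCurve ModularCurve Module
open Fermat.Agent.Lib.FF Fermat.Agent.Lib.LinAlg.Family
open Fermat.Agent.Padic Fermat.Agent.Padic.KMAdd Fermat.Agent.Padic.LocalAsm
open Fermat.Agent.Padic.S33.RC.SmallAsm

/-- **(LOC-ASM) with the Khuri-Makdisi addition, smallness exported**: `LocalKM.hasLocalOrder_of_km`
re-run with `SmallAsm.hasLocalOrderOn_of_families`. -/
theorem hasLocalOrderOn_of_km (A : ValuationSubring Qb) {V : Type} [AddCommGroup V] [Finite V]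
    (act : GQ → V → V) {X : Type*} (r : V → X)
    (hadd : ∀ v v' w w' : V, r v = r v' → r w = r w' → r (v + w) = r (v' + w'))
    (hr : ∀ σ ∈ A.inertiaSubgroupIn ℚ, ∀ v, r (act σ v) = r v)
    [Infinite (IsLocalRing.ResidueField A)]
    {F : Type*} [Field F] [Algebra Qb F]
    {F' : Type*} [Field F'] [Algebra (IsLocalRing.ResidueField A) F']
    {x : F} (hF : IsFF1 Qb F x) {x' : F'} (hF' : IsFF1 (IsLocalRing.ResidueField A) F' x')
    (hg : genusFF (IsLocalRing.ResidueField A) F' = genusFF Qb F)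
    (E B : Divisor Qb F) (E' B' : Divisor (IsLocalRing.ResidueField A) F')
    (n : ℤ) (hn : 5 * (genusFF Qb F : ℤ) + 1 ≤ n)
    (hE : Divisor.degree E = n) (hE' : Divisor.degree E' = n)
    (hB : Divisor.degree B = genusFF Qb F)
    (hB' : Divisor.degree B' = genusFF (IsLocalRing.ResidueField A) F')
    {I₁ : Type} [Fintype I₁] [DecidableEq I₁]
    {I₂ J₁ J₂ J₄ : Type*} [Fintype I₂] [Fintype J₁] [Fintype J₂] [Fintype J₄]
    (a : I₂ → I₁ → I₁ → A) (b : J₂ → I₁ → J₁ → A) (c : J₄ → J₂ → I₂ → A)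
    (C : KMCoord Qb F E B (Fam.mapTab A.subtype a) (Fam.mapTab A.subtype b)
      (Fam.mapTab A.subtype c))
    (C' : KMCoord (IsLocalRing.ResidueField A) F' E' B' (Fam.mapTab (IsLocalRing.residue A) a)
      (Fam.mapTab (IsLocalRing.residue A) b) (Fam.mapTab (IsLocalRing.residue A) c))
    (D : V → Divisor Qb F) (D' : X → Divisor (IsLocalRing.ResidueField A) F')
    (hDnn : ∀ v, 0 ≤ D v) (hD'nn : ∀ v, 0 ≤ D' (r v))
    (hD : ∀ v w, KMTriple Qb F B (D v) (D w) (D (v + w)))
    (hD' : ∀ v w, KMTriple (IsLocalRing.ResidueField A) F' B' (D' (r v)) (D' (r w))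
      (D' (r (v + w))))
    (hpt : ∀ v, ∃ W : Fam A I₁,
      (W.fib A.subtype).map C.φ₁ = riemannRochSpace (E - D v) ∧
      (W.fib (IsLocalRing.residue A)).map C'.φ₁ = riemannRochSpace (E' - D' (r v)))
    (heqv : ∀ σ ∈ A.inertiaSubgroupIn ℚ, ∀ v, ∀ w : I₁ → Qb,
      C.φ₁ w ∈ riemannRochSpace (E - D v) →
      C.φ₁ (fun i => σ (w i)) ∈ riemannRochSpace (E - D (act σ v)))
    (hsep : ∀ v w, r v = r w →
      riemannRochSpace (E - D v) = riemannRochSpace (E - D w) → v = w) :
    HasLocalOrderOn A V act r := by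
  -- the subspaces in coordinates
  have hle : ∀ v, riemannRochSpace (E - D v) ≤ LinearMap.range C.φ₁ := by
    intro v
    rw [C.range_φ₁]
    exact KMLemmas.L_mono (sub_le_self E (hDnn v))
  have hle' : ∀ v, riemannRochSpace (E' - D' (r v)) ≤ LinearMap.range C'.φ₁ := by
    intro v
    rw [C'.range_φ₁]
    exact KMLemmas.L_mono (sub_le_self E' (hD'nn v))
  refine hasLocalOrderOn_of_families A act r hadd hr
    (fun v => (riemannRochSpace (E - D v)).comap C.φ₁)
    (fun x => (riemannRochSpace (E' - D' x)).comap C'.φ₁) ?_ ?_ ?_ ?_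
  · -- hpt
    intro v
    obtain ⟨W, h1, h2⟩ := hpt v
    refine ⟨W, ?_, ?_⟩
    · rw [← h1, Submodule.comap_map_eq_of_injective C.inj_φ₁]
    · rw [← h2, Submodule.comap_map_eq_of_injective C'.inj_φ₁]
  · -- heqv
    intro σ hσ v w hw
    exact heqv σ hσ v w hw
  · -- hsep
    intro v w hvw h
    apply hsep v w hvw
    have h1 := congrArg (Submodule.map C.φ₁) h
    rw [Submodule.map_comap_eq_of_le (hle v), Submodule.map_comap_eq_of_le (hle w)] at h1
    exact h1
  · -- hKM
    intro 𝓡 _ _ j Pt χ ρ _ hχ hχj hρj vv ww v₀ w₀ hvv hww W₁ W₂ h₁ h₂ h₁' h₂'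
    have ea : ∀ q, Fam.mapTab (χ q) (Fam.mapTab j a) = Fam.mapTab A.subtype a := fun q => by
      funext k i i'
      exact hχj q _
    have eb : ∀ q, Fam.mapTab (χ q) (Fam.mapTab j b) = Fam.mapTab A.subtype b := fun q => by
      funext k i i'
      exact hχj q _
    have ec : ∀ q, Fam.mapTab (χ q) (Fam.mapTab j c) = Fam.mapTab A.subtype c := fun q => by
      funext k i i'
      exact hχj q _
    have ea' : Fam.mapTab ρ (Fam.mapTab j a) = Fam.mapTab (IsLocalRing.residue A) a := by
      funext k i i'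
      exact hρj _
    have eb' : Fam.mapTab ρ (Fam.mapTab j b) = Fam.mapTab (IsLocalRing.residue A) b := by
      funext k i i'
      exact hρj _
    have ec' : Fam.mapTab ρ (Fam.mapTab j c) = Fam.mapTab (IsLocalRing.residue A) c := by
      funext k i i'
      exact hρj _
    choose Cq hCq using fun q => LocalKM.exists_kmCoord_cast (ea q) (eb q) (ec q) C
    obtain ⟨Cρ, hCρ⟩ := LocalKM.exists_kmCoord_cast ea' eb' ec' C'
    obtain ⟨W₃, h₃, h₃'⟩ := exists_fam_add χ hχ ρ inferInstance hF hF' hg E B E' B' n hn hE hE'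
      hB hB' (Fam.mapTab j a) (Fam.mapTab j b) (Fam.mapTab j c) Cq Cρ W₁ W₂
      (fun q => D (vv q)) (fun q => D (ww q)) (fun q => D (vv q + ww q))
      (D' (r v₀)) (D' (r w₀)) (D' (r (v₀ + w₀)))
      (fun q => by rw [hCq, h₁ q, Submodule.map_comap_eq_of_le (hle _)])
      (fun q => by rw [hCq, h₂ q, Submodule.map_comap_eq_of_le (hle _)])
      (by rw [hCρ, h₁', Submodule.map_comap_eq_of_le (hle' _)])
      (by rw [hCρ, h₂', Submodule.map_comap_eq_of_le (hle' _)])
      (fun q => hD (vv q) (ww q)) (hD' v₀ w₀)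
    refine ⟨W₃, fun q => ?_, ?_⟩
    · have h4 := h₃ q
      rw [hCq] at h4
      rw [← h4, Submodule.comap_map_eq_of_injective C.inj_φ₁]
    · rw [hCρ] at h₃'
      rw [← h₃', Submodule.comap_map_eq_of_injective C'.inj_φ₁]


set_option synthInstance.maxHeartbeats 400000 in
set_option maxHeartbeats 4000000 in
/-- **(LOC) at good reduction, with the smallness exported**: the local order on a finite
Galois-stable subgroup `V` of `J₀(N)(ℚ̄)` at a place of good reduction has generators which are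
constant modulo the maximal ideal on the fibres of the reduction map. -/
theorem hasLocalOrderOn_goodRed {A : ValuationSubring Qb} {N : ℕ} [NeZero N] {l : ℕ}
    (hl : l.Prime) (hA : A.LiesOverPrime l) (hgr : GoodRed A N)
    (V : AddSubgroup (JZero N)) (hVfin : Finite V)
    (hV : ∀ (σ : GQ) (x : JZero N), x ∈ V → σ • x ∈ V) :
    HasLocalOrderOn A V (subAct V hV) (fun v : V => reductionModL A N (v : JZero N)) := by
  haveI := hVfin
  haveI := Fermat.Agent.Lib.FF.CharP.isAlgClosed_residueField A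
  have hr : IsPlaceReductionModL A N (placeReductionModL hgr.inputs) :=
    isPlaceReductionModL_placeReductionModL hgr.inputs
  have hFL := GenPos.isFF1_bar (N := N)
  have hFk := GenPos.isFF1_res (A := A) (N := N) hgr.level
  -- general position
  obtain ⟨B, Dv, hGP⟩ := GenPos.exists_genPos_goodRed hl hA hgr V
  -- coordinate data
  obtain ⟨c₀, -, hKMD⟩ := KMAdd.GoodRed.exists_kmData hgr (placeReductionModL hgr.inputs) hr
  -- the degree of `E`
  have hg0 : (0 : ℤ) ≤ (genusFF (AlgebraicClosure ℚ) ↥(modularFunctionFieldBar N) : ℤ) := Nat.cast_nonneg _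
  obtain ⟨n, hn5, hnc⟩ : ∃ n : ℤ, 5 * (genusFF (AlgebraicClosure ℚ) ↥(modularFunctionFieldBar N) : ℤ) + 1 ≤ n ∧
      c₀ + (genusFF (AlgebraicClosure ℚ) ↥(modularFunctionFieldBar N) : ℤ) ≤ n :=
    ⟨max (5 * (genusFF (AlgebraicClosure ℚ) ↥(modularFunctionFieldBar N) : ℤ) + 1)
      (c₀ + (genusFF (AlgebraicClosure ℚ) ↥(modularFunctionFieldBar N) : ℤ)), le_max_left _ _, le_max_right _ _⟩
  have hE : Divisor.degree (Finsupp.single (PlaceInf.placeInfL Qb N) n) = n := by
    rw [Divisor.degree_single, hFL.deg_eq_one]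
    simp
  have hEfix : ∀ σ ∈ A.inertiaSubgroupIn ℚ,
      arithmeticGalois (modularFunctionFieldFull N) σ •
        (Finsupp.single (PlaceInf.placeInfL Qb N) n :
          Divisor Qb ↥(modularFunctionFieldBar N)) =
        Finsupp.single (PlaceInf.placeInfL Qb N) n := by
    intro σ _
    rw [SemilinearAut.smul_single, PlaceInf.arithmeticGalois_smul_placeInfL]
  -- a Galois-fixed lattice basis of `L(E)`
  obtain ⟨d, b₁, hfix, hb₁⟩ := hgr.exists_fixed_latBasis n
  -- the Khuri-Makdisi coordinates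
  obtain ⟨d₂, e₁, e₂, e₄, a, b, c, C, C', hφ, hφ'⟩ :=
    hKMD (Finsupp.single (PlaceInf.placeInfL Qb N) n) B
      (by rw [map_sub, hE, hGP.degree_B]; omega) (by rw [hGP.degree_B]; exact hg0)
      (by rw [hE]; omega) b₁ hb₁
  -- the assembly
  have key : HasLocalOrderOn A V (subAct V hV)
      (fun v => Finsupp.mapDomain (placeReductionModL hgr.inputs) (Dv v)) := by
   refine hasLocalOrderOn_of_km A (subAct V hV)
     (fun v => Finsupp.mapDomain (placeReductionModL hgr.inputs) (Dv v))
     (fun v v' w w' => GenPosGlue.hadd_red hgr.inputs hGP v v' w w')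
     (GenPosGlue.hr_red hGP hV) hFL hFk hgr.genus
     (Finsupp.single (PlaceInf.placeInfL Qb N) n) B
     (Finsupp.mapDomain (placeReductionModL hgr.inputs)
       (Finsupp.single (PlaceInf.placeInfL Qb N) n))
     (Finsupp.mapDomain (placeReductionModL hgr.inputs) B) n hn5 hE
     (by rw [GenPosAbs.degree_mapDomain hFL hFk, hE])
     hGP.degree_B (by rw [hGP.degree_red_B hFL hFk, hgr.genus])
     a b c C C' Dv id hGP.nonneg (fun v => hGP.red_nonneg v)
     (fun v w => GenPosGlue.kmTriple hGP v w)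
     (fun v w => GenPosGlue.kmTriple_red hGP hFL hFk hgr.genus v w) ?_ ?_ ?_
   · -- hpt
     intro v
     obtain ⟨W, hW1, hW2⟩ := FamOfLattice.exists_fam_rr hgr (placeReductionModL hgr.inputs) hr hb₁
       C.φ₁ hφ C'.φ₁ hφ' (Dv v) (hGP.nonneg v)
       (by rw [map_sub, hE, hGP.degree]; omega)
     refine ⟨W, ?_, ?_⟩
     · rw [hW1]
       exact C.map_comap_φ₁ (hGP.nonneg v)
     · rw [hW2]
       exact C'.map_comap_φ₁ (hGP.red_nonneg v)
   · -- heqv
     intro σ hσ v w hw
     exact GenPosGlue.heqv hGP hV (fun i => ((b₁ i : OwA A N hgr.level) :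
       ↥(modularFunctionFieldBar N))) C.φ₁ hφ (fun σ _ i => hfix σ i) hEfix σ hσ v w hw
   · -- hsep
     intro v w _ hL
     exact hGP.eq_of_L_sub_eq hFL _ (by rw [hE]; omega) hL
  obtain ⟨s, h1, h2, h3, h4, h5⟩ := key
  exact ⟨s, h1, h2, h3, h4, fun f hf v w hvw =>
    h5 f hf v w ((GenPos.red_eq_iff_reductionModL hgr.inputs hGP v w).mp hvw)⟩

open Fermat.Agent.Padic.S33.RC Fermat.Agent.Lib.FinFlat in
set_option synthInstance.maxHeartbeats 400000 in
/-- **Torsion fixed by Galois injects under reduction at an odd prime of good reduction** —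
for torsion of ANY order, including the powers of the residue characteristic. -/
theorem eq_zero_of_fixed_of_red_eq_zero {N : ℕ} [NeZero N] {l : ℕ} (hl : l.Prime) (hl2 : l ≠ 2)
    (A : ValuationSubring Qb) (hA : A.LiesOverPrime l) (hgr : GoodRed A N)
    (x : JZero N) (hx : ∀ σ : GQ, σ • x = x) (n : ℕ) (hn : 0 < n) (hnx : n • x = 0)
    (hred : reductionModL A N x = 0) : x = 0 := by
  classical
  set V : AddSubgroup (JZero N) := AddSubgroup.zmultiples x with hVdef
  have hfix : ∀ (σ : GQ) (y : JZero N), y ∈ V → σ • y = y := by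
    intro σ y hy
    obtain ⟨k, rfl⟩ := AddSubgroup.mem_zmultiples_iff.mp hy
    have h1 := map_zsmul (DistribSMul.toAddMonoidHom (JZero N) σ) k x
    rw [DistribSMul.toAddMonoidHom_apply, DistribSMul.toAddMonoidHom_apply] at h1
    rw [h1, hx σ]
  have hV : ∀ (σ : GQ) (y : JZero N), y ∈ V → σ • y ∈ V := fun σ y hy => by
    rw [hfix σ y hy]
    exact hy
  have hVfin : Finite V := by
    have h1 := Fermat.Agent.ESJ.torsionFinite N n hn
    have h2 : (V : Set (JZero N)) ⊆
        (Pic0.torsion (AlgebraicClosure ℚ) (modularFunctionFieldBar N) n : Set (JZero N)) := by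
      intro y hy
      obtain ⟨k, rfl⟩ := AddSubgroup.mem_zmultiples_iff.mp hy
      show k • x ∈ Pic0.torsion (AlgebraicClosure ℚ) (modularFunctionFieldBar N) n
      rw [Pic0.mem_torsion, natCast_zsmul, smul_comm, hnx, smul_zero]
    exact (h1.subset h2).to_subtype
  have hloc := hasLocalOrderOn_goodRed hl hA hgr V hVfin hV
  have h0 : ∀ v : V, reductionModL A N (v : JZero N) = 0 := by
    intro v
    obtain ⟨k, hk⟩ := AddSubgroup.mem_zmultiples_iff.mp v.2
    rw [← hk, map_zsmul, hred, smul_zero]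
  have hsm : HasSmallOrder A V (subAct V hV) := hloc.small (fun v w => by rw [h0 v, h0 w])
  obtain ⟨B, hB, htop⟩ := exists_isPOrder_of_small hsm
  have hact : ∀ (σ : GQ) (v : V), subAct V hV σ v = v := fun σ v =>
    Subtype.ext (hfix σ v v.2)
  have key := NCPlus.mem_of_conn_eq_top hl hl2 hA hB
    (fun σ _ v w => by rw [hact, hact, hact])
    (fun σ _ v => ⟨v, hact σ v⟩) htop ⊥
    (fun σ _ v => by rw [hact, sub_self]; exact AddSubgroup.zero_mem _)
    ⟨x, AddSubgroup.mem_zmultiples x⟩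
  exact congrArg Subtype.val (AddSubgroup.mem_bot.mp key)

/-- The same at every good pair `(N, l)` with `l` odd. -/
theorem eq_zero_of_fixed_of_red_eq_zero_good {N : ℕ} [NeZero N] {l : ℕ} (hl : l.Prime)
    (hlN : ¬ l ∣ N) (hgood : 5 ≤ l ∨ (l = 3 ∧ 2 ∣ N))
    (A : ValuationSubring Qb) (hA : A.LiesOverPrime l)
    (x : JZero N) (hx : ∀ σ : GQ, σ • x = x) (n : ℕ) (hn : 0 < n) (hnx : n • x = 0)
    (hred : reductionModL A N x = 0) : x = 0 := by
  have hl2 : l ≠ 2 := by
    rcases hgood with h | ⟨h, -⟩ <;> omega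
  have hgood' : 5 ≤ l ∨ (l = 3 ∧ 2 ∣ N) ∨ (l = 2 ∧ 3 ∣ N) := by
    rcases hgood with h | h
    · exact Or.inl h
    · exact Or.inr (Or.inl h)
  exact eq_zero_of_fixed_of_red_eq_zero hl hl2 A hA (goodRed_good N l hl hlN hgood' A hA) x hx n
    hn hnx hred

/-- **(RED-C)**: a nonzero rational torsion point of `J₀(p)` does not reduce to `0` at any
place over a prime `ℓ ≥ 5`, `ℓ ≠ p` — including the case where its order is a power of `ℓ`. -/
theorem redC {p : ℕ} [NeZero p] (hp : p.Prime) {ℓ : ℕ} (hℓ : ℓ.Prime) (hℓ5 : 5 ≤ ℓ) (hℓp : ℓ ≠ p)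
    (A : ValuationSubring Qb) (hA : A.LiesOverPrime ℓ) (x : JZero p) (hx : ∀ σ : GQ, σ • x = x)
    (hx0 : x ≠ 0) (n : ℕ) (hn : n ≠ 0) (hnx : n • x = 0) : reductionModL A p x ≠ 0 := fun hred =>
  hx0 (eq_zero_of_fixed_of_red_eq_zero_good hℓ
    (fun h => hℓp ((Nat.prime_dvd_prime_iff_eq hℓ hp).mp h)) (Or.inl hℓ5) A hA x hx n
    (Nat.pos_of_ne_zero hn) hnx hred)

end Fermat.Agent.S15P.RedC15
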