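/-
S15, TOP layer, variant with the prime 3 only (helper5).

The top seam of helper80 (`S15P/TopSeam80`) kills `η y` by two reductions: at 2 (level `3p`)
and at 3 (level `2p`), using that torsion in the kernel of a reduction is of `ℓ`-power order.
Since

* `S15P/RedC15.eq_zero_of_fixed_of_red_eq_zero_good` : a Galois-fixed torsion class of ANY order
  with zero reduction at 3 on an EVEN level is `0`,
* `Padic/PullKummer` : the level pull-back `J₀(p) → J₀(2p)` is injective,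
* `ESJ/Cong/Comm.heckeGaloisCommute` : the Hecke operators commute with Galois,

the prime 3 alone is enough: `π₂ (η y)` is a Galois-fixed torsion class dying at 3, hence `0`,
hence `η y = 0`.  Nothing is needed at the prime 2.

* `endgame3`        : the unbundled core (no interface Prop inside);
* `MStar3 c₀`       : what (M*) has to deliver — the clause at 3 / level `2p` only, with an
                      injective level pull-back (`Interfaces80.IsLevelPullback π₂ 1`);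
* `mStar3_of_inj`   : `Interfaces80.MStar c₀` gives `MStar3 c₀` as soon as its `π₂` is injective;
* `s15_of_layers3P` : `CuspFactsP c₀ → MStar3 c₀ → DescOutP → (frozen S15)` — helper80's
                      interface of record (version P, `S15P/Interfaces80b`) with `MStar`
                      replaced by `MStar3` and no `RedC` hypothesis (`RedC15.redC` is cited).
-/
import Mathlib
import Fermat.Prelude.Def_EllipticCurve_ZeroComponentAt
import Fermat.Agent.S15P.KS73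
import Fermat.Agent.S15P.RedC15
import Fermat.Agent.ESJ.Cong.Comm
import Fermat.Agent.S15P.Interfaces80b

set_option autoImplicit false

namespace Fermat.Agent.S15P.TopSeam3_5

open ModularCurve WeierstrassCurve WeierstrassCurve.Affine Fermat.Agent.ESJ
open Fermat.Agent.S15P.Interfaces80 Fermat.Agent.S15P.Interfaces80b

local notation "Qb" => AlgebraicClosure ℚ

/-- A subgroup stable under a set of endomorphisms is stable under the algebra they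
generate. -/
theorem mem_of_mem_adjoin {J : Type*} [AddCommGroup J] (T : Set (Module.End ℤ J))
    (K : AddSubgroup J) (hK : ∀ t ∈ T, ∀ x ∈ K, t x ∈ K) (η : Module.End ℤ J)
    (hη : η ∈ Algebra.adjoin ℤ T) : ∀ x ∈ K, η x ∈ K := by
  induction hη using Algebra.adjoin_induction with
  | mem t ht => exact hK t ht
  | algebraMap z =>
    intro x hx
    have : (algebraMap ℤ (Module.End ℤ J) z) x = z • x := by
      rw [Module.algebraMap_end_apply]
    rw [this]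
    exact K.zsmul_mem hx z
  | add a b _ _ ha hb =>
    intro x hx
    rw [LinearMap.add_apply]
    exact K.add_mem (ha x hx) (hb x hx)
  | mul a b _ _ ha hb =>
    intro x hx
    rw [Module.End.mul_apply]
    exact ha _ (hb x hx)

/-- The Galois-fixed classes of `J₀(N)`. -/
def fixedSub (N : ℕ) [NeZero N] : AddSubgroup (JZero N) where
  carrier := {x | ∀ σ : GQ, σ • x = x}
  add_mem' := by
    intro a b ha hb σ
    rw [smul_add, ha σ, hb σ]
  zero_mem' := by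
    intro σ
    exact smul_zero σ
  neg_mem' := by
    intro a ha σ
    rw [smul_neg, ha σ]

theorem mem_fixedSub {N : ℕ} [NeZero N] {x : JZero N} :
    x ∈ fixedSub N ↔ ∀ σ : GQ, σ • x = x :=
  Iff.rfl

/-- A polynomial in the Hecke operators maps Galois-fixed classes to Galois-fixed classes. -/
theorem adjoin_fixed {N : ℕ} [NeZero N] (S : Set Nat.Primes) (η : Module.End ℤ (JZero N))
    (hη : η ∈ Algebra.adjoin ℤ (heckeOperatorBar N '' S)) (x : JZero N)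
    (hx : ∀ σ : GQ, σ • x = x) : ∀ σ : GQ, σ • η x = η x := by
  refine mem_of_mem_adjoin (heckeOperatorBar N '' S) (fixedSub N) ?_ η hη x hx
  rintro t ⟨q, -, rfl⟩ z hz σ
  rw [← Fermat.Agent.ESJ.Cong.heckeGaloisCommute N q σ z, hz σ]

/-- **The end-game with the prime 3 only.**  `η` a polynomial in the `T_q`, `q ∤ 6 p ℓ`, which
maps `J₀(p)(ℚ)` into `n`-torsion and fixes the nonzero rational torsion class `c₁ = k c₀`;
`y` a rational class with `π₂ y` dying at 3 (level `2p`, `π₂` an injective level pull-back) and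
`y + c₀` dying at `ℓ ≥ 5`.  Contradiction. -/
theorem endgame3 {p : ℕ} [NeZero p] (hp : p.Prime) (hp3 : p ≠ 3)
    {ℓ : ℕ} (hℓ : ℓ.Prime) (h5 : 5 ≤ ℓ) (hℓp : ℓ ≠ p)
    (A : ValuationSubring Qb) (hA : A.LiesOverPrime ℓ)
    (S : Set Nat.Primes) (hS : ∀ q ∈ S, ¬ (q : ℕ) ∣ 6 * p * ℓ)
    (η : Module.End ℤ (JZero p)) (hηS : η ∈ Algebra.adjoin ℤ (heckeOperatorBar p '' S))
    (n : ℕ) (hn : n ≠ 0) (hηtors : ∀ y : JZero p, (∀ σ : GQ, σ • y = y) → n • η y = 0)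
    (c₀ c₁ : JZero p) (k : ℕ) (hc₁ : c₁ = k • c₀) (hηc₁ : η c₁ = c₁)
    (hc₁fix : ∀ σ : GQ, σ • c₁ = c₁) (hc₁ne : c₁ ≠ 0) (m : ℕ) (hm : m ≠ 0) (hmc₁ : m • c₁ = 0)
    (A₃ : ValuationSubring Qb) (hA₃ : A₃.LiesOverPrime 3)
    (π₂ : JZero p →+ JZero (p * 2))
    (hπG : ∀ (σ : GQ) (x : JZero p), π₂ (σ • x) = σ • π₂ x)
    (hπH : ∀ q : Nat.Primes, ¬ (q : ℕ) ∣ p * 2 → ∀ x : JZero p,
      π₂ (heckeOperatorBar p q x) = heckeOperatorBar (p * 2) q (π₂ x))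
    (hπK : ∀ x : JZero p, π₂ x = 0 → x = 0)
    (y : JZero p) (hyfix : ∀ σ : GQ, σ • y = y)
    (hy3 : reductionModL A₃ (p * 2) (π₂ y) = 0)
    (hyℓ : reductionModL A p (y + c₀) = 0) : False := by
  have hℓp' : ¬ ℓ ∣ p := fun hd => hℓp ((Nat.prime_dvd_prime_iff_eq hℓ hp).mp hd)
  have h3p2 : ¬ 3 ∣ p * 2 := fun hd => by
    rcases (Nat.Prime.dvd_mul Nat.prime_three).mp hd with h | h
    · exact hp3 ((Nat.prime_dvd_prime_iff_eq Nat.prime_three hp).mp h).symm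
    · exact absurd h (by norm_num)
  -- divisibility facts for the primes of `S`
  have hSp2 : ∀ q ∈ S, ¬ (q : ℕ) ∣ p * 2 := fun q hq hd =>
    hS q hq (dvd_trans hd ⟨3 * ℓ, by ring⟩)
  have hSp : ∀ q ∈ S, ¬ (q : ℕ) ∣ p := fun q hq hd =>
    hS q hq (dvd_trans hd ⟨6 * ℓ, by ring⟩)
  have hS3 : ∀ q ∈ S, (q : ℕ) ≠ 3 := fun q hq h =>
    hS q hq (by rw [h]; exact ⟨2 * p * ℓ, by ring⟩)
  have hSℓ : ∀ q ∈ S, (q : ℕ) ≠ ℓ := fun q hq h =>
    hS q hq (by rw [h]; exact ⟨6 * p, by ring⟩)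
  -- the two kernels are stable under `η`
  have hK3 : ∀ x : JZero p, reductionModL A₃ (p * 2) (π₂ x) = 0 →
      reductionModL A₃ (p * 2) (π₂ (η x)) = 0 := by
    have key := mem_of_mem_adjoin (heckeOperatorBar p '' S)
      ((reductionModL A₃ (p * 2)).ker.comap π₂) (by
        rintro t ⟨q, hq, rfl⟩ x hx
        rw [AddSubgroup.mem_comap, AddMonoidHom.mem_ker] at hx ⊢
        rw [hπH q (hSp2 q hq) x]
        exact KS73.ker_reductionModL_hecke_stable_three (p * 2) (Dvd.intro_left p rfl) h3p2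
          (q : ℕ) q.2 (hS3 q hq) (hSp2 q hq) A₃ hA₃ _ hx) η hηS
    intro x hx
    have := key x (by rw [AddSubgroup.mem_comap, AddMonoidHom.mem_ker]; exact hx)
    rwa [AddSubgroup.mem_comap, AddMonoidHom.mem_ker] at this
  have hKℓ : ∀ x : JZero p, reductionModL A p x = 0 → reductionModL A p (η x) = 0 := by
    have key := mem_of_mem_adjoin (heckeOperatorBar p '' S)
      (reductionModL A p).ker (by
        rintro t ⟨q, hq, rfl⟩ x hx
        rw [AddMonoidHom.mem_ker] at hx ⊢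
        exact KS73.ker_reductionModL_hecke_stable_five p ℓ (q : ℕ) hℓ h5 q.2 (hSℓ q hq)
          (hSp q hq) hℓp' A hA x hx) η hηS
    intro x hx
    have := key x (by rw [AddMonoidHom.mem_ker]; exact hx)
    rwa [AddMonoidHom.mem_ker] at this
  -- `η y = 0`: `π₂ (η y)` is a Galois-fixed torsion class dying at 3 on the even level `2p`
  have hηy : η y = 0 := by
    apply hπK
    have hfix : ∀ σ : GQ, σ • π₂ (η y) = π₂ (η y) := fun σ => by
      rw [← hπG σ (η y), adjoin_fixed S η hηS y hyfix σ]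
    have htors : n • π₂ (η y) = 0 := by
      rw [← map_nsmul, hηtors y hyfix, map_zero]
    exact RedC15.eq_zero_of_fixed_of_red_eq_zero_good Nat.prime_three h3p2
      (Or.inr ⟨rfl, Dvd.intro_left p rfl⟩) A₃ hA₃ (π₂ (η y)) hfix n (Nat.pos_of_ne_zero hn)
      htors (hK3 y hy3)
  -- `c₁` dies at `ℓ`
  have hred : reductionModL A p c₁ = 0 := by
    have h1 := hKℓ (y + c₀) hyℓ
    rw [map_add, hηy, zero_add] at h1
    have h2' : reductionModL A p (η (k • c₀)) = 0 := by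
      rw [map_nsmul, map_nsmul, h1, smul_zero]
    rw [← hc₁, hηc₁] at h2'
    exact h2'
  -- contradiction with (RED-C)
  exact RedC15.redC hp hℓ h5 hℓp A hA c₁ hc₁fix hc₁ne m hm hmc₁ hred

/-- **(M\*), the clause at 3 only.**  Same hypotheses as `Interfaces80.MStar` (those of the
frozen S15 statement, with `ℓ ≥ 5` and the negation of its conclusion).  Output: a valuation
ring over 3, a level pull-back `π₂ : J₀(p) → J₀(2p)` (Galois- and Hecke-equivariant, kernel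
killed by `1`, i.e. injective) and a Galois-fixed class `y` with `red₃ (π₂ y) = 0` and
`red_ℓ (y + c₀) = 0`.  Nothing at the prime 2. -/
def MStar3 (c₀ : ∀ (p : ℕ) [NeZero p], JZero p) : Prop :=
  ∀ (p : ℕ) [NeZero p] (_hp : p.Prime) (_hp' : p ∉ ({2, 3, 5, 7, 13} : Finset ℕ))
    (W : WeierstrassCurve ℤ) (_hΔ : W.Δ ≠ 0)
    (Q : ((W.map (Int.castRingHom ℚ))⁄(AlgebraicClosure ℚ)).Point)
    (_hQfix : ∀ σ : AlgebraicClosure ℚ ≃ₐ[ℚ] AlgebraicClosure ℚ, σ • Q = Q)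
    (_hQord : addOrderOf Q = p)
    (_h2Δ : (2 : ℤ) ∣ W.Δ) (_h2c₄ : ¬ (2 : ℤ) ∣ W.c₄)
    (_h2 : ∀ A : ValuationSubring (AlgebraicClosure ℚ), A.LiesOverPrime 2 →
      ¬ W.InZeroComponentAt A Q)
    (_h3Δ : (3 : ℤ) ∣ W.Δ) (_h3c₄ : ¬ (3 : ℤ) ∣ W.c₄)
    (_h3 : ∀ A : ValuationSubring (AlgebraicClosure ℚ), A.LiesOverPrime 3 →
      ¬ W.InZeroComponentAt A Q)
    (ℓ : ℕ) (_hℓ : ℓ.Prime) (_h5 : 5 ≤ ℓ) (_hℓp : ℓ ≠ p) (_hℓΔ : (ℓ : ℤ) ∣ W.Δ)
    (_hℓc₄ : ¬ (ℓ : ℤ) ∣ W.c₄)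
    (A : ValuationSubring (AlgebraicClosure ℚ)) (_hA : A.LiesOverPrime ℓ)
    (_hin : W.InZeroComponentAt A Q),
    ∃ (A₃ : ValuationSubring Qb) (π₂ : JZero p →+ JZero (p * 2)) (y : JZero p),
      A₃.LiesOverPrime 3 ∧ IsLevelPullback π₂ 1 ∧
      (∀ σ : GQ, σ • y = y) ∧
      reductionModL A₃ (p * 2) (π₂ y) = 0 ∧
      reductionModL A p (y + c₀ p) = 0

/-- `Interfaces80.MStar c₀` gives `MStar3 c₀` when the level pull-back `π₂` it produces is
injective (as is main's concrete map, `Padic.PullKummer.pic0Pull_alpha_injective`). -/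
theorem mStar3_of_inj (c₀ : ∀ (p : ℕ) [NeZero p], JZero p)
    (h : ∀ (p : ℕ) [NeZero p] (_hp : p.Prime) (_hp' : p ∉ ({2, 3, 5, 7, 13} : Finset ℕ))
      (W : WeierstrassCurve ℤ) (_hΔ : W.Δ ≠ 0)
      (Q : ((W.map (Int.castRingHom ℚ))⁄(AlgebraicClosure ℚ)).Point)
      (_hQfix : ∀ σ : AlgebraicClosure ℚ ≃ₐ[ℚ] AlgebraicClosure ℚ, σ • Q = Q)
      (_hQord : addOrderOf Q = p)
      (_h2Δ : (2 : ℤ) ∣ W.Δ) (_h2c₄ : ¬ (2 : ℤ) ∣ W.c₄)
      (_h2 : ∀ A : ValuationSubring (AlgebraicClosure ℚ), A.LiesOverPrime 2 →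
        ¬ W.InZeroComponentAt A Q)
      (_h3Δ : (3 : ℤ) ∣ W.Δ) (_h3c₄ : ¬ (3 : ℤ) ∣ W.c₄)
      (_h3 : ∀ A : ValuationSubring (AlgebraicClosure ℚ), A.LiesOverPrime 3 →
        ¬ W.InZeroComponentAt A Q)
      (ℓ : ℕ) (_hℓ : ℓ.Prime) (_h5 : 5 ≤ ℓ) (_hℓp : ℓ ≠ p) (_hℓΔ : (ℓ : ℤ) ∣ W.Δ)
      (_hℓc₄ : ¬ (ℓ : ℤ) ∣ W.c₄)
      (A : ValuationSubring (AlgebraicClosure ℚ)) (_hA : A.LiesOverPrime ℓ)
      (_hin : W.InZeroComponentAt A Q),
      ∃ (A₃ : ValuationSubring Qb) (π₂ : JZero p →+ JZero (p * 2)) (d : ℕ) (y : JZero p),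
        A₃.LiesOverPrime 3 ∧ IsLevelPullback π₂ d ∧ Function.Injective π₂ ∧
        (∀ σ : GQ, σ • y = y) ∧
        reductionModL A₃ (p * 2) (π₂ y) = 0 ∧
        reductionModL A p (y + c₀ p) = 0) : MStar3 c₀ := by
  intro p _ hp hp' W hΔ Q hQfix hQord h2Δ h2c₄ h2 h3Δ h3c₄ h3 ℓ hℓ h5 hℓp hℓΔ hℓc₄ A hA hin
  obtain ⟨A₃, π₂, d, y, hA₃, ⟨hG, hH, -⟩, hinj, hy, hy3, hyℓ⟩ :=
    h p hp hp' W hΔ Q hQfix hQord h2Δ h2c₄ h2 h3Δ h3c₄ h3 ℓ hℓ h5 hℓp hℓΔ hℓc₄ A hA hin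
  refine ⟨A₃, π₂, y, hA₃, ⟨hG, hH, fun x hx => ?_⟩, hy, hy3, hyℓ⟩
  rw [one_smul]
  exact hinj (hx.trans (map_zero π₂).symm)

/-- **THE TOP SEAM, prime 3 only** (version P): the cuspidal facts, (M\*) at 3 and the
Eisenstein descent imply the frozen S15 statement. -/
theorem s15_of_layers3P (c₀ : ∀ (p : ℕ) [NeZero p], JZero p)
    (hCusp : CuspFactsP c₀) (hM : MStar3 c₀) (hDesc : DescOutP)
    {p : ℕ} (hp : p.Prime) (hp' : p ∉ ({2, 3, 5, 7, 13} : Finset ℕ))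
    (W : WeierstrassCurve ℤ) (hΔ : W.Δ ≠ 0)
    (Q : ((W.map (Int.castRingHom ℚ))⁄(AlgebraicClosure ℚ)).Point)
    (hQfix : ∀ σ : AlgebraicClosure ℚ ≃ₐ[ℚ] AlgebraicClosure ℚ, σ • Q = Q)
    (hQord : addOrderOf Q = p)
    (h2Δ : (2 : ℤ) ∣ W.Δ) (h2c₄ : ¬ (2 : ℤ) ∣ W.c₄)
    (h2 : ∀ A : ValuationSubring (AlgebraicClosure ℚ), A.LiesOverPrime 2 →
      ¬ W.InZeroComponentAt A Q)
    (h3Δ : (3 : ℤ) ∣ W.Δ) (h3c₄ : ¬ (3 : ℤ) ∣ W.c₄)
    (h3 : ∀ A : ValuationSubring (AlgebraicClosure ℚ), A.LiesOverPrime 3 →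
      ¬ W.InZeroComponentAt A Q)
    {ℓ : ℕ} (hℓ : ℓ.Prime) (hℓp : ℓ ≠ p) (hℓΔ : (ℓ : ℤ) ∣ W.Δ) (hℓc₄ : ¬ (ℓ : ℤ) ∣ W.c₄)
    (A : ValuationSubring (AlgebraicClosure ℚ)) (hA : A.LiesOverPrime ℓ) :
    ¬ W.InZeroComponentAt A Q := by
  have : NeZero p := ⟨hp.ne_zero⟩
  by_cases hl2 : ℓ = 2
  · subst hl2; exact h2 A hA
  by_cases hl3 : ℓ = 3
  · subst hl3; exact h3 A hA
  have h5 : 5 ≤ ℓ := by
    have h2le := hℓ.two_le
    by_contra hlt
    have h4 : ℓ = 4 := by omega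
    rw [h4] at hℓ
    exact absurd hℓ (by norm_num)
  intro hin
  have hp3 : p ≠ 3 := fun h => hp' (by rw [h]; decide)
  -- (M*), clause at 3
  obtain ⟨A₃, π₂, y, hA₃, ⟨hπG, hπH, hπK⟩, hyfix, hy3, hyℓ⟩ :=
    hM p hp hp' W hΔ Q hQfix hQord h2Δ h2c₄ h2 h3Δ h3c₄ h3 ℓ hℓ h5 hℓp hℓΔ hℓc₄ A hA hin
  -- the cuspidal class and its prime-order multiple
  obtain ⟨hc₀fix, hn₀c, hc₀ne, hc₀T⟩ := hCusp p hp hp'
  have hp1 : 0 < p - 1 := Nat.sub_pos_of_lt hp.one_lt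
  have hfin : IsOfFinAddOrder (c₀ p) :=
    isOfFinAddOrder_iff_nsmul_eq_zero.mpr ⟨p - 1, hp1, hn₀c⟩
  have hN₀pos : 0 < addOrderOf (c₀ p) := addOrderOf_pos_iff.mpr hfin
  have hN₀ne1 : addOrderOf (c₀ p) ≠ 1 := fun h => hc₀ne (AddMonoid.addOrderOf_eq_one_iff.mp h)
  obtain ⟨r, hr, hrN⟩ := Nat.exists_prime_and_dvd hN₀ne1
  have hrp : r ≠ p := fun h => by
    have hd : r ∣ p - 1 := dvd_trans hrN (addOrderOf_dvd_of_nsmul_eq_zero hn₀c)
    have hle := Nat.le_of_dvd hp1 hd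
    omega
  obtain ⟨k, hk⟩ := hrN
  have hkpos : 0 < k := by
    rcases Nat.eq_zero_or_pos k with h | h
    · rw [h, mul_zero] at hk; omega
    · exact h
  have hc₁r : r • (k • c₀ p) = 0 := by
    rw [← mul_nsmul', ← hk]; exact addOrderOf_nsmul_eq_zero (c₀ p)
  have hc₁ne : k • c₀ p ≠ 0 := fun h => by
    have hd : addOrderOf (c₀ p) ∣ k := addOrderOf_dvd_of_nsmul_eq_zero h
    have hle : addOrderOf (c₀ p) ≤ k := Nat.le_of_dvd hkpos hd
    have hlt : k < r * k := lt_mul_of_one_lt_left hkpos hr.one_lt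
    omega
  have hc₁fix : ∀ σ : GQ, σ • (k • c₀ p) = k • c₀ p := fun σ => by
    have e : σ • (k • c₀ p) = k • (σ • c₀ p) :=
      map_nsmul (DistribSMul.toAddMonoidHom (JZero p) σ) k (c₀ p)
    rw [e, hc₀fix σ]
  have hc₁T : ∀ q : Nat.Primes, (q : ℕ) ≠ p →
      heckeOperatorBar p q (k • c₀ p) = (1 + (q : ℕ)) • (k • c₀ p) := fun q hq => by
    rw [map_nsmul, hc₀T q hq, smul_comm]
  -- (DESC)
  obtain ⟨η, ⟨S, hS, hηS⟩, ⟨n, hn, hηtors⟩, hηc₁⟩ :=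
    hDesc p hp hp' ℓ hℓ h5 hℓp r hr hrp (k • c₀ p) hc₁fix hc₁r hc₁ne hc₁T
  exact endgame3 hp hp3 hℓ h5 hℓp A hA S hS η hηS n hn hηtors (c₀ p) (k • c₀ p) k rfl hηc₁
    hc₁fix hc₁ne r hr.ne_zero hc₁r A₃ hA₃ π₂ hπG hπH
    (fun x hx => by have := hπK x hx; rwa [one_smul] at this) y hyfix hy3 hyℓ

end Fermat.Agent.S15P.TopSeam3_5
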