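import Mathlib
import Fermat.Prelude.Def_GaloisRep_ComplexConjugation
import Fermat.Agent.ESJ.Rep.CycloMod

/-!
# S15 / (JH): the mod `M` cyclotomic character of complex conjugation is `-1`

* `complexConjugation_root` : the Prelude's `complexConjugation` sends an `M`-th root of unity
  `ζ ∈ ℚ̄` to `ζ ^ (M - 1) = ζ⁻¹`;
* `cycloMod_complexConjugation` : `ESJ.Rep.cycloMod M complexConjugation = -1`.
-/

set_option autoImplicit false

namespace Fermat.Agent.S15P.CycloConj55

open Fermat.Agent.ESJ

local notation "Qb" => AlgebraicClosure ℚ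

/-- Complex conjugation inverts the roots of unity of `ℚ̄`. -/
theorem complexConjugation_root (M : ℕ) (hM : M ≠ 0) (ζ : Qb) (hζ : ζ ^ M = 1) :
    complexConjugation ζ = ζ ^ (M - 1) := by
  apply complexEmbedding.toRingHom.injective
  show complexEmbedding (complexConjugation ζ) = complexEmbedding (ζ ^ (M - 1))
  rw [complexEmbedding_complexConjugation, map_pow]
  have hz : complexEmbedding ζ ^ M = 1 := by rw [← map_pow, hζ, map_one]
  have hnorm : ‖complexEmbedding ζ‖ = 1 := Complex.norm_eq_one_of_pow_eq_one hz hM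
  have hz0 : complexEmbedding ζ ≠ 0 := by
    intro h0
    rw [h0, norm_zero] at hnorm
    exact zero_ne_one hnorm
  have h1 : starRingEnd ℂ (complexEmbedding ζ) * complexEmbedding ζ = 1 := by
    rw [Complex.conj_mul', hnorm]
    simp
  have h2 : complexEmbedding ζ ^ (M - 1) * complexEmbedding ζ = 1 := by
    rw [← pow_succ, Nat.sub_add_cancel (Nat.pos_of_ne_zero hM), hz]
  exact mul_right_cancel₀ hz0 (h1.trans h2.symm)

/-- `χ_M(c) = -1` in `ZMod M`. -/
theorem cycloMod_complexConjugation_coe (M : ℕ) [NeZero M] :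
    ((Rep.cycloMod M complexConjugation : (ZMod M)ˣ) : ZMod M) = -1 := by
  obtain ⟨ζ, hζ⟩ := Rep.CycloMod.exists_primitiveRoot M
  have h := Rep.cycloMod_eq_natCast M complexConjugation (M - 1) hζ
    (complexConjugation_root M (NeZero.ne M) ζ hζ.pow_eq_one)
  rw [h, Nat.cast_sub (Nat.one_le_iff_ne_zero.2 (NeZero.ne M)), ZMod.natCast_self, Nat.cast_one,
    zero_sub]

/-- **The mod `M` cyclotomic character of complex conjugation is `-1`.** -/
theorem cycloMod_complexConjugation (M : ℕ) [NeZero M] :
    Rep.cycloMod M complexConjugation = -1 := by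
  apply Units.ext
  rw [cycloMod_complexConjugation_coe]
  simp

/-- Complex conjugation on a root of unity, in the `γ ζ = ζ ^ m` form of `JH.LineChar`. -/
theorem complexConjugation_root_prime (r : ℕ) (hr : r.Prime) (ζ : Qb) (hζ : ζ ^ r = 1) :
    complexConjugation ζ = ζ ^ (r - 1) :=
  complexConjugation_root r hr.ne_zero ζ hζ

end Fermat.Agent.S15P.CycloConj55
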