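/-
S15 (row 624 CONCRETE-DESC, seat helper40): **the step module at level `r ^ k`** — the general
form of `StepMod40` / `StepLoc40` asked for by row 588 (HLEV): the SAME statements serve
L8 (`k = 1`, `z` a division point of a rational point, `G = X_1`) and L5 on `X_n`
(`k = n`, `z ∈ X_n` a torsion point = a division point of `0`).

`z` with `r ^ k • z` rational (`r ∤ N` prime), `S` a Galois-stable subgroup, `y ∉ S` with
`r ^ k • y = 0`, `r • y ∈ S`, Galois acting on `y` by the scalars `χ` modulo `S`, and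
`γ z - z ≡ a(γ) y` modulo `S`.  Then the step module `(ℤ/r)²`,
`γ (b, c) = (χ(γ) b + c a(γ), c)` (`StepMod40.stepAct`) has a Hopf order at `r`
(`hasHopfOrder_step`), and the three local statements of `StepLoc40` hold
(`step_two_h2`, `step_triv_unr`, `step_mu_unit`).
-/
import Mathlib
import Fermat.Agent.S15P.StepMod40
import Fermat.Agent.S15P.Loc2.TresRam29
import Fermat.Agent.S15P.Loc2.OddStep29
import Fermat.Agent.S15P.LocOddMu52

set_option autoImplicit false

namespace Fermat.Agent.S15P.StepK40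

open AlgebraicCurve ModularCurve Fermat.Agent.Lib.FinFlat Fermat.Agent.S15P.Ord15
  Fermat.Agent.S15P.StepMod40

local notation "Qb" => AlgebraicClosure ℚ
local notation "GQ" => (AlgebraicClosure ℚ ≃ₐ[ℚ] AlgebraicClosure ℚ)

section aux

variable {M : Type*} [AddCommGroup M]

theorem nsmul_mod_sub_mem (r : ℕ) (S : AddSubgroup M) (y : M) (hry : r • y ∈ S) (n : ℕ) :
    (n % r) • y - n • y ∈ S := by
  have h1 : n • y = (n / r) • (r • y) + (n % r) • y := by
    conv_lhs => rw [← Nat.div_add_mod n r]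
    rw [add_nsmul, mul_nsmul]
  have e : (n % r) • y - n • y = -((n / r) • (r • y)) := by
    rw [h1]
    abel
  rw [e]
  exact S.neg_mem (S.nsmul_mem hry _)

/-- `x.val • y ≡ n • y` modulo `S` when `x = n` in `ZMod r` and `r • y ∈ S`. -/
theorem val_nsmul_sub_mem (r : ℕ) (S : AddSubgroup M) (y : M) (hry : r • y ∈ S)
    (x : ZMod r) (n : ℕ) (h : x = (n : ZMod r)) : x.val • y - n • y ∈ S := by
  rw [h, ZMod.val_natCast]
  exact nsmul_mod_sub_mem r S y hry n

theorem mem_of_val_nsmul_mem (r : ℕ) [Fact r.Prime] (S : AddSubgroup M) (y : M)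
    (hry : r • y ∈ S) (b : ZMod r) (hb : b ≠ 0) (h : b.val • y ∈ S) : y ∈ S := by
  have hr : r.Prime := Fact.out
  have : Fact (1 < r) := ⟨hr.one_lt⟩
  have h1 : (b⁻¹ * b).val • y - ((b⁻¹).val * b.val) • y ∈ S :=
    val_nsmul_sub_mem r S y hry _ _ (by
      push_cast
      rw [ZMod.natCast_zmod_val, ZMod.natCast_zmod_val])
  rw [inv_mul_cancel₀ hb, ZMod.val_one, one_nsmul, mul_nsmul'] at h1
  have e : y = (y - (b⁻¹).val • b.val • y) + (b⁻¹).val • b.val • y := by abel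
  rw [e]
  exact S.add_mem h1 (S.nsmul_mem h _)

theorem exists_zmod_hom (r : ℕ) [NeZero r] (q : M) (hq : r • q = 0) :
    ∃ f : ZMod r →+ M, ∀ b : ZMod r, f b = b.val • q := by
  have h0 : ((zmultiplesHom M) q) (r : ℤ) = 0 := by
    show (r : ℤ) • q = 0
    rw [natCast_zsmul]
    exact hq
  refine ⟨ZMod.lift r ⟨(zmultiplesHom M) q, h0⟩, fun b => ?_⟩
  have h1 : ZMod.lift r ⟨(zmultiplesHom M) q, h0⟩ ((b.val : ℤ) : ZMod r) = (b.val : ℤ) • q :=
    ZMod.lift_coe r _ _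
  rw [Int.cast_natCast, ZMod.natCast_zmod_val, natCast_zsmul] at h1
  exact h1

theorem exists_cast_hom (r m : ℕ) [NeZero m] (hrm : r ∣ m) :
    ∃ f : ZMod m →+ ZMod r, (∀ c : ZMod m, f c = ((c.val : ℕ) : ZMod r)) ∧
      Function.Surjective f := by
  refine ⟨(ZMod.castHom hrm (ZMod r)).toAddMonoidHom, fun c => ?_,
    ZMod.ringHom_surjective (ZMod.castHom hrm (ZMod r))⟩
  show ZMod.cast c = _
  exact (ZMod.natCast_val c).symm

end aux

section main

set_option synthInstance.maxHeartbeats 400000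

variable {N : ℕ}

/-- A module mapping to `V` additively, injectively and equivariantly MODULO a stable
subgroup `S'` inherits a Hopf order. -/
theorem hasHopfOrder_of_map_mod {r : ℕ} [Fact r.Prime] {V W : Type} [AddCommGroup V] [Finite V]
    [AddCommGroup W] {act : GQ → V → V} (hH : HasHopfOrder r act)
    (hadd : ∀ (σ : GQ) (v v' : V), act σ (v + v') = act σ v + act σ v')
    (S' : AddSubgroup V) (hS' : ∀ (σ : GQ), ∀ v ∈ S', act σ v ∈ S')
    {actW : GQ → W → W} (f : W → V)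
    (h1 : ∀ w w' : W, f (w + w') - (f w + f w') ∈ S')
    (h2 : ∀ w : W, f w ∈ S' → w = 0)
    (h3 : ∀ (σ : GQ) (w : W), f (actW σ w) - act σ (f w) ∈ S') : HasHopfOrder r actW := by
  let actHom : GQ → V →+ V := fun γ => AddMonoidHom.mk' (act γ) (hadd γ)
  have hstab : ∀ γ : GQ, S' ≤ S'.comap (actHom γ) := fun γ v hv => hS' γ v hv
  let actQ : GQ → V ⧸ S' → V ⧸ S' := fun γ => QuotientAddGroup.map S' S' (actHom γ) (hstab γ)
  have hQ : HasHopfOrder r actQ :=
    hH.of_surjective (QuotientAddGroup.mk' S') (QuotientAddGroup.mk'_surjective S')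
      (fun σ v => rfl)
  let ι : W →+ V ⧸ S' := AddMonoidHom.mk' (fun w => ((f w : V) : V ⧸ S')) (fun w w' => by
    rw [← QuotientAddGroup.mk_add, QuotientAddGroup.eq_iff_sub_mem]
    exact h1 w w')
  have hι : Function.Injective ι := by
    rw [injective_iff_map_eq_zero]
    intro w hw
    exact h2 w ((QuotientAddGroup.eq_zero_iff _).mp hw)
  have hι' : ∀ (σ : GQ) (w : W), ι (actW σ w) = actQ σ (ι w) := by
    intro σ w
    show ((f (actW σ w) : V) : V ⧸ S') = ((act σ (f w) : V) : V ⧸ S')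
    rw [QuotientAddGroup.eq_iff_sub_mem]
    exact h3 σ w
  exact hQ.of_injective ι hι hι'

theorem hasHopfOrder_step_aux [NeZero N] (r : ℕ) [Fact r.Prime] (m : ℕ) [NeZero m]
    (hrm : r ∣ m) (z : JZero N) (hz : ∀ σ : GQ, σ • (m • z) = m • z)
    (hH : HasHopfOrder r (kumAct m z hz))
    (S : AddSubgroup (JZero N)) (hS : ∀ (γ : GQ) (x : JZero N), x ∈ S → γ • x ∈ S)
    (y : JZero N) (hym : m • y = 0) (hyS : y ∉ S) (hry : r • y ∈ S)
    (χ a : GQ → ZMod r)
    (hχ : ∀ γ : GQ, γ • y - (χ γ).val • y ∈ S)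
    (ha : ∀ γ : GQ, γ • z - z - (a γ).val • y ∈ S) :
    HasHopfOrder r (stepAct r χ a) := by
  have hr : r.Prime := Fact.out
  have : NeZero r := ⟨hr.ne_zero⟩
  have := torsion_finite (N := N) m
  obtain ⟨cst, hcst, hcsts⟩ := exists_cast_hom r m hrm
  -- `S × 0` in the Kummer group
  have hmem : ∀ n : ℕ, n • y ∈ Submodule.torsionBy ℤ (JZero N) (m : ℤ) := by
    intro n
    rw [Submodule.mem_torsionBy_iff, natCast_zsmul, smul_comm, hym, smul_zero]
  have hW : HasHopfOrder r (fun (γ : GQ) (w : ZMod r × ZMod m) =>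
      ((χ γ * w.1 + cst w.2 * a γ, w.2) : ZMod r × ZMod m)) := by
    refine hasHopfOrder_of_map_mod hH (kumAct_add m z hz)
      (AddSubgroup.prod
        (S.comap (Submodule.torsionBy ℤ (JZero N) (m : ℤ)).subtype.toAddMonoidHom) ⊥) ?_
      (fun w : ZMod r × ZMod m => ((⟨w.1.val • y, hmem _⟩, w.2) :
        ↥(Submodule.torsionBy ℤ (JZero N) (m : ℤ)) × ZMod m)) ?_ ?_ ?_
    · intro γ v hv
      rw [AddSubgroup.mem_prod, AddSubgroup.mem_bot] at hv ⊢
      refine ⟨?_, hv.2⟩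
      show γ • (v.1 : JZero N) + v.2.val • (γ • z - z) ∈ S
      rw [hv.2, ZMod.val_zero, zero_nsmul, add_zero]
      exact hS γ _ hv.1
    · intro w w'
      rw [AddSubgroup.mem_prod, AddSubgroup.mem_bot]
      refine ⟨?_, ?_⟩
      · show (w.1 + w'.1).val • y - (w.1.val • y + w'.1.val • y) ∈ S
        rw [← add_nsmul]
        exact val_nsmul_sub_mem r S y hry _ _ (by
          push_cast
          rw [ZMod.natCast_zmod_val, ZMod.natCast_zmod_val])
      · show (w.2 + w'.2) - (w.2 + w'.2) = 0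
        exact sub_self _
    · intro w hw
      rw [AddSubgroup.mem_prod, AddSubgroup.mem_bot] at hw
      have h1 : w.1.val • y ∈ S := hw.1
      have h2 : w.1 = 0 := by
        by_contra hne
        exact hyS (mem_of_val_nsmul_mem r S y hry w.1 hne h1)
      exact Prod.ext h2 hw.2
    · intro σ w
      rw [AddSubgroup.mem_prod, AddSubgroup.mem_bot]
      refine ⟨?_, ?_⟩
      swap
      · show w.2 - w.2 = 0
        exact sub_self _
      show (χ σ * w.1 + cst w.2 * a σ).val • y -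
        (σ • (w.1.val • y) + w.2.val • (σ • z - z)) ∈ S
      have e1 : (χ σ * w.1 + cst w.2 * a σ).val • y -
          ((χ σ).val * w.1.val + w.2.val * (a σ).val) • y ∈ S :=
        val_nsmul_sub_mem r S y hry _ _ (by
          rw [hcst]
          push_cast
          rw [ZMod.natCast_zmod_val, ZMod.natCast_zmod_val, ZMod.natCast_zmod_val])
      have e2 : σ • (w.1.val • y) = w.1.val • (σ • y) :=
        map_nsmul (DistribSMul.toAddMonoidHom (JZero N) σ) _ y
      have e3 : ((χ σ).val * w.1.val + w.2.val * (a σ).val) • y -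
          (w.1.val • (σ • y) + w.2.val • (σ • z - z)) =
          -(w.1.val • (σ • y - (χ σ).val • y)) - w.2.val • (σ • z - z - (a σ).val • y) := by
        rw [add_nsmul, mul_nsmul, mul_nsmul']
        exact step_identity _ _ _ _ _ _
      have e4 : (χ σ * w.1 + cst w.2 * a σ).val • y -
          (σ • (w.1.val • y) + w.2.val • (σ • z - z)) =
          ((χ σ * w.1 + cst w.2 * a σ).val • y -
            ((χ σ).val * w.1.val + w.2.val * (a σ).val) • y) +
          (((χ σ).val * w.1.val + w.2.val * (a σ).val) • y -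
            (w.1.val • (σ • y) + w.2.val • (σ • z - z))) := by
        rw [e2]
        abel
      rw [e4, e3]
      exact S.add_mem e1
        (S.sub_mem (S.neg_mem (S.nsmul_mem (hχ σ) _)) (S.nsmul_mem (ha σ) _))
  -- the quotient `(ℤ/r)²`
  obtain ⟨π, hπv⟩ : ∃ π : ZMod r × ZMod m →+ ZMod r × ZMod r,
      ∀ w : ZMod r × ZMod m, π w = (w.1, cst w.2) :=
    ⟨AddMonoidHom.prodMap (AddMonoidHom.id (ZMod r)) cst, fun w => rfl⟩
  have hπ : Function.Surjective π := by
    intro v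
    obtain ⟨c, hc⟩ := hcsts v.2
    exact ⟨(v.1, c), by rw [hπv, hc]⟩
  refine hW.of_surjective π hπ (fun σ w => ?_)
  rw [hπv, hπv]
  rfl

/-- **The step module has a Hopf order at `r`** (level `r ^ k`). -/
theorem hasHopfOrder_step [NeZero N] (r : ℕ) [Fact r.Prime] (hrN : ¬ r ∣ N) (k : ℕ)
    (z : JZero N) (hz : ∀ σ : GQ, σ • (r ^ k • z) = r ^ k • z)
    (S : AddSubgroup (JZero N)) (hS : ∀ (γ : GQ) (x : JZero N), x ∈ S → γ • x ∈ S)
    (y : JZero N) (hyk : r ^ k • y = 0) (hyS : y ∉ S) (hry : r • y ∈ S)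
    (χ a : GQ → ZMod r)
    (hχ : ∀ γ : GQ, γ • y - (χ γ).val • y ∈ S)
    (ha : ∀ γ : GQ, γ • z - z - (a γ).val • y ∈ S) :
    HasHopfOrder r (stepAct r χ a) := by
  have hr : r.Prime := Fact.out
  have hk : k ≠ 0 := by
    rintro rfl
    rw [pow_zero, one_nsmul] at hyk
    exact hyS (hyk ▸ S.zero_mem)
  have : NeZero (r ^ k) := ⟨pow_ne_zero k hr.ne_zero⟩
  exact hasHopfOrder_step_aux r (r ^ k) (dvd_pow_self r hk) z hz
    (hasHopfOrder_kummer N r hrN k z hz) S hS y hyk hyS hry χ a hχ ha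

end main

/-! ### The three local statements at `r` -/

section loc

variable {N : ℕ}

/-- **`r = 2`.** -/
theorem step_two_h2 [NeZero N] (h2N : ¬ 2 ∣ N) (k : ℕ)
    (z : JZero N) (hz : ∀ σ : GQ, σ • (2 ^ k • z) = 2 ^ k • z)
    (S : AddSubgroup (JZero N)) (hS : ∀ (γ : GQ) (x : JZero N), x ∈ S → γ • x ∈ S)
    (y : JZero N) (hyk : 2 ^ k • y = 0) (hyS : y ∉ S) (h2y : 2 • y ∈ S)
    (hy : ∀ γ : GQ, γ • y - y ∈ S)
    (δ : GQ → ZMod 2) (hδ : ∀ γ : GQ, γ • z - z - (δ γ).val • y ∈ S)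
    (P : ValuationSubring Qb) (hP : P.LiesOverPrime 2) (θ : Qb)
    (hθσ : ∀ τ ∈ P.inertiaSubgroupIn ℚ, τ θ = θ ∨ τ θ = -θ)
    (hθδ : ∀ τ ∈ P.inertiaSubgroupIn ℚ, (τ θ = θ ↔ δ τ = 0)) :
    P.valuation θ ^ 2 ≠ P.valuation 2 := by
  have : Fact (Nat.Prime 2) := ⟨Nat.prime_two⟩
  have hE : HasHopfOrder 2 (stepAct 2 (fun _ => 1) δ) :=
    hasHopfOrder_step 2 h2N k z hz S hS y hyk hyS h2y (fun _ => 1) δ
      (fun γ => by
        have h1 : ((1 : ZMod 2)).val = 1 := rfl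
        rw [h1, one_nsmul]
        exact hy γ) hδ
  refine Fermat.Agent.S15P.Loc2.TresRam29.valuation_sq_ne_of_hopfOrder hE (nsmul_step 2) P hP θ hθσ
    (fun σ hσ => ?_)
  rw [hθδ σ hσ]
  constructor
  · intro h v
    refine Prod.ext ?_ rfl
    show (1 : ZMod 2) * v.1 + v.2 * δ σ = v.1
    rw [h, mul_zero, add_zero, one_mul]
  · intro h
    have h1 := congrArg Prod.fst (h ((0 : ZMod 2), (1 : ZMod 2)))
    have h2 : (1 : ZMod 2) * (0 : ZMod 2) + (1 : ZMod 2) * δ σ = 0 := h1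
    rwa [mul_zero, zero_add, one_mul] at h2

/-- **`r` odd, trivial step.** -/
theorem step_triv_unr [NeZero N] (r : ℕ) [Fact r.Prime] (hr2 : r ≠ 2) (hrN : ¬ r ∣ N) (k : ℕ)
    (z : JZero N) (hz : ∀ σ : GQ, σ • (r ^ k • z) = r ^ k • z)
    (S : AddSubgroup (JZero N)) (hS : ∀ (γ : GQ) (x : JZero N), x ∈ S → γ • x ∈ S)
    (y : JZero N) (hyk : r ^ k • y = 0) (hyS : y ∉ S) (hry : r • y ∈ S)
    (hy : ∀ γ : GQ, γ • y - y ∈ S)
    (a : GQ → ZMod r) (ha : ∀ γ : GQ, γ • z - z - (a γ).val • y ∈ S)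
    (P : ValuationSubring Qb) (hP : P.LiesOverPrime r) (τ : GQ)
    (hτ : τ ∈ P.inertiaSubgroupIn ℚ) : a τ = 0 := by
  have hr : r.Prime := Fact.out
  have : Fact (1 < r) := ⟨hr.one_lt⟩
  have hE : HasHopfOrder r (stepAct r (fun _ => 1) a) :=
    hasHopfOrder_step r hrN k z hz S hS y hyk hyS hry (fun _ => 1) a
      (fun γ => by
        rw [ZMod.val_one, one_nsmul]
        exact hy γ) ha
  have h := Fermat.Agent.S15P.Loc2.OddStep29.act_eq_of_diff_eq_nsmul_odd hr hr2 hE (nsmul_step r) P hP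
    τ hτ ((0 : ZMod r), (1 : ZMod r)) ((1 : ZMod r), (0 : ZMod r)) (a τ).val
    (fun τ' _ => by
      refine Prod.ext ?_ rfl
      show (1 : ZMod r) * (1 : ZMod r) + (0 : ZMod r) * a τ' = 1
      ring)
    (by
      refine Prod.ext ?_ ?_
      · show ((1 : ZMod r) * (0 : ZMod r) + (1 : ZMod r) * a τ) - 0 = (a τ).val • (1 : ZMod r)
        rw [nsmul_eq_mul, ZMod.natCast_zmod_val]
        ring
      · show (1 : ZMod r) - 1 = (a τ).val • (0 : ZMod r)
        rw [smul_zero, sub_self])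
  have h1 := congrArg Prod.fst h
  have h2 : (1 : ZMod r) * (0 : ZMod r) + (1 : ZMod r) * a τ = 0 := h1
  rwa [mul_zero, zero_add, one_mul] at h2

/-- **`r` odd, mu step.** -/
theorem step_mu_unit [NeZero N] (r : ℕ) [Fact r.Prime] (hr2 : r ≠ 2) (hrN : ¬ r ∣ N) (k : ℕ)
    (z : JZero N) (hz : ∀ σ : GQ, σ • (r ^ k • z) = r ^ k • z)
    (S : AddSubgroup (JZero N)) (hS : ∀ (γ : GQ) (x : JZero N), x ∈ S → γ • x ∈ S)
    (y : JZero N) (hyk : r ^ k • y = 0) (hyS : y ∉ S) (hry : r • y ∈ S)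
    {ζ : Qb} (hζ : IsPrimitiveRoot ζ r) (m : GQ → ℤ) (hm : ∀ g : GQ, g ζ = ζ ^ m g)
    (hy : ∀ γ : GQ, γ • y - ((m γ : ZMod r)).val • y ∈ S)
    (a : GQ → ZMod r) (ha : ∀ γ : GQ, γ • z - z - (a γ).val • y ∈ S)
    (P : ValuationSubring Qb) (hP : P.LiesOverPrime r) (θ : Qb) (hθ0 : θ ≠ 0)
    (hθ : ∀ g : GQ, g θ = ζ ^ (a g).val * θ) :
    ∃ n : ℤ, P.valuation θ = P.valuation ((r : Qb) ^ n) := by
  have hr : r.Prime := Fact.out
  have : NeZero r := ⟨hr.ne_zero⟩
  have hE : HasHopfOrder r (stepAct r (fun γ => (m γ : ZMod r)) a) :=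
    hasHopfOrder_step r hrN k z hz S hS y hyk hyS hry (fun γ => (m γ : ZMod r)) a hy ha
  let W : AddSubgroup (ZMod r × ZMod r) := AddSubgroup.prod ⊤ ⊥
  have hWmem : ∀ v : ZMod r × ZMod r, v ∈ W ↔ v.2 = 0 := by
    intro v
    show v ∈ AddSubgroup.prod _ _ ↔ _
    rw [AddSubgroup.mem_prod, AddSubgroup.mem_bot]
    exact ⟨fun h => h.2, fun h => ⟨AddSubgroup.mem_top _, h⟩⟩
  let ψ : AddChar (ZMod r × ZMod r) Qb :=
    (AddChar.zmodChar r hζ.pow_eq_one).compAddMonoidHom (AddMonoidHom.fst (ZMod r) (ZMod r))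
  have hψ : ∀ v : ZMod r × ZMod r, ψ v = ζ ^ v.1.val :=
    fun v => AddChar.zmodChar_apply hζ.pow_eq_one v.1
  refine Fermat.Agent.S15P.LocOddMu52.valuation_eq_zpow_of_hopfOrder_mu hr2 hE P hP
    (fun σ _ v w => stepAct_add r _ a σ v w) W (fun w _ => nsmul_step r w) (fun σ _ => ?_)
    ((0 : ZMod r), (1 : ZMod r)) ψ (fun σ _ => ?_) θ hθ0 (fun σ _ => ?_)
  · refine ⟨((m σ : ZMod r)).val, fun w hw => ?_, fun ζ' hζ' => ?_⟩
    · rw [hWmem] at hw
      refine Prod.ext ?_ ?_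
      · show (m σ : ZMod r) * w.1 + w.2 * a σ = ((m σ : ZMod r)).val • w.1
        rw [hw, zero_mul, add_zero, nsmul_eq_mul, ZMod.natCast_zmod_val]
      · show w.2 = ((m σ : ZMod r)).val • w.2
        rw [hw, smul_zero]
    · obtain ⟨i, -, rfl⟩ := hζ.eq_pow_of_pow_eq_one hζ'
      have key : ζ ^ m σ = ζ ^ ((m σ : ZMod r)).val := by
        generalize hk0 : ((m σ : ZMod r)).val = k0
        have h2 : (r : ℤ) ∣ m σ - (k0 : ℤ) := by
          rw [← ZMod.intCast_zmod_eq_zero_iff_dvd, ← hk0]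
          push_cast
          rw [ZMod.natCast_zmod_val, sub_self]
        obtain ⟨t, ht⟩ := h2
        have h3 : m σ = (k0 : ℤ) + r * t := by linarith
        have hζ0 : ζ ≠ 0 := hζ.ne_zero hr.ne_zero
        rw [h3, zpow_add₀ hζ0, zpow_mul, zpow_natCast, zpow_natCast, hζ.pow_eq_one, one_zpow,
          mul_one]
      rw [map_pow, hm σ, key, ← pow_mul, mul_comm, pow_mul]
  · rw [hWmem]
    show (1 : ZMod r) - 1 = 0
    exact sub_self _
  · rw [hθ σ, hψ]
    congr 2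
    show (a σ).val = ((m σ : ZMod r) * (0 : ZMod r) + (1 : ZMod r) * a σ - 0).val
    congr 1
    ring

end loc

end Fermat.Agent.S15P.StepK40
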