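/-
S15 (row 624 CONCRETE-DESC, seat helper40): **the step hypotheses `Htriv`, `Hmu` of
`Desc40.exists_poly_odd` / `MainCount40.fixed_of_odd` on `J₀(p)`** (`Γ = G_ℚ`, `r` odd, `r ≠ p`),
at any level `r ^ k`: `G` a subgroup killed by `r ^ k`, `z` any point with `r ^ k • z` rational
(`k = 1`, `z ∈ Zdiv G_ℚ r M G` for L8; `z ∈ X_n`, `k = n` for L5 on `X_n`, row 588).

`step_triv`: a step vector `y` fixed modulo `S`, `γ z - z ∈ S + ℤ y`, `σ z - z ∈ S` for ONE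
inertia element `σ` at `p` moving the `r`-th roots of `p`  ⟹  `γ z - z ∈ S` for all `γ`.
(`a(γ)` := the coordinate of `γ z - z` is a character; unramified at `ℓ ∤ p r` by
`GoodDiv85.inertia_smul_eq_div`, at `r` by `StepLoc40.step_triv_unr`; `Char96.char_eq_zero_of_sigma`.)

`step_mu`: a scalar step vector `y`: by (JH-χ) (`JHLineChar87.lineChar`) it is fixed mod `S`
(then `step_triv`) or cyclotomic; then `a` is a cocycle for the cyclotomic character, a unit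
class at `r` (`StepLoc40.step_mu_unit`), and `Char96.cocycle_eq_coboundary_of_sigma_val` makes it
a coboundary: `γ z - z ≡ j (γ y - y)`.
-/
import Mathlib
import Fermat.Agent.S15P.StepK40
import Fermat.Agent.S15P.Char96
import Fermat.Agent.S15P.GoodDiv85
import Fermat.Agent.S15P.JHLineChar87
import Fermat.Agent.ESJ.Jac.FiniteLevel

set_option autoImplicit false

namespace Fermat.Agent.S15P.StepInst40

open AlgebraicCurve ModularCurve Fermat.Agent.S15P.StepK40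

local notation "Qb" => AlgebraicClosure ℚ
local notation "GQ" => (AlgebraicClosure ℚ ≃ₐ[ℚ] AlgebraicClosure ℚ)

/-! ### The coordinate of a step: abstract part -/

section abs

variable {Γ : Type*} {J : Type*} [Group Γ] [AddCommGroup J] [DistribMulAction Γ J]

theorem exists_coord (r : ℕ) [NeZero r] (S : AddSubgroup J) (y : J) (hry : r • y ∈ S) (z : J)
    (hz : ∀ γ : Γ, ∃ j : ℤ, γ • z - z - j • y ∈ S) :
    ∃ a : Γ → ZMod r, ∀ γ : Γ, γ • z - z - (a γ).val • y ∈ S := by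
  have key : ∀ (jj q ρ : ℤ) (v : ℕ), jj = q * r + ρ → (v : ℤ) = ρ →
      jj • y - v • y = q • (r • y) := by
    intro jj q ρ v h1 h2
    rw [h1, ← natCast_zsmul y v, h2, add_zsmul, mul_smul, natCast_zsmul]
    abel
  choose j hj using hz
  refine ⟨fun γ => (j γ : ZMod r), fun γ => ?_⟩
  have h4 := key (j γ) (j γ / r) (j γ % r) ((j γ : ZMod r)).val
    (Int.ediv_mul_add_emod (j γ) r).symm (ZMod.val_intCast (j γ))
  have e : γ • z - z - ((j γ : ZMod r)).val • y =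
      (γ • z - z - j γ • y) + (j γ • y - ((j γ : ZMod r)).val • y) := by abel
  rw [e, h4]
  exact S.add_mem (hj γ) (S.zsmul_mem hry _)

theorem coord_eq_zero (r : ℕ) [Fact r.Prime] (S : AddSubgroup J) (y : J) (hyS : y ∉ S)
    (hry : r • y ∈ S) (b : ZMod r) (h : b.val • y ∈ S) : b = 0 := by
  by_contra hb
  exact hyS (mem_of_val_nsmul_mem r S y hry b hb h)

theorem coord_eq_zero_iff (r : ℕ) [Fact r.Prime] (S : AddSubgroup J) (y : J) (hyS : y ∉ S)
    (hry : r • y ∈ S) (z : J) (a : Γ → ZMod r)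
    (ha : ∀ γ : Γ, γ • z - z - (a γ).val • y ∈ S) (γ : Γ) : a γ = 0 ↔ γ • z - z ∈ S := by
  constructor
  · intro h
    have h1 := ha γ
    rwa [h, ZMod.val_zero, zero_nsmul, sub_zero] at h1
  · intro h
    refine coord_eq_zero r S y hyS hry _ ?_
    have e : (a γ).val • y = (γ • z - z) - (γ • z - z - (a γ).val • y) := by abel
    rw [e]
    exact S.sub_mem h (ha γ)

/-- The coordinate is a cocycle for the character `χ` of the step. -/
theorem coord_cocycle (r : ℕ) [Fact r.Prime] (S : AddSubgroup J)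
    (hS : ∀ (γ : Γ) (x : J), x ∈ S → γ • x ∈ S) (y : J) (hyS : y ∉ S) (hry : r • y ∈ S)
    (χ : Γ → ZMod r) (hχ : ∀ γ : Γ, γ • y - (χ γ).val • y ∈ S) (z : J) (a : Γ → ZMod r)
    (ha : ∀ γ : Γ, γ • z - z - (a γ).val • y ∈ S) (g h : Γ) :
    a (g * h) = a g + χ g * a h := by
  have hr : r.Prime := Fact.out
  have : NeZero r := ⟨hr.ne_zero⟩
  refine sub_eq_zero.mp (coord_eq_zero r S y hyS hry _ ?_)
  generalize hx : a (g * h) - (a g + χ g * a h) = x
  have e1 : (a (g * h)).val • y - (x.val + ((a g).val + (χ g).val * (a h).val)) • y ∈ S :=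
    val_nsmul_sub_mem r S y hry _ _ (by
      push_cast
      rw [ZMod.natCast_zmod_val, ZMod.natCast_zmod_val, ZMod.natCast_zmod_val,
        ZMod.natCast_zmod_val, ← hx]
      ring)
  have e2 : (g * h) • z - z = g • (h • z - z) + (g • z - z) := by
    rw [mul_smul, smul_sub]
    abel
  have e3 : g • ((a h).val • y) = (a h).val • (g • y) :=
    map_nsmul (DistribSMul.toAddMonoidHom J g) _ y
  have e4 : x.val • y = -((g * h) • z - z - (a (g * h)).val • y)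
      + g • (h • z - z - (a h).val • y) + (g • z - z - (a g).val • y)
      + (a h).val • (g • y - (χ g).val • y)
      - ((a (g * h)).val • y - (x.val + ((a g).val + (χ g).val * (a h).val)) • y) := by
    have e5 : g • (h • z - z - (a h).val • y) = g • (h • z - z) - (a h).val • (g • y) := by
      rw [smul_sub, e3]
    have e6 : (a h).val • (g • y - (χ g).val • y) =
        (a h).val • (g • y) - ((χ g).val * (a h).val) • y := by
      rw [nsmul_sub, mul_nsmul]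
    rw [e5, e6, e2, add_nsmul, add_nsmul]
    abel
  rw [e4]
  exact S.sub_mem (S.add_mem (S.add_mem (S.add_mem (S.neg_mem (ha (g * h))) (hS g _ (ha h)))
    (ha g)) (S.nsmul_mem (hχ g) _)) e1

end abs

/-! ### The two odd steps on `J₀(p)` -/

section inst

variable (p r : ℕ) [NeZero p] [Fact r.Prime]

/-- **`Htriv` on `J₀(p)`.** -/
theorem step_triv (hp : p.Prime) (hr2 : r ≠ 2) (hrp : r ≠ p) (k : ℕ)
    (G : AddSubgroup (JZero p)) (hGk : ∀ g ∈ G, r ^ k • g = 0)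
    (A : ValuationSubring Qb) (hA : A.LiesOverPrime p) (σ : GQ)
    (hσ : σ ∈ A.inertiaSubgroupIn ℚ) (hσp : ∀ π : Qb, π ^ r = (p : Qb) → σ π ≠ π)
    (S : AddSubgroup (JZero p)) (hS : ∀ (γ : GQ) (x : JZero p), x ∈ S → γ • x ∈ S)
    (y : JZero p) (hyG : y ∈ G) (hyS : y ∉ S) (hry : r • y ∈ S)
    (hy : ∀ γ : GQ, γ • y - y ∈ S)
    (z : JZero p) (hzk : ∀ τ : GQ, τ • (r ^ k • z) = r ^ k • z)
    (hzy : ∀ γ : GQ, ∃ j : ℤ, γ • z - z - j • y ∈ S)
    (hσz : σ • z - z ∈ S) : ∀ γ : GQ, γ • z - z ∈ S := by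
  have hr : r.Prime := Fact.out
  have : NeZero r := ⟨hr.ne_zero⟩
  have : Fact (1 < r) := ⟨hr.one_lt⟩
  have hyk : r ^ k • y = 0 := hGk y hyG
  have hrN : ¬ r ∣ p := fun h => hrp ((Nat.prime_dvd_prime_iff_eq hr hp).mp h)
  obtain ⟨a, ha⟩ := exists_coord (Γ := GQ) r S y hry z hzy
  have hχ1 : ∀ γ : GQ, γ • y - ((1 : ZMod r)).val • y ∈ S := by
    intro γ
    rw [ZMod.val_one, one_nsmul]
    exact hy γ
  have hiff := coord_eq_zero_iff (Γ := GQ) r S y hyS hry z a ha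
  have hadd : ∀ g h : GQ, a (g * h) = a g + a h := by
    intro g h
    have h1 := coord_cocycle r S hS y hyS hry (fun _ => 1) hχ1 z a ha g h
    rwa [one_mul] at h1
  obtain ⟨L, hL, hLfix⟩ :=
    Fermat.Agent.ESJ.Jac.FiniteLevel.exists_finiteLevel_of_finite p {z} (Set.finite_singleton z)
  have := hL
  have hF : ∀ g s : GQ, s ∈ L.fixingSubgroup → a (g * s) = a g := by
    intro g s hs
    have hsz : s • z = z :=
      hLfix s (fun x hx => (IntermediateField.mem_fixingSubgroup_iff L s).mp hs x hx) z rfl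
    rw [hadd, (hiff s).mpr (by rw [hsz, sub_self]; exact S.zero_mem), add_zero]
  have hunr : ∀ ℓ : ℕ, ℓ.Prime → ℓ ≠ p → ∀ B : ValuationSubring Qb, B.LiesOverPrime ℓ →
      ∀ τ ∈ B.inertiaSubgroupIn ℚ, a τ = 0 := by
    intro ℓ hℓ hℓp B hB τ hτ
    by_cases hℓr : ℓ = r
    · have hB' : B.LiesOverPrime r := hℓr ▸ hB
      exact step_triv_unr r hr2 hrN k z hzk S hS y hyk hyS hry hy a ha B hB' τ hτ
    · have hℓN : ¬ ℓ ∣ p := fun h => hℓp ((Nat.prime_dvd_prime_iff_eq hℓ hp).mp h)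
      have hℓr' : ¬ ℓ ∣ r ^ k := fun h =>
        hℓr ((Nat.prime_dvd_prime_iff_eq hℓ hr).mp (hℓ.dvd_of_dvd_pow h))
      have h1 := Fermat.Agent.S15P.GoodDiv85.inertia_smul_eq_div p ℓ hℓ hℓN B hB (r ^ k)
        (pow_ne_zero k hr.ne_zero) hℓr' τ hτ z (hzk τ)
      exact (hiff τ).mpr (by rw [h1, sub_self]; exact S.zero_mem)
  have h0 := Fermat.Agent.S15P.Char96.char_eq_zero_of_sigma hp hrp a hadd L hF hunr A hA σ hσ hσp
    ((hiff σ).mpr hσz)
  exact fun γ => (hiff γ).mp (h0 γ)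

/-- **`Hmu` on `J₀(p)`.** -/
theorem step_mu (hp : p.Prime) (hr2 : r ≠ 2) (hrp : r ≠ p) (k : ℕ)
    (G : AddSubgroup (JZero p)) (hGk : ∀ g ∈ G, r ^ k • g = 0)
    (Bd : Finset ℕ) (n : ℕ) (hEis : Fermat.Agent.S15P.JH.IsEisPiece p r n Bd G)
    (P : ValuationSubring Qb) (hP : P.LiesOverPrime r)
    (A : ValuationSubring Qb) (hA : A.LiesOverPrime p) (σ : GQ)
    (hσ : σ ∈ A.inertiaSubgroupIn ℚ) (hσp : ∀ π : Qb, π ^ r = (p : Qb) → σ π ≠ π)
    (S : AddSubgroup (JZero p)) (hSG : S ≤ G)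
    (hS : ∀ (γ : GQ) (x : JZero p), x ∈ S → γ • x ∈ S)
    (y : JZero p) (hyG : y ∈ G) (hyS : y ∉ S) (hry : r • y ∈ S)
    (hy : ∀ γ : GQ, ∃ m : ℤ, γ • y - m • y ∈ S)
    (z : JZero p) (hzk : ∀ τ : GQ, τ • (r ^ k • z) = r ^ k • z)
    (hzy : ∀ γ : GQ, ∃ j : ℤ, γ • z - z - j • y ∈ S)
    (hσz : σ • z - z ∈ S) : ∃ j : ℤ, ∀ γ : GQ, γ • z - z - j • (γ • y - y) ∈ S := by
  have hr : r.Prime := Fact.out
  have : NeZero r := ⟨hr.ne_zero⟩
  rcases Fermat.Agent.S15P.JHLineChar87.lineChar p r hr Bd G n hEis S hSG hS y hyG hry hy with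
    hfix | hcyc
  · refine ⟨0, fun γ => ?_⟩
    rw [zero_zsmul, sub_zero]
    exact step_triv p r hp hr2 hrp k G hGk A hA σ hσ hσp S hS y hyG hyS hry hfix z hzk hzy hσz γ
  have hyk : r ^ k • y = 0 := hGk y hyG
  have hrN : ¬ r ∣ p := fun h => hrp ((Nat.prime_dvd_prime_iff_eq hr hp).mp h)
  obtain ⟨ζ, hζ⟩ := HasEnoughRootsOfUnity.exists_primitiveRoot Qb r
  have hζ1 : ζ ≠ 1 := hζ.ne_one hr.one_lt
  have hex : ∀ g : GQ, ∃ i : ℕ, g ζ = ζ ^ i := by
    intro g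
    have h1 : (g ζ) ^ r = 1 := by rw [← map_pow, hζ.pow_eq_one, map_one]
    obtain ⟨i, -, hi⟩ := hζ.eq_pow_of_pow_eq_one h1
    exact ⟨i, hi.symm⟩
  choose mN hmN using hex
  have hm : ∀ g : GQ, g ζ = ζ ^ ((mN g : ℤ)) := fun g => by rw [hmN g, zpow_natCast]
  have hχ : ∀ γ : GQ, γ • y - ((((mN γ : ℤ)) : ZMod r)).val • y ∈ S := by
    intro γ
    refine hcyc γ ζ _ hζ.pow_eq_one hζ1 ?_
    have h1 : ((((mN γ : ℤ)) : ZMod r)).val = mN γ % r := by
      rw [Int.cast_natCast, ZMod.val_natCast]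
    rw [h1, hmN γ]
    conv_lhs => rw [← Nat.div_add_mod (mN γ) r, pow_add, pow_mul, hζ.pow_eq_one, one_pow, one_mul]
  obtain ⟨a, ha⟩ := exists_coord (Γ := GQ) r S y hry z hzy
  have hiff := coord_eq_zero_iff (Γ := GQ) r S y hyS hry z a ha
  have hcoc : ∀ g h : GQ, a (g * h) = a g + (((mN g : ℤ)) : ZMod r) * a h := fun g h =>
    coord_cocycle r S hS y hyS hry (fun γ => (((mN γ : ℤ)) : ZMod r)) hχ z a ha g h
  obtain ⟨L, hL, hLfix⟩ :=
    Fermat.Agent.ESJ.Jac.FiniteLevel.exists_finiteLevel_of_finite p {z} (Set.finite_singleton z)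
  have := hL
  have hF : ∀ g s : GQ, s ∈ L.fixingSubgroup → a (g * s) = a g := by
    intro g s hs
    have hsz : s • z = z :=
      hLfix s (fun x hx => (IntermediateField.mem_fixingSubgroup_iff L s).mp hs x hx) z rfl
    rw [hcoc, (hiff s).mpr (by rw [hsz, sub_self]; exact S.zero_mem), mul_zero, add_zero]
  have hunr : ∀ ℓ : ℕ, ℓ.Prime → ℓ ≠ p → ℓ ≠ r → ∀ B : ValuationSubring Qb,
      B.LiesOverPrime ℓ → ∀ τ ∈ B.inertiaSubgroupIn ℚ, a τ = 0 := by
    intro ℓ hℓ hℓp hℓr B hB τ hτ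
    have hℓN : ¬ ℓ ∣ p := fun h => hℓp ((Nat.prime_dvd_prime_iff_eq hℓ hp).mp h)
    have hℓr' : ¬ ℓ ∣ r ^ k := fun h =>
      hℓr ((Nat.prime_dvd_prime_iff_eq hℓ hr).mp (hℓ.dvd_of_dvd_pow h))
    have h1 := Fermat.Agent.S15P.GoodDiv85.inertia_smul_eq_div p ℓ hℓ hℓN B hB (r ^ k)
      (pow_ne_zero k hr.ne_zero) hℓr' τ hτ z (hzk τ)
    exact (hiff τ).mpr (by rw [h1, sub_self]; exact S.zero_mem)
  obtain ⟨c, hc⟩ := Fermat.Agent.S15P.Char96.cocycle_eq_coboundary_of_sigma_val hp hr2 hrp hζ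
    (fun g => (mN g : ℤ)) hm a hcoc L hF hunr P hP
    (fun θ hθ0 hθ => step_mu_unit r hr2 hrN k z hzk S hS y hyk hyS hry hζ (fun g => (mN g : ℤ))
      hm hχ a ha P hP θ hθ0 hθ) A hA σ hσ hσp ((hiff σ).mpr hσz)
  refine ⟨(c.val : ℤ), fun γ => ?_⟩
  rw [natCast_zsmul]
  have h1 : (a γ + c).val • y - ((a γ).val + c.val) • y ∈ S :=
    val_nsmul_sub_mem r S y hry _ _ (by
      push_cast
      rw [ZMod.natCast_zmod_val, ZMod.natCast_zmod_val])
  have h2 : (a γ + c).val • y - (c.val * ((((mN γ : ℤ)) : ZMod r)).val) • y ∈ S :=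
    val_nsmul_sub_mem r S y hry _ _ (by
      rw [Nat.cast_mul, ZMod.natCast_zmod_val, ZMod.natCast_zmod_val, hc γ]
      ring)
  have e2 : γ • z - z - c.val • (γ • y - y) =
      (γ • z - z - (a γ).val • y) - c.val • (γ • y - ((((mN γ : ℤ)) : ZMod r)).val • y)
      + (((a γ + c).val • y - (c.val * ((((mN γ : ℤ)) : ZMod r)).val) • y)
        - ((a γ + c).val • y - ((a γ).val + c.val) • y)) := by
    rw [nsmul_sub, nsmul_sub, add_nsmul, mul_nsmul']
    abel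
  rw [e2]
  exact S.add_mem (S.sub_mem (ha γ) (S.nsmul_mem (hχ γ) _)) (S.sub_mem h2 h1)

end inst

end Fermat.Agent.S15P.StepInst40
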