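import Mathlib
import Fermat.Prelude.Def_GaloisRep_ComplexConjugation
import Fermat.Agent.ESJ.Jac.Main
import Fermat.Agent.ESJ.Jac.FiniteLevel
import Fermat.Agent.S15P.StepChar96
import Fermat.Agent.S15P.GoodDiv85
import Fermat.Agent.S15P.InterfacesJH
import Fermat.Agent.S15P.JHLineChar87
import Fermat.Agent.S15P.JHFlagTwo13
import Fermat.Agent.S15P.JHFlagOddInst73
import Fermat.Agent.S15P.MainCount40

/-!
# S15 / (HLEV): L5 on an Eisenstein piece `X ⊆ J₀(p)[r^n]`, modulo the local input at `r`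

`fixed_of_eisPiece_two`, `fixed_of_eisPiece_odd` : a point of an Eisenstein piece `X`
(`JH.IsEisPiece p r n B X`, any level `n`) fixed by `σ` (an inertia element at `p` moving
`√p` resp. `p^(1/r)`) and by complex conjugation is fixed by `G_ℚ` — as soon as the local step
inputs at the descent prime `r` (`hloc`, in the shapes of `StepChar96.*_of_local` with
`G := X`, `Z := X`) are given.  This is `MainCount40.fixed_of_two / fixed_of_odd` with
`G := Z := X`, fed with the flag (`JHFlagTwo13` / `JHFlagOddInst73`), the step adapters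
(`StepChar96`), `JH.LineChar` (`JHLineChar87`), L2 at level `r^n` (`GoodDiv85`) and finite level.

Also: `hlev_jZero`, `hunr_lev` — the hypotheses `hlev`, `hunr` of `StepChar96.*_of_local` at
`J := J₀(p)` for division points of ANY level `k` (`r^k • z` Galois-fixed).
-/

set_option autoImplicit false
set_option linter.unusedSectionVars false
set_option linter.unusedVariables false

namespace Fermat.Agent.S15P.FixedLev55

open ModularCurve AlgebraicCurve

local notation "Qb" => AlgebraicClosure ℚ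
local notation "GQ" => (AlgebraicClosure ℚ ≃ₐ[ℚ] AlgebraicClosure ℚ)

/-- Finite level of the points of `J₀(p)(ℚ̄)` (hypothesis `hlev` of `StepChar96`). -/
theorem hlev_jZero (p : ℕ) [NeZero p] (Z : AddSubgroup (JZero p)) :
    ∀ z ∈ Z, ∃ L : IntermediateField ℚ Qb, FiniteDimensional ℚ L ∧
      ∀ s : GQ, (∀ x ∈ L, s x = x) → s • z = z := by
  intro z _
  obtain ⟨F, hFfd, hF⟩ := Fermat.Agent.ESJ.Jac.FiniteLevel.exists_finiteLevel_of_finite (N := p)
    {z} (Set.finite_singleton z)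
  exact ⟨F, hFfd, fun s hs => hF s hs z rfl⟩

/-- L2 at level `r^k`: division points of level `r^k` of Galois-fixed points are unramified
outside `p r` (hypothesis `hunr` of `StepChar96`). -/
theorem hunr_lev (p : ℕ) [NeZero p] (hp : p.Prime) (r : ℕ) (hr : r.Prime) (k : ℕ)
    (Z : AddSubgroup (JZero p)) (hZ : ∀ z ∈ Z, ∀ g : GQ, g • (r ^ k • z) = r ^ k • z) :
    ∀ z ∈ Z, ∀ ℓ : ℕ, ℓ.Prime → ℓ ≠ p → ℓ ≠ r → ∀ B : ValuationSubring Qb,
      B.LiesOverPrime ℓ → ∀ τ ∈ B.inertiaSubgroupIn ℚ, τ • z = z := by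
  intro z hz ℓ hℓ hℓp hℓr B hB τ hτ
  exact Fermat.Agent.S15P.GoodDiv85.inertia_smul_eq_of_rational p ℓ hℓ
    (fun h => hℓp ((Nat.prime_dvd_prime_iff_eq hℓ hp).mp h)) B hB (r ^ k)
    (pow_ne_zero k hr.ne_zero)
    (fun h => hℓr ((Nat.prime_dvd_prime_iff_eq hℓ hr).mp (hℓ.dvd_of_dvd_pow h))) z (hZ z hz) τ hτ

/-- An Eisenstein piece is finite. -/
theorem finite_eisPiece (p r n : ℕ) [NeZero p] (hr : r.Prime) (B : Finset ℕ)
    (X : AddSubgroup (JZero p)) (hX : Fermat.Agent.S15P.JH.IsEisPiece p r n B X) : Finite X := by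
  have hpos : 0 < r ^ n := pow_pos hr.pos n
  have hfin : (X : Set (JZero p)).Finite :=
    (Fermat.Agent.ESJ.torsionFinite p (r ^ n) hpos).subset fun x hx => by
      show x ∈ Pic0.torsion Qb (modularFunctionFieldBar p) (r ^ n)
      rw [Pic0.mem_torsion, natCast_zsmul]
      exact hX.1 x hx
  exact hfin.to_subtype

/-- Points of an Eisenstein piece of level `n` are division points of level `r^n` of `0`. -/
theorem hZ_eisPiece (p r n : ℕ) [NeZero p] (B : Finset ℕ) (X : AddSubgroup (JZero p))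
    (hX : Fermat.Agent.S15P.JH.IsEisPiece p r n B X) :
    ∀ z ∈ X, ∀ g : GQ, g • (r ^ n • z) = r ^ n • z := by
  intro z hz g
  rw [hX.1 z hz]
  exact map_zero (DistribSMul.toAddMonoidHom (JZero p) g)

/-- **L5 on an Eisenstein piece, `r = 2`.** -/
theorem fixed_of_eisPiece_two (p : ℕ) [NeZero p] (hp : p.Prime) (hp2 : p ≠ 2) (B : Finset ℕ)
    (n : ℕ) (X : AddSubgroup (JZero p)) (hX : Fermat.Agent.S15P.JH.IsEisPiece p 2 n B X)
    (A : ValuationSubring Qb) (hA : A.LiesOverPrime p) (σ : GQ)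
    (hσ : σ ∈ A.inertiaSubgroupIn ℚ) (hσp : ∀ s : Qb, s ^ 2 = (p : Qb) → σ s = -s)
    (P : ValuationSubring Qb)
    (hloc : ∀ S : AddSubgroup (JZero p), S ≤ X →
      (∀ (γ : GQ) (x : JZero p), x ∈ S → γ • x ∈ S) → ∀ y ∈ X, y ∉ S → 2 • y ∈ S →
      (∀ γ : GQ, γ • y - y ∈ S) →
      ∀ z ∈ X, (∀ γ : GQ, γ • z - z ∈ S ∨ γ • z - z - y ∈ S) →
      ∀ θ : Qb, (∀ τ ∈ P.inertiaSubgroupIn ℚ, τ θ = θ ∨ τ θ = -θ) →
        (∀ τ ∈ P.inertiaSubgroupIn ℚ, (τ θ = θ ↔ τ • z - z ∈ S)) →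
        P.valuation θ ^ 2 ≠ P.valuation 2)
    {z : JZero p} (hz : z ∈ X) (hσz : σ • z = z) (hcz : complexConjugation • z = z) :
    ∀ γ : GQ, γ • z = z := by
  have : Finite X := finite_eisPiece p 2 n Nat.prime_two B X hX
  exact Fermat.Agent.S15P.MainCount40.fixed_of_two X X
    (fun z hz γ => X.sub_mem (hX.2.1 γ z hz) hz) σ complexConjugation
    (Fermat.Agent.S15P.JHFlagTwo13.flagTwo p B X n hX)
    (Fermat.Agent.S15P.StepChar96.H_of_local hp hp2 X X (hlev_jZero p X)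
      (fun z hz ℓ hℓ hℓ2 hℓp B' hB' τ hτ =>
        hunr_lev p hp 2 Nat.prime_two n X (hZ_eisPiece p 2 n B X hX) z hz ℓ hℓ hℓp hℓ2 B' hB' τ hτ)
      P hloc A hA σ hσ hσp)
    hz hσz hcz

/-- **L5 on an Eisenstein piece, `r` odd.** -/
theorem fixed_of_eisPiece_odd (p : ℕ) [NeZero p] (hp : p.Prime) (r : ℕ) [Fact r.Prime]
    (hr2 : r ≠ 2) (hrp : r ≠ p) (B : Finset ℕ) (n : ℕ) (X : AddSubgroup (JZero p))
    (hX : Fermat.Agent.S15P.JH.IsEisPiece p r n B X)
    (A : ValuationSubring Qb) (hA : A.LiesOverPrime p) (σ : GQ)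
    (hσ : σ ∈ A.inertiaSubgroupIn ℚ) (hσp : ∀ π : Qb, π ^ r = (p : Qb) → σ π ≠ π)
    {ζ : Qb} (hζ : IsPrimitiveRoot ζ r) (P : ValuationSubring Qb) (hP : P.LiesOverPrime r)
    (hlocZ : ∀ S : AddSubgroup (JZero p), S ≤ X →
      (∀ (γ : GQ) (x : JZero p), x ∈ S → γ • x ∈ S) → ∀ y ∈ X, y ∉ S → r • y ∈ S →
      (∀ γ : GQ, γ • y - y ∈ S) →
      ∀ z ∈ X, (∀ γ : GQ, ∃ j : ℤ, γ • z - z - j • y ∈ S) →
      ∀ τ ∈ P.inertiaSubgroupIn ℚ, τ • z - z ∈ S)
    (hlocMu : ∀ S : AddSubgroup (JZero p), S ≤ X →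
      (∀ (γ : GQ) (x : JZero p), x ∈ S → γ • x ∈ S) → ∀ y ∈ X, y ∉ S → r • y ∈ S →
      (∀ (γ : GQ) (i : ℕ), γ ζ = ζ ^ i → γ • y - i • y ∈ S) →
      ∀ z ∈ X, (∀ γ : GQ, ∃ j : ℤ, γ • z - z - j • y ∈ S) →
      ∀ θ : Qb, θ ≠ 0 → (∀ (g : GQ) (j : ℤ), g • z - z - j • y ∈ S → g θ = ζ ^ j * θ) →
        ∃ n : ℤ, P.valuation θ = P.valuation ((r : Qb) ^ n))
    {z : JZero p} (hz : z ∈ X) (hσz : σ • z = z) (hcz : complexConjugation • z = z) :
    ∀ γ : GQ, γ • z = z := by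
  have hr : r.Prime := Fact.out
  have : Finite X := finite_eisPiece p r n hr B X hX
  have hunr := hunr_lev p hp r hr n X (hZ_eisPiece p r n B X hX)
  exact Fermat.Agent.S15P.MainCount40.fixed_of_odd r (hr.eq_two_or_odd'.resolve_left hr2) X X
    (fun z hz γ => X.sub_mem (hX.2.1 γ z hz) hz) σ complexConjugation
    (Fermat.Agent.S15P.JHFlagOddInst73.flagOdd p r hr hr2 B X n hX)
    (Fermat.Agent.S15P.StepChar96.Htriv_of_local hp hrp X X (hlev_jZero p X) hunr P hP hlocZ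
      A hA σ hσ hσp)
    (Fermat.Agent.S15P.StepChar96.Hmu_of_local hp hr2 hrp X X complexConjugation
      (hlev_jZero p X) hunr
      (fun S hSX hS y hyX hry hsc =>
        Fermat.Agent.S15P.JHLineChar87.lineChar p r hr B X n hX S hSX hS y hyX hry hsc)
      hζ P hP hlocMu A hA σ hσ hσp)
    hz hσz hcz

end Fermat.Agent.S15P.FixedLev55
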