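/-
S15, (DESC) layer, row 588 (HLEV) — helper50 (twin): **the level hypothesis `Hlev` of the
`p`-side count (L7), and the `W`-half of `LocalCount`**, for a Hecke projector `E` of the
Eisenstein system over the primes `q ∤ 6 p ℓ r`.

* `hloc_two`, `hlocZ`, `hlocMu` : the local step inputs at the descent prime `r` on a subgroup
  `X` killed by `r ^ n` (`StepK40` at level `k = n`: a point of `X` is a division point of `0`),
  in the shapes of `FixedLev55.fixed_of_eisPiece_two / _odd`;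
* `fixed_genEig` : (L5 on `X_n`) a point of `X_n = genEig … (r ^ n)` fixed by `σ` (inertia at
  `p`, moving the `r`-th roots of `p`) and by complex conjugation is fixed by `G_ℚ`;
* `hlev` : the hypothesis `Hlev` of `PSide92.card_kum_sigma_le` / `PSideInst71.card_W_le` /
  `PSideInst92.card_kumRange_le`, VERBATIM, with `c := complexConjugation`,
  `E := E.toAddMonoidHom`, and `d` any number with `#E J[r] = r ^ (2 d)`;
* `exists_W` : the hypothesis `hW` of `HVInst68.localCount_two / localCount_odd`, VERBATIM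
  (`W = PSideInst92.kumRange`, `#W ≤ r ^ d`).

Inputs on main: `HeckeProj63` / `EisPiece63` (L0), `FixedLev55` (L5 on an Eisenstein piece),
`StepK40` (L3 at level `r ^ k`), `StepH96.exists_coord`, `Real/ConjFinal47` (L6),
`PSideInst92` (L7), `MW.Top.InstC.fg_fixedPoints` (S17).
-/
import Mathlib
import Fermat.Agent.S15P.FixedLev55
import Fermat.Agent.S15P.StepK40
import Fermat.Agent.S15P.StepH96
import Fermat.Agent.S15P.EisPiece63
import Fermat.Agent.S15P.Desc.EisFlag60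
import Fermat.Agent.S15P.Real.ConjFinal47
import Fermat.Agent.S15P.PSideInst92
import Fermat.Agent.MW.Top.InstC

set_option autoImplicit false

namespace Fermat.Agent.S15P.HLev50

open ModularCurve AlgebraicCurve Fermat.Agent.ESJ
open Fermat.Agent.S15P.HeckeProj63 Fermat.Agent.S15P.InterfacesDesc80
open Fermat.Agent.S15P.MainCount40

local notation "Qb" => AlgebraicClosure ℚ
local notation "GQ" => (AlgebraicClosure ℚ ≃ₐ[ℚ] AlgebraicClosure ℚ)

/-! ### The local step inputs at `r` on a subgroup killed by `r ^ n` -/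

/-- `r = 2`: the hypothesis `hloc` of `FixedLev55.fixed_of_eisPiece_two`. -/
theorem hloc_two (p : ℕ) [NeZero p] (h2p : ¬ 2 ∣ p) (n : ℕ) (X : AddSubgroup (JZero p))
    (hXn : ∀ x ∈ X, 2 ^ n • x = 0) (P : ValuationSubring Qb) (hP : P.LiesOverPrime 2) :
    ∀ S : AddSubgroup (JZero p), S ≤ X →
      (∀ (γ : GQ) (x : JZero p), x ∈ S → γ • x ∈ S) → ∀ y ∈ X, y ∉ S → 2 • y ∈ S →
      (∀ γ : GQ, γ • y - y ∈ S) →
      ∀ z ∈ X, (∀ γ : GQ, γ • z - z ∈ S ∨ γ • z - z - y ∈ S) →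
      ∀ θ : Qb, (∀ τ ∈ P.inertiaSubgroupIn ℚ, τ θ = θ ∨ τ θ = -θ) →
        (∀ τ ∈ P.inertiaSubgroupIn ℚ, (τ θ = θ ↔ τ • z - z ∈ S)) →
        P.valuation θ ^ 2 ≠ P.valuation 2 := by
  classical
  intro S _ hS y hyX hyS h2y hy z hzX hz θ hθσ hθ
  have hδ : ∀ γ : GQ, γ • z - z - ((if γ • z - z ∈ S then (0 : ZMod 2) else 1)).val • y ∈ S := by
    intro γ
    by_cases h : γ • z - z ∈ S
    · rw [if_pos h, ZMod.val_zero, zero_nsmul, sub_zero]
      exact h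
    · rw [if_neg h]
      have h1 : ((1 : ZMod 2)).val = 1 := rfl
      rw [h1, one_nsmul]
      exact (hz γ).resolve_left h
  refine Fermat.Agent.S15P.StepK40.step_two_h2 h2p n z
    (fun g => by rw [hXn z hzX]; exact smul_zero (A := JZero p) g) S hS y (hXn y hyX) hyS h2y hy
    (fun γ => if γ • z - z ∈ S then (0 : ZMod 2) else 1) hδ P hP θ hθσ (fun τ hτ => ?_)
  rw [hθ τ hτ]
  by_cases h : τ • z - z ∈ S
  · simp [h]
  · simp [h]

/-- `r` odd, trivial step: the hypothesis `hlocZ` of `FixedLev55.fixed_of_eisPiece_odd`. -/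
theorem hlocZ (p : ℕ) [NeZero p] (r : ℕ) [Fact r.Prime] (hr2 : r ≠ 2) (hrN : ¬ r ∣ p) (n : ℕ)
    (X : AddSubgroup (JZero p)) (hXn : ∀ x ∈ X, r ^ n • x = 0) (P : ValuationSubring Qb)
    (hP : P.LiesOverPrime r) :
    ∀ S : AddSubgroup (JZero p), S ≤ X →
      (∀ (γ : GQ) (x : JZero p), x ∈ S → γ • x ∈ S) → ∀ y ∈ X, y ∉ S → r • y ∈ S →
      (∀ γ : GQ, γ • y - y ∈ S) →
      ∀ z ∈ X, (∀ γ : GQ, ∃ j : ℤ, γ • z - z - j • y ∈ S) →
      ∀ τ ∈ P.inertiaSubgroupIn ℚ, τ • z - z ∈ S := by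
  intro S _ hS y hyX hyS hry hy z hzX hz τ hτ
  obtain ⟨a, ha, hkey⟩ := Fermat.Agent.S15P.StepH96.exists_coord S hS y hyS hry (fun _ => 1)
    (fun γ => by
      show γ • y - (1 : ℤ) • y ∈ S
      rw [one_zsmul]
      exact hy γ) z hz
  have h0 := Fermat.Agent.S15P.StepK40.step_triv_unr r hr2 hrN n z
    (fun g => by rw [hXn z hzX]; exact smul_zero (A := JZero p) g) S hS y (hXn y hyX) hyS hry hy
    a ha P hP τ hτ
  have h1 := (hkey τ 0).mpr (by rw [h0, Int.cast_zero])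
  rwa [zero_zsmul, sub_zero] at h1

/-- `r` odd, cyclotomic step: the hypothesis `hlocMu` of `FixedLev55.fixed_of_eisPiece_odd`. -/
theorem hlocMu (p : ℕ) [NeZero p] (r : ℕ) [Fact r.Prime] (hr2 : r ≠ 2) (hrN : ¬ r ∣ p) (n : ℕ)
    (X : AddSubgroup (JZero p)) (hXn : ∀ x ∈ X, r ^ n • x = 0) {ζ : Qb}
    (hζ : IsPrimitiveRoot ζ r) (P : ValuationSubring Qb) (hP : P.LiesOverPrime r) :
    ∀ S : AddSubgroup (JZero p), S ≤ X →
      (∀ (γ : GQ) (x : JZero p), x ∈ S → γ • x ∈ S) → ∀ y ∈ X, y ∉ S → r • y ∈ S →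
      (∀ (γ : GQ) (i : ℕ), γ ζ = ζ ^ i → γ • y - i • y ∈ S) →
      ∀ z ∈ X, (∀ γ : GQ, ∃ j : ℤ, γ • z - z - j • y ∈ S) →
      ∀ θ : Qb, θ ≠ 0 → (∀ (g : GQ) (j : ℤ), g • z - z - j • y ∈ S → g θ = ζ ^ j * θ) →
        ∃ n : ℤ, P.valuation θ = P.valuation ((r : Qb) ^ n) := by
  have hr : r.Prime := Fact.out
  have : NeZero r := ⟨hr.ne_zero⟩
  have hζr : ζ ^ r = 1 := hζ.pow_eq_one
  intro S _ hS y hyX hyS hry hycyc z hzX hz θ hθ0 hθ
  -- the cyclotomic exponent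
  have hex : ∀ g : GQ, ∃ i : ℕ, g ζ = ζ ^ i := by
    intro g
    obtain ⟨i, -, hi⟩ := hζ.eq_pow_of_pow_eq_one (ξ := g ζ) (by rw [← map_pow, hζr, map_one])
    exact ⟨i, hi.symm⟩
  choose i hi using hex
  obtain ⟨m, hmdef⟩ : ∃ m : GQ → ℤ, m = fun g => ((i g : ℕ) : ℤ) := ⟨_, rfl⟩
  have hm : ∀ g : GQ, g ζ = ζ ^ m g := fun g => by
    rw [hmdef, zpow_natCast]
    exact hi g
  have hmy : ∀ γ : GQ, γ • y - m γ • y ∈ S := fun γ => by
    rw [hmdef]
    show γ • y - ((i γ : ℕ) : ℤ) • y ∈ S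
    rw [natCast_zsmul]
    exact hycyc γ (i γ) (hi γ)
  obtain ⟨a, ha, hkey⟩ := Fermat.Agent.S15P.StepH96.exists_coord S hS y hyS hry m hmy z hz
  refine Fermat.Agent.S15P.StepK40.step_mu_unit r hr2 hrN n z
    (fun g => by rw [hXn z hzX]; exact smul_zero (A := JZero p) g) S hS y (hXn y hyX) hyS hry
    hζ m hm
    (fun γ => hycyc γ _ (by rw [Fermat.Agent.S15P.Char96.zeta_pow_val_intCast hζr, ← hm γ]))
    a ha P hP θ hθ0 (fun g => ?_)
  have h1 := hθ g ((a g).val : ℤ) (by rw [natCast_zsmul]; exact ha g)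
  rwa [zpow_natCast] at h1

/-! ### L5 on `X_n = genEig … (r ^ n)` -/

/-- **(L5 on `X_n`)**: a point of the generalised Eisenstein eigenspace of `J₀(p)[r ^ n]`
fixed by `σ` and by complex conjugation is rational. -/
theorem fixed_genEig (p : ℕ) [NeZero p] (hp : p.Prime) (hp2 : p ≠ 2) {ℓ : ℕ} (hℓ : ℓ.Prime)
    (r : ℕ) (hr : r.Prime) (hrp : r ≠ p) (n : ℕ)
    (A : ValuationSubring Qb) (hA : A.LiesOverPrime p) (σ : GQ) (hσ : σ ∈ A.inertiaSubgroupIn ℚ)
    (hσp : ∀ π : Qb, π ^ r = (p : Qb) → σ π ≠ π)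
    (hσ2 : r = 2 → ∀ s : Qb, s ^ 2 = (p : Qb) → σ s = -s)
    {z : JZero p}
    (hz : z ∈ genEig (heckeFam p (sixFam p ℓ r)) (eisSys (sixFam p ℓ r)) (r ^ n))
    (hσz : σ • z = z) (hcz : complexConjugation • z = z) : ∀ γ : GQ, γ • z = z := by
  have hX := isEisPiece_genEig_six p r n hr hℓ
  obtain ⟨P, hP⟩ := Fermat.Agent.Lib.FrobeniusExists.exists_liesOverPrime hr
  have hrN : ¬ r ∣ p := fun h => hrp ((Nat.prime_dvd_prime_iff_eq hr hp).mp h)
  by_cases hr2 : r = 2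
  · subst hr2
    exact Fermat.Agent.S15P.FixedLev55.fixed_of_eisPiece_two p hp hp2 _ n _ hX A hA σ hσ
      (hσ2 rfl) P (hloc_two p hrN n _ hX.1 P hP) hz hσz hcz
  · have : Fact r.Prime := ⟨hr⟩
    have : NeZero r := ⟨hr.ne_zero⟩
    obtain ⟨ζ, hζ⟩ := HasEnoughRootsOfUnity.exists_primitiveRoot Qb r
    exact Fermat.Agent.S15P.FixedLev55.fixed_of_eisPiece_odd p hp r hr2 hrp _ n _ hX A hA σ hσ
      hσp hζ P hP (hlocZ p r hr2 hrN n _ hX.1 P hP) (hlocMu p r hr2 hrN n _ hX.1 hζ P hP)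
      hz hσz hcz

/-! ### `Hlev` -/

/-- **(HLEV)** the level hypothesis of the `p`-side count (L7), verbatim
(`PSide92.card_kum_sigma_le`, `PSideInst71.card_W_le`, `PSideInst92.card_kumRange_le`), for a
Hecke projector `E` of level `r` of the Eisenstein system over the primes `q ∤ 6 p ℓ r`,
`c := complexConjugation`, and `d` with `#E J[r] = r ^ (2 d)`. -/
theorem hlev (p : ℕ) [NeZero p] (hp : p.Prime) (hp2 : p ≠ 2) {ℓ : ℕ} (hℓ : ℓ.Prime)
    (r : ℕ) (hr : r.Prime) (hrp : r ≠ p) (E : Module.End ℤ (JZero p))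
    (hE : IsHeckeProj (heckeFam p (sixFam p ℓ r)) (eisSys (sixFam p ℓ r)) r E)
    (A : ValuationSubring Qb) (hA : A.LiesOverPrime p) (σ : GQ) (hσ : σ ∈ A.inertiaSubgroupIn ℚ)
    (hσp : ∀ π : Qb, π ^ r = (p : Qb) → σ π ≠ π)
    (hσ2 : r = 2 → ∀ s : Qb, s ^ 2 = (p : Qb) → σ s = -s)
    (d : ℕ) (hd : Nat.card (eisG p r E) = r ^ (2 * d)) :
    ∀ n : ℕ, 0 < n → ∃ En : JZero p →+ JZero p,
      (∀ (γ : GQ) (x : JZero p), En (γ • x) = γ • En x) ∧
      (∀ x : JZero p, r • x = 0 → En x = E.toAddMonoidHom x) ∧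
      (∀ x : JZero p, r ^ n • x = 0 → σ • En x = En x → complexConjugation • En x = En x →
        ∀ g : GQ, g • En x = En x) ∧
      Nat.card {u : JZero p // ∃ x, r ^ n • x = 0 ∧ u = complexConjugation • En x - En x}
        ≤ r ^ (d * n) := by
  intro n hn
  have hP : ∀ q : Nat.Primes, sixFam p ℓ r q → ¬ (q : ℕ) ∣ p := fun q hq => sixFam_not_dvd q hq
  obtain ⟨En, hEn⟩ := exists_heckeProj p (sixFam p ℓ r) hP hr (eisSys (sixFam p ℓ r)) n
  have hEn1 : IsHeckeProj (heckeFam p (sixFam p ℓ r)) (eisSys (sixFam p ℓ r)) r En :=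
    Fermat.Agent.S15P.Desc.EisFlag60.isHeckeProj_of_pow hn.ne' hEn
  -- `En = E` on `J[r]`
  have hagree : ∀ x : JZero p, r • x = 0 → En x = E x := by
    intro x hx
    exact IsHeckeProj.unique
      (fun i i' x hx => heckeFam_comm p (sixFam p ℓ r) hP hr 1 i i' x (by rwa [pow_one]))
      hEn1 hE hx
  refine ⟨En.toAddMonoidHom, fun γ x => heckeProj_equivariant p (sixFam p ℓ r) hEn γ x,
    fun x hx => hagree x hx, fun x hx hσx hcx => ?_, ?_⟩
  · exact fixed_genEig p hp hp2 hℓ r hr hrp n A hA σ hσ hσp hσ2 (hEn.map_mem hx) hσx hcx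
  · -- L6 at level `n`
    have hmem : En ∈ Algebra.adjoin ℤ (heckeOperatorBar p '' {q | sixFam p ℓ r q}) := by
      rw [← Hk_heckeFam_eq]
      exact hEn.mem_Hk
    have hd' : Nat.card {g : JZero p // ∃ x : JZero p, r • x = 0 ∧ g = En x} = r ^ (2 * d) := by
      rw [← hd]
      refine Nat.card_congr (Equiv.subtypeEquivRight fun g => ?_)
      constructor
      · rintro ⟨x, hx, rfl⟩
        exact ⟨x, hx, hagree x hx⟩
      · rintro ⟨x, hx, rfl⟩
        exact ⟨x, hx, (hagree x hx).symm⟩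
    exact Fermat.Agent.S15P.Real.ConjFinal47.card_conj_sub_le_final p r hr n hn
      {q | sixFam p ℓ r q} (fun q hq => hP q hq) En hmem (fun x hx => hEn.idem hx) d hd'

/-! ### The `W`-half of `LocalCount` -/

/-- **(HW)** the hypothesis `hW` of `HVInst68.localCount_two / localCount_odd`, verbatim:
`W = {E (σ z − z) : r z rational}` contains `σ z − z` for every `z ∈ Zdiv`, and `#W ≤ r ^ d`. -/
theorem exists_W (p : ℕ) [NeZero p] (hp : p.Prime) (hp5 : 5 ≤ p) {ℓ : ℕ} (hℓ : ℓ.Prime)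
    (r : ℕ) (hr : r.Prime) (hrp : r ≠ p) (E : Module.End ℤ (JZero p))
    (hE : IsHeckeProj (heckeFam p (sixFam p ℓ r)) (eisSys (sixFam p ℓ r)) r E)
    (A : ValuationSubring Qb) (hA : A.LiesOverPrime p) (σ : GQ) (hσ : σ ∈ A.inertiaSubgroupIn ℚ)
    (hσp : ∀ π : Qb, π ^ r = (p : Qb) → σ π ≠ π)
    (hσ2 : r = 2 → ∀ s : Qb, s ^ 2 = (p : Qb) → σ s = -s) :
    ∀ d : ℕ, Nat.card (eisG p r E) = r ^ (2 * d) →
      ∃ W : AddSubgroup (JZero p), Finite W ∧
        (∀ z ∈ Zdiv GQ r (Mfix p) (eisG p r E), σ • z - z ∈ W) ∧ Nat.card W ≤ r ^ d := by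
  intro d hd
  have hp2 : p ≠ 2 := by omega
  refine ⟨Fermat.Agent.S15P.PSideInst92.kumRange p r E.toAddMonoidHom σ,
    Fermat.Agent.S15P.PSideInst92.finite_kumRange p r hr.pos _ σ, fun z hz => ?_, ?_⟩
  · refine Fermat.Agent.S15P.PSideInst92.sub_mem_kumRange p r (eisG p r E) (fun g hg => ?_) z
      (fun g => hz.1 g) (hz.2 σ)
    obtain ⟨x, hx, rfl⟩ := hg
    exact hE.idem hx
  · exact Fermat.Agent.S15P.PSideInst92.card_kumRange_le p r hp hp5 hr hrp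
      (Fermat.Agent.MW.Top.InstC.fg_fixedPoints p) A hA σ complexConjugation hσ
      E.toAddMonoidHom d (hlev p hp hp2 hℓ r hr hrp E hE A hA σ hσ hσp hσ2 d hd)

end Fermat.Agent.S15P.HLev50
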