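/-
S15, (DESC) layer, row 624 (File C) — helper50 (twin): **the concrete Eisenstein descent is a
closed theorem**: `descDataP : InterfacesDesc80b.DescDataP` and
`descOutP : Interfaces80b.DescOutP` (the third term of `TopSeam80c.s15_of_layersP3`).

For `(p, ℓ, r)`, `r ≠ p`: `E` := a Hecke projector of level `r ^ 2` of the Eisenstein system
over the primes `q ∤ 6 p ℓ r` (`HeckeProj63.exists_heckeProj`; it is a projector of level `r`,
and idempotent on `J[4]` when `r = 2`), `σ` := an inertia element at `p` moving the `r`-th roots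
of `p` (`StepH96.exists_sigma`), `c` := complex conjugation.

* `localCount` : `LocalCount p r E σ complexConjugation`   [`HVInst68` + `Real/ConjFinal47` (V)
                 and `HLev50.exists_W` (W)];
* `descDataP`  : `DescDataP`   [`Desc/DataP60.descDataP_of` + `StepH96.stepH_of_eisPiece` +
                 `localCount`];
* `descOutP`   : `DescOutP`    [`InterfacesDesc80b.descOutP_of_descDataP` + S17 + divisibility +
                 Hecke–Galois commutation, all on main].
-/
import Mathlib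
import Fermat.Agent.S15P.HLev50
import Fermat.Agent.S15P.HVInst68
import Fermat.Agent.S15P.Desc.DataP60

set_option autoImplicit false

namespace Fermat.Agent.S15P.DescP50

open ModularCurve AlgebraicCurve Fermat.Agent.ESJ
open Fermat.Agent.S15P.HeckeProj63 Fermat.Agent.S15P.InterfacesDesc80
open Fermat.Agent.S15P.MainCount40

local notation "Qb" => AlgebraicClosure ℚ
local notation "GQ" => (AlgebraicClosure ℚ ≃ₐ[ℚ] AlgebraicClosure ℚ)

/-- **(L6 + L7)** the fifth clause of `DescData(P)` for a Hecke projector `E` of level `r ^ 2`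
of the Eisenstein system over the primes `q ∤ 6 p ℓ r`. -/
theorem localCount (p : ℕ) [NeZero p] (hp : p.Prime) (hp5 : 5 ≤ p) {ℓ : ℕ} (hℓ : ℓ.Prime)
    (r : ℕ) (hr : r.Prime) (hrp : r ≠ p) (E : Module.End ℤ (JZero p))
    (hE2 : IsHeckeProj (heckeFam p (sixFam p ℓ r)) (eisSys (sixFam p ℓ r)) (r ^ 2) E)
    (A : ValuationSubring Qb) (hA : A.LiesOverPrime p) (σ : GQ) (hσ : σ ∈ A.inertiaSubgroupIn ℚ)
    (hσp : ∀ π : Qb, π ^ r = (p : Qb) → σ π ≠ π)
    (hσ2 : r = 2 → ∀ s : Qb, s ^ 2 = (p : Qb) → σ s = -s) :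
    LocalCount p r E σ complexConjugation := by
  have hP : ∀ q : Nat.Primes, sixFam p ℓ r q → ¬ (q : ℕ) ∣ p := fun q hq => sixFam_not_dvd q hq
  have hE1 : IsHeckeProj (heckeFam p (sixFam p ℓ r)) (eisSys (sixFam p ℓ r)) r E :=
    Fermat.Agent.S15P.Desc.EisFlag60.isHeckeProj_of_pow two_ne_zero hE2
  have hmem : E ∈ Algebra.adjoin ℤ (heckeOperatorBar p '' {q | sixFam p ℓ r q}) := by
    rw [← Hk_heckeFam_eq]
    exact hE2.mem_Hk
  have hW := Fermat.Agent.S15P.HLev50.exists_W p hp hp5 hℓ r hr hrp E hE1 A hA σ hσ hσp hσ2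
  by_cases hr2 : r = 2
  · subst hr2
    have hidem4 : ∀ x : JZero p, 4 • x = 0 → E (E x) = E x := by
      intro x hx
      refine hE2.idem ?_
      have h4 : (2 : ℕ) ^ 2 = 4 := by norm_num
      rw [h4]
      exact hx
    exact Fermat.Agent.S15P.HVInst68.localCount_two
      (Fermat.Agent.ESJ.Cong.heckeGaloisCommute p)
      (fun x => Fermat.Agent.MW.DivA.jZero_divisible p two_pos x)
      (Fermat.Agent.ESJ.torsionFinite p 4 (by norm_num))
      (fun S hS F hF hidem =>
        Fermat.Agent.S15P.Real.ConjFinal47.exists_card_eq_final p 2 Nat.prime_two S hS F hF hidem)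
      (fun S hS F hF hidem d hd =>
        Fermat.Agent.S15P.Real.ConjFinal47.card_conj_sub_two_le_final p S hS F hF hidem d hd)
      {q | sixFam p ℓ 2 q} (fun q hq => hP q hq) E hmem hidem4 σ hW
  · exact Fermat.Agent.S15P.HVInst68.localCount_odd r hr hr2
      (Fermat.Agent.ESJ.Cong.heckeGaloisCommute p)
      (Fermat.Agent.ESJ.torsionFinite p r hr.pos)
      (fun S hS F hF hidem =>
        Fermat.Agent.S15P.Real.ConjFinal47.exists_card_eq_final p r hr S hS F hF hidem)
      (fun S hS F hF hidem d hd =>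
        Fermat.Agent.S15P.Real.ConjFinal47.card_conj_sub_le_final p r hr 1 one_pos S hS F hF
          hidem d hd)
      {q | sixFam p ℓ r q} (fun q hq => hP q hq) E hmem (fun x hx => hE1.idem hx) σ hW

/-- **(DESC), concrete data — a closed theorem.** -/
theorem descDataP : Fermat.Agent.S15P.InterfacesDesc80b.DescDataP := by
  refine Fermat.Agent.S15P.Desc.DataP60.descDataP_of (fun p _ hp hp' ℓ hℓ _ _ r hr hrp => ?_)
  have hp5 : 5 ≤ p := by
    have h2 := hp.two_le
    by_contra hlt
    have hcases : p = 2 ∨ p = 3 ∨ p = 4 := by omega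
    rcases hcases with h | h | h
    · exact hp' (by rw [h]; decide)
    · exact hp' (by rw [h]; decide)
    · rw [h] at hp; exact absurd hp (by norm_num)
  have hp2 : p ≠ 2 := by omega
  have hP : ∀ q : Nat.Primes, sixFam p ℓ r q → ¬ (q : ℕ) ∣ p := fun q hq => sixFam_not_dvd q hq
  obtain ⟨E, hE2⟩ := exists_heckeProj p (sixFam p ℓ r) hP hr (eisSys (sixFam p ℓ r)) 2
  have hE1 : IsHeckeProj (heckeFam p (sixFam p ℓ r)) (eisSys (sixFam p ℓ r)) r E :=
    Fermat.Agent.S15P.Desc.EisFlag60.isHeckeProj_of_pow two_ne_zero hE2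
  obtain ⟨A, hA⟩ := Fermat.Agent.Lib.FrobeniusExists.exists_liesOverPrime hp
  obtain ⟨σ, hσ, hσp, hσ2⟩ := Fermat.Agent.S15P.StepH96.exists_sigma hp A hA r hr hrp
  refine ⟨E, σ, hE1, ?_, localCount p hp hp5 hℓ r hr hrp E hE2 A hA σ hσ hσp hσ2⟩
  exact Fermat.Agent.S15P.StepH96.stepH_of_eisPiece p hp hp2 r hr hrp E
    (fun _ => ⟨_, 1, Fermat.Agent.S15P.Desc.EisFlag60.isEisPiece_eisG hr hℓ hE1⟩)
    A hA σ hσ hσp hσ2

/-- **(DESC) — the top interface Prop `DescOutP`, a closed theorem.** -/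
theorem descOutP : Fermat.Agent.S15P.Interfaces80b.DescOutP :=
  Fermat.Agent.S15P.InterfacesDesc80b.descOutP_of_descDataP
    (fun p _ _ _ => Fermat.Agent.MW.Top.InstC.fg_fixedPoints p)
    (fun p _ _ hn x => Fermat.Agent.MW.DivA.jZero_divisible p hn x)
    (fun p _ => Fermat.Agent.ESJ.Cong.heckeGaloisCommute p)
    descDataP

end Fermat.Agent.S15P.DescP50
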