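import Mathlib
import Fermat.Agent.TR.Hecke.RedEqHC
import Fermat.Agent.ESJ.Red.R2Good

/-!
# S15, layer L10: the end-game

* `endgame_abs` : the abstract end-game (Mathlib only);
* `red_lift_eq_zero` : a Hecke word over primes `q ∤ M`, `q ≠ l` preserves the kernel of the
  reduction at a good pair `(M, l)` (main: `TR.Hecke.RedEq.reductionModL_heckeCFam`);
* `pull_lift` : a level pull-back commuting with the `T_q` commutes with Hecke words;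
* `endgame_jzero` : the end-game on `J₀(p)`: a rational `y` with `y ∈ K₂ ∩ K₃` (through the
  levels `3p`, `2p`) and `y + c₀ ∈ K_ℓ` cannot exist if a Hecke word `η` maps the rational points
  to torsion, fixes `c₁ = n₁ • c₀`, and `c₁ ∉ K_ℓ`.
-/

set_option autoImplicit false

namespace Fermat.Agent.S15P.EndGame15

open ModularCurve AlgebraicCurve

local notation "Qb" => AlgebraicClosure ℚ
local notation "GQ" => (AlgebraicClosure ℚ ≃ₐ[ℚ] AlgebraicClosure ℚ)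

/-- A point killed by two coprime numbers is zero. -/
theorem eq_zero_of_coprime_nsmul {J : Type*} [AddCommGroup J] {a b : ℕ} (hab : Nat.Coprime a b)
    {x : J} (ha : a • x = 0) (hb : b • x = 0) : x = 0 := by
  have h1 : (1 : ℤ) • x = 0 := by
    have h2 : (a : ℤ) * Nat.gcdA a b + (b : ℤ) * Nat.gcdB a b = 1 := by
      have := Nat.gcd_eq_gcd_ab a b
      rw [hab] at this
      exact_mod_cast this.symm
    rw [← h2, add_zsmul, mul_comm, mul_zsmul, natCast_zsmul, ha, smul_zero, zero_add, mul_comm,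
      mul_zsmul, natCast_zsmul, hb, smul_zero]
  rwa [one_zsmul] at h1

/-- **(L10) END-GAME, abstract form.**  `M` = rational points, `η` an additive endomorphism,
`K₂ K₃ Kℓ` the kernels of reduction at places over `2`, `3`, `ℓ`. -/
theorem endgame_abs {J : Type*} [AddCommGroup J] (M K₂ K₃ Kℓ : AddSubgroup J) (η : J →+ J)
    (h2 : ∀ z ∈ M, z ∈ K₂ → ∃ a : ℕ, 2 ^ a • η z = 0)
    (h3 : ∀ z ∈ M, z ∈ K₃ → ∃ a : ℕ, 3 ^ a • η z = 0)
    (hℓ : ∀ z ∈ M, z ∈ Kℓ → η z ∈ Kℓ)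
    (c₀ c₁ y : J) (hc₀ : c₀ ∈ M) (hy : y ∈ M) (n₁ : ℕ) (hc₁ : c₁ = n₁ • c₀) (hc₁K : c₁ ∉ Kℓ)
    (hηc₁ : η c₁ = c₁) (hy2 : y ∈ K₂) (hy3 : y ∈ K₃) (hyℓ : y + c₀ ∈ Kℓ) : False := by
  obtain ⟨a, ha⟩ := h2 y hy hy2
  obtain ⟨b, hb⟩ := h3 y hy hy3
  have hηy : η y = 0 :=
    eq_zero_of_coprime_nsmul (Nat.Coprime.pow a b (by norm_num : Nat.Coprime 2 3)) ha hb
  have hηc₀ : η (y + c₀) = η c₀ := by rw [map_add, hηy, zero_add]
  have h1 := hℓ (y + c₀) (M.add_mem hy hc₀) hyℓ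
  rw [hηc₀] at h1
  have hc₁' : c₁ = n₁ • η c₀ := by rw [← map_nsmul, ← hc₁, hηc₁]
  exact hc₁K (hc₁' ▸ Kℓ.nsmul_mem h1 n₁)

section Words

set_option synthInstance.maxHeartbeats 400000

variable {M : ℕ} [NeZero M]

/-- **(KS) for Hecke words**: at a good pair `(M, l)`, a Hecke word over primes `q ∤ M`, `q ≠ l`
preserves the kernel of the reduction. -/
theorem red_lift_eq_zero {l : ℕ} (hl : l.Prime) (hlM : ¬ l ∣ M)
    (hgood : 5 ≤ l ∨ (l = 3 ∧ 2 ∣ M) ∨ (l = 2 ∧ 3 ∣ M))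
    (A : ValuationSubring Qb) (hA : A.LiesOverPrime l)
    (S : Set Nat.Primes) (hS : ∀ q ∈ S, ¬ (q : ℕ) ∣ M ∧ (q : ℕ) ≠ l)
    (w : FreeAlgebra ℤ Nat.Primes) (hw : w ∈ Algebra.adjoin ℤ (FreeAlgebra.ι ℤ '' S)) :
    ∀ x : JZero M, reductionModL A M x = 0 →
      reductionModL A M (FreeAlgebra.lift ℤ (heckeOperatorBar M) w x) = 0 := by
  induction hw using Algebra.adjoin_induction with
  | mem w hw =>
    obtain ⟨q, hq, rfl⟩ := hw
    intro x hx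
    obtain ⟨hqM, hql⟩ := hS q hq
    have : NeZero (q : ℕ) := ⟨q.2.ne_zero⟩
    have : NeZero (M * (q : ℕ)) := ⟨Nat.mul_ne_zero (NeZero.ne M) q.2.ne_zero⟩
    have hlMq : ¬ l ∣ M * (q : ℕ) := fun h => by
      rcases (Nat.Prime.dvd_mul hl).mp h with h1 | h1
      · exact hlM h1
      · exact hql ((Nat.prime_dvd_prime_iff_eq hl q.2).mp h1).symm
    have hgood' : 5 ≤ l ∨ (l = 3 ∧ 2 ∣ M * (q : ℕ)) ∨ (l = 2 ∧ 3 ∣ M * (q : ℕ)) := by
      rcases hgood with h | ⟨h1, h2⟩ | ⟨h1, h2⟩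
      · exact Or.inl h
      · exact Or.inr (Or.inl ⟨h1, Dvd.dvd.mul_right h2 _⟩)
      · exact Or.inr (Or.inr ⟨h1, Dvd.dvd.mul_right h2 _⟩)
    have key := Fermat.Agent.TR.Hecke.RedEq.reductionModL_heckeCFam (A := A) (M := M) q hqM
      (Fermat.Agent.TR.Hecke.RedEq.natCast_mul_ne_zero hl hA hlM q.2 hql)
      (Fermat.Agent.ESJ.reductionInputsModL_good M l hl hlM hgood A hA)
      (Fermat.Agent.ESJ.reductionInputsModL_good (M * (q : ℕ)) l hl hlMq hgood' A hA) x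
    rw [FreeAlgebra.lift_ι_apply, key, hx, map_zero]
  | algebraMap n =>
    intro x hx
    rw [AlgHom.commutes, Module.algebraMap_end_apply, map_zsmul, hx, smul_zero]
  | add u v _ _ hu hv =>
    intro x hx
    rw [map_add, LinearMap.add_apply, map_add, hu x hx, hv x hx, add_zero]
  | mul u v _ _ hu hv =>
    intro x hx
    rw [map_mul, Module.End.mul_apply]
    exact hu _ (hv x hx)

set_option maxHeartbeats 1000000 in
/-- A level map commuting with the `T_q`, `q ∈ S`, commutes with the Hecke words over `S`. -/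
theorem pull_lift {M' : ℕ} [NeZero M'] (π : JZero M →+ JZero M') (S : Set Nat.Primes)
    (hπ : ∀ q ∈ S, ∀ x : JZero M, π (heckeOperatorBar M q x) = heckeOperatorBar M' q (π x))
    (w : FreeAlgebra ℤ Nat.Primes) (hw : w ∈ Algebra.adjoin ℤ (FreeAlgebra.ι ℤ '' S)) :
    ∀ x : JZero M, π (FreeAlgebra.lift ℤ (heckeOperatorBar M) w x) =
      FreeAlgebra.lift ℤ (heckeOperatorBar M') w (π x) := by
  induction hw using Algebra.adjoin_induction with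
  | mem w hw =>
    obtain ⟨q, hq, rfl⟩ := hw
    intro x
    rw [FreeAlgebra.lift_ι_apply, FreeAlgebra.lift_ι_apply, hπ q hq]
  | algebraMap n =>
    intro x
    have e1 : FreeAlgebra.lift ℤ (heckeOperatorBar M) (algebraMap ℤ _ n) x = n • x := by
      rw [AlgHom.commutes, Module.algebraMap_end_apply]
    have e2 : FreeAlgebra.lift ℤ (heckeOperatorBar M') (algebraMap ℤ _ n) (π x) = n • π x := by
      rw [AlgHom.commutes, Module.algebraMap_end_apply]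
    rw [e1, e2, AddMonoidHom.map_zsmul]
  | add u v _ _ hu hv =>
    intro x
    have e1 : FreeAlgebra.lift ℤ (heckeOperatorBar M) (u + v) x =
        FreeAlgebra.lift ℤ (heckeOperatorBar M) u x + FreeAlgebra.lift ℤ (heckeOperatorBar M) v x := by
      rw [map_add]
      rfl
    have e2 : FreeAlgebra.lift ℤ (heckeOperatorBar M') (u + v) (π x) =
        FreeAlgebra.lift ℤ (heckeOperatorBar M') u (π x) +
          FreeAlgebra.lift ℤ (heckeOperatorBar M') v (π x) := by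
      rw [map_add]
      rfl
    rw [e1, e2, ← hu, ← hv, AddMonoidHom.map_add]
  | mul u v _ _ hu hv =>
    intro x
    have e1 : FreeAlgebra.lift ℤ (heckeOperatorBar M) (u * v) x =
        FreeAlgebra.lift ℤ (heckeOperatorBar M) u (FreeAlgebra.lift ℤ (heckeOperatorBar M) v x) := by
      rw [map_mul]
      rfl
    have e2 : FreeAlgebra.lift ℤ (heckeOperatorBar M') (u * v) (π x) =
        FreeAlgebra.lift ℤ (heckeOperatorBar M') u
          (FreeAlgebra.lift ℤ (heckeOperatorBar M') v (π x)) := by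
      rw [map_mul]
      rfl
    rw [e1, e2, hu, hv]

end Words

section Concrete

set_option synthInstance.maxHeartbeats 400000

/-- A torsion point whose image under a level map with `l`-power kernel reduces to `0` at a good
pair `(M', l)` is `l`-power torsion. -/
theorem exists_pow_nsmul_eq_zero {M M' : ℕ} [NeZero M] [NeZero M'] {l : ℕ} (hl : l.Prime)
    (hlM' : ¬ l ∣ M') (hgood : 5 ≤ l ∨ (l = 3 ∧ 2 ∣ M') ∨ (l = 2 ∧ 3 ∣ M'))
    (A : ValuationSubring Qb) (hA : A.LiesOverPrime l)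
    (π : JZero M →+ JZero M') (b : ℕ) (hπK : ∀ x : JZero M, π x = 0 → l ^ b • x = 0)
    (t : JZero M) (n : ℕ) (hn : 0 < n) (hnt : n • t = 0)
    (hred : reductionModL A M' (π t) = 0) : ∃ a : ℕ, l ^ a • t = 0 := by
  obtain ⟨e, m, hm, rfl⟩ := Nat.exists_eq_pow_mul_and_not_dvd hn.ne' l hl.ne_one
  have hu : π (l ^ e • t) = 0 := by
    refine Fermat.Agent.ESJ.eq_zero_of_reductionModL_eq_zero M' hl hlM' A hA
      (Fermat.Agent.ESJ.reductionInputsModL_good M' l hl hlM' hgood A hA) m hm _ ?_ ?_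
    · rw [← AddMonoidHom.map_nsmul, ← mul_nsmul, hnt, map_zero]
    · rw [AddMonoidHom.map_nsmul, AddMonoidHom.map_nsmul, hred, nsmul_zero]
  refine ⟨e + b, ?_⟩
  have h1 := hπK _ hu
  rw [pow_add, mul_nsmul]
  exact h1

set_option maxHeartbeats 1000000 in
/-- **(L10) END-GAME on `J₀(p)`.**  `η` a Hecke word over a set `S` of primes `q ∤ 6 p ℓ` which
maps rational points to torsion and fixes `c₁ = n₁ • c₀`; `π₃`, `π₂` level maps to the levels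
`3p`, `2p` (as in `ESJ.LevelPullback`); `y` rational with `π₃ y`, `π₂ y` in the kernel of
reduction at `2`, `3` and `y + c₀` in the kernel of reduction at `ℓ ≥ 5`; then `c₁` is in the
kernel of reduction at `ℓ`. -/
theorem endgame_jzero {p : ℕ} [NeZero p] [NeZero (p * 3)] [NeZero (p * 2)] (hp : p.Prime)
    (hp2 : p ≠ 2) (hp3 : p ≠ 3) {ℓ : ℕ} (hℓ : ℓ.Prime) (hℓ5 : 5 ≤ ℓ) (hℓp : ℓ ≠ p)
    (S : Set Nat.Primes) (hS : ∀ q ∈ S, ¬ (q : ℕ) ∣ 6 * p * ℓ)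
    (w : FreeAlgebra ℤ Nat.Primes) (hw : w ∈ Algebra.adjoin ℤ (FreeAlgebra.ι ℤ '' S))
    (hηM : ∀ x : JZero p, (∀ σ : GQ, σ • x = x) →
      ∃ n : ℕ, 0 < n ∧ n • FreeAlgebra.lift ℤ (heckeOperatorBar p) w x = 0)
    (c₀ c₁ y : JZero p) (hy : ∀ σ : GQ, σ • y = y)
    (n₁ : ℕ) (hc₁ : c₁ = n₁ • c₀)
    (hηc₁ : FreeAlgebra.lift ℤ (heckeOperatorBar p) w c₁ = c₁)
    (π₃ : JZero p →+ JZero (p * 3))
    (hπ₃H : ∀ q : Nat.Primes, ¬ (q : ℕ) ∣ p * 3 → ∀ x : JZero p,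
      π₃ (heckeOperatorBar p q x) = heckeOperatorBar (p * 3) q (π₃ x))
    (hπ₃K : ∀ x : JZero p, π₃ x = 0 → 4 • x = 0)
    (π₂ : JZero p →+ JZero (p * 2))
    (hπ₂H : ∀ q : Nat.Primes, ¬ (q : ℕ) ∣ p * 2 → ∀ x : JZero p,
      π₂ (heckeOperatorBar p q x) = heckeOperatorBar (p * 2) q (π₂ x))
    (hπ₂K : ∀ x : JZero p, π₂ x = 0 → 3 • x = 0)
    (A₂ A₃ A : ValuationSubring Qb) (hA₂ : A₂.LiesOverPrime 2) (hA₃ : A₃.LiesOverPrime 3)
    (hA : A.LiesOverPrime ℓ)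
    (hy2 : reductionModL A₂ (p * 3) (π₃ y) = 0) (hy3 : reductionModL A₃ (p * 2) (π₂ y) = 0)
    (hyℓ : reductionModL A p (y + c₀) = 0) : reductionModL A p c₁ = 0 := by
  classical
  -- arithmetic of the primes
  have hℓp' : ¬ ℓ ∣ p := fun h => hℓp ((Nat.prime_dvd_prime_iff_eq hℓ hp).mp h)
  have h2p : ¬ 2 ∣ p := fun h => hp2 ((Nat.prime_dvd_prime_iff_eq Nat.prime_two hp).mp h).symm
  have h3p : ¬ 3 ∣ p := fun h => hp3 ((Nat.prime_dvd_prime_iff_eq Nat.prime_three hp).mp h).symm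
  have h2p3 : ¬ 2 ∣ p * 3 := fun h => by
    rcases (Nat.Prime.dvd_mul Nat.prime_two).mp h with h1 | h1
    · exact h2p h1
    · omega
  have h3p2 : ¬ 3 ∣ p * 2 := fun h => by
    rcases (Nat.Prime.dvd_mul Nat.prime_three).mp h with h1 | h1
    · exact h3p h1
    · omega
  have hg2 : 5 ≤ 2 ∨ (2 = 3 ∧ 2 ∣ p * 3) ∨ (2 = 2 ∧ 3 ∣ p * 3) :=
    Or.inr (Or.inr ⟨rfl, dvd_mul_left 3 p⟩)
  have hg3 : 5 ≤ 3 ∨ (3 = 3 ∧ 2 ∣ p * 2) ∨ (3 = 2 ∧ 3 ∣ p * 2) :=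
    Or.inr (Or.inl ⟨rfl, dvd_mul_left 2 p⟩)
  have hSℓ : ∀ q ∈ S, ¬ (q : ℕ) ∣ p ∧ (q : ℕ) ≠ ℓ := fun q hq =>
    ⟨fun h => hS q hq (Dvd.dvd.mul_right (Dvd.dvd.mul_left h 6) ℓ),
      fun h => hS q hq (h ▸ dvd_mul_left _ _)⟩
  have hS3 : ∀ q ∈ S, ¬ (q : ℕ) ∣ p * 3 ∧ (q : ℕ) ≠ 2 := fun q hq =>
    ⟨fun h => hS q hq (Dvd.dvd.mul_right (by
        have h6 : p * 3 ∣ 6 * p := ⟨2, by ring⟩
        exact h.trans h6) ℓ),
      fun h => hS q hq (Dvd.dvd.mul_right (Dvd.dvd.mul_right (by rw [h]; norm_num) p) ℓ)⟩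
  have hS2 : ∀ q ∈ S, ¬ (q : ℕ) ∣ p * 2 ∧ (q : ℕ) ≠ 3 := fun q hq =>
    ⟨fun h => hS q hq (Dvd.dvd.mul_right (by
        have h6 : p * 2 ∣ 6 * p := ⟨3, by ring⟩
        exact h.trans h6) ℓ),
      fun h => hS q hq (Dvd.dvd.mul_right (Dvd.dvd.mul_right (by rw [h]; norm_num) p) ℓ)⟩
  -- `η y = 0`
  obtain ⟨n, hn, hny⟩ := hηM y hy
  have hred2 : reductionModL A₂ (p * 3) (π₃ (FreeAlgebra.lift ℤ (heckeOperatorBar p) w y)) = 0 := by
    rw [pull_lift π₃ S (fun q hq x => hπ₃H q (hS3 q hq).1 x) w hw y]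
    exact red_lift_eq_zero Nat.prime_two h2p3 hg2 A₂ hA₂ S hS3 w hw _ hy2
  have hred3 : reductionModL A₃ (p * 2) (π₂ (FreeAlgebra.lift ℤ (heckeOperatorBar p) w y)) = 0 := by
    rw [pull_lift π₂ S (fun q hq x => hπ₂H q (hS2 q hq).1 x) w hw y]
    exact red_lift_eq_zero Nat.prime_three h3p2 hg3 A₃ hA₃ S hS2 w hw _ hy3
  obtain ⟨a, ha⟩ := exists_pow_nsmul_eq_zero Nat.prime_two h2p3 hg2 A₂ hA₂ π₃ 2
    (fun x hx => by simpa using hπ₃K x hx) _ n hn hny hred2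
  obtain ⟨b, hb⟩ := exists_pow_nsmul_eq_zero Nat.prime_three h3p2 hg3 A₃ hA₃ π₂ 1
    (fun x hx => by simpa using hπ₂K x hx) _ n hn hny hred3
  have hηy : FreeAlgebra.lift ℤ (heckeOperatorBar p) w y = 0 :=
    eq_zero_of_coprime_nsmul (Nat.Coprime.pow a b (by norm_num : Nat.Coprime 2 3)) ha hb
  -- at `ℓ`
  have h1 := red_lift_eq_zero hℓ hℓp' (Or.inl hℓ5) A hA S hSℓ w hw _ hyℓ
  rw [map_add, hηy, zero_add] at h1
  have hc₁' : c₁ = n₁ • FreeAlgebra.lift ℤ (heckeOperatorBar p) w c₀ := by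
    rw [← map_nsmul, ← hc₁, hηc₁]
  rw [hc₁', AddMonoidHom.map_nsmul, h1, nsmul_zero]

/-- Every element of the Hecke algebra generated by the `T_q`, `q ∈ S`, is a Hecke word over
`S`. -/
theorem exists_word_of_mem_adjoin {M : ℕ} [NeZero M] (S : Set Nat.Primes)
    (η : Module.End ℤ (JZero M)) (hη : η ∈ Algebra.adjoin ℤ (heckeOperatorBar M '' S)) :
    ∃ w ∈ Algebra.adjoin ℤ (FreeAlgebra.ι ℤ '' S),
      FreeAlgebra.lift ℤ (heckeOperatorBar M) w = η := by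
  have h : Algebra.adjoin ℤ (heckeOperatorBar M '' S) =
      (Algebra.adjoin ℤ (FreeAlgebra.ι ℤ '' S)).map (FreeAlgebra.lift ℤ (heckeOperatorBar M)) := by
    rw [AlgHom.map_adjoin, ← Set.image_comp]
    congr 1
    refine Set.image_congr' (fun q => ?_)
    simp
  rw [h] at hη
  obtain ⟨w, hw, rfl⟩ := hη
  exact ⟨w, hw, rfl⟩

/-- **(L10) END-GAME on `J₀(p)`, endomorphism form**: as `endgame_jzero`, with `η` an element
of the subalgebra of `End (J₀(p))` generated by the `T_q`, `q ∈ S`. -/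
theorem endgame_jzero_adjoin {p : ℕ} [NeZero p] [NeZero (p * 3)] [NeZero (p * 2)] (hp : p.Prime)
    (hp2 : p ≠ 2) (hp3 : p ≠ 3) {ℓ : ℕ} (hℓ : ℓ.Prime) (hℓ5 : 5 ≤ ℓ) (hℓp : ℓ ≠ p)
    (S : Set Nat.Primes) (hS : ∀ q ∈ S, ¬ (q : ℕ) ∣ 6 * p * ℓ)
    (η : Module.End ℤ (JZero p)) (hη : η ∈ Algebra.adjoin ℤ (heckeOperatorBar p '' S))
    (hηM : ∀ x : JZero p, (∀ σ : GQ, σ • x = x) → ∃ n : ℕ, 0 < n ∧ n • η x = 0)
    (c₀ c₁ y : JZero p) (hy : ∀ σ : GQ, σ • y = y)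
    (n₁ : ℕ) (hc₁ : c₁ = n₁ • c₀) (hηc₁ : η c₁ = c₁)
    (π₃ : JZero p →+ JZero (p * 3))
    (hπ₃H : ∀ q : Nat.Primes, ¬ (q : ℕ) ∣ p * 3 → ∀ x : JZero p,
      π₃ (heckeOperatorBar p q x) = heckeOperatorBar (p * 3) q (π₃ x))
    (hπ₃K : ∀ x : JZero p, π₃ x = 0 → 4 • x = 0)
    (π₂ : JZero p →+ JZero (p * 2))
    (hπ₂H : ∀ q : Nat.Primes, ¬ (q : ℕ) ∣ p * 2 → ∀ x : JZero p,
      π₂ (heckeOperatorBar p q x) = heckeOperatorBar (p * 2) q (π₂ x))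
    (hπ₂K : ∀ x : JZero p, π₂ x = 0 → 3 • x = 0)
    (A₂ A₃ A : ValuationSubring Qb) (hA₂ : A₂.LiesOverPrime 2) (hA₃ : A₃.LiesOverPrime 3)
    (hA : A.LiesOverPrime ℓ)
    (hy2 : reductionModL A₂ (p * 3) (π₃ y) = 0) (hy3 : reductionModL A₃ (p * 2) (π₂ y) = 0)
    (hyℓ : reductionModL A p (y + c₀) = 0) : reductionModL A p c₁ = 0 := by
  obtain ⟨w, hw, rfl⟩ := exists_word_of_mem_adjoin S η hη
  exact endgame_jzero hp hp2 hp3 hℓ hℓ5 hℓp S hS w hw hηM c₀ c₁ y hy n₁ hc₁ hηc₁ π₃ hπ₃H hπ₃K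
    π₂ hπ₂H hπ₂K A₂ A₃ A hA₂ hA₃ hA hy2 hy3 hyℓ

end Concrete

end Fermat.Agent.S15P.EndGame15
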