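import Mathlib
import Fermat.Prelude.Def_GaloisRep_ComplexConjugation
import Fermat.Agent.ESJ.Jac.Main
import Fermat.Agent.ESJ.RedK.GoodRed
import Fermat.Agent.ESJ.Cong.Comm
import Fermat.Agent.ESJ.Rep.CycloMod
import Fermat.Agent.Lib.Frob.Main

/-!
# S15 / L1 (the flag), concrete input: Frobenius elements on an Eisenstein piece of `J₀(N)[r^j]`

`X` is any subgroup of `J₀(N)` killed by `r ^ j` on which every `T_q - (1 + q)` (`q ∤ N r`) is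
locally nilpotent.

* `exists_frob_pow` : every `γ ∈ G_ℚ` acts on `X` as a power `σ ^ k` of a Frobenius element `σ`
  at a prime `ℓ ∤ N r` outside a given finite set, with `χ_r γ = χ_r σ ^ k`, `χ_r σ = ℓ`, and
  `((σ - 1)(σ - ℓ)) ^ m = 0` on `X` (Eichler–Shimura on torsion + the Eisenstein condition).
* `cycloMod_complexConjugation` : the mod `r` cyclotomic character of complex conjugation is `-1`.
-/

set_option autoImplicit false
set_option linter.unusedSectionVars false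
set_option linter.unusedVariables false

namespace Fermat.Agent.S15P.FlagFrob55

open ModularCurve AlgebraicCurve Fermat.Agent.ESJ

local notation "Qb" => AlgebraicClosure ℚ

/-- The Galois action as an additive endomorphism. -/
noncomputable abbrev toEnd (N : ℕ) (σ : GQ) : AddMonoid.End (JZero N) :=
  DistribMulAction.toAddMonoidEnd GQ (JZero N) σ

/-- `(σ - 1)(σ - q)` as an additive endomorphism of `J₀(N)`. -/
noncomputable def esQuadJ (N : ℕ) (σ : GQ) (q : ℕ) : AddMonoid.End (JZero N) :=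
  (toEnd N σ - 1) * (toEnd N σ - (q : AddMonoid.End (JZero N)))

theorem smul_nsmul_comm (N : ℕ) (σ : GQ) (n : ℕ) (x : JZero N) : σ • (n • x) = n • σ • x :=
  map_nsmul (DistribSMul.toAddMonoidHom (JZero N) σ) n x

theorem esQuadJ_apply (N : ℕ) (σ : GQ) (q : ℕ) (x : JZero N) :
    esQuadJ N σ q x = σ • σ • x - (1 + q) • σ • x + q • x := by
  have h1 : (toEnd N σ - (q : AddMonoid.End (JZero N))) x = σ • x - q • x := by
    show toEnd N σ x - (q : AddMonoid.End (JZero N)) x = _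
    rw [AddMonoid.End.natCast_apply]
    rfl
  have h2 : ∀ y : JZero N, (toEnd N σ - 1) y = σ • y - y := fun y => rfl
  show (toEnd N σ - 1) ((toEnd N σ - (q : AddMonoid.End (JZero N))) x) = _
  rw [h1, h2, smul_sub, smul_nsmul_comm, add_smul, one_smul]
  abel

variable (N : ℕ) [NeZero N]

/-- `T_q - (1 + q)` as an endomorphism of `J₀(N)`. -/
noncomputable def nuEnd (q : Nat.Primes) : Module.End ℤ (JZero N) :=
  heckeOperatorBar N q - (1 + (q : ℕ)) • (1 : Module.End ℤ (JZero N))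

theorem nuEnd_apply (q : Nat.Primes) (x : JZero N) :
    nuEnd N q x = heckeOperatorBar N q x - (1 + (q : ℕ)) • x := by
  simp [nuEnd, add_smul]

theorem nuEnd_smul (q : Nat.Primes) (σ : GQ) (x : JZero N) :
    nuEnd N q (σ • x) = σ • nuEnd N q x := by
  rw [nuEnd_apply, nuEnd_apply, Cong.heckeGaloisCommute N q σ x, smul_sub, smul_nsmul_comm]

theorem nuEnd_pow_smul (q : Nat.Primes) (σ : GQ) (m : ℕ) (x : JZero N) :
    (nuEnd N q ^ m) (σ • x) = σ • (nuEnd N q ^ m) x := by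
  induction m generalizing x with
  | zero => simp
  | succ m ih =>
    rw [pow_succ, Module.End.mul_apply, nuEnd_smul, ih, Module.End.mul_apply]

/-- Eichler–Shimura on `r`-power torsion: `(σ - 1)(σ - ℓ) = σ ∘ (T_ℓ - 1 - ℓ)` for a Frobenius
element `σ` at `ℓ ∤ N r`. -/
theorem esQuadJ_eq (r : ℕ) (ℓ : Nat.Primes) (hℓ : ¬ (ℓ : ℕ) ∣ N * r)
    (A : ValuationSubring Qb) (hA : A.LiesOverPrime ℓ) (σ : GQ) (hσ : A.IsFrobeniusAt σ ℓ)
    (x : JZero N) (hx : ∃ n : ℕ, r ^ n • x = 0) :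
    esQuadJ N σ ℓ x = σ • nuEnd N ℓ x := by
  have hES := (RedK.torsionESRelation N r (ℓ : ℕ) ℓ.2 hℓ A hA).2 σ hσ x hx
  have hcomm : heckeOperatorBar N ⟨(ℓ : ℕ), ℓ.2⟩ (σ • x) = σ • heckeOperatorBar N ℓ x :=
    Cong.heckeGaloisCommute N ⟨(ℓ : ℕ), ℓ.2⟩ σ x
  rw [hcomm] at hES
  rw [esQuadJ_apply, nuEnd_apply, smul_sub, smul_nsmul_comm]
  have h4 : σ • σ • x + (ℓ : ℕ) • x = σ • heckeOperatorBar N ℓ x := by
    rw [← sub_eq_zero, ← hES]
    abel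
  rw [← h4]
  abel

/-- Iterating: `((σ - 1)(σ - ℓ))^m = σ^m ∘ (T_ℓ - 1 - ℓ)^m` on `r`-power torsion. -/
theorem esQuadJ_pow_eq (r : ℕ) (ℓ : Nat.Primes) (hℓ : ¬ (ℓ : ℕ) ∣ N * r)
    (A : ValuationSubring Qb) (hA : A.LiesOverPrime ℓ) (σ : GQ) (hσ : A.IsFrobeniusAt σ ℓ)
    (m : ℕ) (x : JZero N) (hx : ∃ n : ℕ, r ^ n • x = 0) :
    (esQuadJ N σ ℓ ^ m) x = σ ^ m • (nuEnd N ℓ ^ m) x := by
  induction m generalizing x with
  | zero => simp
  | succ m ih =>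
    obtain ⟨n, hn⟩ := hx
    have htors : ∃ n : ℕ, r ^ n • (σ • nuEnd N ℓ x) = 0 := by
      refine ⟨n, ?_⟩
      rw [← smul_nsmul_comm, ← map_nsmul, hn, map_zero]
      exact map_zero (DistribSMul.toAddMonoidHom (JZero N) σ)
    have h1 : (esQuadJ N σ ℓ ^ (m + 1)) x = (esQuadJ N σ ℓ ^ m) (esQuadJ N σ ℓ x) := by
      rw [pow_succ]
      rfl
    rw [h1, esQuadJ_eq N r ℓ hℓ A hA σ hσ x ⟨n, hn⟩, ih _ htors, nuEnd_pow_smul, ← mul_smul,
      ← pow_succ, pow_succ (nuEnd N ℓ) m, Module.End.mul_apply]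

/-- **(F1)** Every `γ ∈ G_ℚ` acts on an Eisenstein piece `X ⊆ J₀(N)[r^j]` as a power of a Frobenius
element `σ` at a prime `ℓ ∤ N r` outside `S`, and `((σ - 1)(σ - ℓ))^m` kills `X`. -/
theorem exists_frob_pow (r : ℕ) [Fact r.Prime] (j : ℕ) (X : AddSubgroup (JZero N))
    (hXr : ∀ x ∈ X, r ^ j • x = 0)
    (hXE : ∀ q : Nat.Primes, ¬ (q : ℕ) ∣ N * r → ∀ x ∈ X, ∃ K : ℕ, (nuEnd N q ^ K) x = 0)
    (S : Set ℕ) (hS : S.Finite) (γ : GQ) :
    ∃ (ℓ : Nat.Primes) (σ : GQ) (k m : ℕ), (ℓ : ℕ) ∉ S ∧ ¬ (ℓ : ℕ) ∣ N * r ∧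
      (∀ x ∈ X, γ • x = σ ^ k • x) ∧ Rep.cycloMod r γ = Rep.cycloMod r σ ^ k ∧
      ((Rep.cycloMod r σ : (ZMod r)ˣ) : ZMod r) = ((ℓ : ℕ) : ZMod r) ∧
      ∀ x ∈ X, (esQuadJ N σ ℓ ^ m) x = 0 := by
  classical
  have hr : r.Prime := Fact.out
  have hrj : 0 < r ^ j := pow_pos hr.pos j
  have hNr : N * r ≠ 0 := mul_ne_zero (NeZero.ne N) hr.ne_zero
  obtain ⟨L₁, hL₁fd, hL₁⟩ := torsionFiniteLevel N (r ^ j) hrj
  obtain ⟨L₂, hL₂fd, hL₂⟩ := Rep.cycloMod_level r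
  have hbad : ({ℓ : ℕ | ℓ ∣ N * r} : Set ℕ).Finite :=
    (Set.finite_Iic (N * r)).subset fun ℓ hℓ => Nat.le_of_dvd (Nat.pos_of_ne_zero hNr) hℓ
  obtain ⟨ℓ, hℓ, hℓS, A, σ, k, -, hA, hσ, hγ, -⟩ :=
    Lib.Frob.exists_frobenius_generating_set (L₁ ⊔ L₂) (S ∪ {ℓ : ℕ | ℓ ∣ N * r})
      (hS.union hbad) γ
  have hℓS' : ℓ ∉ S := fun h => hℓS (Or.inl h)
  have hℓNr : ¬ ℓ ∣ N * r := fun h => hℓS (Or.inr h)
  -- `τ := (σ ^ k)⁻¹ * γ` fixes `L₁ ⊔ L₂`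
  have hτ : ∀ x ∈ L₁ ⊔ L₂, ((σ ^ k)⁻¹ * γ) x = x := by
    intro x hx
    rw [AlgEquiv.mul_apply, hγ x hx, AlgEquiv.aut_inv]
    exact (σ ^ k).symm_apply_apply x
  have hτ₁ : ∀ x ∈ L₁, ((σ ^ k)⁻¹ * γ) x = x := fun x hx => hτ x (le_sup_left (a := L₁) hx)
  have hτ₂ : ∀ x ∈ L₂, ((σ ^ k)⁻¹ * γ) x = x := fun x hx => hτ x (le_sup_right (b := L₂) hx)
  have hXtors : ∀ x ∈ X, x ∈ Pic0.torsion Qb (modularFunctionFieldBar N) (r ^ j) := by
    intro x hx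
    rw [Pic0.mem_torsion, natCast_zsmul]
    exact hXr x hx
  have hXfin : (X : Set (JZero N)).Finite :=
    (torsionFinite N (r ^ j) hrj).subset fun x hx => hXtors x hx
  -- the Eisenstein exponent, uniform on the finite group `X`
  choose! Kf hKf using hXE ⟨ℓ, hℓ⟩ hℓNr
  have hm : ∀ x ∈ X, (nuEnd N ⟨ℓ, hℓ⟩ ^ hXfin.toFinset.sup Kf) x = 0 := by
    intro x hx
    have hle : Kf x ≤ hXfin.toFinset.sup Kf :=
      Finset.le_sup (f := Kf) (hXfin.mem_toFinset.mpr hx)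
    obtain ⟨d, hd⟩ := Nat.exists_eq_add_of_le hle
    rw [hd, add_comm, pow_add, Module.End.mul_apply, hKf x hx, map_zero]
  refine ⟨⟨ℓ, hℓ⟩, σ, k, hXfin.toFinset.sup Kf, hℓS', hℓNr, ?_, ?_, ?_, ?_⟩
  · intro x hx
    have h1 := hL₁ _ hτ₁ x (hXtors x hx)
    rw [mul_smul, inv_smul_eq_iff] at h1
    exact h1
  · have h1 := hL₂ _ hτ₂
    rw [map_mul, map_inv, inv_mul_eq_one, map_pow] at h1
    exact h1.symm
  · exact Rep.cycloMod_frobenius r hℓ (fun h => hℓNr (Dvd.dvd.mul_left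
      ((Nat.prime_dvd_prime_iff_eq hℓ hr).mp h ▸ dvd_rfl) N)) A hA σ hσ
  · intro x hx
    rw [esQuadJ_pow_eq N r ⟨ℓ, hℓ⟩ hℓNr A hA σ hσ _ x ⟨j, hXr x hx⟩, hm x hx]
    exact map_zero (DistribSMul.toAddMonoidHom (JZero N) (σ ^ _))

end Fermat.Agent.S15P.FlagFrob55
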