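/-
S15 (M)/(G2), row G2-CUSP: the cusps of `X₀(M)` in characteristic `0`.

* `type_iff` : at the cusp place `placeCusp M g`, "type `∞` at `p`" (`ord j_p = p · ord j`) holds
  iff `p` divides the lower left entry of `g⁻¹`;
* `cusp_value_one` **(CU∞)** : at a cusp of type `∞` at `p` the function `j_p / j^p` takes the
  value `1`;
* `placeCusp_eq_of_gcd` : for squarefree `N` the cusp place `placeCusp N g` only depends on
  `gcd (c(g), N)`;
* `cusp_unique_of_types` **(C-pq)** : a cusp of `X₀(pq)` is determined by its types at `p` and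
  at `q`.

Literals of `S15P/M6/G2Stmt.lean` (helper6).  Inputs: `S15P/Cusp45/Val` (orders of `j(q^d)` at
the cusp places), main's `S24` (`HNFMod.trans_Jabd`, `CuspTop`, `PlaceDict.placeCusp_eq_iff`).
-/
import Mathlib
import Fermat.Agent.S15P.Cusp45.Val

set_option autoImplicit false

noncomputable section

namespace Fermat.Agent.S15P.G2Cusp65

open AlgebraicCurve ModularCurve Fermat.Agent.S24 UpperHalfPlane Fermat.Agent.S15P.Cusp45
open Filter Topology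
open scoped MatrixGroups Real

local notation "Qb" => AlgebraicClosure ℚ

/-! ### Types at the cusp places -/

theorem lowerAbs_S' : lowerAbs (ModularGroup.S : SL(2, ℤ)) = 1 := by
  simp [lowerAbs, Matrix.SpecialLinearGroup.coe_inv, ModularGroup.coe_S, Matrix.adjugate_fin_two]

/-- "Type `∞` at `p`" at a cusp place: `p` divides the lower left entry. -/
theorem type_iff {M p : ℕ} [NeZero M] (hp : p.Prime) (hpM : p ∣ M) (g : SL(2, ℤ)) :
    (PlaceDict.placeCusp M g).ord (jd M p hpM)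
        = p * (PlaceDict.placeCusp M g).ord (jd M 1 (one_dvd M)) ↔ p ∣ lowerAbs g := by
  have h1 := ord_placeCusp_mul M g 1 (one_dvd M)
  have h2 := ord_placeCusp_mul M g p hpM
  rw [Nat.gcd_one_left] at h1
  have hM : (M : ℤ) ≠ 0 := by exact_mod_cast NeZero.ne M
  have hm : (PlaceDict.mulCusp M g : ℤ) ≠ 0 := by
    exact_mod_cast (PlaceDict.mulCusp_pos M g).ne'
  have hp0 : (p : ℤ) ≠ 0 := by exact_mod_cast hp.ne_zero
  constructor
  · intro hT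
    rw [hT] at h2
    have key : ((Nat.gcd p (lowerAbs g) : ℕ) : ℤ) ^ 2 = (p : ℤ) ^ 2 := by
      apply mul_left_cancel₀ hM
      push_cast at h1 h2 ⊢
      linear_combination h2 - (p : ℤ) ^ 2 * h1
    have h3 : (Nat.gcd p (lowerAbs g)) ^ 2 = p ^ 2 := by exact_mod_cast key
    have h4 : Nat.gcd p (lowerAbs g) = p := Nat.pow_left_injective (by norm_num : 2 ≠ 0) h3
    rw [← h4]
    exact Nat.gcd_dvd_right _ _
  · intro hpc
    rw [Nat.gcd_eq_left hpc] at h2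
    have hne : (PlaceDict.mulCusp M g : ℤ) * (p : ℤ) ≠ 0 := mul_ne_zero hm hp0
    apply mul_left_cancel₀ hne
    push_cast at h1 h2 ⊢
    linear_combination h2 - (p : ℤ) ^ 2 * h1

/-! ### (CU∞) -/

/-- **(CU∞)** At a cusp of type `∞` at `p` the function `j_p / j^p` takes the value `1`. -/
theorem cusp_value_one {M p : ℕ} [NeZero M] (hp : p.Prime) (hpM : p ∣ M) (c : Place Qb (FN M))
    (hc : c.ord (jd M 1 (one_dvd M)) < 0)
    (hT : c.ord (jd M p hpM) = p * c.ord (jd M 1 (one_dvd M))) :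
    0 < c.ord (jd M p hpM / jd M 1 (one_dvd M) ^ p - 1) := by
  obtain ⟨g, rfl⟩ := exists_placeCusp_of_ord_neg M c 1 (one_dvd M) hc
  have hpc : p ∣ lowerAbs g := (type_iff hp hpM g).1 hT
  have hM : 0 < M := Nat.pos_of_ne_zero (NeZero.ne M)
  have hj1 : jd M 1 (one_dvd M) ≠ 0 := jd_ne_zero M 1 _
  -- the polynomials
  obtain ⟨P, hP⟩ : ∃ P : MvPolynomial (Dv M) KQ, P =
      MvPolynomial.X (⟨p, hpM⟩ : Dv M) - MvPolynomial.X (⟨1, one_dvd M⟩ : Dv M) ^ p := ⟨_, rfl⟩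
  obtain ⟨Q, hQ⟩ : ∃ Q : MvPolynomial (Dv M) KQ, Q =
      MvPolynomial.X (⟨1, one_dvd M⟩ : Dv M) ^ p := ⟨_, rfl⟩
  have hfmP : fm M P = jd M p hpM - jd M 1 (one_dvd M) ^ p := by
    rw [hP, map_sub, map_pow, CuspTop.fm_X, CuspTop.fm_X]
    rfl
  have hfmQ : fm M Q = jd M 1 (one_dvd M) ^ p := by
    rw [hQ, map_pow, CuspTop.fm_X]
    rfl
  have hQ0 : fm M Q ≠ 0 := by rw [hfmQ]; exact pow_ne_zero _ hj1
  -- `j_p ≠ j^p`: look at the cusp `0`
  have hne : jd M p hpM - jd M 1 (one_dvd M) ^ p ≠ 0 := by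
    intro h0
    have heq : jd M p hpM = jd M 1 (one_dvd M) ^ p := sub_eq_zero.mp h0
    have h1 := ord_placeCusp_mul M ModularGroup.S 1 (one_dvd M)
    have h2 := ord_placeCusp_mul M ModularGroup.S p hpM
    rw [lowerAbs_S', Nat.gcd_one_right] at h1 h2
    rw [heq, ← zpow_natCast, Place.ord_zpow] at h2
    have hM' : (M : ℤ) ≠ 0 := by exact_mod_cast NeZero.ne M
    have hp2 : (2 : ℤ) ≤ p := by exact_mod_cast hp.two_le
    have h3 : ((p : ℤ) ^ 2 - 1) * (M : ℤ) = 0 := by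
      push_cast at h1 h2
      linear_combination (p : ℤ) ^ 2 * h1 - h2
    rcases mul_eq_zero.mp h3 with h | h
    · nlinarith
    · exact hM' h
  have hPne : fm M P ≠ 0 := by rw [hfmP]; exact hne
  have hf : jd M p hpM / jd M 1 (one_dvd M) ^ p - 1 = fm M P / fm M Q := by
    rw [hfmP, hfmQ, sub_div, div_self (pow_ne_zero _ hj1)]
  have hf0 : jd M p hpM / jd M 1 (one_dvd M) ^ p - 1 ≠ 0 := by
    rw [hf]
    exact div_ne_zero hPne hQ0
  have hval := CuspTop.valCusp_eq M (⟨hQ0, hf⟩ : IsRep M _ P Q) hf0 g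
  have hmul := PlaceDict.valCusp_eq_mul_ord M g hf0
  -- the translates
  have htJ : ∀ z : ℍ, Jabd 1 0 1 (g⁻¹ • z) = Jabd 1 0 1 z := by
    intro z
    rw [CuspTop.Jabd_one, CuspTop.Jabd_one, CuspTop.Jfun_smul]
  have htJp : ∀ z : ℍ, Jabd p 0 1 (g⁻¹ • z) = Jabd p 0 1 z := by
    obtain ⟨a, b, e, hae, hbe, ha, he, hgcd, htr⟩ := HNFMod.trans_Jabd g p hp.pos
    rw [gcd_mul_entry, Nat.gcd_eq_left hpc] at hgcd
    subst hgcd
    have he1 : e = 1 := by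
      have h : a * e = a * 1 := by rw [hae, mul_one]
      exact Nat.eq_of_mul_eq_mul_left ha h
    subst he1
    have hb0 : b = 0 := by omega
    subst hb0
    intro z
    exact congrFun htr z
  have hevP : ev M P = Jabd p 0 1 - Jabd 1 0 1 ^ p := by
    rw [hP, map_sub, map_pow, CuspTop.ev_X, CuspTop.ev_X]
  have hevQ : ev M Q = Jabd 1 0 1 ^ p := by
    rw [hQ, map_pow, CuspTop.ev_X]
  have hD : trans g (ev M P) = fun z => Jabd p 0 1 z - Jabd 1 0 1 z ^ p := by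
    funext z
    show ev M P (g⁻¹ • z) = _
    rw [hevP]
    show Jabd p 0 1 (g⁻¹ • z) - Jabd 1 0 1 (g⁻¹ • z) ^ p = _
    rw [htJp z, htJ z]
  have hQt : trans g (ev M Q) = Jabd 1 0 1 ^ p := by
    funext z
    show ev M Q (g⁻¹ • z) = _
    rw [hevQ]
    show Jabd 1 0 1 (g⁻¹ • z) ^ p = Jabd 1 0 1 z ^ p
    rw [htJ z]
  -- the limits at `i∞`
  have hlim1 := CuspTop.tendsto_qParam_pow_mul_Jabd M 1 0 1 hM one_pos one_pos (one_dvd M)
  have hlimp := CuspTop.tendsto_qParam_pow_mul_Jabd M p 0 1 hM hp.pos one_pos (one_dvd M)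
  simp only [Nat.cast_zero, mul_zero, zero_div, neg_zero, Complex.exp_zero] at hlim1 hlimp
  have hlimD : Tendsto (fun z : ℍ => Function.Periodic.qParam (M : ℝ) z ^ (-(-((p * M : ℕ) : ℤ)))
      * (Jabd p 0 1 z - Jabd 1 0 1 z ^ p)) atImInfty (𝓝 0) := by
    have h2 := hlimp.sub (hlim1.pow p)
    rw [one_pow, sub_self] at h2
    refine h2.congr fun z => ?_
    rw [neg_neg, zpow_natCast, Nat.div_one, one_mul, mul_pow, ← pow_mul, mul_sub, mul_comm M p]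
  -- the order of the numerator
  obtain ⟨m, hm⟩ := CuspTop.exists_hasOrdInf_trans_ev M g P hPne
  rw [hD] at hm
  obtain ⟨c₀, hc₀, hlimm⟩ := id hm
  have hle : -((p * M : ℕ) : ℤ) ≤ m :=
    CuspTop.ordInf_unique_aux M hM _ m (-((p * M : ℕ) : ℤ)) c₀ 0 hc₀ hlimm hlimD
  have hne' : m ≠ -((p * M : ℕ) : ℤ) := by
    intro h
    rw [h] at hlimm
    exact hc₀ (tendsto_nhds_unique hlimm hlimD)
  have hlt : -((p * M : ℕ) : ℤ) < m := lt_of_le_of_ne hle (Ne.symm hne')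
  have hordP : ordInf M (trans g (ev M P)) = m := by
    rw [hD]
    exact hm.ordInf_eq hM
  have hordQ : ordInf M (trans g (ev M Q)) = -((p * M : ℕ) : ℤ) := by
    rw [hQt]
    have h1 : OrdInf.HasOrdInf M (Jabd 1 0 1) (-(M : ℤ)) := by
      have e : Jabd 1 0 1 = Jfun := funext CuspTop.Jabd_one
      rw [e]
      exact CuspTop.hasOrd_Jfun M hM
    rw [(h1.pow p).ordInf_eq hM]
    push_cast
    ring
  rw [hordP, hordQ] at hval
  have hpos : 0 < (PlaceDict.mulCusp M g : ℤ) *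
      (PlaceDict.placeCusp M g).ord (jd M p hpM / jd M 1 (one_dvd M) ^ p - 1) := by
    rw [← hmul, hval]
    omega
  have hmulpos : (0 : ℤ) < PlaceDict.mulCusp M g := by
    exact_mod_cast PlaceDict.mulCusp_pos M g
  exact (mul_pos_iff_of_pos_left hmulpos).mp hpos

/-! ### (C-pq) -/

/-- The standard representative with `(gd d)⁻¹ = [[1, 0], [d, 1]]`. -/
def gd (d : ℤ) : SL(2, ℤ) := ⟨!![1, 0; -d, 1], by simp [Matrix.det_fin_two]⟩

theorem entry_mul (g : SL(2, ℤ)) (k d : ℤ) :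
    (g⁻¹ * ModularGroup.T ^ (-k) * gd d : SL(2, ℤ)) 1 0 =
      (g⁻¹ : SL(2, ℤ)) 1 0 * (1 + d * k) - d * (g⁻¹ : SL(2, ℤ)) 1 1 := by
  rw [Matrix.SpecialLinearGroup.coe_mul, Matrix.SpecialLinearGroup.coe_mul,
    ModularGroup.coe_T_zpow]
  simp [gd, Matrix.mul_apply, Fin.sum_univ_two]
  ring

/-- If `d = gcd (c(g), N)` is prime to `N / d`, the cusp place of `g` is the standard one. -/
theorem placeCusp_eq_gd (N : ℕ) [NeZero N] (g : SL(2, ℤ))
    (hcop : IsCoprime ((Int.gcd ((g⁻¹ : SL(2, ℤ)) 1 0) N : ℕ) : ℤ)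
      ((N : ℤ) / ((Int.gcd ((g⁻¹ : SL(2, ℤ)) 1 0) N : ℕ) : ℤ))) :
    PlaceDict.placeCusp N g =
      PlaceDict.placeCusp N (gd ((Int.gcd ((g⁻¹ : SL(2, ℤ)) 1 0) N : ℕ) : ℤ)) := by
  obtain ⟨c, hc⟩ : ∃ c : ℤ, c = (g⁻¹ : SL(2, ℤ)) 1 0 := ⟨_, rfl⟩
  obtain ⟨δ, hδ⟩ : ∃ δ : ℤ, δ = (g⁻¹ : SL(2, ℤ)) 1 1 := ⟨_, rfl⟩
  rw [← hc] at hcop ⊢
  obtain ⟨d, hd⟩ : ∃ d : ℕ, d = Int.gcd c N := ⟨_, rfl⟩
  rw [← hd] at hcop ⊢
  have hdpos : 0 < d := by
    rw [hd]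
    exact Int.gcd_pos_of_ne_zero_right c (by exact_mod_cast NeZero.ne N)
  have hd0 : (d : ℤ) ≠ 0 := by exact_mod_cast hdpos.ne'
  obtain ⟨c₁, hc₁⟩ : (d : ℤ) ∣ c := by rw [hd]; exact Int.gcd_dvd_left c N
  obtain ⟨N₁, hN₁⟩ : (d : ℤ) ∣ (N : ℤ) := by rw [hd]; exact Int.gcd_dvd_right c N
  have hN₁' : (N : ℤ) / (d : ℤ) = N₁ := by rw [hN₁, Int.mul_ediv_cancel_left _ hd0]
  rw [hN₁'] at hcop
  have hcop₁ : IsCoprime c₁ N₁ := by
    have h := Int.gcd_div_gcd_div_gcd (i := c) (j := (N : ℤ)) (by rw [← hd]; exact hdpos)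
    rw [← hd, hN₁'] at h
    have h' : c / (d : ℤ) = c₁ := by rw [hc₁, Int.mul_ediv_cancel_left _ hd0]
    rw [h'] at h
    exact Int.isCoprime_iff_gcd_eq_one.2 h
  obtain ⟨u, v, huv⟩ : IsCoprime (c₁ * (d : ℤ)) N₁ := hcop₁.mul_left hcop
  rw [PlaceDict.placeCusp_eq_iff]
  refine ⟨u * (δ - c₁), g⁻¹ * ModularGroup.T ^ (-(u * (δ - c₁))) * gd (d : ℤ), ?_, by group⟩
  rw [CongruenceSubgroup.Gamma0_mem, entry_mul, ← hc, ← hδ, ZMod.intCast_zmod_eq_zero_iff_dvd]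
  refine ⟨-(v * (δ - c₁)), ?_⟩
  rw [hc₁, hN₁]
  linear_combination (d : ℤ) * (δ - c₁) * huv

/-- **For squarefree `N` the cusp place only depends on `gcd (c(g), N)`.** -/
theorem placeCusp_eq_of_gcd (N : ℕ) [NeZero N] (hN : Squarefree N) (g g' : SL(2, ℤ))
    (h : Nat.gcd (lowerAbs g) N = Nat.gcd (lowerAbs g') N) :
    PlaceDict.placeCusp N g = PlaceDict.placeCusp N g' := by
  have key : ∀ x : SL(2, ℤ), IsCoprime ((Int.gcd ((x⁻¹ : SL(2, ℤ)) 1 0) N : ℕ) : ℤ)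
      ((N : ℤ) / ((Int.gcd ((x⁻¹ : SL(2, ℤ)) 1 0) N : ℕ) : ℤ)) := by
    intro x
    have hdvd : Int.gcd ((x⁻¹ : SL(2, ℤ)) 1 0) N ∣ N := by
      have := Int.gcd_dvd_right ((x⁻¹ : SL(2, ℤ)) 1 0) (N : ℤ)
      exact_mod_cast this
    obtain ⟨e, he⟩ := hdvd
    have hN0 : (N : ℤ) ≠ 0 := Int.natCast_ne_zero.mpr (NeZero.ne N)
    have hpos : 0 < Int.gcd ((x⁻¹ : SL(2, ℤ)) 1 0) N :=
      Int.gcd_pos_of_ne_zero_right _ hN0
    have hsq : Squarefree (Int.gcd ((x⁻¹ : SL(2, ℤ)) 1 0) N * e) := by rw [← he]; exact hN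
    have hcop : Nat.Coprime (Int.gcd ((x⁻¹ : SL(2, ℤ)) 1 0) N) e :=
      (Nat.squarefree_mul_iff.1 hsq).1
    have hdiv : (N : ℤ) / ((Int.gcd ((x⁻¹ : SL(2, ℤ)) 1 0) N : ℕ) : ℤ) = (e : ℤ) := by
      have hN' : (N : ℤ) = ((Int.gcd ((x⁻¹ : SL(2, ℤ)) 1 0) N : ℕ) : ℤ) * (e : ℤ) := by
        exact_mod_cast he
      have hd0 : ((Int.gcd ((x⁻¹ : SL(2, ℤ)) 1 0) N : ℕ) : ℤ) ≠ 0 :=
        Int.natCast_ne_zero.mpr hpos.ne'
      exact Int.ediv_eq_of_eq_mul_right hd0 hN'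
    rw [hdiv]
    exact Nat.isCoprime_iff_coprime.2 hcop
  have hg : ∀ x : SL(2, ℤ), Int.gcd ((x⁻¹ : SL(2, ℤ)) 1 0) N = Nat.gcd (lowerAbs x) N := by
    intro x
    show Nat.gcd ((x⁻¹ : SL(2, ℤ)) 1 0).natAbs ((N : ℤ)).natAbs = _
    rw [Int.natAbs_natCast]
    rfl
  rw [placeCusp_eq_gd N g (key g), placeCusp_eq_gd N g' (key g'), hg g, hg g', h]

/-- **(C-pq)** A cusp of `X₀(pq)` is determined by its two types. -/
theorem cusp_unique_of_types {p q : ℕ} [NeZero (p * q)] (hp : p.Prime) (hq : q.Prime) (hpq : p ≠ q)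
    (c c' : Place Qb (FN (p * q))) (hc : c.ord (jd (p * q) 1 (one_dvd _)) < 0)
    (hc' : c'.ord (jd (p * q) 1 (one_dvd _)) < 0)
    (h1 : c.ord (jd (p * q) p (dvd_mul_right p q)) = p * c.ord (jd (p * q) 1 (one_dvd _)) ↔
      c'.ord (jd (p * q) p (dvd_mul_right p q)) = p * c'.ord (jd (p * q) 1 (one_dvd _)))
    (h2 : c.ord (jd (p * q) q (dvd_mul_left q p)) = q * c.ord (jd (p * q) 1 (one_dvd _)) ↔
      c'.ord (jd (p * q) q (dvd_mul_left q p)) = q * c'.ord (jd (p * q) 1 (one_dvd _))) :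
    c = c' := by
  obtain ⟨g, rfl⟩ := exists_placeCusp_of_ord_neg (p * q) c 1 (one_dvd _) hc
  obtain ⟨g', rfl⟩ := exists_placeCusp_of_ord_neg (p * q) c' 1 (one_dvd _) hc'
  rw [type_iff hp, type_iff hp] at h1
  rw [type_iff hq, type_iff hq] at h2
  have hcop : Nat.Coprime p q := (Nat.coprime_primes hp hq).2 hpq
  have hsq : Squarefree (p * q) :=
    Nat.squarefree_mul_iff.2 ⟨hcop, hp.squarefree, hq.squarefree⟩
  have hgp : ∀ x : ℕ, ∀ r : ℕ, r.Prime → Nat.gcd x r = if r ∣ x then r else 1 := by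
    intro x r hr
    split_ifs with h
    · exact Nat.gcd_eq_right h
    · exact Nat.Coprime.symm ((Nat.Prime.coprime_iff_not_dvd hr).2 h)
  refine placeCusp_eq_of_gcd (p * q) hsq g g' ?_
  rw [Nat.Coprime.gcd_mul _ hcop, Nat.Coprime.gcd_mul _ hcop, hgp _ p hp, hgp _ q hq,
    hgp _ p hp, hgp _ q hq]
  simp only [h1, h2]

end Fermat.Agent.S15P.G2Cusp65
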