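/-
S15 / L12 (d), abstract half + numerics (helper50).  Imports main only.

* `genusFF_eq_zero_of_isPrincipal` : in a function field of one variable (`IsFF1 K F x`), if the
  divisor `P - Q` of two DISTINCT places is principal, then the Riemann–Roch genus is `0`.
  (If `div f = P - Q` then `f ^ (k+1) ∈ L((k+1) Q) \ L(k Q)`, so `dim L(n Q) ≥ n + 1`; but
  `dim L(n Q) = n + 1 - g` for `n ≥ 2 g - 1`.)
* `genusFormula_prime_pos` : `0 < genusFormula p` for a prime `p ∉ {2, 3, 5, 7, 13}`.
* `genusFF_modular_prime_pos` : `0 < genusFF ℚ̄ (ℚ̄(X₀(p)))` for such `p` (main's S24 in RR form).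
* `pic0_mk_ne_zero` : on `X₀(p)`, `p` prime `∉ {2, 3, 5, 7, 13}`, the class of `P - Q`, `P ≠ Q`,
  in `Pic0` is not zero.
-/
import Mathlib
import Fermat.Agent.Lib.FF.WeilCanonical
import Fermat.Agent.Lib.FF.CanonicalFF1
import Fermat.Agent.BAD.GenusIneq
import Fermat.Agent.CAR.Ell.CharZero

set_option autoImplicit false

noncomputable section

namespace Fermat.Agent.S15P.GenusPos50

open AlgebraicCurve WithZero Module
open Fermat.Agent.Lib.FF Fermat.Agent.Lib.FF.Res Fermat.Agent.Lib.FF.BasePoint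

section abstract

variable {K F : Type*} [Field K] [Field F] [Algebra K F] {x : F}

/-- `dim L(n Q) ≥ n + 1` when some `f` has a simple pole at `Q` and no other pole. -/
theorem succ_le_finrank_L (h : IsFF1 K F x) (Q : Place K F) (f : F) (hf0 : f ≠ 0)
    (hQ : Q.ord f = -1) (hreg : ∀ v : Place K F, v ≠ Q → 0 ≤ v.ord f) (n : ℕ) :
    n + 1 ≤ finrank K (riemannRochSpace (Finsupp.single Q (n : ℤ) : Divisor K F)) := by
  classical
  induction n with
  | zero =>
    have h0 : (Finsupp.single Q ((0 : ℕ) : ℤ) : Divisor K F) = 0 := by simp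
    rw [h0, h.finrank_L_zero]
  | succ n ih =>
    have := h.finite_L (Finsupp.single Q ((n + 1 : ℕ) : ℤ) : Divisor K F)
    have hle : (Finsupp.single Q (n : ℤ) : Divisor K F) ≤ Finsupp.single Q ((n + 1 : ℕ) : ℤ) := by
      intro v
      by_cases hv : v = Q
      · subst hv
        simp
      · rw [Finsupp.single_apply, Finsupp.single_apply, if_neg (Ne.symm hv), if_neg (Ne.symm hv)]
    have hmono := RR.L_mono hle
    have hpow0 : f ^ (n + 1) ≠ 0 := pow_ne_zero _ hf0
    have hord : ∀ v : Place K F, v.ord (f ^ (n + 1)) = ((n + 1 : ℕ) : ℤ) * v.ord f := by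
      intro v
      have := v.ord_zpow f ((n + 1 : ℕ) : ℤ)
      rwa [zpow_natCast] at this
    have hmem : f ^ (n + 1) ∈ riemannRochSpace (Finsupp.single Q ((n + 1 : ℕ) : ℤ) : Divisor K F) := by
      rw [mem_riemannRochSpace_iff]
      intro v
      right
      rw [hord v]
      by_cases hv : v = Q
      · subst hv
        rw [Finsupp.single_eq_same, hQ]
        simp
      · rw [Finsupp.single_apply, if_neg (Ne.symm hv)]
        have := hreg v hv
        have h1 : (0 : ℤ) ≤ ((n + 1 : ℕ) : ℤ) := Int.natCast_nonneg _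
        simpa using mul_nonneg h1 this
    have hnot : f ^ (n + 1) ∉ riemannRochSpace (Finsupp.single Q (n : ℤ) : Divisor K F) := by
      rw [mem_riemannRochSpace_iff]
      intro hall
      rcases hall Q with h0 | h1
      · exact hpow0 h0
      · rw [hord Q, Finsupp.single_eq_same, hQ] at h1
        push_cast at h1
        omega
    have hlt : riemannRochSpace (Finsupp.single Q (n : ℤ) : Divisor K F) <
        riemannRochSpace (Finsupp.single Q ((n + 1 : ℕ) : ℤ) : Divisor K F) :=
      lt_of_le_of_ne hmono (fun heq => hnot (heq ▸ hmem))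
    have := Submodule.finrank_lt_finrank_of_lt hlt
    omega

/-- **A function with a single simple pole forces genus `0`.** -/
theorem genusFF_eq_zero_of_simple_pole (h : IsFF1 K F x) (Q : Place K F) (f : F) (hf0 : f ≠ 0)
    (hQ : Q.ord f = -1) (hreg : ∀ v : Place K F, v ≠ Q → 0 ≤ v.ord f) : genusFF K F = 0 := by
  set g := genusFF K F with hg
  have h1 := succ_le_finrank_L h Q f hf0 hQ hreg (2 * g)
  have hdeg : Divisor.degree (Finsupp.single Q ((2 * g : ℕ) : ℤ) : Divisor K F) = ((2 * g : ℕ) : ℤ) := by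
    rw [Divisor.degree_single, h.deg_eq_one Q]
    simp
  have h2 := (WeilCanonical.ns_sharp h).finrank_L h
    (D := (Finsupp.single Q ((2 * g : ℕ) : ℤ) : Divisor K F)) (by rw [hdeg]; push_cast; omega)
  rw [hdeg] at h2
  have h3 : ((2 * g + 1 : ℕ) : ℤ) ≤
      (finrank K (riemannRochSpace (Finsupp.single Q ((2 * g : ℕ) : ℤ) : Divisor K F)) : ℤ) := by
    exact_mod_cast h1
  push_cast at h2 h3
  omega

/-- **If `P - Q` is principal for two distinct places then the genus is `0`.** -/
theorem genusFF_eq_zero_of_isPrincipal (h : IsFF1 K F x) {P Q : Place K F} (hPQ : P ≠ Q)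
    (hprin : Divisor.IsPrincipal
      (Finsupp.single P (1 : ℤ) - Finsupp.single Q (1 : ℤ) : Divisor K F)) :
    genusFF K F = 0 := by
  classical
  obtain ⟨f, hf0, hf⟩ := hprin
  refine genusFF_eq_zero_of_simple_pole h Q f hf0 ?_ ?_
  · rw [← hf Q, Finsupp.sub_apply, Finsupp.single_eq_same, Finsupp.single_apply, if_neg hPQ]
    norm_num
  · intro v hv
    rw [← hf v, Finsupp.sub_apply, Finsupp.single_apply, Finsupp.single_apply, if_neg (Ne.symm hv)]
    split_ifs <;> norm_num

/-- The class of `P - Q` (`P ≠ Q`) in `Pic0` is not zero when the genus is positive. -/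
theorem pic0_mk_ne_zero_of_genus_pos (h : IsFF1 K F x) (hg : 0 < genusFF K F) {P Q : Place K F}
    (hPQ : P ≠ Q)
    (hdeg : (Finsupp.single P (1 : ℤ) - Finsupp.single Q (1 : ℤ) : Divisor K F) ∈
      Divisor.degZero (K := K) (F := F)) :
    Pic0.mk ⟨Finsupp.single P (1 : ℤ) - Finsupp.single Q (1 : ℤ), hdeg⟩ ≠ 0 := by
  intro h0
  have hmem : (⟨Finsupp.single P (1 : ℤ) - Finsupp.single Q (1 : ℤ), hdeg⟩ :
      Divisor.degZero (K := K) (F := F)) ∈
      (Divisor.principal (K := K) (F := F)).addSubgroupOf (Divisor.degZero (K := K) (F := F)) :=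
    (QuotientAddGroup.eq_zero_iff _).1 h0
  have hprin : Divisor.IsPrincipal
      (Finsupp.single P (1 : ℤ) - Finsupp.single Q (1 : ℤ) : Divisor K F) :=
    AddSubgroup.mem_addSubgroupOf.1 hmem
  have := genusFF_eq_zero_of_isPrincipal h hPQ hprin
  omega

end abstract

/-! ### Numerics: the genus of `X₀(p)` -/

section numerics

open ModularCurve

theorem genusFormula_prime {p : ℕ} (hp : p.Prime) :
    genusFormula p = ((p : ℚ) + 1) / 12 - (nuTwo p : ℚ) / 4 - (nuThree p : ℚ) / 3 := by
  have h1 : dedekindPsi p = p + 1 := by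
    have := Fermat.Agent.S20.Count.Index.dedekindPsi_mul_of_not_dvd (p := p) (N := 1) hp one_ne_zero
      (by simpa using hp.one_lt.ne')
    simpa using this
  have h2 : cuspCount p = 2 := by
    have := Fermat.Agent.BAD.GenusIneq.cuspCount_prime_mul (q := p) (M := 1) hp one_ne_zero
      (by simpa using hp.one_lt.ne')
    simpa using this
  unfold genusFormula
  rw [h1, h2]
  push_cast
  ring

theorem genusFormula_prime_pos {p : ℕ} (hp : p.Prime) (hp' : p ∉ ({2, 3, 5, 7, 13} : Finset ℕ)) :
    0 < genusFormula p := by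
  rw [genusFormula_prime hp]
  have h2 : (nuTwo p : ℚ) ≤ 2 := by exact_mod_cast Fermat.Agent.BAD.GenusIneq.nuTwo_prime_le hp
  have h3 : (nuThree p : ℚ) ≤ 2 := by exact_mod_cast Fermat.Agent.BAD.GenusIneq.nuThree_prime_le hp
  simp only [Finset.mem_insert, Finset.mem_singleton, not_or] at hp'
  by_cases h17 : 17 ≤ p
  · have : (17 : ℚ) ≤ p := by exact_mod_cast h17
    linarith
  · have hp11 : p = 11 := by
      have hlt : p < 17 := by omega
      interval_cases p <;> first | omega | (exfalso; revert hp; norm_num)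
    subst hp11
    have e2 : nuTwo 11 = 0 :=
      Fermat.Agent.CAR.Ell.nuTwo_eq_zero 11 11 (by norm_num) (by norm_num) dvd_rfl
    have e3 : nuThree 11 = 0 :=
      Fermat.Agent.CAR.Ell.nuThree_eq_zero 11 11 (by norm_num) (by norm_num) dvd_rfl
    rw [e2, e3]
    norm_num

local notation "Qb" => AlgebraicClosure ℚ

theorem genusFF_modular_prime_pos {p : ℕ} [NeZero p] (hp : p.Prime)
    (hp' : p ∉ ({2, 3, 5, 7, 13} : Finset ℕ)) :
    0 < genusFF Qb ↥(modularFunctionFieldBar p) := by
  have h1 := genusFF_modular p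
  have h2 := genusFormula_prime_pos hp hp'
  rw [← h1] at h2
  exact_mod_cast h2

/-- **On `X₀(p)`, `p ∉ {2, 3, 5, 7, 13}`, two distinct places are not linearly equivalent.** -/
theorem pic0_mk_ne_zero {p : ℕ} [NeZero p] (hp : p.Prime)
    (hp' : p ∉ ({2, 3, 5, 7, 13} : Finset ℕ))
    {P Q : Place Qb ↥(modularFunctionFieldBar p)} (hPQ : P ≠ Q)
    (hdeg : (Finsupp.single P (1 : ℤ) - Finsupp.single Q (1 : ℤ) :
      Divisor Qb ↥(modularFunctionFieldBar p)) ∈
      Divisor.degZero (K := Qb) (F := ↥(modularFunctionFieldBar p))) :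
    Pic0.mk ⟨Finsupp.single P (1 : ℤ) - Finsupp.single Q (1 : ℤ), hdeg⟩ ≠ 0 :=
  pic0_mk_ne_zero_of_genus_pos (isFF1_modular p) (genusFF_modular_prime_pos hp hp') hPQ hdeg

end numerics

end Fermat.Agent.S15P.GenusPos50
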