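/-
S15, row 624 (CONCRETE-DESC), the clause `LocalCount` (helper68): **the fifth clause of
`InterfacesDesc80b.DescDataP` with every input cited from main except the level hypothesis
`Hlev` of the `p`-side count (row 588).**

* `l6Even`, `l6Lev`, `l6Two` : the three L6 export Props of `HVInst68` are theorems
                               (`Real/ConjFinal47`, helper47 / helper29);
* `localV_two`, `localV_odd` : the real place, hypothesis-free: `∃ d, #G = r ^ (2 d)` and the
                               group `V ∋ c z - z` with `#V ≤ r ^ d`;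
* `Hlev`                     : the level hypothesis of L7, the literal of
                               `PSideInst92.card_kumRange_le`;
* `exists_W`                 : the group `W ∋ σ z - z` with `#W ≤ r ^ d` (`PSideInst92.kumRange`);
* `localCount_of_adjoin`, `localCount` : `LocalCount p r E σ complexConjugation`.
-/
import Mathlib
import Fermat.Agent.S15P.HVInst68
import Fermat.Agent.S15P.Real.ConjFinal47
import Fermat.Agent.S15P.PSideInst92
import Fermat.Agent.ESJ.Cong.Comm
import Fermat.Agent.ESJ.Jac.Main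

set_option autoImplicit false
set_option linter.unusedSectionVars false

namespace Fermat.Agent.S15P.HVFinal68

open ModularCurve AlgebraicCurve Fermat.Agent.ESJ
open Fermat.Agent.S15P.Interfaces80 Fermat.Agent.S15P.InterfacesDesc80
open Fermat.Agent.S15P.MainCount40 Fermat.Agent.S15P.HVInst68
open Fermat.Agent.S15P.Real Fermat.Agent.S15P.PSideInst92

local notation "Qb" => AlgebraicClosure ℚ

/-! ### L6 is a citation -/

theorem l6Even (N r : ℕ) [NeZero N] (hr : r.Prime) : L6Even N r :=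
  fun S hS E hE hidem => ConjFinal47.exists_card_eq_final N r hr S hS E hE hidem

theorem l6Lev (N r n : ℕ) [NeZero N] (hr : r.Prime) (hn : 0 < n) : L6Lev N r n :=
  fun S hS F hF hidem d hd =>
    ConjFinal47.card_conj_sub_le_final N r hr n hn S hS F hF hidem d hd

theorem l6Two (N : ℕ) [NeZero N] : L6Two N :=
  fun S hS F hF hidem d hd => ConjFinal47.card_conj_sub_two_le_final N S hS F hF hidem d hd

variable {p : ℕ} [NeZero p]

/-- **The real place, `r = 2`, hypothesis-free.** -/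
theorem localV_two (S : Set Nat.Primes) (hS : ∀ q ∈ S, ¬ (q : ℕ) ∣ p)
    (F : Module.End ℤ (JZero p)) (hF : F ∈ Algebra.adjoin ℤ (heckeOperatorBar p '' S))
    (hidem : ∀ x : JZero p, 4 • x = 0 → F (F x) = F x) :
    ∃ d : ℕ, Nat.card (eisG p 2 F) = 2 ^ (2 * d) ∧
      ∃ V : AddSubgroup (JZero p), Finite V ∧
        (∀ z ∈ Zdiv GQ 2 (Mfix p) (eisG p 2 F), complexConjugation • z - z ∈ V) ∧
        Nat.card V ≤ 2 ^ d :=
  HVInst68.localV_two (Cong.heckeGaloisCommute p)
    (fun x => Fermat.Agent.MW.DivA.jZero_divisible p two_pos x)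
    (torsionFinite p 4 (by norm_num)) (l6Even p 2 Nat.prime_two) (l6Two p) S hS F hF hidem

/-- **The real place, `r` odd, hypothesis-free.** -/
theorem localV_odd (r : ℕ) (hr : r.Prime) (hr2 : r ≠ 2)
    (S : Set Nat.Primes) (hS : ∀ q ∈ S, ¬ (q : ℕ) ∣ p)
    (F : Module.End ℤ (JZero p)) (hF : F ∈ Algebra.adjoin ℤ (heckeOperatorBar p '' S))
    (hidem : ∀ x : JZero p, r • x = 0 → F (F x) = F x) :
    ∃ d : ℕ, Nat.card (eisG p r F) = r ^ (2 * d) ∧
      ∃ V : AddSubgroup (JZero p), Finite V ∧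
        (∀ z ∈ Zdiv GQ r (Mfix p) (eisG p r F), complexConjugation • z - z ∈ V) ∧
        Nat.card V ≤ r ^ d :=
  HVInst68.localV_odd r hr hr2 (Cong.heckeGaloisCommute p) (torsionFinite p r hr.pos)
    (l6Even p r hr) (l6Lev p r 1 hr one_pos) S hS F hF hidem

/-- **The level hypothesis of L7** (row 588), the literal of `PSideInst92.card_kumRange_le` /
`PSide92.card_kum_sigma_le` with `E` a `ℤ`-linear endomorphism. -/
def Hlev (p r : ℕ) (E : Module.End ℤ (JZero p)) (σ c : GQ) (d : ℕ) : Prop :=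
  ∀ n : ℕ, 0 < n → ∃ En : JZero p →+ JZero p,
    (∀ (γ : GQ) (x : JZero p), En (γ • x) = γ • En x) ∧
    (∀ x : JZero p, r • x = 0 → En x = E x) ∧
    (∀ x : JZero p, r ^ n • x = 0 → σ • En x = En x → c • En x = En x →
      ∀ g : GQ, g • En x = En x) ∧
    Nat.card {u : JZero p // ∃ x, r ^ n • x = 0 ∧ u = c • En x - En x} ≤ r ^ (d * n)

/-- **The `p`-side group `W`**: `σ z - z ∈ W` for every division point `z ∈ Zdiv`, and
`#W ≤ r ^ d` (L7: `PSideInst92.card_kumRange_le`; `hFG` is the statement of S17). -/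
theorem exists_W (hp : p.Prime) (hp5 : 5 ≤ p) (r : ℕ) (hr : r.Prime) (hrp : r ≠ p)
    (hFG : AddGroup.FG ↥(Mfix p))
    (A : ValuationSubring Qb) (hA : A.LiesOverPrime p) (σ c : GQ)
    (hσ : σ ∈ A.inertiaSubgroupIn ℚ)
    (F : Module.End ℤ (JZero p)) (hidem : ∀ x : JZero p, r • x = 0 → F (F x) = F x)
    (d : ℕ) (hlev : Hlev p r F σ c d) :
    ∃ W : AddSubgroup (JZero p), Finite W ∧
      (∀ z ∈ Zdiv GQ r (Mfix p) (eisG p r F), σ • z - z ∈ W) ∧ Nat.card W ≤ r ^ d := by
  refine ⟨kumRange p r F.toAddMonoidHom σ, finite_kumRange p r hr.pos _ σ, fun z hz => ?_,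
    card_kumRange_le p r hp hp5 hr hrp hFG A hA σ c hσ F.toAddMonoidHom d hlev⟩
  obtain ⟨hzM, hzG⟩ := mem_Zdiv.mp hz
  exact sub_mem_kumRange p r (eisG p r F)
    (VSeam68.eq_self_of_mem r F hidem (eisG p r F) (fun _ => mem_eisG)) z
    (fun g => hzM g) (hzG σ)

/-- **`LocalCount`** for a Hecke polynomial `F` in the `T_q`, `q ∈ S`, `q ∤ p`, idempotent on
`J[r]` (on `J[4]` if `r = 2`), an inertia element `σ` at `p`, and the level hypothesis `Hlev`
for the `d` with `#G = r ^ (2 d)`. -/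
theorem localCount_of_adjoin (hp : p.Prime) (hp5 : 5 ≤ p) (r : ℕ) (hr : r.Prime) (hrp : r ≠ p)
    (hFG : AddGroup.FG ↥(Mfix p))
    (S : Set Nat.Primes) (hS : ∀ q ∈ S, ¬ (q : ℕ) ∣ p)
    (F : Module.End ℤ (JZero p)) (hF : F ∈ Algebra.adjoin ℤ (heckeOperatorBar p '' S))
    (hidem : ∀ x : JZero p, r • x = 0 → F (F x) = F x)
    (hidem4 : r = 2 → ∀ x : JZero p, 4 • x = 0 → F (F x) = F x)
    (A : ValuationSubring Qb) (hA : A.LiesOverPrime p) (σ : GQ)
    (hσ : σ ∈ A.inertiaSubgroupIn ℚ)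
    (hlev : ∀ d : ℕ, Nat.card (eisG p r F) = r ^ (2 * d) →
      Hlev p r F σ complexConjugation d) :
    LocalCount p r F σ complexConjugation := by
  have hW : ∀ d : ℕ, Nat.card (eisG p r F) = r ^ (2 * d) →
      ∃ W : AddSubgroup (JZero p), Finite W ∧
        (∀ z ∈ Zdiv GQ r (Mfix p) (eisG p r F), σ • z - z ∈ W) ∧ Nat.card W ≤ r ^ d :=
    fun d hd => exists_W hp hp5 r hr hrp hFG A hA σ complexConjugation hσ F hidem d (hlev d hd)
  by_cases hr2 : r = 2
  · subst hr2
    exact HVInst68.localCount_two (Cong.heckeGaloisCommute p)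
      (fun x => Fermat.Agent.MW.DivA.jZero_divisible p two_pos x)
      (torsionFinite p 4 (by norm_num)) (l6Even p 2 Nat.prime_two) (l6Two p) S hS F hF
      (hidem4 rfl) σ hW
  · exact HVInst68.localCount_odd r hr hr2 (Cong.heckeGaloisCommute p)
      (torsionFinite p r hr.pos) (l6Even p r hr) (l6Lev p r 1 hr one_pos) S hS F hF hidem σ hW

/-- **The clause `LocalCount` of `DescDataP`** for an Eisenstein projector `E`
(`IsEisProj p ℓ r E`; idempotent on `J[4]` if `r = 2`). -/
theorem localCount (hp : p.Prime) (hp5 : 5 ≤ p) (ℓ r : ℕ) (hr : r.Prime) (hrp : r ≠ p)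
    (hFG : AddGroup.FG ↥(Mfix p))
    (E : Module.End ℤ (JZero p)) (hE : IsEisProj p ℓ r E)
    (hidem4 : r = 2 → ∀ x : JZero p, 4 • x = 0 → E (E x) = E x)
    (A : ValuationSubring Qb) (hA : A.LiesOverPrime p) (σ : GQ)
    (hσ : σ ∈ A.inertiaSubgroupIn ℚ)
    (hlev : ∀ d : ℕ, Nat.card (eisG p r E) = r ^ (2 * d) →
      Hlev p r E σ complexConjugation d) :
    LocalCount p r E σ complexConjugation := by
  obtain ⟨⟨S, hS, hES⟩, hidem, -⟩ := hE
  refine localCount_of_adjoin hp hp5 r hr hrp hFG S (fun q hq h => hS q hq ?_) E hES hidem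
    hidem4 A hA σ hσ hlev
  exact Dvd.dvd.mul_right (Dvd.dvd.mul_left h 6) ℓ

end Fermat.Agent.S15P.HVFinal68
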