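/-
S15P, brick (KS): the kernel of the reduction of divisor classes is stable under the Hecke
operators, at the three kinds of places the end-game of S15 uses.

Everything here is an assembly of results that are already proved in the landed tree:
* `TR/Hecke/RedEqHC` : the reduction `J₀(M)(ℚ̄) → J₀(M)(k)` commutes with `T_q`
  (`reductionModL_heckeCFam`), for any level `M` with reduction inputs at `M` and `M q`;
* `ESJ/Red/R2Good` : reduction inputs and injectivity on prime-to-`ℓ` torsion at the good pairs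
  `(M, ℓ)` : `ℓ ≥ 5`, or `ℓ = 3 ∧ 2 ∣ M`, or `ℓ = 2 ∧ 3 ∣ M`;
* `ESJ/Cong/LevelPull` + `ESJ/LevelDesc/Pic0Pull` : the pull-back of divisor classes
  `J₀(N) → J₀(N a)` along `F_N ⊆ F_{N a}` commutes with Galois and with `T_q`, `q ∤ N a`, and its
  kernel is killed by `a + 1` (re-proved here for the EXPLICIT map `levelPull`).

Main statements (`Kgood A M`, `Kaux A N a` are the two kernels):
* `ks_good`, `ks_aux` : stability under `T_q`;
* `stab K` (the subalgebra of endomorphisms preserving `K`), `lift_mem_stab_Kgood`,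
  `lift_mem_stab_Kaux`, `aeval_mem_stab` : stability under Hecke words and polynomials in them;
* `exists_pow_smul_eq_zero_of_mem_Kgood`, `exists_two_pow_smul_eq_zero_of_mem_Kaux`,
  `exists_three_pow_smul_eq_zero_of_mem_Kaux` : a torsion value `η z`, `z` in the kernel, is
  killed by a power of the residue characteristic (the local hypotheses of the end-game).
-/
import Mathlib
import Fermat.Agent.TR.Hecke.RedEqHC
import Fermat.Agent.ESJ.Cong.LevelPull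
import Fermat.Agent.ESJ.Red.R2Good
import Fermat.Agent.ESJ.S18Assembly

set_option autoImplicit false
set_option linter.style.haveILetI false
set_option linter.unusedSectionVars false
set_option synthInstance.maxHeartbeats 400000
set_option maxHeartbeats 1000000

noncomputable section

namespace Fermat.Agent.S15P.KS28

open AlgebraicCurve ModularCurve IntermediateField
open Fermat.Agent.S24 Fermat.Agent.ESJ.HeckeInputs Fermat.Agent.ESJ.LevelDesc
open Fermat.Agent.ESJ.Cong Fermat.Agent.ESJ.Cong.LevelPull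
open Fermat.Agent.TR.Hecke.RedEq

local notation "Qb" => AlgebraicClosure ℚ

/-! ### (KS) at a level carrying a place reduction -/

section Good

/-- **(KS), input form**: `ker (red)` at level `M` is stable under `T_q`, `q ∤ M` a prime with
`M q` invertible in the residue field, as soon as there are reduction inputs at `M` and `M q`. -/
theorem reductionModL_hecke_eq_zero {A : ValuationSubring Qb} {M : ℕ} [NeZero M]
    (q : Nat.Primes) (hqM : ¬ (q : ℕ) ∣ M)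
    (hNk : ((M * (q : ℕ) : ℕ) : IsLocalRing.ResidueField A) ≠ 0)
    (hR : ReductionInputsModL A M) (hR' : ReductionInputsModL A (M * (q : ℕ)))
    {y : JZero M} (hy : reductionModL A M y = 0) :
    reductionModL A M (heckeOperatorBar M q y) = 0 := by
  rw [reductionModL_heckeCFam q hqM hNk hR hR' y, hy, map_zero]

/-- The good pairs are stable under multiplying the level by a prime `q ≠ ℓ`. -/
theorem good_mul {M ℓ : ℕ} (q : ℕ)
    (hgood : 5 ≤ ℓ ∨ (ℓ = 3 ∧ 2 ∣ M) ∨ (ℓ = 2 ∧ 3 ∣ M)) :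
    5 ≤ ℓ ∨ (ℓ = 3 ∧ 2 ∣ M * q) ∨ (ℓ = 2 ∧ 3 ∣ M * q) := by
  rcases hgood with h | ⟨h, h'⟩ | ⟨h, h'⟩
  · exact Or.inl h
  · exact Or.inr (Or.inl ⟨h, Dvd.dvd.mul_right h' q⟩)
  · exact Or.inr (Or.inr ⟨h, Dvd.dvd.mul_right h' q⟩)

theorem not_dvd_mul_prime {M ℓ : ℕ} (hℓ : ℓ.Prime) (hℓM : ¬ ℓ ∣ M) (q : Nat.Primes)
    (hqℓ : (q : ℕ) ≠ ℓ) : ¬ ℓ ∣ M * (q : ℕ) := fun h => by
  rcases (Nat.Prime.dvd_mul hℓ).mp h with h1 | h1
  · exact hℓM h1
  · exact hqℓ ((Nat.prime_dvd_prime_iff_eq hℓ q.2).mp h1).symm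

/-- **(KS) at a good pair** `(M, ℓ)` (`ℓ ≥ 5`, or `ℓ = 3 ∧ 2 ∣ M`, or `ℓ = 2 ∧ 3 ∣ M`): the kernel
of the reduction at a place over `ℓ` is stable under `T_q` for every prime `q ∤ M`, `q ≠ ℓ`. -/
theorem ks_good (M ℓ : ℕ) [NeZero M] (hℓ : ℓ.Prime) (hℓM : ¬ ℓ ∣ M)
    (hgood : 5 ≤ ℓ ∨ (ℓ = 3 ∧ 2 ∣ M) ∨ (ℓ = 2 ∧ 3 ∣ M))
    (A : ValuationSubring Qb) (hA : A.LiesOverPrime ℓ) (q : Nat.Primes) (hqM : ¬ (q : ℕ) ∣ M)
    (hqℓ : (q : ℕ) ≠ ℓ) {y : JZero M} (hy : reductionModL A M y = 0) :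
    reductionModL A M (heckeOperatorBar M q y) = 0 := by
  haveI : NeZero (M * (q : ℕ)) := ⟨Nat.mul_ne_zero (NeZero.ne M) q.2.ne_zero⟩
  exact reductionModL_hecke_eq_zero q hqM (natCast_mul_ne_zero hℓ hA hℓM q.2 hqℓ)
    (Fermat.Agent.ESJ.reductionInputsModL_good M ℓ hℓ hℓM hgood A hA)
    (Fermat.Agent.ESJ.reductionInputsModL_good (M * (q : ℕ)) ℓ hℓ
      (not_dvd_mul_prime hℓ hℓM q hqℓ) (good_mul (q : ℕ) hgood) A hA) hy

/-- A torsion class in the kernel of the reduction at a good pair is killed by a power of `ℓ`. -/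
theorem exists_pow_smul_eq_zero_of_reductionModL_eq_zero (M ℓ : ℕ) [NeZero M] (hℓ : ℓ.Prime)
    (hℓM : ¬ ℓ ∣ M) (hgood : 5 ≤ ℓ ∨ (ℓ = 3 ∧ 2 ∣ M) ∨ (ℓ = 2 ∧ 3 ∣ M))
    (A : ValuationSubring Qb) (hA : A.LiesOverPrime ℓ) {z : JZero M} {n : ℕ} (hn : 0 < n)
    (hnz : n • z = 0) (hz : reductionModL A M z = 0) : ∃ a : ℕ, ℓ ^ a • z = 0 := by
  obtain ⟨hR2, hR1⟩ := Fermat.Agent.ESJ.good_pairs M ℓ hℓ hℓM hgood A hA
  obtain ⟨a, m, hm, rfl⟩ := Nat.exists_eq_pow_mul_and_not_dvd hn.ne' ℓ hℓ.ne_one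
  refine ⟨a, ?_⟩
  refine Fermat.Agent.ESJ.eq_zero_of_reductionModL_eq_zero_of_redTorsionInjective M A hR1 hR2 m hm
    (ℓ ^ a • z) ?_ ?_
  · rw [smul_smul, mul_comm]
    exact hnz
  · rw [map_nsmul, hz, smul_zero]

end Good

/-! ### The explicit level pull-back `J₀(N) → J₀(N a)` -/

section Pull

variable (N a : ℕ) [NeZero N] [NeZero a]

/-- Pull-back of divisor classes along `F_N ⊆ F_{N a}`. -/
def levelPull : JZero N →+ JZero (N * a) :=
  haveI := hasPrincipalDivisors_bar (N * a)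
  pic0Pull (heckeAlphaBar Qb N a) (heckeAlphaBarIntegral N a)
    (fundamentalIdentityAlong_heckeAlphaBar N a)

theorem levelPull_mk (D : Divisor.degZero (K := Qb) (F := modularFunctionFieldBar N)) :
    haveI := hasPrincipalDivisors_bar (N * a)
    levelPull N a (Pic0.mk D) = Pic0.mk (pullDegZero (heckeAlphaBar Qb N a)
      (heckeAlphaBarIntegral N a) (fundamentalIdentityAlong_heckeAlphaBar N a) D) :=
  rfl

/-- The level pull-back is Galois-equivariant. -/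
theorem levelPull_smul (σ : Qb ≃ₐ[ℚ] Qb) (x : JZero N) :
    levelPull N a (σ • x) = σ • levelPull N a x := by
  haveI := hasPrincipalDivisors_bar (N * a)
  rw [galois_smul_pic0_def, galois_smul_pic0_def]
  exact pic0Pull_smul (heckeAlphaBar Qb N a) (heckeAlphaBarIntegral N a)
    (fundamentalIdentityAlong_heckeAlphaBar N a) (comm_intertwines_alpha N a σ) x

/-- The level pull-back commutes with `T_ℓ`, `ℓ ∤ N a`. -/
theorem levelPull_hecke [NeZero (N * a)] (ℓ : Nat.Primes) (hℓ : ¬ (ℓ : ℕ) ∣ N * a)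
    (x : JZero N) :
    levelPull N a (heckeOperatorBar N ℓ x) = heckeOperatorBar (N * a) ℓ (levelPull N a x) := by
  haveI : NeZero (ℓ : ℕ) := ⟨ℓ.2.ne_zero⟩
  haveI hPq := hasPrincipalDivisors_bar (N * a)
  have hFIa : FundamentalIdentityAlong Qb (heckeAlphaBar Qb N a) (heckeAlphaBarIntegral N a) :=
    fundamentalIdentityAlong_heckeAlphaBar N a
  rw [heckeOperatorBar_apply, heckeOperatorBar_apply]
  obtain ⟨hα, hβ, hP, hfin, hFI, hN⟩ := heckeInputsAlong_bar N ℓ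
  obtain ⟨hα', hβ', hP', hfin', hFI', hN'⟩ := heckeInputsAlong_bar (N * a) ℓ
  haveI := hP
  haveI := hP'
  have e1 := heckeOperatorAlong_eq hα hβ hFI hfin hN
  have e2 := heckeOperatorAlong_eq hα' hβ' hFI' hfin' hN'
  rw [e1, e2]
  exact pic0Pull_correspondence (heckeAlphaBar Qb N a) (heckeAlphaBar Qb N ℓ)
    (heckeBetaBar Qb N ℓ) (heckeAlphaBar Qb (N * a) ℓ) (heckeBetaBar Qb (N * a) ℓ)
    (incl N a ℓ) (heckeAlphaBarIntegral N a) hα hβ hα' hβ' (isIntegral_incl N a ℓ)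
    hFIa hFI hfin hN hFI' hfin' hN' (alpha_comp_alpha N a ℓ) (beta_comp_alpha N a ℓ)
    (norm_incl N a ℓ ℓ.2 hℓ) (exists_ord_eq_one (N * ℓ)) x

/-- The kernel of the level pull-back along a prime `a ∤ N` is killed by `a + 1`. -/
theorem levelPull_ker (ha : a.Prime) (haN : ¬ a ∣ N) (x : JZero N)
    (hx : levelPull N a x = 0) : (a + 1) • x = 0 := by
  haveI : NeZero (N * a) := ⟨Nat.mul_ne_zero (NeZero.ne N) ha.ne_zero⟩
  haveI hPq := hasPrincipalDivisors_bar (N * a)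
  have hFIa : FundamentalIdentityAlong Qb (heckeAlphaBar Qb N a) (heckeAlphaBarIntegral N a) :=
    fundamentalIdentityAlong_heckeAlphaBar N a
  have hS : SumRamInertiaAlong (heckeAlphaBar Qb N a) (heckeAlphaBarIntegral N a) := by
    letI := algebraAlong (heckeAlphaBar Qb N a)
    haveI := isScalarTower_along (heckeAlphaBar Qb N a)
    haveI := isIntegral_along (heckeAlphaBar Qb N a) (heckeAlphaBarIntegral N a)
    haveI : FiniteDimensional (FN N) (FN (N * a)) := finiteAlong_heckeAlphaBar N a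
    haveI := isAlgebraic_bar N
    haveI := isAlgebraic_bar (N * a)
    exact Fermat.Agent.Lib.FF.ExtNorm.sumRamificationInertia (jBar N) (jBar (N * a))
  have hN : NormFormulaAlong Qb (heckeAlphaBar Qb N a) (finiteAlong_heckeAlphaBar N a) := by
    haveI := isAlgebraic_bar N
    haveI := isAlgebraic_bar (N * a)
    exact normFormulaAlong _ _ (jBar N) (jBar (N * a))
  have h1 := nsmul_eq_zero_of_pic0Pull_eq_zero (heckeAlphaBar Qb N a)
    (heckeAlphaBarIntegral N a) hFIa (finiteAlong_heckeAlphaBar N a) hN hS x hx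
  have h2 : finrankAlong Qb (heckeAlphaBar Qb N a) = a + 1 :=
    ConjAnalytic.finrank_alpha N a ha haN
  rwa [h2] at h1

end Pull

/-! ### (KS) through an auxiliary level -/

section Aux

variable (N a : ℕ) [NeZero N] [NeZero a] [NeZero (N * a)]

/-- **(KS) through the auxiliary level `N a`**: for a good pair `(N a, ℓ)` the kernel of
`red_ℓ ∘ π^* : J₀(N) → J₀(N a)(k)` is stable under `T_q`, `q ∤ N a`, `q ≠ ℓ`. -/
theorem ks_aux (ℓ : ℕ) (hℓ : ℓ.Prime) (hℓNa : ¬ ℓ ∣ N * a)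
    (hgood : 5 ≤ ℓ ∨ (ℓ = 3 ∧ 2 ∣ N * a) ∨ (ℓ = 2 ∧ 3 ∣ N * a))
    (A : ValuationSubring Qb) (hA : A.LiesOverPrime ℓ) (q : Nat.Primes)
    (hqNa : ¬ (q : ℕ) ∣ N * a) (hqℓ : (q : ℕ) ≠ ℓ) {y : JZero N}
    (hy : reductionModL A (N * a) (levelPull N a y) = 0) :
    reductionModL A (N * a) (levelPull N a (heckeOperatorBar N q y)) = 0 := by
  rw [levelPull_hecke N a q hqNa y]
  exact ks_good (N * a) ℓ hℓ hℓNa hgood A hA q hqNa hqℓ hy

/-- A torsion class of `J₀(N)` whose pull-back to level `N a` reduces to `0` at a good pair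
`(N a, ℓ)` is killed by `(a + 1) ℓ ^ k` for some `k`. -/
theorem exists_pow_smul_eq_zero_of_aux (ha : a.Prime) (haN : ¬ a ∣ N) (ℓ : ℕ) (hℓ : ℓ.Prime)
    (hℓNa : ¬ ℓ ∣ N * a) (hgood : 5 ≤ ℓ ∨ (ℓ = 3 ∧ 2 ∣ N * a) ∨ (ℓ = 2 ∧ 3 ∣ N * a))
    (A : ValuationSubring Qb) (hA : A.LiesOverPrime ℓ) {z : JZero N} {n : ℕ} (hn : 0 < n)
    (hnz : n • z = 0) (hz : reductionModL A (N * a) (levelPull N a z) = 0) :
    ∃ k : ℕ, ((a + 1) * ℓ ^ k) • z = 0 := by
  have hnz' : n • levelPull N a z = 0 := by rw [← map_nsmul, hnz, map_zero]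
  obtain ⟨k, hk⟩ := exists_pow_smul_eq_zero_of_reductionModL_eq_zero (N * a) ℓ hℓ hℓNa hgood A hA
    hn hnz' hz
  refine ⟨k, ?_⟩
  rw [mul_smul]
  refine levelPull_ker N a ha haN _ ?_
  rw [map_nsmul, hk]

/-- At `ℓ = 2` through level `3 N`: a torsion class in the kernel is `2`-power torsion. -/
theorem exists_two_pow_smul_eq_zero [NeZero (N * 3)] (hN3 : ¬ 3 ∣ N) (hN2 : ¬ 2 ∣ N)
    (A : ValuationSubring Qb) (hA : A.LiesOverPrime 2) {z : JZero N} {n : ℕ} (hn : 0 < n)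
    (hnz : n • z = 0) (hz : reductionModL A (N * 3) (levelPull N 3 z) = 0) :
    ∃ k : ℕ, 2 ^ k • z = 0 := by
  have h2 : ¬ 2 ∣ N * 3 := fun h => by
    rcases (Nat.Prime.dvd_mul Nat.prime_two).mp h with h | h
    · exact hN2 h
    · omega
  obtain ⟨k, hk⟩ := exists_pow_smul_eq_zero_of_aux N 3 Nat.prime_three hN3 2 Nat.prime_two h2
    (Or.inr (Or.inr ⟨rfl, Dvd.intro_left N rfl⟩)) A hA hn hnz hz
  refine ⟨k + 2, ?_⟩
  have e : 2 ^ (k + 2) = (3 + 1) * 2 ^ k := by ring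
  rw [e]
  exact hk

/-- At `ℓ = 3` through level `2 N`: a torsion class in the kernel is `3`-power torsion. -/
theorem exists_three_pow_smul_eq_zero [NeZero (N * 2)] (hN2 : ¬ 2 ∣ N) (hN3 : ¬ 3 ∣ N)
    (A : ValuationSubring Qb) (hA : A.LiesOverPrime 3) {z : JZero N} {n : ℕ} (hn : 0 < n)
    (hnz : n • z = 0) (hz : reductionModL A (N * 2) (levelPull N 2 z) = 0) :
    ∃ k : ℕ, 3 ^ k • z = 0 := by
  have h3 : ¬ 3 ∣ N * 2 := fun h => by
    rcases (Nat.Prime.dvd_mul Nat.prime_three).mp h with h | h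
    · exact hN3 h
    · omega
  obtain ⟨k, hk⟩ := exists_pow_smul_eq_zero_of_aux N 2 Nat.prime_two hN2 3 Nat.prime_three h3
    (Or.inr (Or.inl ⟨rfl, Dvd.intro_left N rfl⟩)) A hA hn hnz hz
  refine ⟨k + 1, ?_⟩
  have e : 3 ^ (k + 1) = (2 + 1) * 3 ^ k := by ring
  rw [e]
  exact hk

end Aux

/-! ### Stability under words in the Hecke operators -/

section Stab

variable {J : Type*} [AddCommGroup J]

/-- The endomorphisms preserving a subgroup, as a subalgebra of `End_ℤ J`. -/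
def stab (K : AddSubgroup J) : Subalgebra ℤ (Module.End ℤ J) where
  carrier := {f | ∀ z ∈ K, f z ∈ K}
  mul_mem' := fun {f g} hf hg z hz => hf _ (hg z hz)
  one_mem' := fun z hz => hz
  add_mem' := fun {f g} hf hg z hz => K.add_mem (hf z hz) (hg z hz)
  zero_mem' := fun z _ => K.zero_mem
  algebraMap_mem' := fun n z hz => by
    rw [Module.algebraMap_end_apply]
    exact K.zsmul_mem hz n

theorem mem_stab {K : AddSubgroup J} {f : Module.End ℤ J} :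
    f ∈ stab K ↔ ∀ z ∈ K, f z ∈ K :=
  Iff.rfl

/-- A polynomial in a stabilising endomorphism is stabilising. -/
theorem aeval_mem_stab {K : AddSubgroup J} {f : Module.End ℤ J} (hf : f ∈ stab K)
    (P : Polynomial ℤ) : Polynomial.aeval f P ∈ stab K := by
  have h := Polynomial.aeval_subalgebra_coe P (stab K) ⟨f, hf⟩
  rw [Subtype.coe_mk] at h
  rw [← h]
  exact (Polynomial.aeval (⟨f, hf⟩ : stab K) P).2

/-- The image of a word under `FreeAlgebra.lift` is stabilising if its letters are. -/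
theorem lift_mem_stab {X : Type*} {K : AddSubgroup J} (T : X → Module.End ℤ J) (S : Set X)
    (hT : ∀ q ∈ S, T q ∈ stab K) {w : FreeAlgebra ℤ X}
    (hw : w ∈ Algebra.adjoin ℤ (FreeAlgebra.ι ℤ '' S)) :
    FreeAlgebra.lift ℤ T w ∈ stab K := by
  have h1 : FreeAlgebra.lift ℤ T w ∈ (Algebra.adjoin ℤ (FreeAlgebra.ι ℤ '' S)).map
      (FreeAlgebra.lift ℤ T) := ⟨w, hw, rfl⟩
  rw [AlgHom.map_adjoin] at h1
  refine Algebra.adjoin_le ?_ h1
  rintro _ ⟨_, ⟨q, hq, rfl⟩, rfl⟩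
  rw [FreeAlgebra.lift_ι_apply]
  exact hT q hq

end Stab

/-! ### The kernels `K_ℓ` of the end-game -/

section Kernels

/-- The kernel of the reduction at level `M` along `A`. -/
def Kgood (A : ValuationSubring Qb) (M : ℕ) [NeZero M] : AddSubgroup (JZero M) :=
  (reductionModL A M).ker

/-- The kernel of `red ∘ π^*`, the reduction through the auxiliary level `N a`. -/
def Kaux (A : ValuationSubring Qb) (N a : ℕ) [NeZero N] [NeZero a] [NeZero (N * a)] :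
    AddSubgroup (JZero N) :=
  ((reductionModL A (N * a)).comp (levelPull N a)).ker

theorem mem_Kgood {A : ValuationSubring Qb} {M : ℕ} [NeZero M] {z : JZero M} :
    z ∈ Kgood A M ↔ reductionModL A M z = 0 :=
  AddMonoidHom.mem_ker

theorem mem_Kaux {A : ValuationSubring Qb} {N a : ℕ} [NeZero N] [NeZero a] [NeZero (N * a)]
    {z : JZero N} : z ∈ Kaux A N a ↔ reductionModL A (N * a) (levelPull N a z) = 0 :=
  AddMonoidHom.mem_ker

/-- `T_q ∈ stab (Kgood A M)` at a good pair. -/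
theorem hecke_mem_stab_Kgood (M ℓ : ℕ) [NeZero M] (hℓ : ℓ.Prime) (hℓM : ¬ ℓ ∣ M)
    (hgood : 5 ≤ ℓ ∨ (ℓ = 3 ∧ 2 ∣ M) ∨ (ℓ = 2 ∧ 3 ∣ M))
    (A : ValuationSubring Qb) (hA : A.LiesOverPrime ℓ) (q : Nat.Primes) (hqM : ¬ (q : ℕ) ∣ M)
    (hqℓ : (q : ℕ) ≠ ℓ) : heckeOperatorBar M q ∈ stab (Kgood A M) := fun _ hz =>
  mem_Kgood.mpr (ks_good M ℓ hℓ hℓM hgood A hA q hqM hqℓ (mem_Kgood.mp hz))

/-- `T_q ∈ stab (Kaux A N a)` at a good pair `(N a, ℓ)`. -/
theorem hecke_mem_stab_Kaux (N a : ℕ) [NeZero N] [NeZero a] [NeZero (N * a)] (ℓ : ℕ)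
    (hℓ : ℓ.Prime) (hℓNa : ¬ ℓ ∣ N * a)
    (hgood : 5 ≤ ℓ ∨ (ℓ = 3 ∧ 2 ∣ N * a) ∨ (ℓ = 2 ∧ 3 ∣ N * a))
    (A : ValuationSubring Qb) (hA : A.LiesOverPrime ℓ) (q : Nat.Primes)
    (hqNa : ¬ (q : ℕ) ∣ N * a) (hqℓ : (q : ℕ) ≠ ℓ) :
    heckeOperatorBar N q ∈ stab (Kaux A N a) := fun _ hz =>
  mem_Kaux.mpr (ks_aux N a ℓ hℓ hℓNa hgood A hA q hqNa hqℓ (mem_Kaux.mp hz))

/-- **Words preserve `Kgood`**: a Hecke word in the letters `q ∈ S`, all prime to `M ℓ`. -/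
theorem lift_mem_stab_Kgood (M ℓ : ℕ) [NeZero M] (hℓ : ℓ.Prime) (hℓM : ¬ ℓ ∣ M)
    (hgood : 5 ≤ ℓ ∨ (ℓ = 3 ∧ 2 ∣ M) ∨ (ℓ = 2 ∧ 3 ∣ M))
    (A : ValuationSubring Qb) (hA : A.LiesOverPrime ℓ) (S : Set Nat.Primes)
    (hS : ∀ q ∈ S, ¬ (q : ℕ) ∣ M ∧ (q : ℕ) ≠ ℓ) {w : FreeAlgebra ℤ Nat.Primes}
    (hw : w ∈ Algebra.adjoin ℤ (FreeAlgebra.ι ℤ '' S)) :
    FreeAlgebra.lift ℤ (heckeOperatorBar M) w ∈ stab (Kgood A M) :=
  lift_mem_stab (heckeOperatorBar M) S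
    (fun q hq => hecke_mem_stab_Kgood M ℓ hℓ hℓM hgood A hA q (hS q hq).1 (hS q hq).2) hw

/-- **Words preserve `Kaux`**. -/
theorem lift_mem_stab_Kaux (N a : ℕ) [NeZero N] [NeZero a] [NeZero (N * a)] (ℓ : ℕ)
    (hℓ : ℓ.Prime) (hℓNa : ¬ ℓ ∣ N * a)
    (hgood : 5 ≤ ℓ ∨ (ℓ = 3 ∧ 2 ∣ N * a) ∨ (ℓ = 2 ∧ 3 ∣ N * a))
    (A : ValuationSubring Qb) (hA : A.LiesOverPrime ℓ) (S : Set Nat.Primes)
    (hS : ∀ q ∈ S, ¬ (q : ℕ) ∣ N * a ∧ (q : ℕ) ≠ ℓ) {w : FreeAlgebra ℤ Nat.Primes}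
    (hw : w ∈ Algebra.adjoin ℤ (FreeAlgebra.ι ℤ '' S)) :
    FreeAlgebra.lift ℤ (heckeOperatorBar N) w ∈ stab (Kaux A N a) :=
  lift_mem_stab (heckeOperatorBar N) S
    (fun q hq => hecke_mem_stab_Kaux N a ℓ hℓ hℓNa hgood A hA q (hS q hq).1 (hS q hq).2) hw

/-- **The local hypothesis of the end-game at a good pair** (`ℓ ≥ 5` at level `p`): if `η`
preserves `Kgood` and `η z` is torsion, then `η z` is `ℓ`-power torsion for `z ∈ Kgood`. -/
theorem exists_pow_smul_eq_zero_of_mem_Kgood (M ℓ : ℕ) [NeZero M] (hℓ : ℓ.Prime)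
    (hℓM : ¬ ℓ ∣ M) (hgood : 5 ≤ ℓ ∨ (ℓ = 3 ∧ 2 ∣ M) ∨ (ℓ = 2 ∧ 3 ∣ M))
    (A : ValuationSubring Qb) (hA : A.LiesOverPrime ℓ) {η : Module.End ℤ (JZero M)}
    (hη : η ∈ stab (Kgood A M)) {z : JZero M} (hz : z ∈ Kgood A M) {n : ℕ} (hn : 0 < n)
    (hnz : n • η z = 0) : ∃ k : ℕ, ℓ ^ k • η z = 0 :=
  exists_pow_smul_eq_zero_of_reductionModL_eq_zero M ℓ hℓ hℓM hgood A hA hn hnz
    (mem_Kgood.mp (hη z hz))

/-- **The local hypothesis of the end-game at `2`**, through level `3 N`. -/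
theorem exists_two_pow_smul_eq_zero_of_mem_Kaux (N : ℕ) [NeZero N] [NeZero (N * 3)]
    (hN3 : ¬ 3 ∣ N) (hN2 : ¬ 2 ∣ N) (A : ValuationSubring Qb) (hA : A.LiesOverPrime 2)
    {η : Module.End ℤ (JZero N)} (hη : η ∈ stab (Kaux A N 3)) {z : JZero N}
    (hz : z ∈ Kaux A N 3) {n : ℕ} (hn : 0 < n) (hnz : n • η z = 0) :
    ∃ k : ℕ, 2 ^ k • η z = 0 :=
  exists_two_pow_smul_eq_zero N hN3 hN2 A hA hn hnz (mem_Kaux.mp (hη z hz))

/-- **The local hypothesis of the end-game at `3`**, through level `2 N`. -/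
theorem exists_three_pow_smul_eq_zero_of_mem_Kaux (N : ℕ) [NeZero N] [NeZero (N * 2)]
    (hN2 : ¬ 2 ∣ N) (hN3 : ¬ 3 ∣ N) (A : ValuationSubring Qb) (hA : A.LiesOverPrime 3)
    {η : Module.End ℤ (JZero N)} (hη : η ∈ stab (Kaux A N 2)) {z : JZero N}
    (hz : z ∈ Kaux A N 2) {n : ℕ} (hn : 0 < n) (hnz : n • η z = 0) :
    ∃ k : ℕ, 3 ^ k • η z = 0 :=
  exists_three_pow_smul_eq_zero N hN2 hN3 A hA hn hnz (mem_Kaux.mp (hη z hz))

/-- `Kaux` is Galois-stable when the reduction kernel at level `N a` is (used with the inertia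
or decomposition group of `A`): if `σ` preserves `Kgood A (N a)`, it preserves `Kaux A N a`. -/
theorem smul_mem_Kaux {A : ValuationSubring Qb} {N a : ℕ} [NeZero N] [NeZero a] [NeZero (N * a)]
    (σ : Qb ≃ₐ[ℚ] Qb) (hσ : ∀ x ∈ Kgood A (N * a), σ • x ∈ Kgood A (N * a)) {z : JZero N}
    (hz : z ∈ Kaux A N a) : σ • z ∈ Kaux A N a := by
  rw [mem_Kaux, levelPull_smul]
  exact mem_Kgood.mp (hσ _ (mem_Kgood.mpr (mem_Kaux.mp hz)))

end Kernels

end Fermat.Agent.S15P.KS28
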