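/-
S15P, layer (KS), helper44: the kernel of the reduction at a good pair is stable under the Hecke
operators `T_q`, `q ≠ ℓ`, `q ∤ N` — and under every word in them.

This is a citation of main: `TR.Hecke.RedEq.reductionModL_heckeCFam` (the reduction
`J₀(N)(ℚ̄) → J₀(N)(k)` commutes with `T_q`, from `r_*(α_* β^* D) = ᾱ_* β̄^* (r_* D)`) together with
`ESJ.reductionInputsModL_good` at the levels `N` and `N q` (good pairs: `ℓ ≥ 5`, or `ℓ = 3` and
`2 ∣ N`, or `ℓ = 2` and `3 ∣ N`; these conditions pass from `N` to `N q`).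

* `reductionModL_hecke` : `red (T_q x) = T̄_q (red x)` at every good pair;
* `ker_reductionModL_hecke_stable` : `red x = 0 → red (T_q x) = 0`;
* `ker_reductionModL_word_stable` : the same for every element of the subalgebra of
  `Module.End ℤ (JZero N)` generated by the `T_q`, `q ≠ ℓ`, `q ∤ N`;
* `heckeWordC`, `reductionModL_word` : every such word `η` has a companion `η̄` on `J₀(N)(k)` with
  `red (η x) = η̄ (red x)`.
-/
import Mathlib
import Fermat.Agent.TR.Hecke.RedEqHC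
import Fermat.Agent.ESJ.Red.R2Good

set_option autoImplicit false
set_option synthInstance.maxHeartbeats 400000
set_option maxHeartbeats 1000000

namespace Fermat.Agent.S15P.KS44

open ModularCurve AlgebraicCurve

local notation "Qb" => AlgebraicClosure ℚ

/-- Abstract form: the endomorphisms that have a companion along an additive map form a
subalgebra. -/
theorem exists_companion_of_mem_adjoin {J Jb : Type*} [AddCommGroup J] [AddCommGroup Jb]
    (red : J →+ Jb) (S : Set (Module.End ℤ J))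
    (hS : ∀ T ∈ S, ∃ Tb : Module.End ℤ Jb, ∀ x, red (T x) = Tb (red x))
    (η : Module.End ℤ J) (hη : η ∈ Algebra.adjoin ℤ S) :
    ∃ ηb : Module.End ℤ Jb, ∀ x, red (η x) = ηb (red x) := by
  induction hη using Algebra.adjoin_induction with
  | mem T hT => exact hS T hT
  | algebraMap n =>
    refine ⟨algebraMap ℤ _ n, fun x => ?_⟩
    rw [Module.algebraMap_end_apply, Module.algebraMap_end_apply, map_zsmul]
  | add f g _ _ hf hg =>
    obtain ⟨fb, hfb⟩ := hf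
    obtain ⟨gb, hgb⟩ := hg
    refine ⟨fb + gb, fun x => ?_⟩
    rw [LinearMap.add_apply, map_add, hfb, hgb, LinearMap.add_apply]
  | mul f g _ _ hf hg =>
    obtain ⟨fb, hfb⟩ := hf
    obtain ⟨gb, hgb⟩ := hg
    refine ⟨fb * gb, fun x => ?_⟩
    rw [Module.End.mul_apply, hfb, hgb, Module.End.mul_apply]

/-- Goodness of a pair passes from the level `N` to the level `N q`. -/
theorem good_mul (N : ℕ) {ℓ : ℕ} (hgood : 5 ≤ ℓ ∨ (ℓ = 3 ∧ 2 ∣ N) ∨ (ℓ = 2 ∧ 3 ∣ N)) (q : ℕ) :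
    5 ≤ ℓ ∨ (ℓ = 3 ∧ 2 ∣ N * q) ∨ (ℓ = 2 ∧ 3 ∣ N * q) := by
  rcases hgood with h | ⟨h, h'⟩ | ⟨h, h'⟩
  · exact Or.inl h
  · exact Or.inr (Or.inl ⟨h, Dvd.dvd.mul_right h' q⟩)
  · exact Or.inr (Or.inr ⟨h, Dvd.dvd.mul_right h' q⟩)

variable (N : ℕ) [NeZero N]

/-- **The reduction at a good pair commutes with `T_q`**, `q ≠ ℓ`, `q ∤ N`. -/
theorem reductionModL_hecke {ℓ : ℕ} (hℓ : ℓ.Prime) (hℓN : ¬ ℓ ∣ N)
    (hgood : 5 ≤ ℓ ∨ (ℓ = 3 ∧ 2 ∣ N) ∨ (ℓ = 2 ∧ 3 ∣ N))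
    (A : ValuationSubring Qb) (hA : A.LiesOverPrime ℓ)
    (q : Nat.Primes) (hqN : ¬ (q : ℕ) ∣ N) (hqℓ : (q : ℕ) ≠ ℓ) (x : JZero N) :
    reductionModL A N (heckeOperatorBar N q x) =
      Fermat.Agent.TR.Hecke.RedEq.heckeCFam A N q (reductionModL A N x) := by
  have : NeZero (q : ℕ) := ⟨q.2.ne_zero⟩
  have hℓNq : ¬ ℓ ∣ N * (q : ℕ) := fun h => by
    rcases (Nat.Prime.dvd_mul hℓ).mp h with h1 | h1
    · exact hℓN h1
    · exact hqℓ ((Nat.prime_dvd_prime_iff_eq hℓ q.2).mp h1).symm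
  exact Fermat.Agent.TR.Hecke.RedEq.reductionModL_heckeCFam q hqN
    (Fermat.Agent.TR.Hecke.RedEq.natCast_mul_ne_zero hℓ hA hℓN q.2 hqℓ)
    (Fermat.Agent.ESJ.reductionInputsModL_good N ℓ hℓ hℓN hgood A hA)
    (Fermat.Agent.ESJ.reductionInputsModL_good (N * (q : ℕ)) ℓ hℓ hℓNq (good_mul N hgood _) A hA) x

/-- **(KS)** the kernel of the reduction at a good pair is stable under `T_q`, `q ≠ ℓ`,
`q ∤ N`. -/
theorem ker_reductionModL_hecke_stable (ℓ q : ℕ) (hℓ : ℓ.Prime) (hq : q.Prime) (hqℓ : q ≠ ℓ)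
    (hqN : ¬ q ∣ N) (hℓN : ¬ ℓ ∣ N) (hgood : 5 ≤ ℓ ∨ (ℓ = 3 ∧ 2 ∣ N) ∨ (ℓ = 2 ∧ 3 ∣ N))
    (A : ValuationSubring Qb) (hA : A.LiesOverPrime ℓ)
    (x : JZero N) (hx : reductionModL A N x = 0) :
    reductionModL A N (heckeOperatorBar N ⟨q, hq⟩ x) = 0 := by
  rw [reductionModL_hecke N hℓ hℓN hgood A hA ⟨q, hq⟩ hqN hqℓ x, hx, map_zero]

/-- The Hecke operators away from `ℓ` and the level. -/
def heckeGens (ℓ : ℕ) : Set (Module.End ℤ (JZero N)) :=
  {T | ∃ q : Nat.Primes, ¬ (q : ℕ) ∣ N ∧ (q : ℕ) ≠ ℓ ∧ T = heckeOperatorBar N q}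

/-- **Every Hecke word away from `ℓ` has a companion on the reduction**: for `η` in the
subalgebra generated by the `T_q` (`q ≠ ℓ`, `q ∤ N`) there is an endomorphism `η̄` of `J₀(N)(k)`
with `red ∘ η = η̄ ∘ red`. -/
theorem reductionModL_word {ℓ : ℕ} (hℓ : ℓ.Prime) (hℓN : ¬ ℓ ∣ N)
    (hgood : 5 ≤ ℓ ∨ (ℓ = 3 ∧ 2 ∣ N) ∨ (ℓ = 2 ∧ 3 ∣ N))
    (A : ValuationSubring Qb) (hA : A.LiesOverPrime ℓ)
    (η : Module.End ℤ (JZero N)) (hη : η ∈ Algebra.adjoin ℤ (heckeGens N ℓ)) :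
    ∃ ηb : Module.End ℤ (JZeroC (IsLocalRing.ResidueField A) N),
      ∀ x : JZero N, reductionModL A N (η x) = ηb (reductionModL A N x) := by
  refine exists_companion_of_mem_adjoin (reductionModL A N) (heckeGens N ℓ) ?_ η hη
  rintro T ⟨q, hqN, hqℓ, rfl⟩
  exact ⟨Fermat.Agent.TR.Hecke.RedEq.heckeCFam A N q,
    fun x => reductionModL_hecke N hℓ hℓN hgood A hA q hqN hqℓ x⟩

/-- **(KS), word form**: the kernel of the reduction at a good pair is stable under every Hecke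
word away from `ℓ`. -/
theorem ker_reductionModL_word_stable {ℓ : ℕ} (hℓ : ℓ.Prime) (hℓN : ¬ ℓ ∣ N)
    (hgood : 5 ≤ ℓ ∨ (ℓ = 3 ∧ 2 ∣ N) ∨ (ℓ = 2 ∧ 3 ∣ N))
    (A : ValuationSubring Qb) (hA : A.LiesOverPrime ℓ)
    (η : Module.End ℤ (JZero N)) (hη : η ∈ Algebra.adjoin ℤ (heckeGens N ℓ))
    (x : JZero N) (hx : reductionModL A N x = 0) : reductionModL A N (η x) = 0 := by
  obtain ⟨ηb, h⟩ := reductionModL_word N hℓ hℓN hgood A hA η hη
  rw [h, hx, map_zero]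

end Fermat.Agent.S15P.KS44
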