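/-
S15, layer (KS) (helper73): the kernel of the reduction `J₀(N)(ℚ̄) → J₀(N)(k)` at a good pair
`(N, ℓ)` is stable under the Hecke operators `T_q`, `q ∤ N`, `q ≠ ℓ`.

This is a CITATION of main: `TR/Hecke/RedEqHC.reductionModL_heckeCFam`
(`red (T_q x) = T̄_q (red x)`, with `T̄_q = heckeCFam A N q` a `ℤ`-linear endomorphism of
`J₀(N)(k)`) + `ESJ/Red/R2Good.reductionInputsModL_good` at the two levels `N` and `N q`
(the level `N q` is again good at `ℓ`: `2 ∣ N → 2 ∣ N q`, `3 ∣ N → 3 ∣ N q`).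

* `reductionModL_hecke`            : `red (T_q x) = T̄_q (red x)` at every good pair;
* `ker_reductionModL_hecke_stable` : `red x = 0 → red (T_q x) = 0`;
* `ker_reductionModL_hecke_stable_five`, `_two`, `_three` : the three instances used by S15
  (`ℓ ≥ 5` at level `N`; `ℓ = 2` at a level divisible by `3`; `ℓ = 3` at an even level).
-/
import Mathlib
import Fermat.Agent.TR.Hecke.RedEqHC

set_option autoImplicit false

namespace Fermat.Agent.S15P.KS73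

open ModularCurve Fermat.Agent.TR.Hecke.RedEq

local notation "Qb" => AlgebraicClosure ℚ

/-- The level `N q` is good at `ℓ` when `N` is. -/
theorem good_mul {N ℓ : ℕ} (q : ℕ) (hgood : 5 ≤ ℓ ∨ (ℓ = 3 ∧ 2 ∣ N) ∨ (ℓ = 2 ∧ 3 ∣ N)) :
    5 ≤ ℓ ∨ (ℓ = 3 ∧ 2 ∣ N * q) ∨ (ℓ = 2 ∧ 3 ∣ N * q) := by
  rcases hgood with h | ⟨h1, h2⟩ | ⟨h1, h2⟩
  · exact Or.inl h
  · exact Or.inr (Or.inl ⟨h1, Dvd.dvd.mul_right h2 q⟩)
  · exact Or.inr (Or.inr ⟨h1, Dvd.dvd.mul_right h2 q⟩)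

/-- **Reduction commutes with `T_q`** at every good pair `(N, ℓ)`, `q ∤ N`, `q ≠ ℓ`. -/
theorem reductionModL_hecke (N : ℕ) [NeZero N] (ℓ q : ℕ) (hℓ : ℓ.Prime) (hq : q.Prime)
    (hqℓ : q ≠ ℓ) (hqN : ¬ q ∣ N) (hℓN : ¬ ℓ ∣ N)
    (hgood : 5 ≤ ℓ ∨ (ℓ = 3 ∧ 2 ∣ N) ∨ (ℓ = 2 ∧ 3 ∣ N))
    (A : ValuationSubring Qb) (hA : A.LiesOverPrime ℓ) (x : JZero N) :
    reductionModL A N (heckeOperatorBar N ⟨q, hq⟩ x)
      = heckeCFam A N ⟨q, hq⟩ (reductionModL A N x) := by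
  have hq0 : NeZero q := ⟨hq.ne_zero⟩
  have hℓNq : ¬ ℓ ∣ N * q := fun h => by
    rcases (Nat.Prime.dvd_mul hℓ).mp h with h1 | h1
    · exact hℓN h1
    · exact hqℓ ((Nat.prime_dvd_prime_iff_eq hℓ hq).mp h1).symm
  exact reductionModL_heckeCFam (A := A) (M := N) ⟨q, hq⟩ hqN
    (natCast_mul_ne_zero hℓ hA hℓN hq hqℓ)
    (Fermat.Agent.ESJ.reductionInputsModL_good N ℓ hℓ hℓN hgood A hA)
    (Fermat.Agent.ESJ.reductionInputsModL_good (N * q) ℓ hℓ hℓNq (good_mul q hgood) A hA) x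

/-- **(KS)**: the kernel of the reduction at a good pair is stable under `T_q`. -/
theorem ker_reductionModL_hecke_stable (N : ℕ) [NeZero N] (ℓ q : ℕ) (hℓ : ℓ.Prime)
    (hq : q.Prime) (hqℓ : q ≠ ℓ) (hqN : ¬ q ∣ N) (hℓN : ¬ ℓ ∣ N)
    (hgood : 5 ≤ ℓ ∨ (ℓ = 3 ∧ 2 ∣ N) ∨ (ℓ = 2 ∧ 3 ∣ N))
    (A : ValuationSubring Qb) (hA : A.LiesOverPrime ℓ)
    (x : JZero N) (hx : reductionModL A N x = 0) :
    reductionModL A N (heckeOperatorBar N ⟨q, hq⟩ x) = 0 := by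
  rw [reductionModL_hecke N ℓ q hℓ hq hqℓ hqN hℓN hgood A hA x, hx, map_zero]

/-- (KS) at `ℓ ≥ 5`, any level prime to `ℓ`. -/
theorem ker_reductionModL_hecke_stable_five (N : ℕ) [NeZero N] (ℓ q : ℕ) (hℓ : ℓ.Prime)
    (h5 : 5 ≤ ℓ) (hq : q.Prime) (hqℓ : q ≠ ℓ) (hqN : ¬ q ∣ N) (hℓN : ¬ ℓ ∣ N)
    (A : ValuationSubring Qb) (hA : A.LiesOverPrime ℓ)
    (x : JZero N) (hx : reductionModL A N x = 0) :
    reductionModL A N (heckeOperatorBar N ⟨q, hq⟩ x) = 0 :=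
  ker_reductionModL_hecke_stable N ℓ q hℓ hq hqℓ hqN hℓN (Or.inl h5) A hA x hx

/-- (KS) at `ℓ = 2`, level divisible by `3` (e.g. `3 p`). -/
theorem ker_reductionModL_hecke_stable_two (N : ℕ) [NeZero N] (h3 : 3 ∣ N) (h2 : ¬ 2 ∣ N)
    (q : ℕ) (hq : q.Prime) (hq2 : q ≠ 2) (hqN : ¬ q ∣ N)
    (A : ValuationSubring Qb) (hA : A.LiesOverPrime 2)
    (x : JZero N) (hx : reductionModL A N x = 0) :
    reductionModL A N (heckeOperatorBar N ⟨q, hq⟩ x) = 0 :=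
  ker_reductionModL_hecke_stable N 2 q Nat.prime_two hq hq2 hqN h2
    (Or.inr (Or.inr ⟨rfl, h3⟩)) A hA x hx

/-- (KS) at `ℓ = 3`, even level (e.g. `2 p`). -/
theorem ker_reductionModL_hecke_stable_three (N : ℕ) [NeZero N] (h2 : 2 ∣ N) (h3 : ¬ 3 ∣ N)
    (q : ℕ) (hq : q.Prime) (hq3 : q ≠ 3) (hqN : ¬ q ∣ N)
    (A : ValuationSubring Qb) (hA : A.LiesOverPrime 3)
    (x : JZero N) (hx : reductionModL A N x = 0) :
    reductionModL A N (heckeOperatorBar N ⟨q, hq⟩ x) = 0 :=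
  ker_reductionModL_hecke_stable N 3 q Nat.prime_three hq hq3 hqN h3
    (Or.inr (Or.inl ⟨rfl, h2⟩)) A hA x hx

end Fermat.Agent.S15P.KS73
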