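import Mathlib
import Fermat.Agent.S15P.DivMono85
import Fermat.Agent.S15P.GoodDiv85
import Fermat.Agent.ESJ.Cong.Comm

/-!
# The Kummer cocycle `k γ z := E (γ • z - z)` of `J₀(N)` and its local behaviour

`E` is any additive endomorphism of `J₀(N)(ℚ̄)` commuting with the Galois action, for instance a
Hecke word `FreeAlgebra.lift ℤ (heckeOperatorBar N) w` (`heckeWord_gal`).

* `kum E γ : JZero N →+ JZero N`, `kum_apply : kum E γ z = E (γ • z - z)`;
* `kum_mul` : the cocycle relation `k (γ * δ) z = γ • k δ z + k γ z`;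
* `nsmul_kum` : `m • k γ z = 0` if `γ` fixes `m • z`;
* `kum_eq_zero_of_inertia_good` : `k τ z = 0` for `τ` in an inertia group at `ℓ ∤ N m`
  fixing `m • z`  (from `GoodDiv85.inertia_smul_eq_div`);
* `smul_kum_of_inertia_bad`, `kum_mul_of_inertia_bad` : at a good pair `q ∥ N`, `q ∤ m`:
  `τ • k σ z = k σ z` and `k (σ * τ) z = k σ z + k τ z` for `σ, τ` in an inertia group at `q`
  fixing `m • z`  (from `DivMono85.monodromy_div`).
-/

set_option autoImplicit false

namespace Fermat.Agent.S15P.KumCocycle85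

open ModularCurve AlgebraicCurve Fermat.Agent.S15P.DivMono85 Fermat.Agent.S15P.GoodDiv85

local notation "Qb" => AlgebraicClosure ℚ
local notation "GQ" => (AlgebraicClosure ℚ ≃ₐ[ℚ] AlgebraicClosure ℚ)

variable {N : ℕ}

/-- **Hecke words commute with the Galois action.** -/
theorem heckeWord_gal [NeZero N] (w : FreeAlgebra ℤ Nat.Primes) (γ : GQ) :
    ∀ x : JZero N, FreeAlgebra.lift ℤ (heckeOperatorBar N) w (γ • x)
      = γ • FreeAlgebra.lift ℤ (heckeOperatorBar N) w x := by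
  induction w using FreeAlgebra.induction with
  | grade0 r =>
    intro x
    have h1 : FreeAlgebra.lift ℤ (heckeOperatorBar N) (algebraMap ℤ (FreeAlgebra ℤ Nat.Primes) r)
        = algebraMap ℤ (Module.End ℤ (JZero N)) r := AlgHom.commutes _ r
    rw [h1, Module.algebraMap_end_apply, Module.algebraMap_end_apply]
    exact (map_zsmul (DistribSMul.toAddMonoidHom (JZero N) γ) r x).symm
  | grade1 ℓ =>
    intro x
    have h1 : FreeAlgebra.lift ℤ (heckeOperatorBar N) (FreeAlgebra.ι ℤ ℓ)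
        = heckeOperatorBar N ℓ := FreeAlgebra.lift_ι_apply _ _
    rw [h1]
    exact Fermat.Agent.ESJ.Cong.heckeGaloisCommute N ℓ γ x
  | add a b ha hb =>
    intro x
    have h1 : FreeAlgebra.lift ℤ (heckeOperatorBar N) (a + b)
        = FreeAlgebra.lift ℤ (heckeOperatorBar N) a + FreeAlgebra.lift ℤ (heckeOperatorBar N) b :=
      map_add _ a b
    have h2 : γ • (FreeAlgebra.lift ℤ (heckeOperatorBar N) a x
          + FreeAlgebra.lift ℤ (heckeOperatorBar N) b x)
        = γ • FreeAlgebra.lift ℤ (heckeOperatorBar N) a x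
          + γ • FreeAlgebra.lift ℤ (heckeOperatorBar N) b x :=
      map_add (DistribSMul.toAddMonoidHom (JZero N) γ) _ _
    rw [h1]
    show FreeAlgebra.lift ℤ (heckeOperatorBar N) a (γ • x)
        + FreeAlgebra.lift ℤ (heckeOperatorBar N) b (γ • x)
      = γ • (FreeAlgebra.lift ℤ (heckeOperatorBar N) a x
          + FreeAlgebra.lift ℤ (heckeOperatorBar N) b x)
    rw [h2, ha x, hb x]
  | mul a b ha hb =>
    intro x
    have h1 : FreeAlgebra.lift ℤ (heckeOperatorBar N) (a * b)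
        = FreeAlgebra.lift ℤ (heckeOperatorBar N) a * FreeAlgebra.lift ℤ (heckeOperatorBar N) b :=
      map_mul _ a b
    rw [h1]
    show FreeAlgebra.lift ℤ (heckeOperatorBar N) a
        (FreeAlgebra.lift ℤ (heckeOperatorBar N) b (γ • x))
      = γ • FreeAlgebra.lift ℤ (heckeOperatorBar N) a
        (FreeAlgebra.lift ℤ (heckeOperatorBar N) b x)
    exact (congrArg (fun y => FreeAlgebra.lift ℤ (heckeOperatorBar N) a y) (hb x)).trans
      (ha (FreeAlgebra.lift ℤ (heckeOperatorBar N) b x))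

section cocycle

variable (E : JZero N →+ JZero N)

/-- The Kummer cocycle `k γ z := E (γ • z - z)`. -/
noncomputable def kum (γ : GQ) : JZero N →+ JZero N :=
  E.comp ((DistribSMul.toAddMonoidHom (JZero N) γ) - AddMonoidHom.id (JZero N))

theorem kum_apply (γ : GQ) (z : JZero N) : kum E γ z = E (γ • z - z) := rfl

variable {E} (hE : ∀ (γ : GQ) (x : JZero N), E (γ • x) = γ • E x)

include hE in
/-- **The cocycle relation.** -/
theorem kum_mul (γ δ : GQ) (z : JZero N) : kum E (γ * δ) z = γ • kum E δ z + kum E γ z := by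
  rw [kum_apply, kum_apply, kum_apply, ← hE, ← map_add, mul_smul, smul_sub]
  congr 1
  abel

/-- `m • k γ z = 0` as soon as `γ` fixes `m • z`. -/
theorem nsmul_kum (m : ℕ) (γ : GQ) (z : JZero N) (h : γ • (m • z) = m • z) :
    m • kum E γ z = 0 := by
  have e : γ • (m • z) = m • (γ • z) := map_nsmul (DistribSMul.toAddMonoidHom (JZero N) γ) m z
  rw [kum_apply, ← map_nsmul, nsmul_sub, ← e, h, sub_self, map_zero]

/-- **Good primes**: the Kummer cocycle vanishes on the inertia groups at `ℓ ∤ N m`. -/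
theorem kum_eq_zero_of_inertia_good [NeZero N] (ℓ : ℕ) (hℓ : ℓ.Prime) (hℓN : ¬ ℓ ∣ N)
    (A : ValuationSubring Qb) (hA : A.LiesOverPrime ℓ) (m : ℕ) (hm0 : m ≠ 0) (hm : ¬ ℓ ∣ m)
    (τ : GQ) (hτ : τ ∈ A.inertiaSubgroupIn ℚ) (z : JZero N) (hz : τ • (m • z) = m • z) :
    kum E τ z = 0 := by
  rw [kum_apply, inertia_smul_eq_div N ℓ hℓ hℓN A hA m hm0 hm τ hτ z hz, sub_self, map_zero]

section bad

variable [NeZero N] (q : ℕ) (hq : q.Prime) (hqN : q ∣ N) (hq2 : ¬ q ^ 2 ∣ N)
  (hgood : 5 ≤ q ∨ (q = 3 ∧ 2 ∣ N) ∨ (q = 2 ∧ 3 ∣ N))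
  (A : ValuationSubring Qb) (hA : A.LiesOverPrime q) (m : ℕ) (hmq : ¬ q ∣ m)

include hE hq hqN hq2 hgood hA hmq in
/-- **Bad prime, the values are inertia-fixed**: `τ • k σ z = k σ z` for `σ, τ ∈ I_q`, `σ`
fixing `m • z`. -/
theorem smul_kum_of_inertia_bad (σ τ : GQ) (hσ : σ ∈ A.inertiaSubgroupIn ℚ)
    (hτ : τ ∈ A.inertiaSubgroupIn ℚ) (z : JZero N) (hz : σ • (m • z) = m • z) :
    τ • kum E σ z = kum E σ z := by
  have key := monodromy_div N q hq hqN hq2 hgood A hA m hmq σ τ hσ hτ z hz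
  have e : τ • (σ • z - z) = σ • z - z := by
    rw [smul_sub]
    have e' : τ • σ • z - τ • z - (σ • z - z) = τ • σ • z - τ • z - σ • z + z := by abel
    exact sub_eq_zero.1 (e'.trans key)
  rw [kum_apply, ← hE, e]

include hE hq hqN hq2 hgood hA hmq in
/-- **Bad prime, additivity**: `k (σ * τ) z = k σ z + k τ z` for `σ, τ ∈ I_q`, `τ` fixing
`m • z`. -/
theorem kum_mul_of_inertia_bad (σ τ : GQ) (hσ : σ ∈ A.inertiaSubgroupIn ℚ)
    (hτ : τ ∈ A.inertiaSubgroupIn ℚ) (z : JZero N) (hz : τ • (m • z) = m • z) :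
    kum E (σ * τ) z = kum E σ z + kum E τ z := by
  rw [kum_mul hE σ τ z,
    smul_kum_of_inertia_bad hE q hq hqN hq2 hgood A hA m hmq τ σ hτ hσ z hz, add_comm]

include hE hq hqN hq2 hgood hA hmq in
/-- **Bad prime, `(σ - 1)` kills the value at `σ`** (the form `N · n_y = 0`). -/
theorem kum_kum_of_inertia_bad (σ τ : GQ) (hσ : σ ∈ A.inertiaSubgroupIn ℚ)
    (hτ : τ ∈ A.inertiaSubgroupIn ℚ) (z : JZero N) (hz : σ • (m • z) = m • z) :
    τ • kum E σ z - kum E σ z = 0 := by
  rw [smul_kum_of_inertia_bad hE q hq hqN hq2 hgood A hA m hmq σ τ hσ hτ z hz, sub_self]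

end bad

end cocycle

/-- The Hecke word `w` as an additive endomorphism of `J₀(N)(ℚ̄)`. -/
noncomputable def heckeWordHom (N : ℕ) [NeZero N] (w : FreeAlgebra ℤ Nat.Primes) :
    JZero N →+ JZero N :=
  (FreeAlgebra.lift ℤ (heckeOperatorBar N) w).toAddMonoidHom

theorem heckeWordHom_apply [NeZero N] (w : FreeAlgebra ℤ Nat.Primes) (x : JZero N) :
    heckeWordHom N w x = FreeAlgebra.lift ℤ (heckeOperatorBar N) w x := rfl

theorem heckeWordHom_gal [NeZero N] (w : FreeAlgebra ℤ Nat.Primes) (γ : GQ) (x : JZero N) :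
    heckeWordHom N w (γ • x) = γ • heckeWordHom N w x :=
  heckeWord_gal w γ x

end Fermat.Agent.S15P.KumCocycle85
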