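/-
S15 / layer L7 (the count at `p`), row LOCp-INST: the main-side hypotheses of
`PSide92.card_kum_sigma_le` discharged.

* `hdiv`  : `J₀(p)(ℚ̄)` is divisible            (main: `MW.DivA.jZero_divisible`),
* `hfin`  : torsion of given exponent is finite  (main: `MW.WMW.JZeroInst.finite_torsion`),
* `Y`     : the rational `r`-power torsion, finite by Mordell–Weil (main: `S17.result`).

Output: `card_W_le` (`#W ≤ r ^ d`, with only `σ`, `c`, `E`, `d` and the level hypothesis `Hlev`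
left); `ratTors`, `finite_ratTors` are the `Y`, `[Finite Y]`, `hY` of every consumer of the
rational `r`-power torsion (`hY := fun _ hx hg => ⟨hx, hg⟩`).
-/
import Mathlib
import Fermat.Agent.S15P.PSide92
import Fermat.Agent.MW.DivA.Main
import Fermat.Agent.MW.WMW.JZero
import Fermat.Agent.S17

set_option autoImplicit false

namespace Fermat.Agent.S15P.PSideInst71

open ModularCurve AlgebraicCurve Fermat.Agent.S15P.PSide92

local notation "Qb" => AlgebraicClosure ℚ
local notation "GQ" => (AlgebraicClosure ℚ ≃ₐ[ℚ] AlgebraicClosure ℚ)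

/-- The rational `r`-power torsion of `J₀(p)`. -/
def ratTors (p r : ℕ) : AddSubgroup (JZero p) where
  carrier := {x | (∃ n : ℕ, r ^ n • x = 0) ∧ ∀ g : GQ, g • x = x}
  add_mem' := by
    rintro x y ⟨⟨n, hn⟩, hx⟩ ⟨⟨m, hm⟩, hy⟩
    refine ⟨⟨n + m, ?_⟩, fun g => by rw [smul_add, hx g, hy g]⟩
    have h1 : r ^ (n + m) • x = 0 := by rw [pow_add, mul_comm, mul_smul, hn, smul_zero]
    have h2 : r ^ (n + m) • y = 0 := by rw [pow_add, mul_smul, hm, smul_zero]
    rw [nsmul_add, h1, h2, add_zero]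
  zero_mem' := ⟨⟨0, smul_zero _⟩, fun g => smul_zero g⟩
  neg_mem' := by
    rintro x ⟨⟨n, hn⟩, hx⟩
    exact ⟨⟨n, by rw [neg_nsmul, hn, neg_zero]⟩, fun g => by rw [smul_neg, hx g]⟩

theorem mem_ratTors {p r : ℕ} {x : JZero p} :
    x ∈ ratTors p r ↔ (∃ n : ℕ, r ^ n • x = 0) ∧ ∀ g : GQ, g • x = x :=
  Iff.rfl

/-- **Mordell–Weil ⟹ the rational `r`-power torsion of `J₀(p)` is finite** (`p ≥ 5` prime,
`r ≠ 0`). -/
theorem finite_ratTors (p : ℕ) [NeZero p] (hp : p.Prime) (hp5 : 5 ≤ p) (r : ℕ) (hr : r ≠ 0) :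
    Finite (ratTors p r) := by
  have hfg := Fermat.Agent.S17.result p hp hp5
  have : Module.Finite ℤ ↥(FixedPoints.addSubgroup GQ (JZero p)) :=
    Module.Finite.iff_addGroup_fg.mpr hfg
  have : Finite ↥(Submodule.torsion ℤ ↥(FixedPoints.addSubgroup GQ (JZero p))) :=
    Module.finite_of_fg_torsion _ Submodule.torsion_isTorsion
  have hfix : ∀ x : ratTors p r, (x : JZero p) ∈ FixedPoints.addSubgroup GQ (JZero p) :=
    fun x g => x.2.2 g
  have htor : ∀ x : ratTors p r,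
      (⟨(x : JZero p), hfix x⟩ : ↥(FixedPoints.addSubgroup GQ (JZero p)))
        ∈ Submodule.torsion ℤ ↥(FixedPoints.addSubgroup GQ (JZero p)) := by
    intro x
    obtain ⟨n, hn⟩ := x.2.1
    rw [Submodule.mem_torsion_iff]
    have hne : ((r : ℤ) ^ n) ≠ 0 := pow_ne_zero _ (by exact_mod_cast hr)
    refine ⟨⟨(r : ℤ) ^ n, mem_nonZeroDivisors_of_ne_zero hne⟩, ?_⟩
    apply Subtype.ext
    show ((r : ℤ) ^ n) • (x : JZero p) = 0
    have : ((r : ℤ) ^ n) = ((r ^ n : ℕ) : ℤ) := by push_cast; rfl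
    rw [this, natCast_zsmul]
    exact hn
  refine Finite.of_injective
    (fun x : ratTors p r =>
      (⟨⟨(x : JZero p), hfix x⟩, htor x⟩ :
        ↥(Submodule.torsion ℤ ↥(FixedPoints.addSubgroup GQ (JZero p))))) ?_
  intro x y h
  apply Subtype.ext
  exact congrArg (fun t : ↥(Submodule.torsion ℤ ↥(FixedPoints.addSubgroup GQ (JZero p))) =>
    ((t : ↥(FixedPoints.addSubgroup GQ (JZero p))) : JZero p)) h

/-- **L7 with all main-side hypotheses discharged**: `#W ≤ r ^ d` for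
`W = {E (σ z − z) : r z rational}`; only `σ`, `c`, `E`, `d` and the level hypothesis remain. -/
theorem card_W_le (p : ℕ) [NeZero p] (hp : p.Prime) (hp5 : 5 ≤ p)
    (r : ℕ) (hr : r.Prime) (hrp : r ≠ p)
    (A : ValuationSubring Qb) (hA : A.LiesOverPrime p)
    (σ c : GQ) (hσ : σ ∈ A.inertiaSubgroupIn ℚ)
    (E : JZero p →+ JZero p) (d : ℕ)
    (Hlev : ∀ n : ℕ, 0 < n → ∃ En : JZero p →+ JZero p,
      (∀ (γ : GQ) (x : JZero p), En (γ • x) = γ • En x) ∧
      (∀ x : JZero p, r • x = 0 → En x = E x) ∧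
      (∀ x : JZero p, r ^ n • x = 0 → σ • En x = En x → c • En x = En x →
        ∀ g : GQ, g • En x = En x) ∧
      Nat.card {u : JZero p // ∃ x, r ^ n • x = 0 ∧ u = c • En x - En x} ≤ r ^ (d * n)) :
    Nat.card {w : JZero p // ∃ z : JZero p, (∀ g : GQ, g • (r • z) = r • z) ∧
      w = E (σ • z - z)} ≤ r ^ d := by
  have : Finite (ratTors p r) := finite_ratTors p hp hp5 r hr.ne_zero
  exact card_kum_sigma_le p hp hp5 r hr hrp A hA σ c hσ
    (fun z => Fermat.Agent.MW.DivA.jZero_divisible p hr.pos z)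
    (fun n => Fermat.Agent.MW.WMW.JZeroInst.finite_torsion p _ (pow_pos hr.pos n))
    (ratTors p r) (fun _ hx hg => ⟨hx, hg⟩) E d Hlev

end Fermat.Agent.S15P.PSideInst71
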