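import Mathlib
import Fermat.Agent.S15P.Interfaces80
import Fermat.Agent.S15P.RedC15

/-!
# S15 (RED-c): the interface Prop `Interfaces80.RedFix` is a theorem

`redFix : Interfaces80.RedFix` — a Galois-fixed `ℓ`-torsion class of `J₀(N)`, `ℓ ≥ 5`, `ℓ ∤ N`,
dying under the reduction at `ℓ` is zero (`RedC15.eq_zero_of_fixed_of_red_eq_zero_good`).
With `TopSeam80.redC_of_redFix` this gives `Interfaces80.RedC c₀` for every `c₀` satisfying
`Interfaces80.CuspFacts`.
-/

set_option autoImplicit false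

namespace Fermat.Agent.S15P.RedFix15

/-- **(RED-c), interface form.** -/
theorem redFix : Fermat.Agent.S15P.Interfaces80.RedFix :=
  fun N _ ℓ hℓ h5 hℓN A hA x hx hℓx hred =>
    Fermat.Agent.S15P.RedC15.eq_zero_of_fixed_of_red_eq_zero_good hℓ hℓN (Or.inl h5) A hA x hx ℓ
      hℓ.pos hℓx hred

end Fermat.Agent.S15P.RedFix15
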