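import Mathlib
import Fermat.Prelude.Def_GaloisRep_ComplexConjugation
import Fermat.Agent.ESJ.Jac.FiniteLevel
import Fermat.Agent.ESJ.Rep.CycloMod
import Fermat.Agent.S15P.Char96
import Fermat.Agent.S15P.GoodDiv85
import Fermat.Agent.S15P.InterfacesJH
import Fermat.Agent.S15P.JHLineChar87
import Fermat.Agent.S15P.MainCount40

/-!
# S15 / (DESC): the step hypotheses `H`, `Htriv`, `Hmu` of `Desc40` at `J₀(p)`, character half

For a step `S < S + ⟨y⟩` of the flag and a division point `z` (`r z` Galois-fixed,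
`γ z - z ≡ j y mod S`), the coefficient `γ ↦ j mod r` is a character (trivial step) resp. a
cocycle twisted by the cyclotomic character (`μ`-step) of `G_ℚ`; it is unramified outside `p r`
(`GoodDiv85`), of finite level (`ESJ.Jac.FiniteLevel`), and the theorems of `Char96` kill it as
soon as the ONE local input at the descent prime `r` is given:

* `step_two`  (`r = 2`): input `h2` (no `√unit`-type class at `2`);
* `step_triv` (`r` any prime `≠ p`): input `hunrR` (unramified at one place over `r`);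
* `step_mu`   (`r` odd): input `hunit` (a Kummer generator of the cocycle has `r`-integral
  valuation at one place over `r`).
-/

set_option autoImplicit false
set_option linter.unusedSectionVars false
set_option linter.unusedVariables false

namespace Fermat.Agent.S15P.StepChar55

section abstract

variable {Γ J : Type*} [Group Γ] [AddCommGroup J] [DistribMulAction Γ J]

theorem zsmul_mem_of_dvd {S : AddSubgroup J} {y : J} {r : ℕ} (hry : r • y ∈ S) {n : ℤ}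
    (h : (r : ℤ) ∣ n) : n • y ∈ S := by
  obtain ⟨t, rfl⟩ := h
  rw [mul_comm, mul_smul, natCast_zsmul]
  exact S.zsmul_mem hry t

theorem dvd_of_zsmul_mem {S : AddSubgroup J} {y : J} {r : ℕ} (hr : r.Prime) (hyS : y ∉ S)
    (hry : r • y ∈ S) {n : ℤ} (h : n • y ∈ S) : (r : ℤ) ∣ n := by
  by_contra hn
  obtain ⟨u, v, huv⟩ := (Nat.prime_iff_prime_int.mp hr).irreducible.coprime_iff_not_dvd.mpr hn
  apply hyS
  have e : y = u • ((r : ℤ) • y) + v • (n • y) := by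
    rw [← mul_smul, ← mul_smul, ← add_smul, huv, one_smul]
  rw [e, natCast_zsmul]
  exact S.add_mem (S.zsmul_mem hry u) (S.zsmul_mem h v)

open Classical in
/-- The coefficient of `w` along `y` modulo `S`, as an element of `ZMod r`. -/
noncomputable def coeffOf (S : AddSubgroup J) (y : J) (r : ℕ) (w : J) : ZMod r :=
  if h : ∃ j : ℤ, w - j • y ∈ S then ((h.choose : ℤ) : ZMod r) else 0

/-- The coefficient of `γ z - z` along `y` modulo `S`, as an element of `ZMod r`. -/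
noncomputable def coeff (S : AddSubgroup J) (y z : J) (r : ℕ) (γ : Γ) : ZMod r :=
  coeffOf S y r (γ • z - z)

theorem exists_coeff_of_or {S : AddSubgroup J} {y w : J} (h : w ∈ S ∨ w - y ∈ S) :
    ∃ j : ℤ, w - j • y ∈ S := by
  rcases h with h | h
  · exact ⟨0, by rwa [zero_zsmul, sub_zero]⟩
  · exact ⟨1, by rwa [one_zsmul]⟩

theorem two_zsmul_mem {S : AddSubgroup J} {c y : J} (h1 : c + y ∈ S) (h2 : c - y ∈ S) :
    (2 : ℤ) • y ∈ S := by
  have e : (2 : ℤ) • y = (c + y) - (c - y) := by module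
  rw [e]
  exact S.sub_mem h1 h2

theorem step_identity (a b y : J) (k j m : ℤ) :
    a - k • (b - y) = (a - j • y) + (j - k * (m - 1)) • y - k • (b - m • y) := by
  module

theorem coeff_eq {S : AddSubgroup J} {y z : J} {r : ℕ} (hr : r.Prime) (hyS : y ∉ S)
    (hry : r • y ∈ S) {γ : Γ} {j : ℤ} (h : γ • z - z - j • y ∈ S) :
    coeff S y z r γ = (j : ZMod r) := by
  have hex : ∃ j : ℤ, γ • z - z - j • y ∈ S := ⟨j, h⟩
  rw [coeff, coeffOf, dif_pos hex]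
  have hd : (j - hex.choose) • y ∈ S := by
    have e : (j - hex.choose) • y = (γ • z - z - hex.choose • y) - (γ • z - z - j • y) := by
      rw [sub_smul]; abel
    rw [e]
    exact S.sub_mem hex.choose_spec h
  exact (ZMod.intCast_eq_intCast_iff_dvd_sub _ _ _).2 (dvd_of_zsmul_mem hr hyS hry hd)

theorem coeff_eq_zero_iff {S : AddSubgroup J} {y z : J} {r : ℕ} (hr : r.Prime) (hyS : y ∉ S)
    (hry : r • y ∈ S) {γ : Γ} (hex : ∃ j : ℤ, γ • z - z - j • y ∈ S) :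
    coeff S y z r γ = 0 ↔ γ • z - z ∈ S := by
  constructor
  · intro h0
    obtain ⟨j, hj⟩ := hex
    rw [coeff_eq hr hyS hry hj] at h0
    have hd : (r : ℤ) ∣ j := (ZMod.intCast_zmod_eq_zero_iff_dvd j r).1 h0
    have e : γ • z - z = (γ • z - z - j • y) + j • y := by abel
    rw [e]
    exact S.add_mem hj (zsmul_mem_of_dvd hry hd)
  · intro h
    have h' : γ • z - z - (0 : ℤ) • y ∈ S := by rwa [zero_zsmul, sub_zero]
    rw [coeff_eq hr hyS hry h', Int.cast_zero]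

/-- Trivial step: the coefficient is additive. -/
theorem coeff_mul_of_fixed {S : AddSubgroup J} (hS : ∀ (γ : Γ) (x : J), x ∈ S → γ • x ∈ S)
    {y z : J} {r : ℕ} (hr : r.Prime) (hyS : y ∉ S) (hry : r • y ∈ S)
    (hy : ∀ γ : Γ, γ • y - y ∈ S) (hz : ∀ γ : Γ, ∃ j : ℤ, γ • z - z - j • y ∈ S) (g h : Γ) :
    coeff S y z r (g * h) = coeff S y z r g + coeff S y z r h := by
  obtain ⟨jg, hjg⟩ := hz g
  obtain ⟨jh, hjh⟩ := hz h
  have key : (g * h) • z - z - (jg + jh) • y ∈ S := by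
    have e : (g * h) • z - z - (jg + jh) • y =
        g • (h • z - z - jh • y) + jh • (g • y - y) + (g • z - z - jg • y) := by
      rw [mul_smul, smul_sub, smul_sub, smul_comm g jh y, add_smul, smul_sub]
      abel
    rw [e]
    exact S.add_mem (S.add_mem (hS g _ hjh) (S.zsmul_mem (hy g) jh)) hjg
  rw [coeff_eq hr hyS hry key, coeff_eq hr hyS hry hjg, coeff_eq hr hyS hry hjh, Int.cast_add]

/-- Scalar step: the coefficient is a cocycle twisted by the scalar of `g` on `y`. -/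
theorem coeff_mul_of_scalar {S : AddSubgroup J} (hS : ∀ (γ : Γ) (x : J), x ∈ S → γ • x ∈ S)
    {y z : J} {r : ℕ} (hr : r.Prime) (hyS : y ∉ S) (hry : r • y ∈ S)
    (hz : ∀ γ : Γ, ∃ j : ℤ, γ • z - z - j • y ∈ S) (g h : Γ) (m : ℤ)
    (hm : g • y - m • y ∈ S) :
    coeff S y z r (g * h) = coeff S y z r g + (m : ZMod r) * coeff S y z r h := by
  obtain ⟨jg, hjg⟩ := hz g
  obtain ⟨jh, hjh⟩ := hz h
  have key : (g * h) • z - z - (jg + m * jh) • y ∈ S := by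
    have e : (g * h) • z - z - (jg + m * jh) • y =
        g • (h • z - z - jh • y) + jh • (g • y - m • y) + (g • z - z - jg • y) := by
      rw [mul_smul, smul_sub, smul_sub, smul_comm g jh y, add_smul, smul_sub, mul_comm m jh,
        mul_smul]
      abel
    rw [e]
    exact S.add_mem (S.add_mem (hS g _ hjh) (S.zsmul_mem hm jh)) hjg
  rw [coeff_eq hr hyS hry key, coeff_eq hr hyS hry hjg, coeff_eq hr hyS hry hjh, Int.cast_add,
    Int.cast_mul]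

theorem coeff_mul_right_of_fixed {S : AddSubgroup J} {y z : J} {r : ℕ} (s : Γ) (hs : s • z = z)
    (g : Γ) : coeff S y z r (g * s) = coeff S y z r g := by
  unfold coeff
  rw [mul_smul, hs]

end abstract

section concrete

open ModularCurve AlgebraicCurve

local notation "Qb" => AlgebraicClosure ℚ
local notation "GQ" => (AlgebraicClosure ℚ ≃ₐ[ℚ] AlgebraicClosure ℚ)

/-- Finite level of a point of `J₀(p)(ℚ̄)`, in `fixingSubgroup` form. -/
theorem exists_level (p : ℕ) [NeZero p] (z : JZero p) :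
    ∃ F : IntermediateField ℚ Qb, FiniteDimensional ℚ F ∧
      ∀ s : GQ, s ∈ F.fixingSubgroup → s • z = z := by
  obtain ⟨F, hFfd, hF⟩ := Fermat.Agent.ESJ.Jac.FiniteLevel.exists_finiteLevel_of_finite (N := p)
    {z} (Set.finite_singleton z)
  refine ⟨F, hFfd, fun s hs => hF s (fun x hx => ?_) z rfl⟩
  exact (IntermediateField.mem_fixingSubgroup_iff F s).1 hs x hx

/-- Unramified outside `p r` (L2). -/
theorem inertia_fix (p : ℕ) [NeZero p] (hp : p.Prime) (r : ℕ) (hr : r.Prime) (z : JZero p)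
    (hrz : ∀ g : GQ, g • (r • z) = r • z) (ℓ : ℕ) (hℓ : ℓ.Prime) (hℓp : ℓ ≠ p) (hℓr : ℓ ≠ r)
    (B : ValuationSubring Qb) (hB : B.LiesOverPrime ℓ) (τ : GQ)
    (hτ : τ ∈ B.inertiaSubgroupIn ℚ) : τ • z = z :=
  Fermat.Agent.S15P.GoodDiv85.inertia_smul_eq_of_rational p ℓ hℓ
    (fun h => hℓp ((Nat.prime_dvd_prime_iff_eq hℓ hp).mp h)) B hB r hr.ne_zero
    (fun h => hℓr ((Nat.prime_dvd_prime_iff_eq hℓ hr).mp h)) z hrz τ hτ

/-- **`Htriv`** (trivial step, any prime `r ≠ p`), modulo the local input at `r`. -/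
theorem step_triv (p : ℕ) [NeZero p] (hp : p.Prime) (r : ℕ) [Fact r.Prime] (hrp : r ≠ p)
    (S : AddSubgroup (JZero p)) (hS : ∀ (γ : GQ) (x : JZero p), x ∈ S → γ • x ∈ S)
    (y z : JZero p) (hyS : y ∉ S) (hry : r • y ∈ S) (hrz : ∀ g : GQ, g • (r • z) = r • z)
    (A : ValuationSubring Qb) (hA : A.LiesOverPrime p) (σ : GQ)
    (hσ : σ ∈ A.inertiaSubgroupIn ℚ) (hσp : ∀ π : Qb, π ^ r = (p : Qb) → σ π ≠ π)
    (hy : ∀ γ : GQ, γ • y - y ∈ S) (hzy : ∀ γ : GQ, ∃ j : ℤ, γ • z - z - j • y ∈ S)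
    (hσz : σ • z - z ∈ S) (P : ValuationSubring Qb) (hP : P.LiesOverPrime r)
    (hunrR : ∀ τ ∈ P.inertiaSubgroupIn ℚ, τ • z - z ∈ S) : ∀ γ : GQ, γ • z - z ∈ S := by
  have hr : r.Prime := Fact.out
  obtain ⟨F, hFfd, hF⟩ := exists_level p z
  have hδ0 : ∀ γ : GQ, coeff S y z r γ = 0 ↔ γ • z - z ∈ S :=
    fun γ => coeff_eq_zero_iff hr hyS hry (hzy γ)
  have hadd : ∀ g h : GQ, coeff S y z r (g * h) = coeff S y z r g + coeff S y z r h :=
    coeff_mul_of_fixed hS hr hyS hry hy hzy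
  have hall : ∀ γ : GQ, coeff S y z r γ = 0 := by
    refine Char96.char_eq_zero_of_sigma hp hrp (coeff S y z r) hadd F
      (fun g s hs => coeff_mul_right_of_fixed s (hF s hs) g) ?_ A hA σ hσ hσp ((hδ0 σ).2 hσz)
    intro ℓ hℓ hℓp B hB τ hτ
    by_cases hℓr : ℓ = r
    · subst hℓr
      exact Char96.char_inertia_of_place hℓ (coeff S y z ℓ) hadd P hP
        (fun τ hτ => (hδ0 τ).2 (hunrR τ hτ)) B hB τ hτ
    · refine (hδ0 τ).2 ?_
      rw [inertia_fix p hp r hr z hrz ℓ hℓ hℓp hℓr B hB τ hτ, sub_self]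
      exact S.zero_mem
  exact fun γ => (hδ0 γ).1 (hall γ)

/-- **`H`** (`r = 2`), modulo the local input at `2`. -/
theorem step_two (p : ℕ) [NeZero p] (hp : p.Prime) (hp2 : p ≠ 2)
    (S : AddSubgroup (JZero p)) (hS : ∀ (γ : GQ) (x : JZero p), x ∈ S → γ • x ∈ S)
    (y z : JZero p) (hyS : y ∉ S) (hry : 2 • y ∈ S) (hrz : ∀ g : GQ, g • (2 • z) = 2 • z)
    (A : ValuationSubring Qb) (hA : A.LiesOverPrime p) (σ : GQ)
    (hσ : σ ∈ A.inertiaSubgroupIn ℚ) (hσp : ∀ s : Qb, s ^ 2 = (p : Qb) → σ s = -s)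
    (hy : ∀ γ : GQ, γ • y - y ∈ S)
    (hzy : ∀ γ : GQ, γ • z - z ∈ S ∨ γ • z - z - y ∈ S)
    (hσz : σ • z - z ∈ S) (hcz : complexConjugation • z - z ∈ S)
    (P : ValuationSubring Qb)
    (h2 : ∀ θ : Qb, (∀ τ ∈ P.inertiaSubgroupIn ℚ, τ θ = θ ∨ τ θ = -θ) →
      (∀ τ ∈ P.inertiaSubgroupIn ℚ, (τ θ = θ ↔ τ • z - z ∈ S)) →
      P.valuation θ ^ 2 ≠ P.valuation 2) : ∀ γ : GQ, γ • z - z ∈ S := by
  have hr : (2 : ℕ).Prime := Nat.prime_two
  have hzy' : ∀ γ : GQ, ∃ j : ℤ, γ • z - z - j • y ∈ S := fun γ => exists_coeff_of_or (hzy γ)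
  obtain ⟨F, hFfd, hF⟩ := exists_level p z
  have hδ0 : ∀ γ : GQ, coeff S y z 2 γ = 0 ↔ γ • z - z ∈ S :=
    fun γ => coeff_eq_zero_iff hr hyS hry (hzy' γ)
  have hadd : ∀ g h : GQ, coeff S y z 2 (g * h) = coeff S y z 2 g + coeff S y z 2 h :=
    coeff_mul_of_fixed hS hr hyS hry hy hzy'
  have hall : ∀ γ : GQ, coeff S y z 2 γ = 0 := by
    refine Char96.quadChar_eq_zero' hp hp2 (coeff S y z 2) hadd F
      (fun g s hs => coeff_mul_right_of_fixed s (hF s hs) g) ?_ P ?_ A hA σ hσ hσp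
      ((hδ0 σ).2 hσz) ((hδ0 _).2 hcz)
    · intro ℓ hℓ hℓ2 hℓp B hB τ hτ
      refine (hδ0 τ).2 ?_
      rw [inertia_fix p hp 2 hr z hrz ℓ hℓ hℓp hℓ2 B hB τ hτ, sub_self]
      exact S.zero_mem
    · intro θ h1 h3
      exact h2 θ h1 (fun τ hτ => (h3 τ hτ).trans (hδ0 τ))
  exact fun γ => (hδ0 γ).1 (hall γ)

/-- **`Hmu`** (`μ`-step, `r` odd), modulo the local input at `r`; the step character is given
in the cyclotomic form of `JH.LineChar`. -/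
theorem step_mu (p : ℕ) [NeZero p] (hp : p.Prime) (r : ℕ) [Fact r.Prime] (hr2 : r ≠ 2)
    (hrp : r ≠ p)
    (S : AddSubgroup (JZero p)) (hS : ∀ (γ : GQ) (x : JZero p), x ∈ S → γ • x ∈ S)
    (y z : JZero p) (hyS : y ∉ S) (hry : r • y ∈ S) (hrz : ∀ g : GQ, g • (r • z) = r • z)
    (A : ValuationSubring Qb) (hA : A.LiesOverPrime p) (σ : GQ)
    (hσ : σ ∈ A.inertiaSubgroupIn ℚ) (hσp : ∀ π : Qb, π ^ r = (p : Qb) → σ π ≠ π)
    (hcyc : ∀ (γ : GQ) (ζ : Qb) (m : ℕ), ζ ^ r = 1 → ζ ≠ 1 → γ ζ = ζ ^ m → γ • y - m • y ∈ S)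
    (hzy : ∀ γ : GQ, ∃ j : ℤ, γ • z - z - j • y ∈ S) (hσz : σ • z - z ∈ S)
    {ζ : Qb} (hζ : IsPrimitiveRoot ζ r) (P : ValuationSubring Qb) (hP : P.LiesOverPrime r)
    (hunit : ∀ θ : Qb, θ ≠ 0 →
      (∀ (g : GQ) (j : ℤ), g • z - z - j • y ∈ S → g θ = ζ ^ j * θ) →
      ∃ n : ℤ, P.valuation θ = P.valuation ((r : Qb) ^ n)) :
    ∃ j : ℤ, ∀ γ : GQ, γ • z - z - j • (γ • y - y) ∈ S := by
  have hr : r.Prime := Fact.out
  have : NeZero r := ⟨hr.ne_zero⟩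
  obtain ⟨F, hFfd, hF⟩ := exists_level p z
  -- the cyclotomic exponent
  let m : GQ → ℤ := fun g =>
    ((((Fermat.Agent.ESJ.Rep.cycloMod r g : (ZMod r)ˣ) : ZMod r).val : ℕ) : ℤ)
  have hm : ∀ g : GQ, g ζ = ζ ^ m g := by
    intro g
    show g ζ = ζ ^ (((((Fermat.Agent.ESJ.Rep.cycloMod r g : (ZMod r)ˣ) : ZMod r).val : ℕ) : ℤ))
    rw [zpow_natCast]
    exact Fermat.Agent.ESJ.Rep.cycloMod_spec r g ζ hζ.pow_eq_one
  have hmy : ∀ g : GQ, g • y - m g • y ∈ S := by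
    intro g
    show g • y - ((((Fermat.Agent.ESJ.Rep.cycloMod r g : (ZMod r)ˣ) : ZMod r).val : ℕ) : ℤ) • y
      ∈ S
    rw [natCast_zsmul]
    exact hcyc g ζ _ hζ.pow_eq_one (hζ.ne_one hr.one_lt)
      (Fermat.Agent.ESJ.Rep.cycloMod_spec r g ζ hζ.pow_eq_one)
  have hδ0 : ∀ γ : GQ, coeff S y z r γ = 0 ↔ γ • z - z ∈ S :=
    fun γ => coeff_eq_zero_iff hr hyS hry (hzy γ)
  have hco : ∀ g h : GQ, coeff S y z r (g * h) =
      coeff S y z r g + (m g : ZMod r) * coeff S y z r h :=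
    fun g h => coeff_mul_of_scalar hS hr hyS hry hzy g h (m g) (hmy g)
  obtain ⟨k, hk⟩ := Char96.cocycle_eq_coboundary_of_sigma_val hp hr2 hrp hζ m hm (coeff S y z r)
    hco F (fun g s hs => coeff_mul_right_of_fixed s (hF s hs) g)
    (fun ℓ hℓ hℓp hℓr B hB τ hτ => (hδ0 τ).2 (by
      rw [inertia_fix p hp r hr z hrz ℓ hℓ hℓp hℓr B hB τ hτ, sub_self]
      exact S.zero_mem)) P hP
    (fun θ hθ0 hθ => hunit θ hθ0 (fun g j hj => by
      rw [hθ g, coeff_eq hr hyS hry hj, Char96.zeta_pow_val_intCast hζ.pow_eq_one j]))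
    A hA σ hσ hσp ((hδ0 σ).2 hσz)
  refine ⟨(k.val : ℤ), fun γ => ?_⟩
  obtain ⟨jγ, hjγ⟩ := hzy γ
  have h1 : ((jγ - (k.val : ℤ) * (m γ - 1) : ℤ) : ZMod r) = 0 := by
    have := hk γ
    rw [coeff_eq hr hyS hry hjγ] at this
    push_cast
    rw [this, ZMod.natCast_zmod_val]
    ring
  have hd : (r : ℤ) ∣ jγ - (k.val : ℤ) * (m γ - 1) :=
    (ZMod.intCast_zmod_eq_zero_iff_dvd _ r).1 h1
  rw [step_identity (γ • z - z) (γ • y) y (k.val : ℤ) jγ (m γ)]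
  exact S.sub_mem (S.add_mem hjγ (zsmul_mem_of_dvd hry hd)) (S.zsmul_mem (hmy γ) _)

/-- **`Hmu`** in the binder shape of `Desc40.exists_poly_odd` (step `y` scalar with
`c y ≡ -y`), the cyclotomic form of the step character coming from `JH.LineChar`. -/
theorem step_mu' (p : ℕ) [NeZero p] (hp : p.Prime) (r : ℕ) [Fact r.Prime] (hr2 : r ≠ 2)
    (hrp : r ≠ p) (B : Finset ℕ) (X : AddSubgroup (JZero p)) (n : ℕ)
    (hX : Fermat.Agent.S15P.JH.IsEisPiece p r n B X)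
    (S : AddSubgroup (JZero p)) (hSX : S ≤ X)
    (hS : ∀ (γ : GQ) (x : JZero p), x ∈ S → γ • x ∈ S)
    (y z : JZero p) (hyX : y ∈ X) (hyS : y ∉ S) (hry : r • y ∈ S)
    (hrz : ∀ g : GQ, g • (r • z) = r • z)
    (A : ValuationSubring Qb) (hA : A.LiesOverPrime p) (σ : GQ)
    (hσ : σ ∈ A.inertiaSubgroupIn ℚ) (hσp : ∀ π : Qb, π ^ r = (p : Qb) → σ π ≠ π)
    (hsc : ∀ γ : GQ, ∃ m : ℤ, γ • y - m • y ∈ S) (hcy : complexConjugation • y + y ∈ S)
    (hzy : ∀ γ : GQ, ∃ j : ℤ, γ • z - z - j • y ∈ S) (hσz : σ • z - z ∈ S)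
    {ζ : Qb} (hζ : IsPrimitiveRoot ζ r) (P : ValuationSubring Qb) (hP : P.LiesOverPrime r)
    (hunit : ∀ θ : Qb, θ ≠ 0 →
      (∀ (g : GQ) (j : ℤ), g • z - z - j • y ∈ S → g θ = ζ ^ j * θ) →
      ∃ n : ℤ, P.valuation θ = P.valuation ((r : Qb) ^ n)) :
    ∃ j : ℤ, ∀ γ : GQ, γ • z - z - j • (γ • y - y) ∈ S := by
  have hr : r.Prime := Fact.out
  rcases Fermat.Agent.S15P.JHLineChar87.lineChar p r hr B X n hX S hSX hS y hyX hry hsc with
    h | h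
  · exfalso
    have h2y : (2 : ℤ) • y ∈ S := two_zsmul_mem hcy (h complexConjugation)
    have hd : (r : ℤ) ∣ 2 := dvd_of_zsmul_mem hr hyS hry h2y
    have hd' : r ∣ 2 := by exact_mod_cast hd
    exact hr2 ((Nat.prime_dvd_prime_iff_eq hr Nat.prime_two).mp hd')
  · exact step_mu p hp r hr2 hrp S hS y z hyS hry hrz A hA σ hσ hσp h hzy hσz hζ P hP hunit

/-! ### The three binders of `Desc40` (`Γ := G_ℚ`, `J := J₀(p)`, `c := complexConjugation`) -/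

open Fermat.Agent.S15P.MainCount40 in
/-- `Desc40.exists_poly_two`'s binder `H`, from the local input at `2` (`hloc`). -/
theorem H_of_local (p : ℕ) [NeZero p] (hp : p.Prime) (hp2 : p ≠ 2)
    (M G : AddSubgroup (JZero p)) (hM : ∀ x ∈ M, ∀ γ : GQ, γ • x = x)
    (A : ValuationSubring Qb) (hA : A.LiesOverPrime p) (σ : GQ)
    (hσ : σ ∈ A.inertiaSubgroupIn ℚ) (hσp : ∀ s : Qb, s ^ 2 = (p : Qb) → σ s = -s)
    (P : ValuationSubring Qb)
    (hloc : ∀ S : AddSubgroup (JZero p), S ≤ G →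
      (∀ (γ : GQ) (x : JZero p), x ∈ S → γ • x ∈ S) → ∀ y ∈ G, y ∉ S → 2 • y ∈ S →
      (∀ γ : GQ, γ • y - y ∈ S) → ∀ z ∈ Zdiv GQ 2 M G,
      (∀ γ : GQ, γ • z - z ∈ S ∨ γ • z - z - y ∈ S) →
      ∀ θ : Qb, (∀ τ ∈ P.inertiaSubgroupIn ℚ, τ θ = θ ∨ τ θ = -θ) →
        (∀ τ ∈ P.inertiaSubgroupIn ℚ, (τ θ = θ ↔ τ • z - z ∈ S)) →
        P.valuation θ ^ 2 ≠ P.valuation 2) :
    ∀ S : AddSubgroup (JZero p), S ≤ G → (∀ (γ : GQ) (x : JZero p), x ∈ S → γ • x ∈ S) →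
      ∀ y ∈ G, y ∉ S → 2 • y ∈ S → (∀ γ : GQ, γ • y - y ∈ S) →
      ∀ z ∈ Zdiv GQ 2 M G, (∀ γ : GQ, γ • z - z ∈ S ∨ γ • z - z - y ∈ S) → σ • z - z ∈ S →
        complexConjugation • z - z ∈ S → ∀ γ : GQ, γ • z - z ∈ S :=
  fun S hSG hS y hyG hyS h2y hy z hz hzy hσz hcz =>
    step_two p hp hp2 S hS y z hyS h2y (fun g => hM _ hz.1 g) A hA σ hσ hσp hy hzy hσz hcz P
      (hloc S hSG hS y hyG hyS h2y hy z hz hzy)

open Fermat.Agent.S15P.MainCount40 in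
/-- `Desc40.exists_poly_odd`'s binder `Htriv`, from the local input at `r` (`hloc`). -/
theorem Htriv_of_local (p : ℕ) [NeZero p] (hp : p.Prime) (r : ℕ) [Fact r.Prime] (hrp : r ≠ p)
    (M G : AddSubgroup (JZero p)) (hM : ∀ x ∈ M, ∀ γ : GQ, γ • x = x)
    (A : ValuationSubring Qb) (hA : A.LiesOverPrime p) (σ : GQ)
    (hσ : σ ∈ A.inertiaSubgroupIn ℚ) (hσp : ∀ π : Qb, π ^ r = (p : Qb) → σ π ≠ π)
    (P : ValuationSubring Qb) (hP : P.LiesOverPrime r)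
    (hloc : ∀ S : AddSubgroup (JZero p), S ≤ G →
      (∀ (γ : GQ) (x : JZero p), x ∈ S → γ • x ∈ S) → ∀ y ∈ G, y ∉ S → r • y ∈ S →
      (∀ γ : GQ, γ • y - y ∈ S) → ∀ z ∈ Zdiv GQ r M G,
      (∀ γ : GQ, ∃ j : ℤ, γ • z - z - j • y ∈ S) →
      ∀ τ ∈ P.inertiaSubgroupIn ℚ, τ • z - z ∈ S) :
    ∀ S : AddSubgroup (JZero p), S ≤ G → (∀ (γ : GQ) (x : JZero p), x ∈ S → γ • x ∈ S) →
      ∀ y ∈ G, y ∉ S → r • y ∈ S → (∀ γ : GQ, γ • y - y ∈ S) →
      ∀ z ∈ Zdiv GQ r M G, (∀ γ : GQ, ∃ j : ℤ, γ • z - z - j • y ∈ S) → σ • z - z ∈ S →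
        ∀ γ : GQ, γ • z - z ∈ S :=
  fun S hSG hS y hyG hyS hry hy z hz hzy hσz =>
    step_triv p hp r hrp S hS y z hyS hry (fun g => hM _ hz.1 g) A hA σ hσ hσp hy hzy hσz P hP
      (hloc S hSG hS y hyG hyS hry hy z hz hzy)

open Fermat.Agent.S15P.MainCount40 in
/-- `Desc40.exists_poly_odd`'s binder `Hmu`, from the local input at `r` (`hloc`); `G` an
Eisenstein piece. -/
theorem Hmu_of_local (p : ℕ) [NeZero p] (hp : p.Prime) (r : ℕ) [Fact r.Prime] (hr2 : r ≠ 2)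
    (hrp : r ≠ p) (M G : AddSubgroup (JZero p)) (hM : ∀ x ∈ M, ∀ γ : GQ, γ • x = x)
    (B : Finset ℕ) (n : ℕ) (hG : Fermat.Agent.S15P.JH.IsEisPiece p r n B G)
    (A : ValuationSubring Qb) (hA : A.LiesOverPrime p) (σ : GQ)
    (hσ : σ ∈ A.inertiaSubgroupIn ℚ) (hσp : ∀ π : Qb, π ^ r = (p : Qb) → σ π ≠ π)
    {ζ : Qb} (hζ : IsPrimitiveRoot ζ r) (P : ValuationSubring Qb) (hP : P.LiesOverPrime r)
    (hloc : ∀ S : AddSubgroup (JZero p), S ≤ G →
      (∀ (γ : GQ) (x : JZero p), x ∈ S → γ • x ∈ S) → ∀ y ∈ G, y ∉ S → r • y ∈ S →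
      (∀ γ : GQ, ∃ m : ℤ, γ • y - m • y ∈ S) → complexConjugation • y + y ∈ S →
      ∀ z ∈ Zdiv GQ r M G, (∀ γ : GQ, ∃ j : ℤ, γ • z - z - j • y ∈ S) →
      ∀ θ : Qb, θ ≠ 0 → (∀ (g : GQ) (j : ℤ), g • z - z - j • y ∈ S → g θ = ζ ^ j * θ) →
        ∃ n : ℤ, P.valuation θ = P.valuation ((r : Qb) ^ n)) :
    ∀ S : AddSubgroup (JZero p), S ≤ G → (∀ (γ : GQ) (x : JZero p), x ∈ S → γ • x ∈ S) →
      ∀ y ∈ G, y ∉ S → r • y ∈ S → (∀ γ : GQ, ∃ m : ℤ, γ • y - m • y ∈ S) →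
      complexConjugation • y + y ∈ S →
      ∀ z ∈ Zdiv GQ r M G, (∀ γ : GQ, ∃ j : ℤ, γ • z - z - j • y ∈ S) → σ • z - z ∈ S →
        ∃ j : ℤ, ∀ γ : GQ, γ • z - z - j • (γ • y - y) ∈ S :=
  fun S hSG hS y hyG hyS hry hsc hcy z hz hzy hσz =>
    step_mu' p hp r hr2 hrp B G n hG S hSG hS y z hyG hyS hry (fun g => hM _ hz.1 g) A hA σ hσ
      hσp hsc hcy hzy hσz hζ P hP (hloc S hSG hS y hyG hyS hry hsc hcy z hz hzy)

end concrete

end Fermat.Agent.S15P.StepChar55
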