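/-
S15P — the STEP MODULE, level-free (helper87).

`J = J₀(N)(ℚ̄)`, `r` a prime not dividing `N`, `S ≤ J` a Galois-stable subgroup, `y ∈ J ∖ S` with
`r y ∈ S` and `r^k y = 0`, on which Galois acts by a scalar `χ` modulo `S`; `z ∈ J` with `r^k z`
rational and `γ z - z ≡ a(γ) y` modulo `S`.  Then the two-step module `(ℤ/r)²` with the action
`γ (b, c) = (χ(γ) b + c a(γ), c)` has a Hopf order at `r`: it is a subquotient of the Kummer
group `J[r^k] × ℤ/r^k` of `z` (`Ord15.hasHopfOrder_kummer`, (ORD0) on main).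

* `coef`              : the coefficient of `y` on the line `S + ℤ y`, as a hom to `ℤ/r`;
* `stepAct`           : the step action;
* `hasHopfOrder_step` : the Hopf order.
-/
import Mathlib
import Fermat.Agent.S15P.Ord.KumMain15
import Fermat.Agent.Lib.FinFlat.Quotient

set_option autoImplicit false

namespace Fermat.Agent.S15P.StepHopf87

open ModularCurve Fermat.Agent.Lib.FinFlat

local notation "Qb" => AlgebraicClosure ℚ
local notation "GQ" => (AlgebraicClosure ℚ ≃ₐ[ℚ] AlgebraicClosure ℚ)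

/-! ### The coefficient of `y` on the line `S + ℤ y` -/

section Coef

variable {J : Type*} [AddCommGroup J] {S : AddSubgroup J} {y : J} {r : ℕ}

theorem zsmul_mem_of_dvd (hry : r • y ∈ S) {n : ℤ} (h : (r : ℤ) ∣ n) : n • y ∈ S := by
  obtain ⟨t, rfl⟩ := h
  rw [mul_comm, mul_zsmul, natCast_zsmul]
  exact S.zsmul_mem hry t

/-- `t ≡ n y` and `r ∣ n - n'` give `t ≡ n' y` modulo `S`. -/
theorem coef_congr (hry : r • y ∈ S) {t : J} {n n' : ℤ} (h : t - n • y ∈ S)
    (hd : (r : ℤ) ∣ n - n') : t - n' • y ∈ S := by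
  have e : t - n' • y = (t - n • y) + (n - n') • y := by rw [sub_zsmul]; abel
  rw [e]
  exact S.add_mem h (zsmul_mem_of_dvd hry hd)

/-- The coefficient is unique modulo `r`. -/
theorem coef_dvd (hr : r.Prime) (hyS : y ∉ S) (hry : r • y ∈ S) {t : J} {n n' : ℤ}
    (h : t - n • y ∈ S) (h' : t - n' • y ∈ S) : (r : ℤ) ∣ n - n' := by
  by_contra hnd
  have h1 : (n - n') • y ∈ S := by
    have e : (n - n') • y = (t - n' • y) - (t - n • y) := by rw [sub_zsmul]; abel
    rw [e]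
    exact S.sub_mem h' h
  have hcop : IsCoprime (r : ℤ) (n - n') :=
    (Nat.prime_iff_prime_int.mp hr).coprime_iff_not_dvd.mpr hnd
  obtain ⟨u, v, huv⟩ := hcop
  apply hyS
  have e : y = u • ((r : ℤ) • y) + v • ((n - n') • y) := by
    rw [← mul_zsmul, ← mul_zsmul, ← add_zsmul, huv, one_zsmul]
  rw [e]
  exact S.add_mem (S.zsmul_mem (by rw [natCast_zsmul]; exact hry) u) (S.zsmul_mem h1 v)

/-- The coefficient may be taken to be the canonical representative of its class modulo `r`. -/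
theorem coef_val [NeZero r] (hry : r • y ∈ S) {t : J} {n : ℤ} (h : t - n • y ∈ S) :
    t - ((((n : ZMod r)).val : ℕ) : ℤ) • y ∈ S := by
  refine coef_congr hry h ?_
  have h1 : (((((n : ZMod r)).val : ℕ) : ℤ) : ZMod r) = (n : ZMod r) := by
    rw [Int.cast_natCast, ZMod.natCast_zmod_val]
  exact (ZMod.intCast_eq_intCast_iff_dvd_sub _ _ r).1 h1

/-- The coefficient vanishes modulo `r` exactly when `t ∈ S`. -/
theorem coef_cast_eq_zero_iff (hr : r.Prime) (hyS : y ∉ S) (hry : r • y ∈ S) {t : J} {n : ℤ}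
    (h : t - n • y ∈ S) : (n : ZMod r) = 0 ↔ t ∈ S := by
  constructor
  · intro h0
    have hd : (r : ℤ) ∣ n := (ZMod.intCast_zmod_eq_zero_iff_dvd n r).1 h0
    have e : t = (t - n • y) + n • y := by abel
    rw [e]
    exact S.add_mem h (zsmul_mem_of_dvd hry hd)
  · intro ht
    have h0 : t - (0 : ℤ) • y ∈ S := by rw [zero_zsmul, sub_zero]; exact ht
    have hd := coef_dvd hr hyS hry h h0
    rw [sub_zero] at hd
    exact (ZMod.intCast_zmod_eq_zero_iff_dvd n r).2 hd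

/-- Two coefficients of the same vector agree modulo `r`. -/
theorem coef_cast_eq (hr : r.Prime) (hyS : y ∉ S) (hry : r • y ∈ S) {t : J} {n n' : ℤ}
    (h : t - n • y ∈ S) (h' : t - n' • y ∈ S) : (n : ZMod r) = (n' : ZMod r) :=
  (ZMod.intCast_eq_intCast_iff_dvd_sub _ _ r).2 (coef_dvd hr hyS hry h' h)

theorem exists_coef {t : J} (ht : t ∈ S ⊔ AddSubgroup.zmultiples y) :
    ∃ n : ℤ, t - n • y ∈ S := by
  obtain ⟨s, hs, u, hu, rfl⟩ := AddSubgroup.mem_sup.1 ht
  obtain ⟨n, rfl⟩ := AddSubgroup.mem_zmultiples_iff.1 hu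
  exact ⟨n, by simpa using hs⟩

theorem mem_line_of_coef {t : J} {n : ℤ} (h : t - n • y ∈ S) :
    t ∈ S ⊔ AddSubgroup.zmultiples y := by
  have e : t = (t - n • y) + n • y := by abel
  rw [e]
  exact AddSubgroup.mem_sup.2 ⟨_, h, _, AddSubgroup.mem_zmultiples_iff.2 ⟨n, rfl⟩, rfl⟩

variable (S y r) in
/-- The coefficient of `y` on the line `S + ℤ y` (`y ∉ S`, `r y ∈ S`, `r` prime), in `ℤ/r`. -/
noncomputable def coef (hr : r.Prime) (hyS : y ∉ S) (hry : r • y ∈ S) :
    ↥(S ⊔ AddSubgroup.zmultiples y) →+ ZMod r :=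
  AddMonoidHom.mk' (fun t => ((Classical.choose (exists_coef t.2) : ℤ) : ZMod r)) (by
    intro t t'
    have h := Classical.choose_spec (exists_coef t.2)
    have h' := Classical.choose_spec (exists_coef t'.2)
    have h'' := Classical.choose_spec (exists_coef (t + t').2)
    have hsum : ((t + t' : ↥(S ⊔ AddSubgroup.zmultiples y)) : J) -
        (Classical.choose (exists_coef t.2) + Classical.choose (exists_coef t'.2)) • y ∈ S := by
      have e : ((t + t' : ↥(S ⊔ AddSubgroup.zmultiples y)) : J) -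
          (Classical.choose (exists_coef t.2) + Classical.choose (exists_coef t'.2)) • y =
          ((t : J) - Classical.choose (exists_coef t.2) • y) +
            ((t' : J) - Classical.choose (exists_coef t'.2) • y) := by
        rw [add_zsmul, AddSubgroup.coe_add]; abel
      rw [e]
      exact S.add_mem h h'
    have hd := coef_dvd hr hyS hry hsum h''
    rw [← Int.cast_add]
    exact (ZMod.intCast_eq_intCast_iff_dvd_sub _ _ r).2 hd)

theorem coef_eq_iff (hr : r.Prime) (hyS : y ∉ S) (hry : r • y ∈ S)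
    (t : ↥(S ⊔ AddSubgroup.zmultiples y)) (n : ℤ) :
    coef S y r hr hyS hry t = (n : ZMod r) ↔ (t : J) - n • y ∈ S := by
  have h := Classical.choose_spec (exists_coef t.2)
  constructor
  · intro he
    have he' : ((Classical.choose (exists_coef t.2) : ℤ) : ZMod r) = (n : ZMod r) := he
    exact coef_congr hry h (by
      have := (ZMod.intCast_eq_intCast_iff_dvd_sub _ _ r).1 he'
      rw [← dvd_neg, neg_sub]; exact this)
  · intro hn
    have hd := coef_dvd hr hyS hry hn h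
    show ((Classical.choose (exists_coef t.2) : ℤ) : ZMod r) = (n : ZMod r)
    exact (ZMod.intCast_eq_intCast_iff_dvd_sub _ _ r).2 hd

end Coef

/-! ### The step module -/

/-- The step action on `(ℤ/r)²`: `γ (b, c) = (χ(γ) b + c a(γ), c)`. -/
def stepAct {r : ℕ} (χ a : GQ → ZMod r) : GQ → ZMod r × ZMod r → ZMod r × ZMod r :=
  fun γ v => (χ γ * v.1 + v.2 * a γ, v.2)

theorem stepAct_apply {r : ℕ} (χ a : GQ → ZMod r) (γ : GQ) (v : ZMod r × ZMod r) :
    stepAct χ a γ v = (χ γ * v.1 + v.2 * a γ, v.2) := rfl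

section Step

variable {N : ℕ}

/-- `J₀(N)[r^k]`, the first factor of the Kummer group. -/
abbrev Tors (N r k : ℕ) : Type := ↥(Submodule.torsionBy ℤ (JZero N) ((r ^ k : ℕ) : ℤ))

theorem gal_zsmul (γ : GQ) (n : ℤ) (x : JZero N) : γ • (n • x) = n • (γ • x) :=
  map_zsmul (DistribSMul.toAddMonoidHom (JZero N) γ) n x

theorem gal_nsmul (γ : GQ) (n : ℕ) (x : JZero N) : γ • (n • x) = n • (γ • x) :=
  map_nsmul (DistribSMul.toAddMonoidHom (JZero N) γ) n x

/-- The line `S + ℤ y` is Galois-stable. -/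
theorem line_stable (S : AddSubgroup (JZero N)) (hS : ∀ (γ : GQ) (x : JZero N), x ∈ S → γ • x ∈ S)
    (y : JZero N) (hy : ∀ γ : GQ, ∃ m : ℤ, γ • y - m • y ∈ S) (γ : GQ) {t : JZero N}
    (ht : t ∈ S ⊔ AddSubgroup.zmultiples y) : γ • t ∈ S ⊔ AddSubgroup.zmultiples y := by
  obtain ⟨n, hn⟩ := exists_coef ht
  obtain ⟨m, hm⟩ := hy γ
  have h1 : γ • t - (n * m) • y ∈ S := by
    have e : γ • t - (n * m) • y = γ • (t - n • y) + n • (γ • y - m • y) := by
      rw [smul_sub, gal_zsmul, zsmul_sub, mul_zsmul]; abel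
    rw [e]
    exact S.add_mem (hS γ _ hn) (S.zsmul_mem hm n)
  exact mem_line_of_coef h1

/-- The cocycle rule for the coefficients: if `g y ≡ m y`, `g z - z ≡ a_g y`, `h z - z ≡ a_h y`
and `(g h) z - z ≡ a_{gh} y` modulo `S`, then `a_{gh} ≡ a_g + m a_h` modulo `r`. -/
theorem coef_mul {r : ℕ} (hr : r.Prime) (S : AddSubgroup (JZero N))
    (hS : ∀ (γ : GQ) (x : JZero N), x ∈ S → γ • x ∈ S) (y : JZero N) (hyS : y ∉ S)
    (hry : r • y ∈ S) (z : JZero N) {g h : GQ} {m ag ah agh : ℤ}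
    (hm : g • y - m • y ∈ S) (hg : g • z - z - ag • y ∈ S) (hh : h • z - z - ah • y ∈ S)
    (hgh : (g * h) • z - z - agh • y ∈ S) : (r : ℤ) ∣ agh - (ag + m * ah) := by
  have hsum : (g * h) • z - z - (ag + m * ah) • y ∈ S := by
    have e : (g * h) • z - z - (ag + m * ah) • y =
        g • (h • z - z - ah • y) + ah • (g • y - m • y) + (g • z - z - ag • y) := by
      rw [smul_sub, smul_sub, gal_zsmul, zsmul_sub, add_zsmul, mul_smul, mul_comm, mul_zsmul]
      abel
    rw [e]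
    exact S.add_mem (S.add_mem (hS g _ hh) (S.zsmul_mem hm ah)) hg
  exact coef_dvd hr hyS hry hgh hsum

/-- The step module is killed by `r`. -/
theorem nsmul_step_eq_zero (r : ℕ) (v : ZMod r × ZMod r) : r • v = 0 := by
  refine Prod.ext ?_ ?_
  · show r • v.1 = 0
    rw [nsmul_eq_mul, ZMod.natCast_self, zero_mul]
  · show r • v.2 = 0
    rw [nsmul_eq_mul, ZMod.natCast_self, zero_mul]

/-- **The step module has a Hopf order at `r`.** -/
theorem hasHopfOrder_step [NeZero N] {r : ℕ} [Fact r.Prime] (hrN : ¬ r ∣ N) (k : ℕ)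
    (S : AddSubgroup (JZero N)) (hS : ∀ (γ : GQ) (x : JZero N), x ∈ S → γ • x ∈ S)
    (y : JZero N) (hyS : y ∉ S) (hry : r • y ∈ S) (hky : r ^ k • y = 0)
    (z : JZero N) (hz : ∀ γ : GQ, γ • (r ^ k • z) = r ^ k • z)
    (χ a : GQ → ZMod r)
    (hχ : ∀ γ : GQ, γ • y - ((χ γ).val : ℤ) • y ∈ S)
    (ha : ∀ γ : GQ, γ • z - z - ((a γ).val : ℤ) • y ∈ S) :
    HasHopfOrder r (stepAct χ a) := by
  have hr : r.Prime := Fact.out
  have hk : k ≠ 0 := by
    rintro rfl
    rw [pow_zero, one_smul] at hky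
    exact hyS (hky ▸ S.zero_mem)
  have : NeZero r := ⟨hr.ne_zero⟩
  have : NeZero (r ^ k) := ⟨pow_ne_zero _ hr.ne_zero⟩
  have hK := Ord15.hasHopfOrder_kummer N r hrN k z hz
  have : Finite (Tors N r k) := Ord15.torsion_finite (N := N) (r ^ k)
  -- the line
  set L : AddSubgroup (JZero N) := S ⊔ AddSubgroup.zmultiples y with hL
  have hyL : ∀ γ : GQ, ∃ m : ℤ, γ • y - m • y ∈ S := fun γ => ⟨_, hχ γ⟩
  have hzL : ∀ γ : GQ, γ • z - z ∈ L := fun γ => mem_line_of_coef (ha γ)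
  -- the projection to `J`
  let f : Tors N r k × ZMod (r ^ k) →+ JZero N :=
    ((Submodule.torsionBy ℤ (JZero N) ((r ^ k : ℕ) : ℤ)).subtype.toAddMonoidHom).comp
      (AddMonoidHom.fst _ _)
  have hf : ∀ w, f w = (w.1 : JZero N) := fun _ => rfl
  -- the submodule
  let W : AddSubgroup (Tors N r k × ZMod (r ^ k)) :=
    AddSubgroup.comap f L
  have hWmem : ∀ w, w ∈ W ↔ (w.1 : JZero N) ∈ L := fun _ => Iff.rfl
  have hact1 : ∀ (γ : GQ) (w : Tors N r k × ZMod (r ^ k)),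
      ((Ord15.kumAct (r ^ k) z hz γ w).1 : JZero N) = γ • (w.1 : JZero N) + w.2.val • (γ • z - z) :=
    fun _ _ => rfl
  have hact2 : ∀ (γ : GQ) (w : Tors N r k × ZMod (r ^ k)),
      (Ord15.kumAct (r ^ k) z hz γ w).2 = w.2 := fun _ _ => rfl
  have hWst : ∀ (γ : GQ) (w : Tors N r k × ZMod (r ^ k)),
      w ∈ W → Ord15.kumAct (r ^ k) z hz γ w ∈ W := by
    intro γ w hw
    rw [hWmem, hact1]
    exact L.add_mem (line_stable S hS y hyL γ ((hWmem w).1 hw)) (L.nsmul_mem (hzL γ) _)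
  let actW : GQ → ↥W → ↥W := fun γ w => ⟨Ord15.kumAct (r ^ k) z hz γ w.1, hWst γ w.1 w.2⟩
  -- the quotient map
  obtain ⟨g, hg⟩ : ∃ g : ↥W →+ ↥L, ∀ w : ↥W,
      ((g w : ↥L) : JZero N) = ((w : Tors N r k × ZMod (r ^ k)).1 : JZero N) :=
    ⟨AddMonoidHom.codRestrict (f.comp W.subtype) L (fun w => w.2), fun _ => rfl⟩
  obtain ⟨cst, hcstN⟩ : ∃ cst : ZMod (r ^ k) →+ ZMod r,
      ∀ n : ℕ, cst (n : ZMod (r ^ k)) = (n : ZMod r) :=
    ⟨(ZMod.castHom (dvd_pow_self r hk) (ZMod r)).toAddMonoidHom,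
      fun n => map_natCast (ZMod.castHom (dvd_pow_self r hk) (ZMod r)) n⟩
  have hcst : ∀ c : ZMod (r ^ k), cst c = ((c.val : ℕ) : ZMod r) := by
    intro c
    conv_lhs => rw [← ZMod.natCast_zmod_val c]
    exact hcstN c.val
  obtain ⟨π, hπ1, hπ2⟩ : ∃ π : ↥W →+ ZMod r × ZMod r,
      (∀ w : ↥W, (π w).1 = coef S y r hr hyS hry (g w)) ∧
      (∀ w : ↥W, (π w).2 = cst (w : Tors N r k × ZMod (r ^ k)).2) :=
    ⟨AddMonoidHom.prod ((coef S y r hr hyS hry).comp g)
      (cst.comp ((AddMonoidHom.snd _ _).comp W.subtype)), fun _ => rfl, fun _ => rfl⟩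
  refine hK.of_subquotient (actW := actW) W.subtype W.subtype_injective (fun _ _ => rfl) π ?_ ?_
  · -- surjectivity
    rintro ⟨b, c⟩
    have hbt : b.val • y ∈ Submodule.torsionBy ℤ (JZero N) ((r ^ k : ℕ) : ℤ) := by
      rw [Submodule.mem_torsionBy_iff, natCast_zsmul, smul_comm, hky, smul_zero]
    have hbL : b.val • y ∈ L :=
      L.nsmul_mem ((le_sup_right : AddSubgroup.zmultiples y ≤ L) (AddSubgroup.mem_zmultiples y)) _
    refine ⟨⟨(⟨b.val • y, hbt⟩, ((c.val : ℕ) : ZMod (r ^ k))), (hWmem _).2 hbL⟩, ?_⟩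
    refine Prod.ext ?_ ?_
    · rw [hπ1]
      have h1 : coef S y r hr hyS hry (g ⟨(⟨b.val • y, hbt⟩, ((c.val : ℕ) : ZMod (r ^ k))),
          (hWmem _).2 hbL⟩) = (((b.val : ℕ) : ℤ) : ZMod r) := by
        rw [coef_eq_iff, hg]
        show b.val • y - ((b.val : ℕ) : ℤ) • y ∈ S
        rw [natCast_zsmul, sub_self]
        exact S.zero_mem
      rw [h1, Int.cast_natCast, ZMod.natCast_zmod_val]
    · rw [hπ2]
      show cst ((c.val : ℕ) : ZMod (r ^ k)) = c
      rw [hcstN, ZMod.natCast_zmod_val]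
  · -- equivariance
    intro γ w
    obtain ⟨⟨t, c⟩, hw⟩ := w
    refine Prod.ext ?_ ?_
    · have hR : (stepAct χ a γ (π ⟨(t, c), hw⟩)).1 =
          χ γ * coef S y r hr hyS hry (g ⟨(t, c), hw⟩) + cst c * a γ := by
        rw [stepAct_apply]
        show χ γ * (π ⟨(t, c), hw⟩).1 + (π ⟨(t, c), hw⟩).2 * a γ = _
        rw [hπ1, hπ2]
      rw [hπ1, hR]
      have hbS : (t : JZero N) -
          (((coef S y r hr hyS hry (g ⟨(t, c), hw⟩)).val : ℕ) : ℤ) • y ∈ S := by
        have h1 : coef S y r hr hyS hry (g ⟨(t, c), hw⟩) =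
            ((((coef S y r hr hyS hry (g ⟨(t, c), hw⟩)).val : ℕ) : ℤ) : ZMod r) := by
          rw [Int.cast_natCast, ZMod.natCast_zmod_val]
        have h2 := (coef_eq_iff hr hyS hry _ _).1 h1
        rwa [hg] at h2
      generalize coef S y r hr hyS hry (g ⟨(t, c), hw⟩) = b at hbS ⊢
      have key : coef S y r hr hyS hry (g (actW γ ⟨(t, c), hw⟩)) =
          (((((χ γ).val : ℕ) : ℤ) * ((b.val : ℕ) : ℤ) +
            ((c.val : ℕ) : ℤ) * (((a γ).val : ℕ) : ℤ) : ℤ) : ZMod r) := by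
        rw [coef_eq_iff, hg]
        show γ • (t : JZero N) + c.val • (γ • z - z) -
          ((((χ γ).val : ℕ) : ℤ) * ((b.val : ℕ) : ℤ) +
            ((c.val : ℕ) : ℤ) * (((a γ).val : ℕ) : ℤ)) • y ∈ S
        have e : γ • (t : JZero N) + c.val • (γ • z - z) -
            ((((χ γ).val : ℕ) : ℤ) * ((b.val : ℕ) : ℤ) +
              ((c.val : ℕ) : ℤ) * (((a γ).val : ℕ) : ℤ)) • y =
            γ • ((t : JZero N) - ((b.val : ℕ) : ℤ) • y) +
              ((b.val : ℕ) : ℤ) • (γ • y - (((χ γ).val : ℕ) : ℤ) • y) +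
              ((c.val : ℕ) : ℤ) • (γ • z - z - (((a γ).val : ℕ) : ℤ) • y) := by
          rw [smul_sub, gal_zsmul, zsmul_sub, zsmul_sub, add_zsmul, mul_zsmul, mul_zsmul,
            ← natCast_zsmul (γ • z - z) c.val,
            smul_comm (((χ γ).val : ℕ) : ℤ) ((b.val : ℕ) : ℤ) y]
          abel
        rw [e]
        exact S.add_mem (S.add_mem (hS γ _ hbS) (S.zsmul_mem (hχ γ) _)) (S.zsmul_mem (ha γ) _)
      rw [key, hcst]
      push_cast
      rw [ZMod.natCast_zmod_val, ZMod.natCast_zmod_val, ZMod.natCast_zmod_val]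
    · rw [hπ2, stepAct_apply]
      show cst c = (π ⟨(t, c), hw⟩).2
      rw [hπ2]

end Step

end Fermat.Agent.S15P.StepHopf87
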