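/-
S15P — the step at `r = 2`, level-free (helper87).

`J = J₀(p)(ℚ̄)`, `p` an odd prime; `S ≤ J` Galois-stable, `y ∉ S` with `2 y ∈ S`, `2^k y = 0`,
fixed by Galois modulo `S`; `z` with `2^k z` rational whose Kummer cocycle takes its values in
`S ∪ (y + S)`.  If `σ z ≡ z` for an inertia element `σ` at `p` moving `√p` and `c z ≡ z` for the
complex conjugation `c` (modulo `S`), then `γ z ≡ z` for every `γ`.

This is the binder `H` of `MainCount40.fixed_of_two` / `Desc40.exists_poly_two` (`step_two_H`),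
for division points (`k = 1`, `z ∈ Zdiv`) as well as for torsion points of level `2^k`.

Sources: (ORD0) through `StepHopf87.hasHopfOrder_step`; L2 `GoodDiv85`; L3 `TresRam29`;
L4 `Char96.quadChar_eq_zero`.
-/
import Mathlib
import Fermat.Agent.S15P.StepHopf87
import Fermat.Agent.S15P.GoodDiv85
import Fermat.Agent.S15P.Char96
import Fermat.Agent.S15P.Loc2.TresRam29
import Fermat.Agent.ESJ.Jac.FiniteLevel
import Fermat.Agent.Lib.FrobeniusExists

set_option autoImplicit false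

namespace Fermat.Agent.S15P.StepTwo87

open ModularCurve Fermat.Agent.Lib.FinFlat Fermat.Agent.S15P.StepHopf87

local notation "Qb" => AlgebraicClosure ℚ
local notation "GQ" => (AlgebraicClosure ℚ ≃ₐ[ℚ] AlgebraicClosure ℚ)

/-- **The step at `r = 2`.** -/
theorem step_two {p : ℕ} [NeZero p] (hp : p.Prime) (hp2 : p ≠ 2) (S : AddSubgroup (JZero p))
    (hS : ∀ (γ : GQ) (x : JZero p), x ∈ S → γ • x ∈ S)
    (y : JZero p) (hyS : y ∉ S) (h2y : 2 • y ∈ S) (hy : ∀ γ : GQ, γ • y - y ∈ S)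
    (k : ℕ) (hky : 2 ^ k • y = 0)
    (z : JZero p) (hz : ∀ γ : GQ, γ • (2 ^ k • z) = 2 ^ k • z)
    (hcoc : ∀ γ : GQ, γ • z - z ∈ S ∨ γ • z - z - y ∈ S)
    (A : ValuationSubring Qb) (hA : A.LiesOverPrime p) (σ : GQ) (hσ : σ ∈ A.inertiaSubgroupIn ℚ)
    (hσp : ∀ s : Qb, s ^ 2 = (p : Qb) → σ s = -s)
    (hσz : σ • z - z ∈ S) (hcz : complexConjugation • z - z ∈ S) :
    ∀ γ : GQ, γ • z - z ∈ S := by
  classical
  have : Fact (Nat.Prime 2) := ⟨Nat.prime_two⟩
  -- the quadratic character of the step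
  let δ : GQ → ZMod 2 := fun γ => if γ • z - z ∈ S then 0 else 1
  have hδ0 : ∀ γ : GQ, δ γ = 0 ↔ γ • z - z ∈ S := by
    intro γ
    by_cases h : γ • z - z ∈ S
    · simp [δ, h]
    · simp [δ, h]
  have hδ1 : ∀ γ : GQ, γ • z - z ∉ S → δ γ = 1 := by
    intro γ h
    simp [δ, h]
  have ha : ∀ γ : GQ, γ • z - z - (((δ γ).val : ℕ) : ℤ) • y ∈ S := by
    intro γ
    by_cases h : γ • z - z ∈ S
    · rw [(hδ0 γ).2 h, ZMod.val_zero, Nat.cast_zero, zero_zsmul, sub_zero]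
      exact h
    · rw [hδ1 γ h, ZMod.val_one, Nat.cast_one, one_zsmul]
      exact (hcoc γ).resolve_left h
  have hχ : ∀ γ : GQ, γ • y - ((((1 : ZMod 2)).val : ℕ) : ℤ) • y ∈ S := by
    intro γ
    rw [ZMod.val_one, Nat.cast_one, one_zsmul]
    exact hy γ
  -- additivity
  have hδadd : ∀ g h : GQ, δ (g * h) = δ g + δ h := by
    intro g h
    have hd := coef_mul Nat.prime_two S hS y hyS h2y z (m := 1)
      (by rw [one_zsmul]; exact hy g) (ha g) (ha h) (ha (g * h))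
    have h1 := (ZMod.intCast_eq_intCast_iff_dvd_sub _ _ 2).2 hd
    push_cast at h1
    rw [ZMod.natCast_zmod_val, ZMod.natCast_zmod_val, ZMod.natCast_zmod_val, one_mul] at h1
    exact h1.symm
  -- finite level
  obtain ⟨F, hFfin, hFz⟩ := Fermat.Agent.ESJ.Jac.FiniteLevel.exists_finiteLevel_jZero p z
  have := hFfin
  have hF : ∀ g s : GQ, s ∈ F.fixingSubgroup → δ (g * s) = δ g := by
    intro g s hs
    have hsz : s • z = z :=
      hFz s (fun x hx => (IntermediateField.mem_fixingSubgroup_iff F s).1 hs x hx)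
    show (if (g * s) • z - z ∈ S then (0 : ZMod 2) else 1) = if g • z - z ∈ S then 0 else 1
    rw [mul_smul, hsz]
  -- unramified outside `2 p`
  have hunr : ∀ ℓ : ℕ, ℓ.Prime → ℓ ≠ 2 → ℓ ≠ p → ∀ B : ValuationSubring Qb,
      B.LiesOverPrime ℓ → ∀ τ ∈ B.inertiaSubgroupIn ℚ, δ τ = 0 := by
    intro ℓ hℓ hℓ2 hℓp B hB τ hτ
    have hτz : τ • z = z := GoodDiv85.inertia_smul_eq_of_rational p ℓ hℓ
      (fun h => hℓp ((Nat.prime_dvd_prime_iff_eq hℓ hp).1 h)) B hB (2 ^ k)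
      (pow_ne_zero _ two_ne_zero)
      (fun h => hℓ2 ((Nat.prime_dvd_prime_iff_eq hℓ Nat.prime_two).1 (hℓ.dvd_of_dvd_pow h)))
      z hz τ hτ
    rw [hδ0, hτz, sub_self]
    exact S.zero_mem
  -- the place over `2`
  obtain ⟨P, hP⟩ := Fermat.Agent.Lib.FrobeniusExists.exists_liesOverPrime Nat.prime_two
  have hp2' : ¬ 2 ∣ p := fun h => hp2 ((Nat.prime_dvd_prime_iff_eq Nat.prime_two hp).1 h).symm
  have hE : HasHopfOrder 2 (stepAct (fun _ => (1 : ZMod 2)) δ) :=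
    hasHopfOrder_step hp2' k S hS y hyS h2y hky z hz _ δ hχ ha
  have h2 : ∀ θ : Qb, (∀ τ ∈ P.inertiaSubgroupIn ℚ, τ θ = θ ∨ τ θ = -θ) →
      (∀ τ ∈ P.inertiaSubgroupIn ℚ, (τ θ = θ ↔ δ τ = 0)) →
      P.valuation θ ^ 2 ≠ P.valuation 2 := by
    intro θ hθ hθδ
    refine Loc2.TresRam29.valuation_sq_ne_of_hopfOrder hE (nsmul_step_eq_zero 2) P hP θ hθ
      (fun τ hτ => ?_)
    rw [hθδ τ hτ]
    constructor
    · intro h0 v
      rw [stepAct_apply, h0, mul_zero, add_zero, one_mul]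
    · intro hv
      have h1 := congrArg Prod.fst (hv (0, 1))
      rw [stepAct_apply] at h1
      simpa using h1
  intro γ
  exact (hδ0 γ).1 (Char96.quadChar_eq_zero hp hp2 δ hδadd F hF hunr P hP h2 A hA σ hσ hσp
    ((hδ0 σ).2 hσz) ((hδ0 _).2 hcz) γ)

end Fermat.Agent.S15P.StepTwo87
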