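/-
S15P — the step hypotheses `H`, `Htriv`, `Hmu` of the abstract count, and L5 on an Eisenstein
piece (helper87).

`J = J₀(p)(ℚ̄)`, `p` prime; `σ` an inertia element at `p` moving `√p` (resp. the `r`-th roots of
`p`), `c` the complex conjugation.

* `H_two`, `H_triv`, `H_mu` : the binders `H` / `Htriv` / `Hmu` of `MainCount40.fixed_of_two`,
  `fixed_of_odd` (and of `Desc40.exists_poly_two`, `exists_poly_odd`) for `G` killed by `r^k`
  and `Z` any subgroup of points `z` with `r^k z` rational (`H_mu`: `G` an Eisenstein piece);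
* `fixed_of_eisPiece_two`, `fixed_of_eisPiece_odd` : **L5 on an Eisenstein piece** `X` of level
  `r^n`: a point of `X` fixed by `σ` and `c` is rational.

Sources: `StepTwo87.step_two`, `StepOdd87.step_triv`, `StepOdd87.step_mu`; the (JH) layer
(`JHFlagTwo13.flagTwo`, `JHFlagOddInst73.flagOdd`, `JHLineChar87.lineChar`);
`MainCount40.fixed_of_two`, `fixed_of_odd`.
-/
import Mathlib
import Fermat.Agent.S15P.StepTwo87
import Fermat.Agent.S15P.StepOdd87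
import Fermat.Agent.S15P.JHLineChar87
import Fermat.Agent.S15P.JHFlagTwo13
import Fermat.Agent.S15P.JHFlagOddInst73
import Fermat.Agent.S15P.MainCount40

set_option autoImplicit false

namespace Fermat.Agent.S15P.StepInst87

open ModularCurve Fermat.Agent.S15P.JH

/-- **`H`** (`r = 2`) for `G` killed by `2^k` and points `z` with `2^k z` rational. -/
theorem H_two {p : ℕ} [NeZero p] (hp : p.Prime) (hp2 : p ≠ 2) (k : ℕ)
    (G : AddSubgroup (JZero p)) (hGk : ∀ g ∈ G, 2 ^ k • g = 0)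
    (Z : AddSubgroup (JZero p)) (hZ : ∀ z ∈ Z, ∀ γ : GQ, γ • (2 ^ k • z) = 2 ^ k • z)
    (A : ValuationSubring Qb) (hA : A.LiesOverPrime p) (σ : GQ) (hσ : σ ∈ A.inertiaSubgroupIn ℚ)
    (hσp : ∀ s : Qb, s ^ 2 = (p : Qb) → σ s = -s) :
    ∀ S : AddSubgroup (JZero p), S ≤ G → (∀ (γ : GQ) (x : JZero p), x ∈ S → γ • x ∈ S) →
      ∀ y ∈ G, y ∉ S → 2 • y ∈ S → (∀ γ : GQ, γ • y - y ∈ S) →
      ∀ z ∈ Z, (∀ γ : GQ, γ • z - z ∈ S ∨ γ • z - z - y ∈ S) → σ • z - z ∈ S →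
        complexConjugation • z - z ∈ S → ∀ γ : GQ, γ • z - z ∈ S :=
  fun S _ hS y hyG hyS h2y hy z hzZ hcoc hσz hcz =>
    StepTwo87.step_two hp hp2 S hS y hyS h2y hy k (hGk y hyG) z (hZ z hzZ) hcoc A hA σ hσ hσp
      hσz hcz

/-- **`Htriv`** (`r` odd) for `G` killed by `r^k` and points `z` with `r^k z` rational. -/
theorem H_triv {p r : ℕ} [NeZero p] (hp : p.Prime) (hr : r.Prime) (hr2 : r ≠ 2) (hrp : r ≠ p)
    (k : ℕ) (G : AddSubgroup (JZero p)) (hGk : ∀ g ∈ G, r ^ k • g = 0)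
    (Z : AddSubgroup (JZero p)) (hZ : ∀ z ∈ Z, ∀ γ : GQ, γ • (r ^ k • z) = r ^ k • z)
    (A : ValuationSubring Qb) (hA : A.LiesOverPrime p) (σ : GQ) (hσ : σ ∈ A.inertiaSubgroupIn ℚ)
    (hσp : ∀ π : Qb, π ^ r = (p : Qb) → σ π ≠ π) :
    ∀ S : AddSubgroup (JZero p), S ≤ G → (∀ (γ : GQ) (x : JZero p), x ∈ S → γ • x ∈ S) →
      ∀ y ∈ G, y ∉ S → r • y ∈ S → (∀ γ : GQ, γ • y - y ∈ S) →
      ∀ z ∈ Z, (∀ γ : GQ, ∃ j : ℤ, γ • z - z - j • y ∈ S) → σ • z - z ∈ S →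
        ∀ γ : GQ, γ • z - z ∈ S :=
  fun S _ hS y hyG hyS hry hy z hzZ hcoc hσz =>
    StepOdd87.step_triv hp hr hr2 hrp S hS y hyS hry hy k (hGk y hyG) z (hZ z hzZ) hcoc A hA σ
      hσ hσp hσz

/-- **`Hmu`** (`r` odd) for an Eisenstein piece `X` of level `r^n` and points `z` with `r^n z`
rational. -/
theorem H_mu {p r : ℕ} [NeZero p] (hp : p.Prime) (hr : r.Prime) (hr2 : r ≠ 2) (hrp : r ≠ p)
    (n : ℕ) (B : Finset ℕ) (X : AddSubgroup (JZero p)) (hX : IsEisPiece p r n B X)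
    (Z : AddSubgroup (JZero p)) (hZ : ∀ z ∈ Z, ∀ γ : GQ, γ • (r ^ n • z) = r ^ n • z)
    (A : ValuationSubring Qb) (hA : A.LiesOverPrime p) (σ : GQ) (hσ : σ ∈ A.inertiaSubgroupIn ℚ)
    (hσp : ∀ π : Qb, π ^ r = (p : Qb) → σ π ≠ π) :
    ∀ S : AddSubgroup (JZero p), S ≤ X → (∀ (γ : GQ) (x : JZero p), x ∈ S → γ • x ∈ S) →
      ∀ y ∈ X, y ∉ S → r • y ∈ S → (∀ γ : GQ, ∃ m : ℤ, γ • y - m • y ∈ S) →
      complexConjugation • y + y ∈ S →
      ∀ z ∈ Z, (∀ γ : GQ, ∃ j : ℤ, γ • z - z - j • y ∈ S) → σ • z - z ∈ S →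
        ∃ j : ℤ, ∀ γ : GQ, γ • z - z - j • (γ • y - y) ∈ S := by
  intro S hSX hS y hyX hyS hry hsc hcy z hzZ hcoc hσz
  rcases JHLineChar87.lineChar p r hr B X n hX S hSX hS y hyX hry hsc with hfix | hcyc
  · -- `c y ≡ y` and `c y ≡ -y` force `2 y ∈ S`, hence `y ∈ S`
    exfalso
    apply hyS
    have h2 : (2 : ℤ) • y ∈ S := by
      have e : (2 : ℤ) • y = (complexConjugation • y + y) - (complexConjugation • y - y) := by
        rw [two_zsmul]; abel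
      rw [e]
      exact S.sub_mem hcy (hfix _)
    have hcop : IsCoprime (r : ℤ) 2 := by
      have h1 : Nat.Coprime r 2 := (Nat.coprime_primes hr Nat.prime_two).2 hr2
      exact_mod_cast Nat.isCoprime_iff_coprime.2 h1
    obtain ⟨u, v, huv⟩ := hcop
    have e : y = u • ((r : ℤ) • y) + v • ((2 : ℤ) • y) := by
      rw [← mul_zsmul, ← mul_zsmul, ← add_zsmul, huv, one_zsmul]
    rw [e]
    exact S.add_mem (S.zsmul_mem (by rw [natCast_zsmul]; exact hry) u) (S.zsmul_mem h2 v)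
  · exact StepOdd87.step_mu hp hr hr2 hrp S hS y hyS hry hcyc n (hX.1 y hyX) z (hZ z hzZ) hcoc
      A hA σ hσ hσp hσz

/-- **L5 on an Eisenstein piece, `r = 2`**: a point of `X` fixed by `σ` and by `c` is rational. -/
theorem fixed_of_eisPiece_two {p : ℕ} [NeZero p] (hp : p.Prime) (hp2 : p ≠ 2) (n : ℕ)
    (B : Finset ℕ) (X : AddSubgroup (JZero p)) (hX : IsEisPiece p 2 n B X)
    (A : ValuationSubring Qb) (hA : A.LiesOverPrime p) (σ : GQ) (hσ : σ ∈ A.inertiaSubgroupIn ℚ)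
    (hσp : ∀ s : Qb, s ^ 2 = (p : Qb) → σ s = -s)
    {z : JZero p} (hz : z ∈ X) (hσz : σ • z = z) (hcz : complexConjugation • z = z) :
    ∀ γ : GQ, γ • z = z := by
  have : Finite X := JHSub13.finite_of_isEisPiece (by norm_num) hX
  have hZ : ∀ z ∈ X, ∀ γ : GQ, γ • (2 ^ n • z) = 2 ^ n • z := by
    intro z hz γ
    rw [hX.1 z hz]
    exact smul_zero (A := JZero p) γ
  exact MainCount40.fixed_of_two X X (fun z hz γ => X.sub_mem (hX.2.1 γ z hz) hz) σ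
    complexConjugation (JHFlagTwo13.flagTwo p B X n hX)
    (H_two hp hp2 n X hX.1 X hZ A hA σ hσ hσp) hz hσz hcz

/-- **L5 on an Eisenstein piece, `r` odd**: a point of `X` fixed by `σ` and by `c` is rational. -/
theorem fixed_of_eisPiece_odd {p r : ℕ} [NeZero p] (hp : p.Prime) (hr : r.Prime) (hr2 : r ≠ 2)
    (hrp : r ≠ p) (n : ℕ) (B : Finset ℕ) (X : AddSubgroup (JZero p)) (hX : IsEisPiece p r n B X)
    (A : ValuationSubring Qb) (hA : A.LiesOverPrime p) (σ : GQ) (hσ : σ ∈ A.inertiaSubgroupIn ℚ)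
    (hσp : ∀ π : Qb, π ^ r = (p : Qb) → σ π ≠ π)
    {z : JZero p} (hz : z ∈ X) (hσz : σ • z = z) (hcz : complexConjugation • z = z) :
    ∀ γ : GQ, γ • z = z := by
  have : Finite X := JHSub13.finite_of_isEisPiece hr.pos hX
  have hZ : ∀ z ∈ X, ∀ γ : GQ, γ • (r ^ n • z) = r ^ n • z := by
    intro z hz γ
    rw [hX.1 z hz]
    exact smul_zero (A := JZero p) γ
  exact MainCount40.fixed_of_odd r (hr.odd_of_ne_two hr2) X X
    (fun z hz γ => X.sub_mem (hX.2.1 γ z hz) hz) σ complexConjugation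
    (JHFlagOddInst73.flagOdd p r hr hr2 B X n hX)
    (H_triv hp hr hr2 hrp n X hX.1 X hZ A hA σ hσ hσp)
    (H_mu hp hr hr2 hrp n B X hX X hZ A hA σ hσ hσp) hz hσz hcz

end Fermat.Agent.S15P.StepInst87
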