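/-
S15P — the steps at an odd prime `r`, level-free (helper87).

`J = J₀(p)(ℚ̄)`, `p` prime, `r ≠ p` an odd prime; `S ≤ J` Galois-stable, `y ∉ S` with `r y ∈ S`,
`r^k y = 0`; `z` with `r^k z` rational whose Kummer cocycle takes its values in `S + ℤ y`; `σ` an
inertia element at `p` moving the `r`-th roots of `p`, with `σ z ≡ z` modulo `S`.

* `step_triv` : if Galois fixes `y` modulo `S`, then `γ z ≡ z` modulo `S` for all `γ`;
* `step_mu`   : if Galois acts on `y` modulo `S` as on `μ_r`, the cocycle is a coboundary: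
                `γ z - z ≡ j (γ y - y)` modulo `S`.

These are the binders `Htriv`, `Hmu` of `MainCount40.fixed_of_odd` / `Desc40.exists_poly_odd`,
for division points (`k = 1`) as well as for torsion points of level `r^k`.

Sources: (ORD0) through `StepHopf87.hasHopfOrder_step`; L2 `GoodDiv85`; L3 `OddStep29`,
`LocOddMu52`; L4 `Char96.char_eq_zero_of_sigma`, `Char96.cocycle_eq_coboundary_of_sigma_val`.
-/
import Mathlib
import Fermat.Agent.S15P.StepHopf87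
import Fermat.Agent.S15P.GoodDiv85
import Fermat.Agent.S15P.Char96
import Fermat.Agent.S15P.Loc2.OddStep29
import Fermat.Agent.S15P.LocOddMu52
import Fermat.Agent.ESJ.Jac.FiniteLevel
import Fermat.Agent.ESJ.Rep.CycloMod
import Fermat.Agent.Lib.FrobeniusExists

set_option autoImplicit false

namespace Fermat.Agent.S15P.StepOdd87

open ModularCurve Fermat.Agent.Lib.FinFlat Fermat.Agent.S15P.StepHopf87

local notation "Qb" => AlgebraicClosure ℚ
local notation "GQ" => (AlgebraicClosure ℚ ≃ₐ[ℚ] AlgebraicClosure ℚ)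

/-- The coefficient function of the Kummer cocycle of `z` along the line `S + ℤ y`, with its
formal properties: cocycle rule, finite level, unramified outside `p r`. -/
theorem exists_coefFun {p r : ℕ} [NeZero p] (hp : p.Prime) (hr : r.Prime)
    (S : AddSubgroup (JZero p)) (hS : ∀ (γ : GQ) (x : JZero p), x ∈ S → γ • x ∈ S)
    (y : JZero p) (hyS : y ∉ S) (hry : r • y ∈ S) (k : ℕ)
    (z : JZero p) (hz : ∀ γ : GQ, γ • (r ^ k • z) = r ^ k • z)
    (hcoc : ∀ γ : GQ, ∃ j : ℤ, γ • z - z - j • y ∈ S) :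
    ∃ a : GQ → ZMod r, (∀ γ : GQ, γ • z - z - (((a γ).val : ℕ) : ℤ) • y ∈ S) ∧
      (∀ γ : GQ, a γ = 0 ↔ γ • z - z ∈ S) ∧
      (∀ (g h : GQ) (m : ℤ), g • y - m • y ∈ S → a (g * h) = a g + (m : ZMod r) * a h) ∧
      (∃ F : IntermediateField ℚ Qb, FiniteDimensional ℚ F ∧
        ∀ g s : GQ, s ∈ F.fixingSubgroup → a (g * s) = a g) ∧
      (∀ ℓ : ℕ, ℓ.Prime → ℓ ≠ p → ℓ ≠ r → ∀ B : ValuationSubring Qb, B.LiesOverPrime ℓ →
        ∀ τ ∈ B.inertiaSubgroupIn ℚ, a τ = 0) := by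
  have : NeZero r := ⟨hr.ne_zero⟩
  choose j hj using hcoc
  have h0 : ∀ γ : GQ, (j γ : ZMod r) = 0 ↔ γ • z - z ∈ S := fun γ =>
    coef_cast_eq_zero_iff hr hyS hry (hj γ)
  refine ⟨fun γ => (j γ : ZMod r), fun γ => coef_val hry (hj γ), h0, ?_, ?_, ?_⟩
  · intro g h m hm
    have hd := coef_mul hr S hS y hyS hry z hm (hj g) (hj h) (hj (g * h))
    have h1 := (ZMod.intCast_eq_intCast_iff_dvd_sub _ _ r).2 hd
    push_cast at h1
    exact h1.symm
  · obtain ⟨F, hFfin, hFz⟩ := Fermat.Agent.ESJ.Jac.FiniteLevel.exists_finiteLevel_jZero p z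
    refine ⟨F, hFfin, fun g s hs => ?_⟩
    have hsz : s • z = z :=
      hFz s (fun x hx => (IntermediateField.mem_fixingSubgroup_iff F s).1 hs x hx)
    have h1 : g • z - z - j (g * s) • y ∈ S := by
      have := hj (g * s)
      rwa [mul_smul, hsz] at this
    exact coef_cast_eq hr hyS hry h1 (hj g)
  · intro ℓ hℓ hℓp hℓr B hB τ hτ
    have hτz : τ • z = z := GoodDiv85.inertia_smul_eq_of_rational p ℓ hℓ
      (fun h => hℓp ((Nat.prime_dvd_prime_iff_eq hℓ hp).1 h)) B hB (r ^ k)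
      (pow_ne_zero _ hr.ne_zero)
      (fun h => hℓr ((Nat.prime_dvd_prime_iff_eq hℓ hr).1 (hℓ.dvd_of_dvd_pow h)))
      z hz τ hτ
    rw [h0, hτz, sub_self]
    exact S.zero_mem

/-- **The trivial step, `r` odd.** -/
theorem step_triv {p r : ℕ} [NeZero p] (hp : p.Prime) (hr : r.Prime) (hr2 : r ≠ 2) (hrp : r ≠ p)
    (S : AddSubgroup (JZero p)) (hS : ∀ (γ : GQ) (x : JZero p), x ∈ S → γ • x ∈ S)
    (y : JZero p) (hyS : y ∉ S) (hry : r • y ∈ S) (hy : ∀ γ : GQ, γ • y - y ∈ S)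
    (k : ℕ) (hky : r ^ k • y = 0)
    (z : JZero p) (hz : ∀ γ : GQ, γ • (r ^ k • z) = r ^ k • z)
    (hcoc : ∀ γ : GQ, ∃ j : ℤ, γ • z - z - j • y ∈ S)
    (A : ValuationSubring Qb) (hA : A.LiesOverPrime p) (σ : GQ) (hσ : σ ∈ A.inertiaSubgroupIn ℚ)
    (hσp : ∀ π : Qb, π ^ r = (p : Qb) → σ π ≠ π)
    (hσz : σ • z - z ∈ S) : ∀ γ : GQ, γ • z - z ∈ S := by
  have : Fact r.Prime := ⟨hr⟩
  have : NeZero r := ⟨hr.ne_zero⟩
  obtain ⟨a, ha, ha0, hamul, ⟨F, hFfin, hF⟩, hunr⟩ :=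
    exists_coefFun hp hr S hS y hyS hry k z hz hcoc
  have := hFfin
  have hrp' : ¬ r ∣ p := fun h => hrp ((Nat.prime_dvd_prime_iff_eq hr hp).1 h)
  have hχ : ∀ γ : GQ, γ • y - ((((1 : ZMod r)).val : ℕ) : ℤ) • y ∈ S := by
    intro γ
    rw [ZMod.val_one, Nat.cast_one, one_zsmul]
    exact hy γ
  have hE : HasHopfOrder r (stepAct (fun _ => (1 : ZMod r)) a) :=
    hasHopfOrder_step hrp' k S hS y hyS hry hky z hz _ a hχ ha
  have hadd : ∀ g h : GQ, a (g * h) = a g + a h := by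
    intro g h
    have h1 := hamul g h 1 (by rw [one_zsmul]; exact hy g)
    rwa [Int.cast_one, one_mul] at h1
  have hunr' : ∀ ℓ : ℕ, ℓ.Prime → ℓ ≠ p → ∀ B : ValuationSubring Qb, B.LiesOverPrime ℓ →
      ∀ τ ∈ B.inertiaSubgroupIn ℚ, a τ = 0 := by
    intro ℓ hℓ hℓp B hB τ hτ
    by_cases hℓr : ℓ = r
    · subst hℓr
      have h1 := Loc2.OddStep29.act_eq_of_diff_eq_nsmul_odd hr hr2 hE (nsmul_step_eq_zero ℓ) B hB
        τ hτ (0, 1) (1, 0) (a τ).val
        (fun τ' _ => by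
          rw [stepAct_apply]
          exact Prod.ext (by simp) rfl)
        (by
          rw [stepAct_apply]
          refine Prod.ext ?_ ?_
          · show (1 : ZMod ℓ) * 0 + 1 * a τ - 0 = (a τ).val • (1 : ZMod ℓ)
            rw [nsmul_eq_mul, ZMod.natCast_zmod_val]
            ring
          · show (1 : ZMod ℓ) - 1 = (a τ).val • (0 : ZMod ℓ)
            rw [smul_zero, sub_self])
      have h2 := congrArg Prod.fst h1
      rw [stepAct_apply] at h2
      simpa using h2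
    · exact hunr ℓ hℓ hℓp hℓr B hB τ hτ
  intro γ
  exact (ha0 γ).1 (Char96.char_eq_zero_of_sigma hp hrp a hadd F hF hunr' A hA σ hσ hσp
    ((ha0 σ).2 hσz) γ)

/-- **The `μ`-step, `r` odd.** -/
theorem step_mu {p r : ℕ} [NeZero p] (hp : p.Prime) (hr : r.Prime) (hr2 : r ≠ 2) (hrp : r ≠ p)
    (S : AddSubgroup (JZero p)) (hS : ∀ (γ : GQ) (x : JZero p), x ∈ S → γ • x ∈ S)
    (y : JZero p) (hyS : y ∉ S) (hry : r • y ∈ S)
    (hy : ∀ (γ : GQ) (ζ : Qb) (m : ℕ), ζ ^ r = 1 → ζ ≠ 1 → γ ζ = ζ ^ m → γ • y - m • y ∈ S)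
    (k : ℕ) (hky : r ^ k • y = 0)
    (z : JZero p) (hz : ∀ γ : GQ, γ • (r ^ k • z) = r ^ k • z)
    (hcoc : ∀ γ : GQ, ∃ j : ℤ, γ • z - z - j • y ∈ S)
    (A : ValuationSubring Qb) (hA : A.LiesOverPrime p) (σ : GQ) (hσ : σ ∈ A.inertiaSubgroupIn ℚ)
    (hσp : ∀ π : Qb, π ^ r = (p : Qb) → σ π ≠ π)
    (hσz : σ • z - z ∈ S) : ∃ j : ℤ, ∀ γ : GQ, γ • z - z - j • (γ • y - y) ∈ S := by
  have : Fact r.Prime := ⟨hr⟩
  have : NeZero r := ⟨hr.ne_zero⟩
  obtain ⟨a, ha, ha0, hamul, ⟨F, hFfin, hF⟩, hunr⟩ :=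
    exists_coefFun hp hr S hS y hyS hry k z hz hcoc
  have := hFfin
  have hrp' : ¬ r ∣ p := fun h => hrp ((Nat.prime_dvd_prime_iff_eq hr hp).1 h)
  -- the cyclotomic character
  obtain ⟨ζ, hζ⟩ := Fermat.Agent.ESJ.Rep.CycloMod.exists_primitiveRoot r
  have hζr : ζ ^ r = 1 := hζ.pow_eq_one
  have hζ1 : ζ ≠ 1 := hζ.ne_one hr.one_lt
  let χ : GQ → ZMod r := fun g => ((Fermat.Agent.ESJ.Rep.cycloMod r g : (ZMod r)ˣ) : ZMod r)
  let m : GQ → ℤ := fun g => (((χ g).val : ℕ) : ℤ)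
  have hspec : ∀ (g : GQ) (t : Qb), t ^ r = 1 → g t = t ^ (χ g).val := fun g t ht =>
    Fermat.Agent.ESJ.Rep.cycloMod_spec r g t ht
  have hm : ∀ g : GQ, g ζ = ζ ^ m g := by
    intro g
    show g ζ = ζ ^ (((χ g).val : ℕ) : ℤ)
    rw [zpow_natCast]
    exact hspec g ζ hζr
  have hχ : ∀ γ : GQ, γ • y - (((χ γ).val : ℕ) : ℤ) • y ∈ S := by
    intro γ
    rw [natCast_zsmul]
    exact hy γ ζ (χ γ).val hζr hζ1 (hspec γ ζ hζr)
  have hmcast : ∀ g : GQ, ((m g : ℤ) : ZMod r) = χ g := by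
    intro g
    show (((((χ g).val : ℕ) : ℤ)) : ZMod r) = χ g
    rw [Int.cast_natCast, ZMod.natCast_zmod_val]
  have hE : HasHopfOrder r (stepAct χ a) :=
    hasHopfOrder_step hrp' k S hS y hyS hry hky z hz χ a hχ ha
  have hacoc : ∀ g h : GQ, a (g * h) = a g + (m g : ZMod r) * a h := fun g h =>
    hamul g h (m g) (hχ g)
  -- the place over `r` and the unit condition
  obtain ⟨P, hP⟩ := Fermat.Agent.Lib.FrobeniusExists.exists_liesOverPrime hr
  have hunit : ∀ θ : Qb, θ ≠ 0 → (∀ g : GQ, g θ = ζ ^ (a g).val * θ) →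
      ∃ n : ℤ, P.valuation θ = P.valuation ((r : Qb) ^ n) := by
    intro θ hθ0 hθ
    let W : AddSubgroup (ZMod r × ZMod r) := (AddMonoidHom.snd (ZMod r) (ZMod r)).ker
    have hWmem : ∀ w : ZMod r × ZMod r, w ∈ W ↔ w.2 = 0 := fun w => AddMonoidHom.mem_ker
    let ψ : AddChar (ZMod r × ZMod r) Qb :=
      (AddChar.zmodChar r hζr).compAddMonoidHom (AddMonoidHom.fst (ZMod r) (ZMod r))
    have hψ : ∀ w : ZMod r × ZMod r, ψ w = ζ ^ w.1.val := fun w => by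
      show AddChar.zmodChar r hζr w.1 = ζ ^ w.1.val
      rw [AddChar.zmodChar_apply]
    refine LocOddMu52.valuation_eq_zpow_of_hopfOrder_mu hr2 hE P hP ?_ W
      (fun w _ => nsmul_step_eq_zero r w) ?_ (0, 1) ψ ?_ θ hθ0 ?_
    · intro τ _ v w
      rw [stepAct_apply, stepAct_apply, stepAct_apply]
      refine Prod.ext ?_ rfl
      show χ τ * (v.1 + w.1) + (v.2 + w.2) * a τ = χ τ * v.1 + v.2 * a τ + (χ τ * w.1 + w.2 * a τ)
      ring
    · intro τ _
      refine ⟨(χ τ).val, fun w hw => ?_, fun t ht => hspec τ t ht⟩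
      have hw2 : w.2 = 0 := (hWmem w).1 hw
      rw [stepAct_apply]
      refine Prod.ext ?_ ?_
      · show χ τ * w.1 + w.2 * a τ = (χ τ).val • w.1
        rw [hw2, zero_mul, add_zero, nsmul_eq_mul, ZMod.natCast_zmod_val]
      · show w.2 = (χ τ).val • w.2
        rw [hw2, smul_zero]
    · intro τ _
      rw [hWmem, stepAct_apply]
      show (1 : ZMod r) - 1 = 0
      rw [sub_self]
    · intro τ _
      rw [hψ, stepAct_apply]
      have e : ((χ τ * (0 : ZMod r) + 1 * a τ, (1 : ZMod r)) - ((0 : ZMod r), (1 : ZMod r))).1 =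
          a τ := by
        show χ τ * (0 : ZMod r) + 1 * a τ - 0 = a τ
        ring
      rw [e]
      exact hθ τ
  obtain ⟨c, hc⟩ := Char96.cocycle_eq_coboundary_of_sigma_val hp hr2 hrp hζ m hm a hacoc F hF
    hunr P hP hunit A hA σ hσ hσp ((ha0 σ).2 hσz)
  refine ⟨((c.val : ℕ) : ℤ), fun γ => ?_⟩
  have h1 : γ • z - z - (((c.val : ℕ) : ℤ) * (m γ - 1)) • y ∈ S := by
    refine coef_congr hry (ha γ) ?_
    have h2 : ((((a γ).val : ℕ) : ℤ) : ZMod r) = ((((c.val : ℕ) : ℤ) * (m γ - 1) : ℤ) : ZMod r) := by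
      push_cast
      rw [ZMod.natCast_zmod_val, ZMod.natCast_zmod_val, hc γ]
    have h3 := (ZMod.intCast_eq_intCast_iff_dvd_sub _ _ r).1 h2
    rw [← dvd_neg, neg_sub]
    exact h3
  have e : ∀ (u v w : JZero p) (C M : ℤ),
      u - C • (v - w) = (u - (C * (M - 1)) • w) - C • (v - M • w) := by
    intro u v w C M
    module
  rw [e (γ • z - z) (γ • y) y _ (m γ)]
  exact S.sub_mem h1 (S.zsmul_mem (hχ γ) _)

end Fermat.Agent.S15P.StepOdd87
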