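/-
S15, TOP layer (helper80, architect): THE TOP SEAM OF RECORD (version P).

`s15_of_layersP` : `CuspFactsP c₀` (L12), `MStar c₀` (M), `DescOutP` (DESC), `RedC c₀` (RED-c)
imply the frozen S15 statement.

Same proof as `TopSeam80.s15_of_layers`; the only difference: the prime `r` dividing the order
of `c₀` divides `p − 1`, hence `r ≠ p`, which is what (DESC) needs.
-/
import Mathlib
import Fermat.Agent.S15P.Interfaces80b
import Fermat.Agent.S15P.TopSeam80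

set_option autoImplicit false

namespace Fermat.Agent.S15P.TopSeam80b

open ModularCurve WeierstrassCurve WeierstrassCurve.Affine Fermat.Agent.ESJ
open Fermat.Agent.S15P.Interfaces80 Fermat.Agent.S15P.Interfaces80b
open Fermat.Agent.S15P.TopSeam80

local notation "Qb" => AlgebraicClosure ℚ

/-- `RedFix` gives `RedC c₀` for a Galois-fixed `c₀` (version P of
`TopSeam80.redC_of_redFix`). -/
theorem redC_of_redFixP (c₀ : ∀ (p : ℕ) [NeZero p], JZero p) (hCusp : CuspFactsP c₀)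
    (h : RedFix) : RedC c₀ := by
  intro p _ hp hp' ℓ hℓ h5 hℓp A hA k hk hred
  have hℓp' : ¬ ℓ ∣ p := fun hd => hℓp ((Nat.prime_dvd_prime_iff_eq hℓ hp).mp hd)
  refine h p ℓ hℓ h5 hℓp' A hA (k • c₀ p) (fun σ => ?_) hk hred
  have h1 := (hCusp p hp hp').1 σ
  have h2 : σ • (k • c₀ p) = k • (σ • c₀ p) :=
    map_nsmul (DistribSMul.toAddMonoidHom (JZero p) σ) k (c₀ p)
  rw [h2, h1]

/-- **THE TOP SEAM**: the interface Props imply the frozen S15 statement. -/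
theorem s15_of_layersP (c₀ : ∀ (p : ℕ) [NeZero p], JZero p)
    (hCusp : CuspFactsP c₀) (hM : MStar c₀) (hDesc : DescOutP) (hRedC : RedC c₀)
    {p : ℕ} (hp : p.Prime) (hp' : p ∉ ({2, 3, 5, 7, 13} : Finset ℕ))
    (W : WeierstrassCurve ℤ) (hΔ : W.Δ ≠ 0)
    (Q : ((W.map (Int.castRingHom ℚ))⁄(AlgebraicClosure ℚ)).Point)
    (hQfix : ∀ σ : AlgebraicClosure ℚ ≃ₐ[ℚ] AlgebraicClosure ℚ, σ • Q = Q)
    (hQord : addOrderOf Q = p)
    (h2Δ : (2 : ℤ) ∣ W.Δ) (h2c₄ : ¬ (2 : ℤ) ∣ W.c₄)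
    (h2 : ∀ A : ValuationSubring (AlgebraicClosure ℚ), A.LiesOverPrime 2 →
      ¬ W.InZeroComponentAt A Q)
    (h3Δ : (3 : ℤ) ∣ W.Δ) (h3c₄ : ¬ (3 : ℤ) ∣ W.c₄)
    (h3 : ∀ A : ValuationSubring (AlgebraicClosure ℚ), A.LiesOverPrime 3 →
      ¬ W.InZeroComponentAt A Q)
    {ℓ : ℕ} (hℓ : ℓ.Prime) (hℓp : ℓ ≠ p) (hℓΔ : (ℓ : ℤ) ∣ W.Δ) (hℓc₄ : ¬ (ℓ : ℤ) ∣ W.c₄)
    (A : ValuationSubring (AlgebraicClosure ℚ)) (hA : A.LiesOverPrime ℓ) :
    ¬ W.InZeroComponentAt A Q := by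
  have : NeZero p := ⟨hp.ne_zero⟩
  by_cases hl2 : ℓ = 2
  · subst hl2; exact h2 A hA
  by_cases hl3 : ℓ = 3
  · subst hl3; exact h3 A hA
  have h5 : 5 ≤ ℓ := by
    have h2le := hℓ.two_le
    by_contra hlt
    have h4 : ℓ = 4 := by omega
    rw [h4] at hℓ
    exact absurd hℓ (by norm_num)
  intro hin
  -- arithmetic of the level
  have hp2 : p ≠ 2 := fun h => hp' (by rw [h]; decide)
  have hp3 : p ≠ 3 := fun h => hp' (by rw [h]; decide)
  have hℓp' : ¬ ℓ ∣ p := fun hd => hℓp ((Nat.prime_dvd_prime_iff_eq hℓ hp).mp hd)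
  have h2p3 : ¬ 2 ∣ p * 3 := fun hd => by
    rcases (Nat.Prime.dvd_mul Nat.prime_two).mp hd with h | h
    · exact hp2 ((Nat.prime_dvd_prime_iff_eq Nat.prime_two hp).mp h).symm
    · exact absurd h (by norm_num)
  have h3p2 : ¬ 3 ∣ p * 2 := fun hd => by
    rcases (Nat.Prime.dvd_mul Nat.prime_three).mp hd with h | h
    · exact hp3 ((Nat.prime_dvd_prime_iff_eq Nat.prime_three hp).mp h).symm
    · exact absurd h (by norm_num)
  -- (M*)
  obtain ⟨A₂, A₃, π₃, π₂, y, hA₂, hA₃, hπ₃, hπ₂, hyfix, hy2, hy3, hyℓ⟩ :=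
    hM p hp hp' W hΔ Q hQfix hQord h2Δ h2c₄ h2 h3Δ h3c₄ h3 ℓ hℓ h5 hℓp hℓΔ hℓc₄ A hA hin
  -- the cuspidal class and its prime-order multiple
  obtain ⟨hc₀fix, hn₀c, hc₀ne, hc₀T⟩ := hCusp p hp hp'
  have hp1 : 0 < p - 1 := Nat.sub_pos_of_lt hp.one_lt
  have hfin : IsOfFinAddOrder (c₀ p) :=
    isOfFinAddOrder_iff_nsmul_eq_zero.mpr ⟨p - 1, hp1, hn₀c⟩
  have hN₀pos : 0 < addOrderOf (c₀ p) := addOrderOf_pos_iff.mpr hfin
  have hN₀ne1 : addOrderOf (c₀ p) ≠ 1 := fun h => hc₀ne (AddMonoid.addOrderOf_eq_one_iff.mp h)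
  obtain ⟨r, hr, hrN⟩ := Nat.exists_prime_and_dvd hN₀ne1
  have hrp : r ≠ p := fun h => by
    have hd : r ∣ p - 1 := dvd_trans hrN (addOrderOf_dvd_of_nsmul_eq_zero hn₀c)
    have hle := Nat.le_of_dvd hp1 hd
    omega
  obtain ⟨k, hk⟩ := hrN
  have hkpos : 0 < k := by
    rcases Nat.eq_zero_or_pos k with h | h
    · rw [h, mul_zero] at hk; omega
    · exact h
  have hc₁r : r • (k • c₀ p) = 0 := by
    rw [← mul_nsmul', ← hk]; exact addOrderOf_nsmul_eq_zero (c₀ p)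
  have hc₁ne : k • c₀ p ≠ 0 := fun h => by
    have hd : addOrderOf (c₀ p) ∣ k := addOrderOf_dvd_of_nsmul_eq_zero h
    have hle : addOrderOf (c₀ p) ≤ k := Nat.le_of_dvd hkpos hd
    have hlt : k < r * k := lt_mul_of_one_lt_left hkpos hr.one_lt
    omega
  have hc₁fix : ∀ σ : GQ, σ • (k • c₀ p) = k • c₀ p := fun σ => by
    have e : σ • (k • c₀ p) = k • (σ • c₀ p) :=
      map_nsmul (DistribSMul.toAddMonoidHom (JZero p) σ) k (c₀ p)
    rw [e, hc₀fix σ]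
  have hc₁T : ∀ q : Nat.Primes, (q : ℕ) ≠ p →
      heckeOperatorBar p q (k • c₀ p) = (1 + (q : ℕ)) • (k • c₀ p) := fun q hq => by
    rw [map_nsmul, hc₀T q hq, smul_comm]
  -- (DESC)
  obtain ⟨η, ⟨S, hS, hηS⟩, ⟨n, hn, hηtors⟩, hηc₁⟩ :=
    hDesc p hp hp' ℓ hℓ h5 hℓp r hr hrp (k • c₀ p) hc₁fix hc₁r hc₁ne hc₁T
  -- divisibility facts for the primes of `S`
  have hSp3 : ∀ q ∈ S, ¬ (q : ℕ) ∣ p * 3 := fun q hq hd =>
    hS q hq (dvd_trans hd ⟨2 * ℓ, by ring⟩)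
  have hSp2 : ∀ q ∈ S, ¬ (q : ℕ) ∣ p * 2 := fun q hq hd =>
    hS q hq (dvd_trans hd ⟨3 * ℓ, by ring⟩)
  have hSp : ∀ q ∈ S, ¬ (q : ℕ) ∣ p := fun q hq hd =>
    hS q hq (dvd_trans hd ⟨6 * ℓ, by ring⟩)
  have hS2 : ∀ q ∈ S, (q : ℕ) ≠ 2 := fun q hq h =>
    hS q hq (by rw [h]; exact ⟨3 * p * ℓ, by ring⟩)
  have hS3 : ∀ q ∈ S, (q : ℕ) ≠ 3 := fun q hq h =>
    hS q hq (by rw [h]; exact ⟨2 * p * ℓ, by ring⟩)
  have hSℓ : ∀ q ∈ S, (q : ℕ) ≠ ℓ := fun q hq h =>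
    hS q hq (by rw [h]; exact ⟨6 * p, by ring⟩)
  -- the three kernels are stable under `η`
  have hK2 : ∀ x : JZero p, reductionModL A₂ (p * 3) (π₃ x) = 0 →
      reductionModL A₂ (p * 3) (π₃ (η x)) = 0 := by
    have key := mem_of_mem_adjoin (heckeOperatorBar p '' S)
      ((reductionModL A₂ (p * 3)).ker.comap π₃) (by
        rintro t ⟨q, hq, rfl⟩ x hx
        rw [AddSubgroup.mem_comap, AddMonoidHom.mem_ker] at hx ⊢
        rw [hπ₃.2.1 q (hSp3 q hq) x]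
        exact KS73.ker_reductionModL_hecke_stable_two (p * 3) (Dvd.intro_left p rfl) h2p3
          (q : ℕ) q.2 (hS2 q hq) (hSp3 q hq) A₂ hA₂ _ hx) η hηS
    intro x hx
    have := key x (by rw [AddSubgroup.mem_comap, AddMonoidHom.mem_ker]; exact hx)
    rwa [AddSubgroup.mem_comap, AddMonoidHom.mem_ker] at this
  have hK3 : ∀ x : JZero p, reductionModL A₃ (p * 2) (π₂ x) = 0 →
      reductionModL A₃ (p * 2) (π₂ (η x)) = 0 := by
    have key := mem_of_mem_adjoin (heckeOperatorBar p '' S)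
      ((reductionModL A₃ (p * 2)).ker.comap π₂) (by
        rintro t ⟨q, hq, rfl⟩ x hx
        rw [AddSubgroup.mem_comap, AddMonoidHom.mem_ker] at hx ⊢
        rw [hπ₂.2.1 q (hSp2 q hq) x]
        exact KS73.ker_reductionModL_hecke_stable_three (p * 2) (Dvd.intro_left p rfl) h3p2
          (q : ℕ) q.2 (hS3 q hq) (hSp2 q hq) A₃ hA₃ _ hx) η hηS
    intro x hx
    have := key x (by rw [AddSubgroup.mem_comap, AddMonoidHom.mem_ker]; exact hx)
    rwa [AddSubgroup.mem_comap, AddMonoidHom.mem_ker] at this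
  have hKℓ : ∀ x : JZero p, reductionModL A p x = 0 → reductionModL A p (η x) = 0 := by
    have key := mem_of_mem_adjoin (heckeOperatorBar p '' S)
      (reductionModL A p).ker (by
        rintro t ⟨q, hq, rfl⟩ x hx
        rw [AddMonoidHom.mem_ker] at hx ⊢
        exact KS73.ker_reductionModL_hecke_stable_five p ℓ (q : ℕ) hℓ h5 q.2 (hSℓ q hq)
          (hSp q hq) hℓp' A hA x hx) η hηS
    intro x hx
    have := key x (by rw [AddMonoidHom.mem_ker]; exact hx)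
    rwa [AddMonoidHom.mem_ker] at this
  -- `η y = 0`
  have hηy : η y = 0 := by
    have hR2 : ReductionInputsModL A₂ (p * 3) :=
      reductionInputsModL_good (p * 3) 2 Nat.prime_two h2p3
        (Or.inr (Or.inr ⟨rfl, Dvd.intro_left p rfl⟩)) A₂ hA₂
    have hR3 : ReductionInputsModL A₃ (p * 2) :=
      reductionInputsModL_good (p * 2) 3 Nat.prime_three h3p2
        (Or.inr (Or.inl ⟨rfl, Dvd.intro_left p rfl⟩)) A₃ hA₃
    obtain ⟨a, ha⟩ := torsion_of_red_pullback p (p * 3) 2 Nat.prime_two h2p3 A₂ hA₂ hR2 π₃ 4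
      hπ₃.2.2 (η y) n hn (hηtors y hyfix) (hK2 y hy2)
    obtain ⟨b, hb⟩ := torsion_of_red_pullback p (p * 2) 3 Nat.prime_three h3p2 A₃ hA₃ hR3 π₂ 3
      hπ₂.2.2 (η y) n hn (hηtors y hyfix) (hK3 y hy3)
    refine eq_zero_of_two_pow_of_three_pow (η y) (a + 2) (b + 1) ?_ ?_
    · have e : (2 : ℕ) ^ (a + 2) = 4 * 2 ^ a := by ring
      rw [e, mul_nsmul']; exact ha
    · have e : (3 : ℕ) ^ (b + 1) = 3 * 3 ^ b := by ring
      rw [e, mul_nsmul']; exact hb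
  -- `c₁` dies at `ℓ`
  have hred : reductionModL A p (k • c₀ p) = 0 := by
    have h1 := hKℓ (y + c₀ p) hyℓ
    rw [map_add, hηy, zero_add] at h1
    have h2' : reductionModL A p (η (k • c₀ p)) = 0 := by
      rw [map_nsmul, map_nsmul, h1, smul_zero]
    rwa [hηc₁] at h2'
  -- contradiction
  by_cases hrℓ : r = ℓ
  · subst hrℓ
    exact hc₁ne (hRedC p hp hp' r hℓ h5 hℓp A hA k hc₁r hred)
  · have hR : ReductionInputsModL A p :=
      reductionInputsModL_good p ℓ hℓ hℓp' (Or.inl h5) A hA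
    have hℓr : ¬ ℓ ∣ r := fun hd => hrℓ ((Nat.prime_dvd_prime_iff_eq hℓ hr).mp hd).symm
    exact hc₁ne (eq_zero_of_reductionModL_eq_zero p hℓ hℓp' A hA hR r hℓr _ hc₁r hred)

end Fermat.Agent.S15P.TopSeam80b
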