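/-
S15P (the Mazur block), row TOP-T5 (helper5).

A torsion point `w` of `J₀(N)` whose pull-back to an auxiliary level `M` reduces to `0` at a
place over a prime `ℓ ∤ M` has `ℓ`-power order, as soon as the kernel of the level pull-back is
killed by a number dividing a power of `ℓ`:

* `exists_pow_smul_eq_zero` : the general statement (any level pull-back `π : J₀(N) → J₀(M)`);
* `torsion_two`   : `N = p`, `M = p * 3`, `ℓ = 2` (kernel of `π` killed by `3 + 1`);
* `torsion_three` : `N = p`, `M = p * 2`, `ℓ = 3` (kernel of `π` killed by `2 + 1`);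
* `torsion_two'`, `torsion_three'` : the same with the level pull-back quantified existentially,
  in the literal shape of main's `ESJ.LevelPullback` (so that they compose with
  `ESJ.Cong.levelPullback_mul_prime` without unfolding anything).

Everything is a citation of main: the reduction inputs at the good pairs `(p * 3, 2)`,
`(p * 2, 3)` (`ESJ.reductionInputsModL_good`) and the injectivity of the reduction on torsion of
order prime to `ℓ` (`ESJ.eq_zero_of_reductionModL_eq_zero`, i.e. S18).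
-/
import Mathlib
import Fermat.Agent.ESJ.Red.R2Good
import Fermat.Agent.ESJ.LevelPullback

set_option autoImplicit false

namespace Fermat.Agent.S15P.Tors23_5

open ModularCurve

local notation "Qb" => AlgebraicClosure ℚ

/-- **The general statement.**  `π : J₀(N) → J₀(M)` additive with kernel killed by `d ∣ ℓ ^ e`,
`ℓ ∤ M` a prime with the reduction inputs at `A ∣ ℓ`: a torsion point `w` with
`red_A (π w) = 0` is killed by a power of `ℓ`. -/
theorem exists_pow_smul_eq_zero {N M : ℕ} [NeZero N] [NeZero M] {ℓ : ℕ} (hℓ : ℓ.Prime)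
    (hℓM : ¬ ℓ ∣ M) (A : ValuationSubring Qb) (hA : A.LiesOverPrime ℓ)
    (h : ReductionInputsModL A M) (π : JZero N →+ JZero M) (d e : ℕ) (hde : d ∣ ℓ ^ e)
    (hπ : ∀ x : JZero N, π x = 0 → d • x = 0)
    (w : JZero N) (n : ℕ) (hn : n ≠ 0) (hw : n • w = 0)
    (hred : reductionModL A M (π w) = 0) : ∃ a : ℕ, ℓ ^ a • w = 0 := by
  obtain ⟨a, m, hm, rfl⟩ := Nat.exists_eq_pow_mul_and_not_dvd hn ℓ hℓ.ne_one
  -- `w' := ℓ ^ a • w` is killed by `m`, prime to `ℓ`
  have hw' : m • (ℓ ^ a • w) = 0 := by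
    rw [← mul_nsmul, hw]
  have h1 : m • π (ℓ ^ a • w) = 0 := by
    rw [← map_nsmul, hw', map_zero]
  have h2 : reductionModL A M (π (ℓ ^ a • w)) = 0 := by
    rw [map_nsmul, map_nsmul, hred, smul_zero]
  have h3 : π (ℓ ^ a • w) = 0 :=
    Fermat.Agent.ESJ.eq_zero_of_reductionModL_eq_zero M hℓ hℓM A hA h m hm _ h1 h2
  have h4 : d • (ℓ ^ a • w) = 0 := hπ _ h3
  obtain ⟨c, hc⟩ := hde
  refine ⟨e + a, ?_⟩
  rw [pow_add, hc, mul_comm d c, mul_nsmul', mul_nsmul', h4, smul_zero]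

/-- **At `2`, through level `3p`.** -/
theorem torsion_two (p : ℕ) [NeZero p] [NeZero (p * 3)] (hp : p.Prime) (hp5 : 5 ≤ p)
    (A : ValuationSubring Qb) (hA : A.LiesOverPrime 2)
    (π : JZero p →+ JZero (p * 3)) (hπ : ∀ x : JZero p, π x = 0 → (3 + 1) • x = 0)
    (w : JZero p) (n : ℕ) (hn : n ≠ 0) (hw : n • w = 0)
    (hred : reductionModL A (p * 3) (π w) = 0) : ∃ a : ℕ, 2 ^ a • w = 0 := by
  have h2p : ¬ 2 ∣ p := fun h => by
    have := (Nat.prime_dvd_prime_iff_eq Nat.prime_two hp).mp h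
    omega
  have h2M : ¬ 2 ∣ p * 3 := fun h => by
    rcases (Nat.Prime.dvd_mul Nat.prime_two).mp h with h | h
    · exact h2p h
    · omega
  have hR : ReductionInputsModL A (p * 3) :=
    Fermat.Agent.ESJ.reductionInputsModL_good (p * 3) 2 Nat.prime_two h2M
      (Or.inr (Or.inr ⟨rfl, Dvd.intro_left p rfl⟩)) A hA
  exact exists_pow_smul_eq_zero Nat.prime_two h2M A hA hR π (3 + 1) 2 (by norm_num) hπ w n hn hw
    hred

/-- **At `3`, through level `2p`.** -/
theorem torsion_three (p : ℕ) [NeZero p] [NeZero (p * 2)] (hp : p.Prime) (hp5 : 5 ≤ p)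
    (A : ValuationSubring Qb) (hA : A.LiesOverPrime 3)
    (π : JZero p →+ JZero (p * 2)) (hπ : ∀ x : JZero p, π x = 0 → (2 + 1) • x = 0)
    (w : JZero p) (n : ℕ) (hn : n ≠ 0) (hw : n • w = 0)
    (hred : reductionModL A (p * 2) (π w) = 0) : ∃ a : ℕ, 3 ^ a • w = 0 := by
  have h3p : ¬ 3 ∣ p := fun h => by
    have := (Nat.prime_dvd_prime_iff_eq Nat.prime_three hp).mp h
    omega
  have h3M : ¬ 3 ∣ p * 2 := fun h => by
    rcases (Nat.Prime.dvd_mul Nat.prime_three).mp h with h | h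
    · exact h3p h
    · omega
  have hR : ReductionInputsModL A (p * 2) :=
    Fermat.Agent.ESJ.reductionInputsModL_good (p * 2) 3 Nat.prime_three h3M
      (Or.inr (Or.inl ⟨rfl, Dvd.intro_left p rfl⟩)) A hA
  exact exists_pow_smul_eq_zero Nat.prime_three h3M A hA hR π (2 + 1) 1 (by norm_num) hπ w n hn hw
    hred

/-- `3 ∤ p` and `2 ∤ p` for a prime `p ≥ 5` (the side conditions of
`ESJ.Cong.levelPullback_mul_prime p 3` and `… p 2`). -/
theorem not_three_dvd {p : ℕ} (hp : p.Prime) (hp5 : 5 ≤ p) : ¬ 3 ∣ p := fun h => by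
  have := (Nat.prime_dvd_prime_iff_eq Nat.prime_three hp).mp h
  omega

theorem not_two_dvd {p : ℕ} (hp : p.Prime) (hp5 : 5 ≤ p) : ¬ 2 ∣ p := fun h => by
  have := (Nat.prime_dvd_prime_iff_eq Nat.prime_two hp).mp h
  omega

/-- **At `2`, in the shape of main's `LevelPullback`**: there is a Galois-equivariant,
Hecke-equivariant pull-back `π : J₀(p) → J₀(3p)` with kernel killed by `3 + 1` (it is ANY witness
of `hL`) such that every torsion `w` with `red_A (π w) = 0`, `A ∣ 2`, has `2`-power order. -/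
theorem torsion_two' (p : ℕ) [NeZero p] [NeZero (p * 3)] (hp : p.Prime) (hp5 : 5 ≤ p)
    (hL : Fermat.Agent.ESJ.LevelPullback p (p * 3) (3 + 1)) :
    ∃ π : JZero p →+ JZero (p * 3),
      (∀ (σ : Fermat.Agent.ESJ.GQ) (x : JZero p), π (σ • x) = σ • π x) ∧
      (∀ ℓ : Nat.Primes, ¬ (ℓ : ℕ) ∣ p * 3 → ∀ x : JZero p,
        π (heckeOperatorBar p ℓ x) = heckeOperatorBar (p * 3) ℓ (π x)) ∧
      (∀ x : JZero p, π x = 0 → (3 + 1) • x = 0) ∧
      ∀ (A : ValuationSubring Qb), A.LiesOverPrime 2 → ∀ (w : JZero p) (n : ℕ), n ≠ 0 →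
        n • w = 0 → reductionModL A (p * 3) (π w) = 0 → ∃ a : ℕ, 2 ^ a • w = 0 := by
  obtain ⟨π, hG, hT, hker⟩ := hL
  exact ⟨π, hG, hT, hker, fun A hA w n hn hw hred =>
    torsion_two p hp hp5 A hA π hker w n hn hw hred⟩

/-- **At `3`, in the shape of main's `LevelPullback`.** -/
theorem torsion_three' (p : ℕ) [NeZero p] [NeZero (p * 2)] (hp : p.Prime) (hp5 : 5 ≤ p)
    (hL : Fermat.Agent.ESJ.LevelPullback p (p * 2) (2 + 1)) :
    ∃ π : JZero p →+ JZero (p * 2),
      (∀ (σ : Fermat.Agent.ESJ.GQ) (x : JZero p), π (σ • x) = σ • π x) ∧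
      (∀ ℓ : Nat.Primes, ¬ (ℓ : ℕ) ∣ p * 2 → ∀ x : JZero p,
        π (heckeOperatorBar p ℓ x) = heckeOperatorBar (p * 2) ℓ (π x)) ∧
      (∀ x : JZero p, π x = 0 → (2 + 1) • x = 0) ∧
      ∀ (A : ValuationSubring Qb), A.LiesOverPrime 3 → ∀ (w : JZero p) (n : ℕ), n ≠ 0 →
        n • w = 0 → reductionModL A (p * 2) (π w) = 0 → ∃ a : ℕ, 3 ^ a • w = 0 := by
  obtain ⟨π, hG, hT, hker⟩ := hL
  exact ⟨π, hG, hT, hker, fun A hA w n hn hw hred =>
    torsion_three p hp hp5 A hA π hker w n hn hw hred⟩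

end Fermat.Agent.S15P.Tors23_5
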