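/-
S15, layer L6 → L8 seam (helper68): the group `V` of `Desc40.exists_poly_two / exists_poly_odd`
at the real place.

`Γ` acts on `J`, `c ∈ Γ` an involution, `G ≤ J` a subgroup, `M = J^Γ`,
`Zdiv Γ r M G = {z | r z ∈ M, γ z - z ∈ G}`, and `F` a `Γ`-equivariant endomorphism of `J` which
is the identity on `G` (a Hecke projector).  For a division point `z` the value `c z - z` of the
Kummer cocycle at `c` lies in

* `r = 2`  : `Vgrp c F 2 4 = {u | 2 u = 0 ∧ ∃ t, 4 t = 0 ∧ u = c (F t) - F t}`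
             (`(c - 1) X_2 ∩ J[2]`; needs one halving `z = 2 z'`);
* `r` odd  : `Vgrp c F r r = {u | r u = 0 ∧ ∃ t, r t = 0 ∧ u = c (F t) - F t}` (`(c - 1) X_1`).

`exists_V_two`, `exists_V_odd` package this with the count of L6 into the binders
`V`, `Finite V`, `hV` of `Desc40` together with `Nat.card V ≤ r ^ d`.

Mathlib + `S15P/MainCount40` (for `Zdiv`) only.
-/
import Mathlib
import Fermat.Agent.S15P.MainCount40

set_option autoImplicit false

namespace Fermat.Agent.S15P.VSeam68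

open Fermat.Agent.S15P.MainCount40

universe u v

/-- **(R5'')** for an involution `c` of an abelian group, a `c`-fixed `y`, `r z = y`
(`r` prime) and one more division `r z' = z`: the Kummer value `c z - z` is `c t - t` for an
`r ^ 2`-torsion point `t`. -/
theorem kummer_conj_mem_prime {J : Type*} [AddCommGroup J] (c : J →+ J) (hc : ∀ x, c (c x) = x)
    (r : ℕ) (hr : r.Prime) (y z z' : J) (hy : c y = y) (hz : r • z = y) (hz' : r • z' = z) :
    ∃ t : J, r ^ 2 • t = 0 ∧ c z - z = c t - t := by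
  obtain rfl | hodd := hr.eq_two_or_odd'
  · refine ⟨z - (z' + c z'), ?_, ?_⟩
    · have e1 : 4 • z' = y := by
        rw [← hz, ← hz']
        module
      have e2 : 4 • c z' = y := by
        rw [← map_nsmul, e1, hy]
      have e3 : 4 • z = 2 • y := by
        rw [← hz]
        module
      have e4 : (2 : ℕ) ^ 2 = 4 := by norm_num
      rw [e4]
      linear_combination (norm := module) e3 - e1 - e2
    · simp only [map_sub, map_add, hc]
      abel
  · obtain ⟨k, rfl⟩ := hodd
    have hu : (2 * k + 1) • (c z - z) = 0 := by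
      rw [smul_sub, ← map_nsmul, hz, hy, sub_self]
    refine ⟨-((k + 1) • (c z - z)), ?_, ?_⟩
    · have e : (2 * k + 1) ^ 2 • -((k + 1) • (c z - z))
          = -(((2 * k + 1) * (k + 1)) • ((2 * k + 1) • (c z - z))) := by
        module
      rw [e, hu, smul_zero, neg_zero]
    · simp only [map_neg, map_nsmul, map_sub, hc]
      have e : -((k + 1) • (z - c z)) - -((k + 1) • (c z - z))
          = (2 * k + 1) • (c z - z) + (c z - z) := by
        module
      rw [e, hu, zero_add]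

variable {Γ : Type u} {J : Type v} [Group Γ] [AddCommGroup J] [DistribMulAction Γ J]

/-- `{u | a u = 0 ∧ ∃ t, b t = 0 ∧ u = c (E t) - E t}`: the `a`-torsion of `(c - 1) E J[b]`. -/
def Vgrp (c : Γ) (E : Module.End ℤ J) (a b : ℕ) : AddSubgroup J where
  carrier := {u | a • u = 0 ∧ ∃ t : J, b • t = 0 ∧ u = c • E t - E t}
  zero_mem' := ⟨smul_zero _, 0, smul_zero _, by simp⟩
  add_mem' := by
    rintro u w ⟨hu, t, ht, rfl⟩ ⟨hw, s, hs, rfl⟩
    refine ⟨by rw [smul_add, hu, hw, add_zero], t + s, by rw [smul_add, ht, hs, add_zero], ?_⟩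
    rw [map_add, smul_add]
    abel
  neg_mem' := by
    rintro u ⟨hu, t, ht, rfl⟩
    refine ⟨by rw [smul_neg, hu, neg_zero], -t, by rw [smul_neg, ht, neg_zero], ?_⟩
    rw [map_neg, smul_neg]
    abel

theorem mem_Vgrp {c : Γ} {E : Module.End ℤ J} {a b : ℕ} {u : J} :
    u ∈ Vgrp c E a b ↔ a • u = 0 ∧ ∃ t : J, b • t = 0 ∧ u = c • E t - E t := Iff.rfl

/-- The group `Vgrp` is finite as soon as `J[b]` is. -/
theorem finite_Vgrp (c : Γ) (E : Module.End ℤ J) (a b : ℕ) (hfin : {t : J | b • t = 0}.Finite) :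
    Finite (Vgrp c E a b) := by
  have hsub : ((Vgrp c E a b : AddSubgroup J) : Set J)
      ⊆ (fun t : J => c • E t - E t) '' {t : J | b • t = 0} := by
    rintro u ⟨-, t, ht, rfl⟩
    exact ⟨t, ht, rfl⟩
  exact ((hfin.image _).subset hsub).to_subtype

theorem card_Vgrp (c : Γ) (E : Module.End ℤ J) (a b : ℕ) :
    Nat.card (Vgrp c E a b)
      = Nat.card {u : J // a • u = 0 ∧ ∃ t : J, b • t = 0 ∧ u = c • E t - E t} := rfl

/-- Without the torsion clause the set can only be bigger. -/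
theorem card_Vgrp_le (c : Γ) (E : Module.End ℤ J) (a b : ℕ)
    (hfin : {t : J | b • t = 0}.Finite) :
    Nat.card (Vgrp c E a b) ≤ Nat.card {u : J // ∃ t : J, b • t = 0 ∧ u = c • E t - E t} := by
  have hfin' : Finite {u : J // ∃ t : J, b • t = 0 ∧ u = c • E t - E t} := by
    have hsub : {u : J | ∃ t : J, b • t = 0 ∧ u = c • E t - E t}
        ⊆ (fun t : J => c • E t - E t) '' {t : J | b • t = 0} := by
      rintro u ⟨t, ht, rfl⟩
      exact ⟨t, ht, rfl⟩
    exact ((hfin.image _).subset hsub).to_subtype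
  exact Nat.card_le_card_of_injective
    (fun u : Vgrp c E a b => (⟨u.1, u.2.2⟩ : {u : J // ∃ t : J, b • t = 0 ∧ u = c • E t - E t}))
    (fun u w h => Subtype.ext (by simpa using congrArg Subtype.val h))

section Mem

variable (c : Γ) (hc : c * c = 1) (F : Module.End ℤ J)
  (hFΓ : ∀ (γ : Γ) (x : J), F (γ • x) = γ • F x)
  (M : AddSubgroup J) (hM : ∀ x : J, x ∈ M ↔ ∀ γ : Γ, γ • x = x) (G : AddSubgroup J)
  (hFG : ∀ g ∈ G, F g = g)

include hc hFΓ hM hFG in
/-- `r = 2`: the Kummer value at `c` of a division point lies in `(c - 1) F J[4] ∩ J[2]`, for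
every `Γ`-equivariant endomorphism `F` which is the identity on `G`. -/
theorem conj_sub_mem_two {z : J} (hz : z ∈ Zdiv Γ 2 M G) (z' : J) (hz' : 2 • z' = z) :
    c • z - z ∈ Vgrp c F 2 4 := by
  have hcc : ∀ x : J,
      (DistribSMul.toAddMonoidHom J c) ((DistribSMul.toAddMonoidHom J c) x) = x := by
    intro x
    show c • c • x = x
    rw [smul_smul, hc, one_smul]
  have hy : (DistribSMul.toAddMonoidHom J c) (2 • z) = 2 • z := (hM _).1 hz.1 c
  obtain ⟨t, ht, htz⟩ := kummer_conj_mem_prime (DistribSMul.toAddMonoidHom J c) hcc 2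
    Nat.prime_two (2 • z) z z' hy rfl hz'
  have htz' : c • z - z = c • t - t := htz
  have hFu : F (c • z - z) = c • z - z := hFG _ (hz.2 c)
  refine ⟨?_, t, by simpa using ht, ?_⟩
  · have h2 : 2 • (c • z - z) = (DistribSMul.toAddMonoidHom J c) (2 • z) - 2 • z := by
      rw [map_nsmul, smul_sub]
      rfl
    rw [h2, hy, sub_self]
  · rw [← hFΓ, ← map_sub, ← htz', hFu]

include hc hFΓ hM hFG in
/-- `r` odd: the Kummer value at `c` of a division point lies in `(c - 1) F J[r]`, for every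
`Γ`-equivariant endomorphism `F` which is the identity on `G`. -/
theorem conj_sub_mem_odd (r : ℕ) (hr : Odd r) {z : J} (hz : z ∈ Zdiv Γ r M G) :
    c • z - z ∈ Vgrp c F r r := by
  obtain ⟨k, rfl⟩ := hr
  have hy : c • ((2 * k + 1) • z) = (2 * k + 1) • z := (hM _).1 hz.1 c
  have hcn : ∀ (n : ℕ) (x : J), c • (n • x) = n • (c • x) := fun n x =>
    map_nsmul (DistribSMul.toAddMonoidHom J c) n x
  have hu : (2 * k + 1) • (c • z - z) = 0 := by
    rw [smul_sub, ← hcn, hy, sub_self]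
  have hcu : c • (c • z - z) = -(c • z - z) := by
    rw [smul_sub, smul_smul, hc, one_smul]
    abel
  have hFu : F (c • z - z) = c • z - z := hFG _ (hz.2 c)
  refine ⟨hu, -((k + 1) • (c • z - z)), ?_, ?_⟩
  · rw [smul_neg, smul_comm, hu, smul_zero, neg_zero]
  · have h1 : c • -((k + 1) • (c • z - z)) - -((k + 1) • (c • z - z))
        = (2 * k + 1) • (c • z - z) + (c • z - z) := by
      rw [smul_neg, hcn, hcu]
      generalize c • z - z = u
      module
    rw [← hFΓ, ← map_sub, h1, hu, zero_add, hFu]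

end Mem

/-- An endomorphism idempotent on `J[r]` is the identity on `G = E J[r]`. -/
theorem eq_self_of_mem {J : Type v} [AddCommGroup J] (r : ℕ) (E : Module.End ℤ J)
    (hidem : ∀ x : J, r • x = 0 → E (E x) = E x)
    (G : AddSubgroup J) (hG : ∀ g : J, g ∈ G ↔ ∃ x : J, r • x = 0 ∧ g = E x) :
    ∀ g ∈ G, E g = g := by
  intro g hg
  obtain ⟨x, hx, rfl⟩ := (hG g).1 hg
  exact hidem x hx

/-- **L6 → L8 seam, `r = 2`**: the group `V` of `Desc40.exists_poly_two`.  `F` is any
`Γ`-equivariant endomorphism which is the identity on `G` (in the application: the Hecke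
projector of level `4`, which agrees on `J[2]` with the projector `E` of level `2`), `hL6` is
the count of L6 for `F`. -/
theorem exists_V_two (c : Γ) (hc : c * c = 1) (F : Module.End ℤ J)
    (hFΓ : ∀ (γ : Γ) (x : J), F (γ • x) = γ • F x)
    (M : AddSubgroup J) (hM : ∀ x : J, x ∈ M ↔ ∀ γ : Γ, γ • x = x)
    (G : AddSubgroup J) (hFG : ∀ g ∈ G, F g = g)
    (hdivZ : ∀ z ∈ Zdiv Γ 2 M G, ∃ z' : J, 2 • z' = z)
    (hfin : {t : J | 4 • t = 0}.Finite) (d : ℕ)
    (hL6 : Nat.card {u : J // 2 • u = 0 ∧ ∃ t : J, 4 • t = 0 ∧ u = c • F t - F t} ≤ 2 ^ d) :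
    ∃ V : AddSubgroup J, Finite V ∧ (∀ z ∈ Zdiv Γ 2 M G, c • z - z ∈ V) ∧ Nat.card V ≤ 2 ^ d := by
  refine ⟨Vgrp c F 2 4, finite_Vgrp c F 2 4 hfin, fun z hz => ?_, hL6⟩
  obtain ⟨z', hz'⟩ := hdivZ z hz
  exact conj_sub_mem_two c hc F hFΓ M hM G hFG hz z' hz'

/-- **L6 → L8 seam, `r` odd**: the group `V` of `Desc40.exists_poly_odd`; `hL6` is the count of
L6 at level `r` for `F` (in the application `F = E`, the Hecke projector of level `r`). -/
theorem exists_V_odd (r : ℕ) (hr : Odd r) (c : Γ) (hc : c * c = 1) (F : Module.End ℤ J)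
    (hFΓ : ∀ (γ : Γ) (x : J), F (γ • x) = γ • F x)
    (M : AddSubgroup J) (hM : ∀ x : J, x ∈ M ↔ ∀ γ : Γ, γ • x = x)
    (G : AddSubgroup J) (hFG : ∀ g ∈ G, F g = g)
    (hfin : {t : J | r • t = 0}.Finite) (d : ℕ)
    (hL6 : Nat.card {u : J // ∃ t : J, r • t = 0 ∧ u = c • F t - F t} ≤ r ^ d) :
    ∃ V : AddSubgroup J, Finite V ∧ (∀ z ∈ Zdiv Γ r M G, c • z - z ∈ V) ∧ Nat.card V ≤ r ^ d := by
  refine ⟨Vgrp c F r r, finite_Vgrp c F r r hfin, fun z hz => ?_,
    (card_Vgrp_le c F r r hfin).trans hL6⟩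
  exact conj_sub_mem_odd c hc F hFΓ M hM G hFG r hr hz

end Fermat.Agent.S15P.VSeam68
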